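/-
M16 (S16 project: the index of the Eisenstein ideal of level `p`), top-level definitions.

`S16` is reduced (file `Top.lean`) to two statements about cusp forms with integral `q`-expansion:

* `m16_UBF` (upper bound): a cusp form of weight 2 on `Γ₀(p)` with integral `q`-coefficients which
  is congruent modulo `m` to the Eisenstein `q`-series `∑ σ'(k) q ^ k` forces
  `m ∣ eisensteinNumerator p`;
* `m16_LBF` (lower bound): such a cusp form exists for `m = eisensteinNumerator p`.

Here `σ'(k) = m16_sigma p k` is the sum of the divisors of `k` that are prime to `p`.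
-/
import Mathlib
import Fermat.Prelude.Def_CuspForm_HeckeLocal
import Fermat.Prelude.Def_CuspForm_HeckeEvalForms
import Fermat.Prelude.Def_HeckeGalois_EichlerShimura
import Fermat.Prelude.Def_ModularCurve_ModularUnit

set_option autoImplicit false

namespace Fermat.Agent.M16

/-- `σ'(k)`: the sum of the divisors of `k` which are not divisible by `p`
(`= 0` for `k = 0`). -/
def m16_sigma (p k : ℕ) : ℕ := ∑ d ∈ k.divisors with ¬ p ∣ d, d

/-- the cusp form `f` has integral `q`-coefficients -/
def m16_IsInt {p : ℕ} (f : CuspForm (CongruenceSubgroup.Gamma0 p) 2) : Prop :=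
  ∀ k : ℕ, ∃ a : ℤ, ModularFormClass.qCoeff f k = (a : ℂ)

/-- the cusp form `f` is congruent to the Eisenstein `q`-series modulo `m`:
for every `k ≥ 1` there is an integer `c` with `a_k(f) = σ'(k) + m * c`. -/
def m16_IsEisCong {p : ℕ} (f : CuspForm (CongruenceSubgroup.Gamma0 p) 2) (m : ℕ) : Prop :=
  ∀ k : ℕ, 1 ≤ k → ∃ c : ℤ,
    ModularFormClass.qCoeff f k = ((m16_sigma p k : ℤ) : ℂ) + ((m : ℤ) : ℂ) * (c : ℂ)

/-- **(UBF)** the upper bound, in terms of forms -/
def m16_UBF : Prop :=
  ∀ (p : ℕ) [Fact p.Prime] (f : CuspForm (CongruenceSubgroup.Gamma0 p) 2) (m : ℕ),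
    m16_IsEisCong f m → m ∣ ModularCurve.eisensteinNumerator p

/-- **(LBF)** the lower bound, in terms of forms -/
def m16_LBF : Prop :=
  ∀ (p : ℕ) [Fact p.Prime], ∃ f : CuspForm (CongruenceSubgroup.Gamma0 p) 2,
    m16_IsEisCong f (ModularCurve.eisensteinNumerator p)

end Fermat.Agent.M16
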