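/-
M16 (S16 project), package EIS, part 1: the Eisenstein series of weight 2 on `Γ₀(p)`.

`m16eis_E p : ModularForm (Γ₀(p)) 2` is the function `(p E₂(p z) - E₂(z)) / 24`, i.e.
`(24)⁻¹ • (E₂ ∣[2] diag(p, 1) - E₂)` in Mathlib's normalisation of the slash action.

* slash invariance under `Γ₀(p)`: from Mathlib's `E2_slash_action` (quasi-modularity of `E₂`);
* holomorphy: `E2_mdifferentiable`;
* boundedness at all cusps: `E₂ ∣ γ` is bounded at `i∞` for every `γ ∈ SL₂(ℤ)`, and the rational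
  cusps are stable under `GL₂(ℚ)`.

The `q`-expansion is computed in `EisQExp.lean`.
-/
import Fermat.Agent.M16.TopDefs

open UpperHalfPlane EisensteinSeries ModularForm Matrix.SpecialLinearGroup
open scoped MatrixGroups ModularForm Manifold

namespace Fermat.Agent.M16

noncomputable section

theorem m16eis_mapGL_apply (g : SL(2, ℤ)) (i j : Fin 2) :
    (mapGL ℝ g : GL (Fin 2) ℝ) i j = ((g i j : ℤ) : ℝ) := by
  simp

/-- the companion matrix: for `γ = [[a, b], [p e, d]]`, `γ' = [[a, p b], [e, d]]` -/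
def m16eis_conj (p : ℕ) (γ : SL(2, ℤ)) (e : ℤ) (he : γ 1 0 = p * e) : SL(2, ℤ) :=
  ⟨!![γ 0 0, p * γ 0 1; e, γ 1 1], by
    have hdet := γ.det_coe
    rw [Matrix.det_fin_two] at hdet
    rw [Matrix.det_fin_two_of]
    linear_combination hdet + (γ 0 1) * he⟩

theorem m16eis_conj_val (p : ℕ) (γ : SL(2, ℤ)) (e : ℤ) (he : γ 1 0 = p * e) :
    (m16eis_conj p γ e he : Matrix (Fin 2) (Fin 2) ℤ) = !![γ 0 0, p * γ 0 1; e, γ 1 1] := rfl

theorem m16eis_conj_mul (p : ℕ) (hp : p ≠ 0) (γ : SL(2, ℤ)) (e : ℤ) (he : γ 1 0 = p * e) :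
    heckeDiagMatrix p * mapGL ℝ γ = mapGL ℝ (m16eis_conj p γ e he) * heckeDiagMatrix p := by
  ext i j
  fin_cases i <;> fin_cases j <;>
    simp [hp, Matrix.mul_apply, Fin.sum_univ_two, m16eis_conj_val]
  all_goals first
    | (have := congrArg (Int.cast : ℤ → ℝ) he; push_cast at this ⊢; linear_combination this)
    | (have := congrArg (Int.cast : ℤ → ℝ) he; push_cast at this ⊢; linear_combination -this)
    | ring1

/-- `D₂` of the companion matrix, slashed by `diag(p, 1)`, is `D₂ γ` -/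
theorem m16eis_D2_slash (p : ℕ) (hp : p ≠ 0) (γ : SL(2, ℤ)) (e : ℤ) (he : γ 1 0 = p * e) :
    (D2 (m16eis_conj p γ e he)) ∣[(2 : ℤ)] heckeDiagMatrix p = D2 γ := by
  funext τ
  rw [slash_heckeDiagMatrix_apply 2 hp]
  simp only [D2, denom, m16eis_conj_val]
  rw [coe_heckeDiagMatrix_smul hp]
  simp [he, m16eis_conj_val]
  ring

/-- `D₂ γ` is bounded at `i∞` -/
theorem m16eis_D2_bdd (γ : SL(2, ℤ)) : IsBoundedAtImInfty (D2 γ) := by
  rw [UpperHalfPlane.isBoundedAtImInfty_iff]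
  refine ⟨2 * Real.pi, 1, fun z hz => ?_⟩
  rcases eq_or_ne (γ 1 0) 0 with h0 | h0
  · simp [D2, h0]
    positivity
  · have hc : (0 : ℝ) < |((γ 1 0 : ℤ) : ℝ)| := by
      rw [abs_pos]; exact_mod_cast h0
    have him : |((γ 1 0 : ℤ) : ℝ)| ≤ ‖denom γ z‖ := by
      have h1 : (denom γ z).im = ((γ 1 0 : ℤ) : ℝ) * z.im := by
        simp [denom]
      calc |((γ 1 0 : ℤ) : ℝ)| ≤ |((γ 1 0 : ℤ) : ℝ)| * z.im := by nlinarith
        _ = |(denom γ z).im| := by rw [h1, abs_mul, abs_of_pos z.im_pos]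
        _ ≤ ‖denom γ z‖ := Complex.abs_im_le_norm _
    have hd : (0 : ℝ) < ‖denom γ z‖ := lt_of_lt_of_le hc him
    simp only [D2, norm_div, norm_mul, Complex.norm_ofNat, Complex.norm_real, Complex.norm_I,
      mul_one, Complex.norm_intCast, Real.norm_eq_abs, abs_of_pos Real.pi_pos]
    rw [div_le_iff₀ hd]
    have : (0:ℝ) ≤ 2 * Real.pi := by positivity
    nlinarith

/-- `E₂ ∣ γ` is bounded at `i∞` for every `γ ∈ SL₂(ℤ)` -/
theorem m16eis_E2_slash_bdd (γ : SL(2, ℤ)) : IsBoundedAtImInfty (E2 ∣[(2 : ℤ)] γ) := by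
  rw [E2_slash_action]
  exact isBoundedAtImInfty_E2.sub ((m16eis_D2_bdd γ).const_smul_left _)

/-- `E₂` is bounded at all cusps of `SL₂(ℤ)` -/
theorem m16eis_E2_bdd_cusp {c : OnePoint ℝ} (hc : IsCusp c 𝒮ℒ) : c.IsBoundedAt E2 2 :=
  (OnePoint.isBoundedAt_iff_forall_SL2Z hc).mpr (fun γ _ => m16eis_E2_slash_bdd γ)

/-- `E₂ ∣ diag(p, 1)` is bounded at all cusps of `SL₂(ℤ)` -/
theorem m16eis_E2_diag_bdd_cusp (p : ℕ) {c : OnePoint ℝ} (hc : IsCusp c 𝒮ℒ) :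
    c.IsBoundedAt (E2 ∣[(2 : ℤ)] heckeDiagMatrix p) 2 := by
  obtain ⟨g, hg⟩ :=
    P2MW.S_ModularFormClass_isBoundedAt_heckeT.ModularForm.S06W2.exists_heckeDiagMatrix_eq_map p
  rw [hg]
  refine OnePoint.IsBoundedAt.smul_iff.mp (m16eis_E2_bdd_cusp ?_)
  exact P2MW.S_ModularFormClass_isBoundedAt_heckeT.ModularForm.S06W2.isCusp_ratCast_smul
    (Γ := 𝒮ℒ) hc g

/-- the function `(p E₂(p z) - E₂(z)) / 24` -/
def m16eis_fun (p : ℕ) : ℍ → ℂ :=
  (24 : ℂ)⁻¹ • (E2 ∣[(2 : ℤ)] heckeDiagMatrix p - E2)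

theorem m16eis_fun_apply (p : ℕ) (hp : p ≠ 0) (τ : ℍ) :
    m16eis_fun p τ = ((p : ℂ) * E2 (heckeDiagMatrix p • τ) - E2 τ) / 24 := by
  simp only [m16eis_fun, Pi.smul_apply, Pi.sub_apply, slash_heckeDiagMatrix_apply 2 hp, smul_eq_mul]
  norm_num
  ring

/-- slash invariance of `E₂ ∣ diag(p, 1) - E₂` under `Γ₀(p)` -/
theorem m16eis_slash (p : ℕ) (hp : p ≠ 0) (γ : SL(2, ℤ)) (hγ : γ ∈ CongruenceSubgroup.Gamma0 p) :
    (E2 ∣[(2 : ℤ)] heckeDiagMatrix p - E2) ∣[(2 : ℤ)] (mapGL ℝ γ) =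
      E2 ∣[(2 : ℤ)] heckeDiagMatrix p - E2 := by
  have hdvd : (p : ℤ) ∣ γ 1 0 := by
    rw [CongruenceSubgroup.Gamma0_mem] at hγ
    exact (ZMod.intCast_zmod_eq_zero_iff_dvd _ _).mp hγ
  obtain ⟨e, he⟩ := hdvd
  have h1 : (E2 ∣[(2 : ℤ)] heckeDiagMatrix p) ∣[(2 : ℤ)] (mapGL ℝ γ) =
      E2 ∣[(2 : ℤ)] heckeDiagMatrix p - (1 / (2 * riemannZeta 2)) • D2 γ := by
    rw [← SlashAction.slash_mul, m16eis_conj_mul p hp γ e he, SlashAction.slash_mul]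
    have h2 : E2 ∣[(2 : ℤ)] (mapGL ℝ (m16eis_conj p γ e he)) =
        E2 - (1 / (2 * riemannZeta 2)) • D2 (m16eis_conj p γ e he) :=
      E2_slash_action _
    rw [h2, sub_eq_add_neg, SlashAction.add_slash, SlashAction.neg_slash, ← sub_eq_add_neg]
    congr 1
    rw [ModularForm.smul_slash, σ_heckeDiagMatrix, m16eis_D2_slash p hp γ e he]
    rfl
  have h3 : E2 ∣[(2 : ℤ)] (mapGL ℝ γ) = E2 - (1 / (2 * riemannZeta 2)) • D2 γ :=
    E2_slash_action γ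
  rw [sub_eq_add_neg, SlashAction.add_slash, SlashAction.neg_slash, h1, h3]
  abel

theorem m16eis_E2_diag_mdiff (p : ℕ) : MDiff (E2 ∣[(2 : ℤ)] heckeDiagMatrix p) := by
  have h1 := mdifferentiable_heckeT E2_mdifferentiable 2 p
  have h2 := mdifferentiable_heckeU E2_mdifferentiable 2 p
  have h3 : E2 ∣[(2 : ℤ)] heckeDiagMatrix p = heckeT 2 p E2 - heckeU 2 p E2 := by
    rw [heckeT_eq_heckeU_add]; abel
  rw [h3]
  exact h1.sub h2

/-- **The Eisenstein series of weight 2 and level `Γ₀(p)`**: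
`E(z) = (p E₂(p z) - E₂(z)) / 24 = (p - 1) / 24 + ∑ σ'(n) qⁿ`. -/
def m16eis_E (p : ℕ) [NeZero p] : ModularForm (CongruenceSubgroup.Gamma0 p) 2 where
  toFun := m16eis_fun p
  slash_action_eq' := by
    intro γ hγ
    obtain ⟨g, hg, rfl⟩ := Subgroup.mem_map.mp hγ
    have h1 : ((24 : ℂ)⁻¹ • (E2 ∣[(2 : ℤ)] heckeDiagMatrix p - E2)) ∣[(2 : ℤ)] (mapGL ℝ g) =
        (24 : ℂ)⁻¹ • ((E2 ∣[(2 : ℤ)] heckeDiagMatrix p - E2) ∣[(2 : ℤ)] (mapGL ℝ g)) :=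
      ModularForm.SL_smul_slash 2 g _ _
    rw [m16eis_slash p (NeZero.ne p) g hg] at h1
    exact h1
  holo' := by
    show MDiff (m16eis_fun p)
    exact ((m16eis_E2_diag_mdiff p).sub E2_mdifferentiable).const_smul _
  bdd_at_cusps' := by
    intro c hc
    have hc' : IsCusp c 𝒮ℒ := (Subgroup.IsArithmetic.isCusp_iff_isCusp_SL2Z _).mp hc
    show c.IsBoundedAt (m16eis_fun p) 2
    intro g hg
    have h1 := m16eis_E2_diag_bdd_cusp p hc' g hg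
    have h2 := m16eis_E2_bdd_cusp hc' g hg
    have h3 : (m16eis_fun p) ∣[(2 : ℤ)] g =
        (UpperHalfPlane.σ g (24 : ℂ)⁻¹) • ((E2 ∣[(2 : ℤ)] heckeDiagMatrix p) ∣[(2 : ℤ)] g
          - E2 ∣[(2 : ℤ)] g) := by
      rw [m16eis_fun, ModularForm.smul_slash, sub_eq_add_neg, SlashAction.add_slash,
        SlashAction.neg_slash, ← sub_eq_add_neg]
    rw [h3]
    exact (h1.sub h2).const_smul_left _

theorem m16eis_E_coe (p : ℕ) [NeZero p] : ⇑(m16eis_E p) = m16eis_fun p := rfl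

theorem m16eis_E_apply (p : ℕ) [NeZero p] (τ : ℍ) :
    m16eis_E p τ = ((p : ℂ) * E2 (heckeDiagMatrix p • τ) - E2 τ) / 24 :=
  m16eis_fun_apply p (NeZero.ne p) τ

end

end Fermat.Agent.M16
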