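/-
M16 (S16 project), package EIS, part 2: the `q`-expansion of the Eisenstein series `m16eis_E p`:
`E = (p - 1) / 24 + ∑_{n ≥ 1} σ'(n) qⁿ`, `σ'(n) = m16_sigma p n` the sum of the divisors of `n`
prime to `p` (for ANY `p ≠ 0`: the sum of the divisors not divisible by `p`).
-/
import Fermat.Agent.M16.EisDefs

open UpperHalfPlane EisensteinSeries ModularForm Matrix.SpecialLinearGroup
open scoped MatrixGroups ModularForm Manifold ArithmeticFunction.sigma

namespace Fermat.Agent.M16

noncomputable section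

/-- `σ(n) = σ'(n) + p σ(n / p) [p ∣ n]` -/
theorem m16eis_sigma_add (p : ℕ) (hp : p ≠ 0) (n : ℕ) :
    m16_sigma p n + (if p ∣ n then p * ArithmeticFunction.sigma 1 (n / p) else 0) =
      ArithmeticFunction.sigma 1 n := by
  rcases eq_or_ne n 0 with rfl | hn
  · simp [m16_sigma]
  simp only [ArithmeticFunction.sigma_one_apply, m16_sigma]
  have hsplit : ∑ d ∈ n.divisors, d =
      ∑ d ∈ n.divisors with ¬ p ∣ d, d + ∑ d ∈ n.divisors with p ∣ d, d := by
    rw [add_comm]
    exact (Finset.sum_filter_add_sum_filter_not _ _ _).symm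
  rw [hsplit]
  congr 1
  split_ifs with h
  · obtain ⟨m, rfl⟩ := h
    have hm : m ≠ 0 := by
      rintro rfl; simp at hn
    rw [Nat.mul_div_cancel_left _ (Nat.pos_of_ne_zero hp), Finset.mul_sum]
    refine Finset.sum_nbij' (fun d => p * d) (fun d => d / p) ?_ ?_ ?_ ?_ ?_
    · intro d hd
      simp only [Nat.mem_divisors, Finset.mem_filter] at hd ⊢
      exact ⟨⟨Nat.mul_dvd_mul_left p hd.1, hn⟩, dvd_mul_right _ _⟩
    · intro d hd
      simp only [Nat.mem_divisors, Finset.mem_filter] at hd ⊢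
      obtain ⟨⟨h1, _⟩, ⟨e, rfl⟩⟩ := hd
      rw [Nat.mul_div_cancel_left _ (Nat.pos_of_ne_zero hp)]
      exact ⟨(Nat.mul_dvd_mul_iff_left (Nat.pos_of_ne_zero hp)).mp h1, hm⟩
    · intro d _
      exact Nat.mul_div_cancel_left _ (Nat.pos_of_ne_zero hp)
    · intro d hd
      simp only [Nat.mem_divisors, Finset.mem_filter] at hd
      exact Nat.mul_div_cancel' hd.2
    · intro d _
      rfl
  · symm
    apply Finset.sum_eq_zero
    intro d hd
    simp only [Nat.mem_divisors, Finset.mem_filter] at hd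
    exact absurd (hd.2.trans hd.1.1) h

/-- the `q`-coefficients of `E` -/
def m16eis_coeff (p : ℕ) (n : ℕ) : ℂ :=
  if n = 0 then ((p : ℂ) - 1) / 24 else (m16_sigma p n : ℂ)

theorem m16eis_hasSum (p : ℕ) [NeZero p] (τ : ℍ) :
    HasSum (fun m : ℕ => m16eis_coeff p m • Function.Periodic.qParam 1 τ ^ m) (m16eis_E p τ) := by
  have hp : p ≠ 0 := NeZero.ne p
  set q : ℂ := Complex.exp (2 * Real.pi * Complex.I * τ) with hq
  set a : ℕ → ℂ := fun m => if m = 0 then 1 else -24 * (ArithmeticFunction.sigma 1 m : ℂ) with ha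
  have h1 : HasSum (fun m => a m • q ^ m) (E2 τ) := hasSum_qExpansion_E2 (z := τ)
  have h2 : HasSum (fun m => a m • q ^ (p * m)) (E2 (heckeDiagMatrix p • τ)) := by
    have := hasSum_qExpansion_E2 (z := heckeDiagMatrix p • τ)
    rw [coe_heckeDiagMatrix_smul hp] at this
    have hqq : Complex.exp (2 * Real.pi * Complex.I * ((p : ℂ) * τ)) = q ^ p := by
      rw [hq, ← Complex.exp_nat_mul]; congr 1; ring
    rw [hqq] at this
    simpa only [pow_mul] using this
  have h2' : HasSum (fun n => (if p ∣ n then a (n / p) else 0) • q ^ n)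
      (E2 (heckeDiagMatrix p • τ)) := by
    have hinj : Function.Injective (fun m : ℕ => p * m) :=
      fun x y h => Nat.eq_of_mul_eq_mul_left (Nat.pos_of_ne_zero hp) h
    rw [← hinj.hasSum_iff]
    · convert h2 using 2 with m
      simp [Function.comp, Nat.mul_div_cancel_left _ (Nat.pos_of_ne_zero hp)]
    · intro n hn
      have : ¬ p ∣ n := by
        rintro ⟨m, rfl⟩
        exact hn ⟨m, rfl⟩
      simp [this]
  have h3 := ((h2'.mul_left (p : ℂ)).sub h1).div_const 24
  rw [m16eis_E_apply]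
  have hq1 : Function.Periodic.qParam 1 τ = q := by
    simp [Function.Periodic.qParam, hq]
  rw [hq1]
  have key : ∀ n : ℕ, m16eis_coeff p n • q ^ n =
      ((p : ℂ) * ((if p ∣ n then a (n / p) else 0) • q ^ n) - a n • q ^ n) / 24 := by
    intro n
    have hs := m16eis_sigma_add p hp n
    have hs' : ((m16_sigma p n : ℕ) : ℂ) +
        (if p ∣ n then (p : ℂ) * (ArithmeticFunction.sigma 1 (n / p) : ℂ) else 0)
        = (ArithmeticFunction.sigma 1 n : ℂ) := by
      rw [← hs]; push_cast; split_ifs <;> simp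
    rcases eq_or_ne n 0 with rfl | hn
    · simp [m16eis_coeff, ha]
    · simp only [m16eis_coeff, hn, if_false, ha, smul_eq_mul]
      by_cases hpn : p ∣ n
      · have hnp : n / p ≠ 0 := by
          obtain ⟨m, rfl⟩ := hpn
          rw [Nat.mul_div_cancel_left _ (Nat.pos_of_ne_zero hp)]
          rintro rfl; simp at hn
        simp only [hpn, if_true, hnp, if_false] at hs' ⊢
        rw [← hs']
        ring
      · simp only [hpn, if_false, add_zero] at hs' ⊢
        rw [← hs']
        ring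
  rw [funext key]
  exact h3

theorem m16eis_qCoeff (p : ℕ) [NeZero p] (n : ℕ) :
    ModularFormClass.qCoeff (m16eis_E p) n = m16eis_coeff p n :=
  (ModularFormClass.qExpansion_coeff_unique one_pos
    (CongruenceSubgroup.one_mem_strictPeriods_Gamma0 p) (m16eis_hasSum p) n).symm

/-- the constant term of `E` is `(p - 1) / 24` -/
theorem m16eis_qCoeff_zero (p : ℕ) [NeZero p] :
    ModularFormClass.qCoeff (m16eis_E p) 0 = ((p : ℂ) - 1) / 24 := by
  rw [m16eis_qCoeff]; simp [m16eis_coeff]

/-- the `n`-th coefficient of `E` is `σ'(n)` for `n ≥ 1` -/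
theorem m16eis_qCoeff_pos (p : ℕ) [NeZero p] (n : ℕ) (hn : 1 ≤ n) :
    ModularFormClass.qCoeff (m16eis_E p) n = (m16_sigma p n : ℂ) := by
  rw [m16eis_qCoeff]
  have : n ≠ 0 := by omega
  simp [m16eis_coeff, this]

end

end Fermat.Agent.M16
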