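/-
M16 (S16 project), package NRM (norm to level one + level-one Sturm/Miller modulo `ℓ`):
definitions of the function-level interface.

* `m16nrm_wp p z`     : the Fricke point `-1 / (p z)` of the upper half plane;
* `m16nrm_Good p k F` : `F : ℍ → ℂ` is holomorphic, invariant of weight `k` under `Γ₀(p)` and
                        bounded at `i∞`;
* `m16nrm_IsFricke p k c F Fs` : `Fs z = c * z ^ (-k) * F (-1 / (p z))` for all `z`;
* `m16nrm_IsLInt ℓ x`   : `x ∈ ℤ_(ℓ)` (a rational number with denominator prime to `ℓ`);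
* `m16nrm_IsLDiv ℓ e x` : `x ∈ ℓ ^ e ℤ_(ℓ)`.
-/
import Mathlib
import Fermat.Prelude.Def_ModularForm_HeckeOperator
import Fermat.Prelude.Def_FLTPrelim_Modularity

set_option autoImplicit false

noncomputable section

namespace Fermat.Agent.M16

open UpperHalfPlane CongruenceSubgroup
open scoped MatrixGroups ModularForm Manifold

/-- the Fricke point `-1 / (p z)` -/
def m16nrm_wp (p : ℕ) [NeZero p] (z : ℍ) : ℍ :=
  ⟨-1 / ((p : ℂ) * (z : ℂ)), by
    have hp : (0 : ℝ) < p := Nat.cast_pos.mpr (Nat.pos_of_ne_zero (NeZero.ne p))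
    have hz : 0 < (z : ℂ).im := z.im_pos
    have hne : ((p : ℂ) * (z : ℂ)) ≠ 0 :=
      mul_ne_zero (by exact_mod_cast (NeZero.ne p)) (ne_zero z)
    rw [neg_div, Complex.neg_im, one_div, Complex.inv_im, neg_div, neg_neg]
    apply div_pos
    · simpa using mul_pos hp hz
    · exact Complex.normSq_pos.mpr hne⟩

theorem m16nrm_coe_wp (p : ℕ) [NeZero p] (z : ℍ) :
    ((m16nrm_wp p z : ℍ) : ℂ) = -1 / ((p : ℂ) * (z : ℂ)) := rfl

/-- `F` is holomorphic on `ℍ`, invariant of weight `k` under `Γ₀(p)` and bounded at `i∞`. -/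
structure m16nrm_Good (p : ℕ) (k : ℤ) (F : ℍ → ℂ) : Prop where
  mdiff : MDiff F
  slash : ∀ γ : SL(2, ℤ), γ ∈ Gamma0 p → F ∣[k] γ = F
  bdd : IsBoundedAtImInfty F

/-- the function-level Fricke relation of weight `k` with constant `c`:
`Fs z = c * z ^ (-k) * F (-1 / (p z))`. -/
def m16nrm_IsFricke (p : ℕ) [NeZero p] (k : ℤ) (c : ℂ) (F Fs : ℍ → ℂ) : Prop :=
  ∀ z : ℍ, Fs z = c * (z : ℂ) ^ (-k) * F (m16nrm_wp p z)

/-- `x` is a rational number whose denominator is prime to `ℓ`. -/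
def m16nrm_IsLInt (ℓ : ℕ) (x : ℂ) : Prop :=
  ∃ (a : ℤ) (b : ℕ), ¬ ℓ ∣ b ∧ x * (b : ℂ) = (a : ℂ)

/-- `x ∈ ℓ ^ e ℤ_(ℓ)`. -/
def m16nrm_IsLDiv (ℓ e : ℕ) (x : ℂ) : Prop :=
  ∃ (a : ℤ) (b : ℕ), ¬ ℓ ∣ b ∧ x * (b : ℂ) = (ℓ : ℂ) ^ e * (a : ℂ)

end Fermat.Agent.M16
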