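/-
M16 (S16 project), package NRM, part 1: the conjugation identities (C1), (C2), (C3) for a pair
of functions `(F, Fs)` on `Γ₀(p)` related by the Fricke involution, in pointwise form.

* `m16nrm_good_of_form` : a modular form on `Γ₀(p)` is `m16nrm_Good`;
* `m16nrm_apply_of_mem` : pointwise invariance under an explicit matrix of `Γ₀(p)`;
* `m16nrm_C1` : `F (-1/z) = c⁻¹ (z/p)^k Fs (z/p)`;
* `m16nrm_C2` : `Fs (-1/(p z)) = c (p z)^k F z`;
* `m16nrm_C3` : `Fs ((j z - 1)/(p z)) = z^k Fs ((z + j')/p)` if `p ∣ j j' + 1`.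
-/
import Fermat.Agent.M16.NrmDefs
import Fermat.Agent.S23.Conj
import Fermat.Prelude.Thm_CongruenceSubgroup_one_mem_strictPeriods_Gamma0

set_option autoImplicit false

noncomputable section

namespace Fermat.Agent.M16

open UpperHalfPlane CongruenceSubgroup ModularFormClass Fermat.Agent.S23
open scoped MatrixGroups ModularForm Manifold

/-- a modular form on `Γ₀(p)` is `m16nrm_Good` -/
theorem m16nrm_good_of_form (p : ℕ) (k : ℤ) {F : Type*} [FunLike F ℍ ℂ]
    [ModularFormClass F (Gamma0 p : Subgroup (GL (Fin 2) ℝ)) k] (f : F) :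
    m16nrm_Good p k (f : ℍ → ℂ) := by
  have : Fact (IsCusp OnePoint.infty (Gamma0 p : Subgroup (GL (Fin 2) ℝ))) :=
    ⟨Subgroup.isCusp_of_mem_strictPeriods one_pos
      (CongruenceSubgroup.one_mem_strictPeriods_Gamma0 p)⟩
  refine ⟨ModularFormClass.holo f, fun γ hγ => ?_, ModularFormClass.bdd_at_infty f⟩
  rw [ModularForm.SL_slash]
  exact SlashInvariantFormClass.slash_action_eq f _ ⟨γ, hγ, rfl⟩

/-- pointwise invariance under the matrix `[[a, b], [c, d]] ∈ Γ₀(p)` -/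
theorem m16nrm_apply_of_mem {p : ℕ} {k : ℤ} {F : ℍ → ℂ} (hF : m16nrm_Good p k F)
    (a b c d : ℤ) (hdet : a * d - b * c = 1) (hc : (p : ℤ) ∣ c) (z w : ℍ)
    (hw : (w : ℂ) * ((c : ℂ) * z + d) = (a : ℂ) * z + b) :
    F w = ((c : ℂ) * z + d) ^ k * F z := by
  let γ : SL(2, ℤ) := ⟨!![a, b; c, d], by rw [Matrix.det_fin_two_of]; exact hdet⟩
  have hγ : γ ∈ Gamma0 p := by
    rw [Gamma0_mem]
    show ((c : ℤ) : ZMod p) = 0
    exact (ZMod.intCast_zmod_eq_zero_iff_dvd c p).mpr hc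
  have h1 := (cj_slash_eq_iff F k γ).mp (hF.slash γ hγ) z
  have hden : cj_denom γ z = (c : ℂ) * z + d := by
    simp [cj_denom, denom, γ]
  have hne : (c : ℂ) * z + d ≠ 0 := by
    rw [← hden]; exact cj_denom_ne_zero γ z
  have hpt : γ • z = w := by
    apply UpperHalfPlane.ext
    rw [UpperHalfPlane.specialLinearGroup_apply]
    simp only [γ, algebraMap_int_eq, Int.coe_castRingHom, Matrix.of_apply, Matrix.cons_val',
      Matrix.cons_val_zero, Matrix.cons_val_one, Matrix.cons_val_fin_one]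
    rw [div_eq_iff (by simpa using hne)]
    simpa using hw.symm
  rw [hpt, hden] at h1
  exact h1

/-- a `Good` function is `1`-periodic -/
theorem m16nrm_periodic {p : ℕ} {k : ℤ} {F : ℍ → ℂ} (hF : m16nrm_Good p k F) (z : ℍ) :
    F ((1 : ℝ) +ᵥ z) = F z := by
  have h := m16nrm_apply_of_mem hF 1 1 0 1 (by norm_num) (dvd_zero _) z ((1 : ℝ) +ᵥ z)
    (by simp [UpperHalfPlane.coe_vadd]; ring)
  simpa using h

/-- a `Good` function is periodic with respect to integer translations -/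
theorem m16nrm_periodic_int {p : ℕ} {k : ℤ} {F : ℍ → ℂ} (hF : m16nrm_Good p k F) (n : ℤ) (z : ℍ) :
    F ((n : ℝ) +ᵥ z) = F z := by
  have h := m16nrm_apply_of_mem hF 1 n 0 1 (by norm_num) (dvd_zero _) z ((n : ℝ) +ᵥ z)
    (by simp [UpperHalfPlane.coe_vadd]; ring)
  simpa using h

theorem m16nrm_good_mem_qr {p : ℕ} {k : ℤ} {F : ℍ → ℂ} (hF : m16nrm_Good p k F) :
    F ∈ qr_ring :=
  ⟨hF.mdiff, m16nrm_periodic hF, hF.bdd⟩

end Fermat.Agent.M16

namespace Fermat.Agent.M16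

open UpperHalfPlane CongruenceSubgroup ModularFormClass Fermat.Agent.S23
open scoped MatrixGroups ModularForm Manifold

section conj

variable {p : ℕ} [NeZero p] {k : ℤ} {c : ℂ} {F Fs : ℍ → ℂ}

theorem m16nrm_p_ne_zero (p : ℕ) [NeZero p] : (p : ℂ) ≠ 0 := by
  exact_mod_cast NeZero.ne p

/-- `z ↦ -1/(p z)` is an involution -/
theorem m16nrm_wp_wp (z : ℍ) : m16nrm_wp p (m16nrm_wp p z) = z := by
  apply UpperHalfPlane.ext
  rw [m16nrm_coe_wp, m16nrm_coe_wp]
  have hp := m16nrm_p_ne_zero p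
  have hz := ne_zero z
  field_simp

/-- **(C2)** `Fs (-1/(p z)) = c (p z)^k F z` -/
theorem m16nrm_C2 (hk : Even k) (hF : m16nrm_IsFricke p k c F Fs) (z : ℍ) :
    Fs (m16nrm_wp p z) = c * ((p : ℂ) * z) ^ k * F z := by
  have hp := m16nrm_p_ne_zero p
  have hz := ne_zero z
  rw [hF (m16nrm_wp p z), m16nrm_wp_wp, m16nrm_coe_wp]
  congr 2
  rw [zpow_neg, ← inv_zpow, neg_div, inv_neg, one_div, inv_inv, hk.neg_zpow]

/-- the point `z / p` has Fricke image `-1/z = S • z` -/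
theorem m16nrm_wp_heckeMatrix_zero (z : ℍ) :
    m16nrm_wp p (ModularForm.heckeMatrix p 0 • z) = ModularGroup.S • z := by
  apply UpperHalfPlane.ext
  rw [m16nrm_coe_wp, ModularForm.coe_heckeMatrix_smul (NeZero.ne p), modular_S_smul]
  have hp := m16nrm_p_ne_zero p
  have hz := ne_zero z
  simp only [Nat.cast_zero, add_zero]
  field_simp

/-- **(C1)** `F (-1/z) = c⁻¹ (z/p)^k Fs (z/p)` -/
theorem m16nrm_C1 (hc : c ≠ 0) (hF : m16nrm_IsFricke p k c F Fs) (z : ℍ) :
    F (ModularGroup.S • z) =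
      c⁻¹ * ((z : ℂ) / p) ^ k * Fs (ModularForm.heckeMatrix p 0 • z) := by
  have hp := m16nrm_p_ne_zero p
  have hz := ne_zero z
  have hzp : (z : ℂ) / p ≠ 0 := div_ne_zero hz hp
  rw [hF (ModularForm.heckeMatrix p 0 • z), m16nrm_wp_heckeMatrix_zero,
    ModularForm.coe_heckeMatrix_smul (NeZero.ne p)]
  simp only [Nat.cast_zero, add_zero]
  rw [zpow_neg]
  field_simp

/-- **(C3)** `Fs ((j z - 1)/(p z)) = z^k Fs ((z + j')/p)` if `p ∣ j j' + 1` -/
theorem m16nrm_C3 (hFs : m16nrm_Good p k Fs) (j j' : ℕ) (h : p ∣ j * j' + 1) (z : ℍ) :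
    Fs (ModularForm.heckeMatrix p j • (ModularGroup.S • z)) =
      (z : ℂ) ^ k * Fs (ModularForm.heckeMatrix p j' • z) := by
  have hp := m16nrm_p_ne_zero p
  have hz := ne_zero z
  obtain ⟨m, hm⟩ := h
  have hm' : ((j : ℂ) * j' + 1) = p * m := by exact_mod_cast congrArg (Nat.cast (R := ℂ)) hm
  have h1 := m16nrm_apply_of_mem hFs (j : ℤ) (-(m : ℤ)) (p : ℤ) (-(j' : ℤ))
    (by
      have : ((j : ℤ) * j' + 1) = p * m := by exact_mod_cast hm
      linear_combination -this)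
    (dvd_refl _) (ModularForm.heckeMatrix p j' • z)
    (ModularForm.heckeMatrix p j • (ModularGroup.S • z))
    (by
      rw [ModularForm.coe_heckeMatrix_smul (NeZero.ne p), ModularForm.coe_heckeMatrix_smul
        (NeZero.ne p), modular_S_smul]
      push_cast
      field_simp
      linear_combination (-(z : ℂ)) * hm')
  rw [h1, ModularForm.coe_heckeMatrix_smul (NeZero.ne p)]
  congr 2
  push_cast
  field_simp
  ring

end conj

end Fermat.Agent.M16
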