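/-
M16 (S16 project), UPPER BOUND side: interface definitions (architect: helper7).

The trace arguments of the upper bound are phrased through the predicate `m16_Pair p k a b`:

  "there are functions `G`, `Gs` on the upper half plane, both holomorphic, invariant of weight
   `k` under `Γ₀(p)` and bounded at `i∞` (`m16nrm_Good`), with
   `Gs z = z ^ (-k) * G (-1 / (p z))` (the un-normalised Fricke transform `G#`, `m16nrm_IsFricke`
   with constant `1`), whose `q`-expansions at `∞` are `a` resp. `b`".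

Dictionary: for a level-one form `F` of weight `k`: `F# = p ^ k F(p z)`, `(F(p ·))# = F`;
for the Eisenstein series `E` and for cusp forms `f` of weight 2: `E# = - p E`, `f# = - p U_p f`;
`Tr G = G + p ^ (1 - k) U_p (G#)`.

The analytic packages (EIS, FRK) prove the interface statement `m16_FrkAPI p`; the arithmetic
leaf UBA and the assembly `UbMain` use it together with formal power series.
-/
import Mathlib
import Fermat.Agent.M16.TopDefs
import Fermat.Agent.M16.NrmDefs

set_option autoImplicit false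

noncomputable section

namespace Fermat.Agent.M16

open UpperHalfPlane ModularFormClass
open scoped MatrixGroups

/-- `U_p` on power series: `(U_p a)_n = a_{p n}`. -/
def m16_U {R : Type*} [Semiring R] (p : ℕ) (a : PowerSeries R) : PowerSeries R :=
  PowerSeries.mk fun n => PowerSeries.coeff (p * n) a

/-- `V_p` on power series: `q ↦ q ^ p`, i.e. `(V_p a)_n = a_{n/p}` if `p ∣ n` and `0` otherwise. -/
def m16_V {R : Type*} [Semiring R] (p : ℕ) (a : PowerSeries R) : PowerSeries R :=
  PowerSeries.mk fun n => if p ∣ n then PowerSeries.coeff (n / p) a else 0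

/-- coefficientwise cast `ℤ⟦q⟧ → ℂ⟦q⟧` -/
def m16_toC (a : PowerSeries ℤ) : PowerSeries ℂ := PowerSeries.map (Int.castRingHom ℂ) a

/-- `m16_Pair p k a b`: some `G` of weight `k` on `Γ₀(p)` has `q`-expansion `a` at `∞`, and its
un-normalised Fricke transform `G#(z) = z ^ (-k) G(-1/(p z))` has `q`-expansion `b`. -/
def m16_Pair (p : ℕ) [NeZero p] (k : ℤ) (a b : PowerSeries ℂ) : Prop :=
  ∃ G Gs : ℍ → ℂ, m16nrm_Good p k G ∧ m16nrm_Good p k Gs ∧ m16nrm_IsFricke p k 1 G Gs ∧
    qExpansion 1 G = a ∧ qExpansion 1 Gs = b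

/-- `24 E = (p - 1) + 24 ∑_{k ≥ 1} σ'(k) q ^ k` as an integral power series. -/
def m16_eis24 (p : ℕ) : PowerSeries ℤ :=
  PowerSeries.mk fun k => if k = 0 then (p : ℤ) - 1 else 24 * (m16_sigma p k : ℤ)

/-- `E = (p - 1)/24 + ∑_{k ≥ 1} σ'(k) q ^ k` as a complex power series. -/
def m16_eisC (p : ℕ) : PowerSeries ℂ :=
  PowerSeries.mk fun k => if k = 0 then ((p : ℂ) - 1) / 24 else (m16_sigma p k : ℂ)

/-- **Interface of the packages EIS + FRK** needed by the upper bound. -/
structure m16_FrkAPI (p : ℕ) [NeZero p] : Prop where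
  /-- a level-one form `F`: `F#(z) = p ^ k F(p z)` -/
  lev1 : ∀ (k : ℤ) (F : ModularForm 𝒮ℒ k),
    m16_Pair p k (qExpansion 1 (F : ℍ → ℂ)) (((p : ℂ) ^ k) • m16_V p (qExpansion 1 (F : ℍ → ℂ)))
  /-- `F(p z)` for a level-one form `F`: its Fricke transform is `F` -/
  lev1' : ∀ (k : ℤ) (F : ModularForm 𝒮ℒ k),
    m16_Pair p k (m16_V p (qExpansion 1 (F : ℍ → ℂ))) (qExpansion 1 (F : ℍ → ℂ))
  /-- the trace to level one: `Tr G = G + p ^ (1 - k) U_p (G#)` -/
  trace : ∀ (k : ℤ) (a b : PowerSeries ℂ), m16_Pair p k a b →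
    ∃ T : ModularForm 𝒮ℒ k, qExpansion 1 (T : ℍ → ℂ) = a + ((p : ℂ) ^ (1 - k)) • m16_U p b
  /-- weight-2 cusp forms: `f# = - p U_p f` -/
  cusp : ∀ f : CuspForm (CongruenceSubgroup.Gamma0 p) 2,
    m16_Pair p 2 (qExpansion 1 (f : ℍ → ℂ)) ((-(p : ℂ)) • m16_U p (qExpansion 1 (f : ℍ → ℂ)))
  /-- the Eisenstein series `E` of weight 2 on `Γ₀(p)`: `E# = - p E` -/
  eis : m16_Pair p 2 (m16_eisC p) ((-(p : ℂ)) • m16_eisC p)

end Fermat.Agent.M16

end
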