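/-
M16 (S16 project), package UBA (helper7): closure properties of `m16_Pair`
(sums, scalar multiples, products), proved from the function-level predicates of `NrmDefs`.
-/
import Mathlib
import Fermat.Agent.M16.UbaDefs
import Fermat.Agent.M16.NrmConj

set_option autoImplicit false

noncomputable section

namespace Fermat.Agent.M16

open UpperHalfPlane CongruenceSubgroup ModularFormClass Fermat.Agent.S23
open scoped MatrixGroups ModularForm Manifold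

variable {p : ℕ} {k k₁ k₂ : ℤ}

theorem m16uba_good_add {F G : ℍ → ℂ} (hF : m16nrm_Good p k F) (hG : m16nrm_Good p k G) :
    m16nrm_Good p k (F + G) :=
  ⟨hF.mdiff.add hG.mdiff, fun γ hγ => by
    rw [SlashAction.add_slash, hF.slash γ hγ, hG.slash γ hγ], hF.bdd.add hG.bdd⟩

theorem m16uba_good_smul (c : ℂ) {F : ℍ → ℂ} (hF : m16nrm_Good p k F) :
    m16nrm_Good p k (c • F) :=
  ⟨hF.mdiff.const_smul c, fun γ hγ => by
    rw [ModularForm.SL_smul_slash, hF.slash γ hγ], hF.bdd.const_smul_left c⟩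

theorem m16uba_good_mul {F G : ℍ → ℂ} (hF : m16nrm_Good p k₁ F) (hG : m16nrm_Good p k₂ G) :
    m16nrm_Good p (k₁ + k₂) (F * G) :=
  ⟨hF.mdiff.mul hG.mdiff, fun γ hγ => by
    rw [ModularForm.mul_slash_SL2, hF.slash γ hγ, hG.slash γ hγ], hF.bdd.mul hG.bdd⟩

variable [NeZero p]

theorem m16uba_fricke_add {c : ℂ} {F Fs G Gs : ℍ → ℂ} (hF : m16nrm_IsFricke p k c F Fs)
    (hG : m16nrm_IsFricke p k c G Gs) : m16nrm_IsFricke p k c (F + G) (Fs + Gs) := by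
  intro z
  simp only [Pi.add_apply, hF z, hG z]
  ring

theorem m16uba_fricke_smul {c : ℂ} (a : ℂ) {F Fs : ℍ → ℂ} (hF : m16nrm_IsFricke p k c F Fs) :
    m16nrm_IsFricke p k c (a • F) (a • Fs) := by
  intro z
  simp only [Pi.smul_apply, smul_eq_mul, hF z]
  ring

theorem m16uba_fricke_mul {F Fs G Gs : ℍ → ℂ} (hF : m16nrm_IsFricke p k₁ 1 F Fs)
    (hG : m16nrm_IsFricke p k₂ 1 G Gs) : m16nrm_IsFricke p (k₁ + k₂) 1 (F * G) (Fs * Gs) := by
  intro z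
  simp only [Pi.mul_apply, hF z, hG z, neg_add, zpow_add₀ (ne_zero z)]
  ring

/-- sums of pairs -/
theorem m16uba_pair_add {a₁ b₁ a₂ b₂ : PowerSeries ℂ} (h₁ : m16_Pair p k a₁ b₁)
    (h₂ : m16_Pair p k a₂ b₂) : m16_Pair p k (a₁ + a₂) (b₁ + b₂) := by
  obtain ⟨F, Fs, hF, hFs, hfr, rfl, rfl⟩ := h₁
  obtain ⟨G, Gs, hG, hGs, hgr, rfl, rfl⟩ := h₂
  refine ⟨F + G, Fs + Gs, m16uba_good_add hF hG, m16uba_good_add hFs hGs,
    m16uba_fricke_add hfr hgr, ?_, ?_⟩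
  · exact qr_qExpansion_add (m16nrm_good_mem_qr hF) (m16nrm_good_mem_qr hG)
  · exact qr_qExpansion_add (m16nrm_good_mem_qr hFs) (m16nrm_good_mem_qr hGs)

/-- scalar multiples of pairs -/
theorem m16uba_pair_smul (c : ℂ) {a b : PowerSeries ℂ} (h : m16_Pair p k a b) :
    m16_Pair p k (c • a) (c • b) := by
  obtain ⟨F, Fs, hF, hFs, hfr, rfl, rfl⟩ := h
  refine ⟨c • F, c • Fs, m16uba_good_smul c hF, m16uba_good_smul c hFs,
    m16uba_fricke_smul c hfr, ?_, ?_⟩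
  · exact qr_qExpansion_smul c (m16nrm_good_mem_qr hF)
  · exact qr_qExpansion_smul c (m16nrm_good_mem_qr hFs)

/-- differences of pairs -/
theorem m16uba_pair_sub {a₁ b₁ a₂ b₂ : PowerSeries ℂ} (h₁ : m16_Pair p k a₁ b₁)
    (h₂ : m16_Pair p k a₂ b₂) : m16_Pair p k (a₁ - a₂) (b₁ - b₂) := by
  have h := m16uba_pair_add h₁ (m16uba_pair_smul (-1) h₂)
  simpa [sub_eq_add_neg] using h

/-- products of pairs -/
theorem m16uba_pair_mul {a₁ b₁ a₂ b₂ : PowerSeries ℂ} (h₁ : m16_Pair p k₁ a₁ b₁)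
    (h₂ : m16_Pair p k₂ a₂ b₂) : m16_Pair p (k₁ + k₂) (a₁ * a₂) (b₁ * b₂) := by
  obtain ⟨F, Fs, hF, hFs, hfr, rfl, rfl⟩ := h₁
  obtain ⟨G, Gs, hG, hGs, hgr, rfl, rfl⟩ := h₂
  refine ⟨F * G, Fs * Gs, m16uba_good_mul hF hG, m16uba_good_mul hFs hGs,
    m16uba_fricke_mul hfr hgr, ?_, ?_⟩
  · exact qr_qExpansion_mul (m16nrm_good_mem_qr hF) (m16nrm_good_mem_qr hG)
  · exact qr_qExpansion_mul (m16nrm_good_mem_qr hFs) (m16nrm_good_mem_qr hGs)

/-- a pair with the weight rewritten -/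
theorem m16uba_pair_cast {k k' : ℤ} (h : k = k') {a b : PowerSeries ℂ} (hp : m16_Pair p k a b) :
    m16_Pair p k' a b := h ▸ hp

end Fermat.Agent.M16

end
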