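/-
M16 (S16 project), package EIS, part 3: the Fricke relation of the Eisenstein series and the
field `eis` of the interface `m16_FrkAPI` (UbaDefs.lean).

* `m16eis_E2_S`   : `E₂(-1/z) = z² E₂(z) - (1 / (2 ζ(2))) 2 π i z`;
* `m16eis_E_wp`   : `E(-1/(p z)) = - p z² E(z)`;
* `m16eis_qExpansion` : the `q`-expansion of `E` is `m16_eisC p`;
* `m16eis_pair`   : `m16_Pair p 2 (m16_eisC p) ((-p) • m16_eisC p)`.
-/
import Fermat.Agent.M16.EisQExp
import Fermat.Agent.M16.UbaDefs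
import Fermat.Agent.M16.UbaPair
import Fermat.Agent.M16.NrmConj

open UpperHalfPlane EisensteinSeries ModularForm Matrix.SpecialLinearGroup
open scoped MatrixGroups ModularForm Manifold

namespace Fermat.Agent.M16

noncomputable section


/-- `E₂(-1/z) = z² E₂(z) - (1 / (2 ζ(2))) 2 π i z` -/
theorem m16eis_E2_S (z : ℍ) :
    E2 (ModularGroup.S • z) = (z : ℂ) ^ 2 * E2 z - (1 / (2 * riemannZeta 2)) * (2 * Real.pi * Complex.I * z) := by
  have h := congrFun (E2_slash_action ModularGroup.S) z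
  rw [SlashInvariantForm.slash_S_apply E2 2 z, ← modular_S_smul] at h
  simp only [Pi.sub_apply, Pi.smul_apply, D2_S, smul_eq_mul] at h
  have hz : (z : ℂ) ≠ 0 := ne_zero z
  have hz2 : (z : ℂ) ^ (-(2:ℤ)) = ((z : ℂ) ^ 2)⁻¹ := by
    rw [zpow_neg]; norm_cast
  rw [hz2] at h
  generalize E2 (ModularGroup.S • z) = A at h ⊢
  have h' : A = (z : ℂ) ^ 2 * (E2 z - 1 / (2 * riemannZeta 2) * (2 * Real.pi * Complex.I / z)) := by
    rw [← h]; field_simp
  rw [h']
  field_simp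

/-- the point `diag(p, 1) • (-1/(p z))` is `S • z` -/
theorem m16eis_diag_wp (p : ℕ) [NeZero p] (z : ℍ) :
    heckeDiagMatrix p • (m16nrm_wp p z) = ModularGroup.S • z := by
  apply UpperHalfPlane.ext
  rw [coe_heckeDiagMatrix_smul (NeZero.ne p), m16nrm_coe_wp, modular_S_smul]
  have hp : (p : ℂ) ≠ 0 := by exact_mod_cast NeZero.ne p
  have hz : (z : ℂ) ≠ 0 := ne_zero z
  show _ = (-(z : ℂ))⁻¹
  field_simp

/-- the point `-1/(p z)` is `S • (diag(p, 1) • z)` -/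
theorem m16eis_wp_eq (p : ℕ) [NeZero p] (z : ℍ) :
    m16nrm_wp p z = ModularGroup.S • (heckeDiagMatrix p • z) := by
  apply UpperHalfPlane.ext
  rw [modular_S_smul, m16nrm_coe_wp]
  show _ = (-((heckeDiagMatrix p • z : ℍ) : ℂ))⁻¹
  rw [coe_heckeDiagMatrix_smul (NeZero.ne p)]
  have hp : (p : ℂ) ≠ 0 := by exact_mod_cast NeZero.ne p
  have hz : (z : ℂ) ≠ 0 := ne_zero z
  field_simp

/-- **the Fricke relation for `E`**: `E(-1/(p z)) = - p z² E(z)` -/
theorem m16eis_E_wp (p : ℕ) [NeZero p] (z : ℍ) :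
    m16eis_E p (m16nrm_wp p z) = -(p : ℂ) * (z : ℂ) ^ 2 * m16eis_E p z := by
  rw [m16eis_E_apply, m16eis_E_apply, m16eis_diag_wp, m16eis_E2_S]
  rw [m16eis_wp_eq, m16eis_E2_S, coe_heckeDiagMatrix_smul (NeZero.ne p)]
  ring

/-- the `q`-expansion of `E` is the formal series `m16_eisC p` -/
theorem m16eis_qExpansion (p : ℕ) [NeZero p] :
    qExpansion 1 (m16eis_E p : ℍ → ℂ) = m16_eisC p := by
  ext n
  have h := m16eis_qCoeff p n
  rw [ModularFormClass.qCoeff] at h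
  rw [h, m16_eisC, PowerSeries.coeff_mk, m16eis_coeff]

/-- **field `eis` of `m16_FrkAPI`**: the pair `(E, E#)` with `E# = - p E` -/
theorem m16eis_pair (p : ℕ) [NeZero p] :
    m16_Pair p 2 (m16_eisC p) ((-(p : ℂ)) • m16_eisC p) := by
  have hG : m16nrm_Good p 2 (m16eis_E p : ℍ → ℂ) := m16nrm_good_of_form p 2 (m16eis_E p)
  refine ⟨m16eis_E p, (-(p : ℂ)) • (m16eis_E p : ℍ → ℂ), hG, m16uba_good_smul _ hG, ?_,
    m16eis_qExpansion p, ?_⟩
  · intro z
    have hz : (z : ℂ) ≠ 0 := ne_zero z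
    rw [m16eis_E_wp]
    simp only [Pi.smul_apply, smul_eq_mul, one_mul]
    have hz2 : (z : ℂ) ^ (-(2:ℤ)) = ((z : ℂ) ^ 2)⁻¹ := by
      rw [zpow_neg]; norm_cast
    rw [hz2]
    field_simp
  · rw [Fermat.Agent.S23.qr_qExpansion_smul _ (m16nrm_good_mem_qr hG), m16eis_qExpansion]

end

end Fermat.Agent.M16
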