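/-
M16 (S16 project), package EIS, part 4: level-one forms as Fricke pairs on `Γ₀(p)`
(fields `lev1` and `lev1'` of the interface `m16_FrkAPI`, UbaDefs.lean).

For `F ∈ M_k(SL₂(ℤ))`:
* `F` and `z ↦ F(p z)` are `m16nrm_Good p k`;
* the un-normalised Fricke transform of `F` is `p ^ k F(p z)`, that of `F(p z)` is `F`;
* the `q`-expansion of `F(p z)` is `V_p` of the `q`-expansion of `F`.
-/
import Fermat.Agent.M16.EisPair

open UpperHalfPlane EisensteinSeries ModularForm Matrix.SpecialLinearGroup Fermat.Agent.S23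
open scoped MatrixGroups ModularForm Manifold

namespace Fermat.Agent.M16

noncomputable section

variable (p : ℕ) [NeZero p] {k : ℤ}

/-- the function `z ↦ F(p z)` -/
def m16eislev_V (F : ℍ → ℂ) : ℍ → ℂ := fun z => F (heckeDiagMatrix p • z)

theorem m16eislev_V_eq (k : ℤ) (F : ℍ → ℂ) :
    m16eislev_V p F = ((p : ℂ) ^ (1 - k)) • (F ∣[k] heckeDiagMatrix p) := by
  funext z
  have hp : (p : ℂ) ≠ 0 := by exact_mod_cast NeZero.ne p
  simp only [m16eislev_V, Pi.smul_apply, slash_heckeDiagMatrix_apply k (NeZero.ne p), smul_eq_mul]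
  rw [← mul_assoc, ← zpow_add₀ hp]
  simp

omit [NeZero p] in
/-- a level-one form is `Good` for `Γ₀(p)` -/
theorem m16eislev_good (F : ModularForm 𝒮ℒ k) : m16nrm_Good p k (F : ℍ → ℂ) := by
  refine ⟨ModularFormClass.holo F, fun γ _ => ?_, ModularFormClass.bdd_at_infty F⟩
  rw [ModularForm.SL_slash]
  exact SlashInvariantFormClass.slash_action_eq F _ ⟨γ, rfl⟩

/-- `F(p z)` is `Good` for `Γ₀(p)` -/
theorem m16eislev_good_V (F : ModularForm 𝒮ℒ k) : m16nrm_Good p k (m16eislev_V p (F : ℍ → ℂ)) := by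
  have hF := m16eislev_good p F
  rw [m16eislev_V_eq p k]
  refine ⟨?_, fun γ hγ => ?_, ?_⟩
  · have h1 := mdifferentiable_heckeT hF.mdiff k p
    have h2 := mdifferentiable_heckeU hF.mdiff k p
    have h3 : (F : ℍ → ℂ) ∣[k] heckeDiagMatrix p = heckeT k p F - heckeU k p F := by
      rw [heckeT_eq_heckeU_add]; abel
    rw [h3]
    exact (h1.sub h2).const_smul _
  · have hdvd : (p : ℤ) ∣ γ 1 0 := by
      rw [CongruenceSubgroup.Gamma0_mem] at hγ
      exact (ZMod.intCast_zmod_eq_zero_iff_dvd _ _).mp hγ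
    obtain ⟨e, he⟩ := hdvd
    rw [ModularForm.SL_smul_slash]
    congr 1
    have h1 : ((F : ℍ → ℂ) ∣[k] heckeDiagMatrix p) ∣[k] (mapGL ℝ γ) =
        (F : ℍ → ℂ) ∣[k] heckeDiagMatrix p := by
      rw [← SlashAction.slash_mul, m16eis_conj_mul p (NeZero.ne p) γ e he, SlashAction.slash_mul]
      congr 1
      exact SlashInvariantFormClass.slash_action_eq F _ ⟨_, rfl⟩
    exact h1
  · have hb : IsBoundedAtImInfty ((F : ℍ → ℂ) ∣[k] heckeDiagMatrix p) := by
      refine UpperHalfPlane.IsBoundedAtImInfty.slash k ?_ hF.bdd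
      simp [val_heckeDiagMatrix (NeZero.ne p)]
    exact hb.const_smul_left _

omit [NeZero p] in
/-- `F(-1/w) = w ^ k F(w)` for a level-one form -/
theorem m16eislev_S (F : ModularForm 𝒮ℒ k) (w : ℍ) :
    F (ModularGroup.S • w) = (w : ℂ) ^ k * F w := by
  have h1 : (F : ℍ → ℂ) ∣[k] ModularGroup.S = F := by
    rw [ModularForm.SL_slash]
    exact SlashInvariantFormClass.slash_action_eq F _ ⟨_, rfl⟩
  have h := congrFun h1 w
  rw [SlashInvariantForm.slash_S_apply, ← modular_S_smul] at h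
  have hw : (w : ℂ) ≠ 0 := ne_zero w
  rw [← h, mul_comm, mul_assoc, ← zpow_add₀ hw]
  simp

/-- the Fricke transform of a level-one form `F` is `p ^ k F(p z)` -/
theorem m16eislev_fricke (F : ModularForm 𝒮ℒ k) :
    m16nrm_IsFricke p k 1 (F : ℍ → ℂ) (((p : ℂ) ^ k) • m16eislev_V p (F : ℍ → ℂ)) := by
  intro z
  have hz : (z : ℂ) ≠ 0 := ne_zero z
  rw [m16eis_wp_eq, m16eislev_S, coe_heckeDiagMatrix_smul (NeZero.ne p)]
  simp only [Pi.smul_apply, m16eislev_V, smul_eq_mul, one_mul]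
  rw [mul_zpow, ← mul_assoc, ← mul_assoc]
  congr 1
  rw [mul_comm ((z : ℂ) ^ (-k)), mul_assoc, ← zpow_add₀ hz]
  simp

/-- the Fricke transform of `F(p z)` is `F` -/
theorem m16eislev_fricke' (F : ModularForm 𝒮ℒ k) :
    m16nrm_IsFricke p k 1 (m16eislev_V p (F : ℍ → ℂ)) (F : ℍ → ℂ) := by
  intro z
  have hz : (z : ℂ) ≠ 0 := ne_zero z
  simp only [m16eislev_V, one_mul]
  rw [m16eis_diag_wp, m16eislev_S, ← mul_assoc, ← zpow_add₀ hz]
  simp

omit [NeZero p] in
/-- uniqueness of `q`-expansion coefficients, for plain functions -/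
theorem m16eislev_coeff_unique {f : ℍ → ℂ} {c : ℕ → ℂ}
    (hfanalytic : AnalyticAt ℂ (cuspFunction 1 f) 0)
    (hf : ∀ τ : ℍ, HasSum (fun m ↦ c m • Function.Periodic.qParam 1 τ ^ m) (f τ)) (m : ℕ) :
    c m = (qExpansion 1 f).coeff m :=
  @UpperHalfPlane.qExpansion_coeff_unique (ℍ → ℂ) ⟨id, fun _ _ h => h⟩ 1 f c one_pos
    hfanalytic hf m

/-- the `q`-expansion of `F(p z)` is `V_p` of the `q`-expansion of `F` -/
theorem m16eislev_qExpansion_V {F : ℍ → ℂ} (hF : F ∈ qr_ring)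
    (hV : m16eislev_V p F ∈ qr_ring) :
    qExpansion 1 (m16eislev_V p F) = m16_V p (qExpansion 1 F) := by
  have hp : p ≠ 0 := NeZero.ne p
  ext n
  symm
  refine m16eislev_coeff_unique
    (c := fun n => PowerSeries.coeff n (m16_V p (qExpansion 1 F)))
    (qr_IsNice.analyticAt hV) (fun τ => ?_) n
  have h1 := qr_hasSum hF (heckeDiagMatrix p • τ)
  have hq : Function.Periodic.qParam 1 ((heckeDiagMatrix p • τ : ℍ) : ℂ) =
      Function.Periodic.qParam 1 (τ : ℂ) ^ p := by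
    rw [coe_heckeDiagMatrix_smul hp]
    simp only [Function.Periodic.qParam]
    rw [← Complex.exp_nat_mul]
    congr 1
    ring
  rw [hq] at h1
  have hinj : Function.Injective (fun m : ℕ => p * m) :=
    fun x y h => Nat.eq_of_mul_eq_mul_left (Nat.pos_of_ne_zero hp) h
  show HasSum _ (F (heckeDiagMatrix p • τ))
  rw [← hinj.hasSum_iff]
  · convert h1 using 2 with m
    simp [Function.comp, m16_V, Nat.mul_div_cancel_left _ (Nat.pos_of_ne_zero hp), pow_mul]
  · intro n hn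
    have : ¬ p ∣ n := by
      rintro ⟨m, rfl⟩
      exact hn ⟨m, rfl⟩
    simp [m16_V, this]

/-- **field `lev1` of `m16_FrkAPI`** -/
theorem m16eislev_lev1 (k : ℤ) (F : ModularForm 𝒮ℒ k) :
    m16_Pair p k (qExpansion 1 (F : ℍ → ℂ))
      (((p : ℂ) ^ k) • m16_V p (qExpansion 1 (F : ℍ → ℂ))) := by
  have hG := m16eislev_good p F
  have hV := m16eislev_good_V p F
  refine ⟨F, ((p : ℂ) ^ k) • m16eislev_V p (F : ℍ → ℂ), hG, m16uba_good_smul _ hV,
    m16eislev_fricke p F, rfl, ?_⟩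
  rw [qr_qExpansion_smul _ (m16nrm_good_mem_qr hV),
    m16eislev_qExpansion_V p (m16nrm_good_mem_qr hG) (m16nrm_good_mem_qr hV)]

/-- **field `lev1'` of `m16_FrkAPI`** -/
theorem m16eislev_lev1' (k : ℤ) (F : ModularForm 𝒮ℒ k) :
    m16_Pair p k (m16_V p (qExpansion 1 (F : ℍ → ℂ))) (qExpansion 1 (F : ℍ → ℂ)) := by
  have hG := m16eislev_good p F
  have hV := m16eislev_good_V p F
  exact ⟨m16eislev_V p (F : ℍ → ℂ), F, hV, hG, m16eislev_fricke' p F,
    m16eislev_qExpansion_V p (m16nrm_good_mem_qr hG) (m16nrm_good_mem_qr hV), rfl⟩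

end

end Fermat.Agent.M16
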