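/-
M16 (S16 project), package UBA (helper7): formal power series lemmas
(`U_p`, `V_p`, the cast `ℤ⟦q⟧ → ℂ⟦q⟧`, the Eisenstein series `m16_eis24`, `σ'`).
-/
import Mathlib
import Fermat.Agent.M16.UbaDefs

set_option autoImplicit false

noncomputable section

namespace Fermat.Agent.M16

open PowerSeries

section UV

variable {R : Type*} [CommRing R] (p : ℕ)

@[simp] theorem m16_U_coeff (a : PowerSeries R) (n : ℕ) :
    coeff n (m16_U p a) = coeff (p * n) a := by
  simp [m16_U]

@[simp] theorem m16_V_coeff (a : PowerSeries R) (n : ℕ) :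
    coeff n (m16_V p a) = if p ∣ n then coeff (n / p) a else 0 := by
  simp [m16_V]

theorem m16_V_coeff_mul (hp : 0 < p) (a : PowerSeries R) (n : ℕ) :
    coeff (p * n) (m16_V p a) = coeff n a := by
  simp [Nat.mul_div_cancel_left n hp]

theorem m16_V_coeff_of_not_dvd (a : PowerSeries R) {n : ℕ} (h : ¬ p ∣ n) :
    coeff n (m16_V p a) = 0 := by
  simp [h]

theorem m16_U_add (a b : PowerSeries R) : m16_U p (a + b) = m16_U p a + m16_U p b := by
  ext n; simp

theorem m16_U_sub (a b : PowerSeries R) : m16_U p (a - b) = m16_U p a - m16_U p b := by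
  ext n; simp

theorem m16_U_smul (c : R) (a : PowerSeries R) : m16_U p (c • a) = c • m16_U p a := by
  ext n; simp

theorem m16_U_zsmul (c : ℤ) (a : PowerSeries R) : m16_U p (c • a) = c • m16_U p a := by
  ext n
  rw [m16_U_coeff, map_zsmul, map_zsmul, m16_U_coeff]

theorem m16_U_C (hp : 0 < p) (c : R) : m16_U p (C c : PowerSeries R) = C c := by
  ext n
  rw [m16_U_coeff, coeff_C, coeff_C]
  have : p * n = 0 ↔ n = 0 := by
    constructor
    · intro h
      rcases Nat.mul_eq_zero.mp h with h | h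
      · omega
      · exact h
    · rintro rfl; simp
  simp [this]

theorem m16_U_V (hp : 0 < p) (a : PowerSeries R) : m16_U p (m16_V p a) = a := by
  ext n
  rw [m16_U_coeff, m16_V_coeff_mul p hp]

end UV

section toC

theorem m16_toC_coeff (a : PowerSeries ℤ) (n : ℕ) :
    coeff n (m16_toC a) = ((coeff n a : ℤ) : ℂ) := by
  simp [m16_toC]

theorem m16_toC_injective : Function.Injective m16_toC := by
  intro a b h
  ext n
  have := congrArg (coeff n) h
  simpa [m16_toC_coeff] using this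

theorem m16_toC_add (a b : PowerSeries ℤ) : m16_toC (a + b) = m16_toC a + m16_toC b :=
  map_add (PowerSeries.map (Int.castRingHom ℂ)) a b

theorem m16_toC_sub (a b : PowerSeries ℤ) : m16_toC (a - b) = m16_toC a - m16_toC b :=
  map_sub (PowerSeries.map (Int.castRingHom ℂ)) a b

theorem m16_toC_mul (a b : PowerSeries ℤ) : m16_toC (a * b) = m16_toC a * m16_toC b :=
  map_mul (PowerSeries.map (Int.castRingHom ℂ)) a b

theorem m16_toC_zsmul (c : ℤ) (a : PowerSeries ℤ) : m16_toC (c • a) = (c : ℂ) • m16_toC a := by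
  ext n
  rw [m16_toC_coeff, map_zsmul, coeff_smul, m16_toC_coeff]
  simp

theorem m16_toC_U (p : ℕ) (a : PowerSeries ℤ) : m16_toC (m16_U p a) = m16_U p (m16_toC a) := by
  ext n
  simp [m16_toC_coeff]

theorem m16_toC_V (p : ℕ) (a : PowerSeries ℤ) : m16_toC (m16_V p a) = m16_V p (m16_toC a) := by
  ext n
  rw [m16_toC_coeff, m16_V_coeff, m16_V_coeff]
  split_ifs
  · rw [m16_toC_coeff]
  · simp

end toC

section sigma

variable (p : ℕ)

theorem m16_sigma_zero : m16_sigma p 0 = 0 := by
  simp [m16_sigma]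

theorem m16_sigma_one (hp : 2 ≤ p) : m16_sigma p 1 = 1 := by
  have h : p ≠ 1 := by omega
  simp [m16_sigma, Finset.filter_singleton, h]

theorem m16_sigma_mul (hp : p.Prime) (n : ℕ) : m16_sigma p (p * n) = m16_sigma p n := by
  rcases Nat.eq_zero_or_pos n with rfl | hn
  · simp
  unfold m16_sigma
  apply Finset.sum_congr _ (fun _ _ => rfl)
  ext d
  simp only [Finset.mem_filter, Nat.mem_divisors]
  constructor
  · rintro ⟨⟨hd, _⟩, hpd⟩
    refine ⟨⟨?_, hn.ne'⟩, hpd⟩
    have hcop : Nat.Coprime d p := (Nat.Prime.coprime_iff_not_dvd hp).mpr hpd |>.symm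
    exact hcop.dvd_of_dvd_mul_left hd
  · rintro ⟨⟨hd, _⟩, hpd⟩
    exact ⟨⟨Dvd.dvd.mul_left hd p, mul_ne_zero hp.ne_zero hn.ne'⟩, hpd⟩

theorem m16_sigma_self (hp : p.Prime) : m16_sigma p p = 1 := by
  have := m16_sigma_mul p hp 1
  rw [mul_one] at this
  rw [this, m16_sigma_one p hp.two_le]

theorem m16_sigma_two (hp : p.Prime) (h2 : p ≠ 2) : m16_sigma p 2 = 3 := by
  have hd : Nat.divisors 2 = {1, 2} := by decide
  have h1 : ¬ p ∣ 1 := by
    intro h
    have := Nat.le_of_dvd one_pos h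
    have := hp.two_le
    omega
  have h2' : ¬ p ∣ 2 := by
    intro h
    have := (Nat.prime_dvd_prime_iff_eq hp Nat.prime_two).mp h
    exact h2 this
  simp [m16_sigma, hd, Finset.filter_insert, Finset.filter_singleton, h1, h2']

end sigma

section eis

variable (p : ℕ)

theorem m16_eis24_coeff_zero : coeff 0 (m16_eis24 p) = (p : ℤ) - 1 := by
  simp [m16_eis24]

theorem m16_eis24_coeff_of_pos {n : ℕ} (hn : 0 < n) :
    coeff n (m16_eis24 p) = 24 * (m16_sigma p n : ℤ) := by
  simp [m16_eis24, hn.ne']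

theorem m16_eis24_U (hp : p.Prime) : m16_U p (m16_eis24 p) = m16_eis24 p := by
  ext n
  rw [m16_U_coeff]
  rcases Nat.eq_zero_or_pos n with rfl | hn
  · simp
  · rw [m16_eis24_coeff_of_pos p (Nat.mul_pos hp.pos hn), m16_eis24_coeff_of_pos p hn,
      m16_sigma_mul p hp]

theorem m16_eisC_eq : (24 : ℂ) • m16_eisC p = m16_toC (m16_eis24 p) := by
  ext n
  rw [coeff_smul, m16_toC_coeff]
  rcases Nat.eq_zero_or_pos n with rfl | hn
  · simp [m16_eisC, m16_eis24]
    ring
  · simp [m16_eisC, m16_eis24, hn.ne']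

theorem m16_eisC_U (hp : p.Prime) : m16_U p (m16_eisC p) = m16_eisC p := by
  have h := congrArg (m16_U p) (m16_eisC_eq p)
  rw [← m16_toC_U, m16_eis24_U p hp, ← m16_eisC_eq, m16_U_smul] at h
  ext n
  have := congrArg (coeff n) h
  simp only [coeff_smul, smul_eq_mul] at this
  exact mul_left_cancel₀ (by norm_num : (24 : ℂ) ≠ 0) this

end eis

end Fermat.Agent.M16

end
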