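/-
M16 (S16 project), package EIS, part 5: the Fricke operator on `Γ₀(p)` and the field `cusp` of
the interface `m16_FrkAPI` (UbaDefs.lean), deduced from the field `trace`.

* `m16eisw_W p : GL (Fin 2) ℝ` the matrix `[[0, -1], [p, 0]]` (rational);
* `m16eisw_sharp p k f` : the un-normalised Fricke transform `f#(z) = z ^ (-k) f(-1/(p z))`,
  equal to `p • (f ∣[k] W)`;
* `m16eisw_good_sharp` : `f#` is `m16nrm_Good` for every modular form `f` on `Γ₀(p)`
  (`W` normalises `Γ₀(p)`; boundedness at `i∞` = boundedness of `f` at the cusp `0`);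
* `m16eisw_pair_of_trace` : in weight 2, `f# = - p U_p f` (the trace of the pair `(f#, p² f)` is a
  level-one form of weight 2, hence zero).
-/
import Fermat.Agent.M16.EisLev
import Fermat.Agent.M16.UbaSeries

open UpperHalfPlane EisensteinSeries ModularForm Matrix.SpecialLinearGroup Fermat.Agent.S23
open scoped MatrixGroups ModularForm Manifold

namespace Fermat.Agent.M16

noncomputable section

variable (p : ℕ) [NeZero p] {k : ℤ}

/-- the Fricke matrix `[[0, -1], [p, 0]]` over `ℚ` -/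
def m16eisw_Wq : GL (Fin 2) ℚ :=
  Matrix.GeneralLinearGroup.mkOfDetNeZero !![0, -1; (p : ℚ), 0] (by
    rw [Matrix.det_fin_two_of]
    have : (p : ℚ) ≠ 0 := by exact_mod_cast NeZero.ne p
    simpa using this)

/-- the Fricke matrix `[[0, -1], [p, 0]]` over `ℝ` -/
def m16eisw_W : GL (Fin 2) ℝ := Matrix.GeneralLinearGroup.map (Rat.castHom ℝ) (m16eisw_Wq p)

theorem m16eisw_W_val : ((m16eisw_W p : GL (Fin 2) ℝ) : Matrix (Fin 2) (Fin 2) ℝ) =
    !![0, -1; (p : ℝ), 0] := by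
  ext i j
  fin_cases i <;> fin_cases j <;>
    simp [m16eisw_W, m16eisw_Wq, Matrix.GeneralLinearGroup.mkOfDetNeZero]

theorem m16eisw_W_det : ((m16eisw_W p).det : ℝ) = p := by
  rw [Matrix.GeneralLinearGroup.val_det_apply, m16eisw_W_val, Matrix.det_fin_two_of]
  ring

theorem m16eisw_W_det_pos : 0 < ((m16eisw_W p).det : ℝ) := by
  rw [m16eisw_W_det]; exact_mod_cast Nat.pos_of_ne_zero (NeZero.ne p)

theorem m16eisw_W_denom (z : ℍ) : denom (m16eisw_W p) z = (p : ℂ) * z := by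
  simp [denom, m16eisw_W_val]

theorem m16eisw_W_smul (z : ℍ) : m16eisw_W p • z = m16nrm_wp p z := by
  apply UpperHalfPlane.ext
  rw [UpperHalfPlane.coe_smul_of_det_pos (m16eisw_W_det_pos p), m16nrm_coe_wp]
  simp [num, denom, m16eisw_W_val]

theorem m16eisw_W_sigma : UpperHalfPlane.σ (m16eisw_W p) = .refl ℝ ℂ := by
  rw [UpperHalfPlane.σ, if_pos (m16eisw_W_det_pos p)]

/-- the slash by `W`: `(f ∣[k] W)(z) = p ^ (k-1) (p z) ^ (-k) f(-1/(p z))` -/
theorem m16eisw_slash_apply (k : ℤ) (f : ℍ → ℂ) (z : ℍ) :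
    (f ∣[k] m16eisw_W p) z = (p : ℂ) ^ (k - 1) * ((p : ℂ) * z) ^ (-k) * f (m16nrm_wp p z) := by
  rw [ModularForm.slash_apply, m16eisw_W_sigma, m16eisw_W_det, m16eisw_W_denom, m16eisw_W_smul]
  simp only [ContinuousAlgEquiv.refl_apply, Nat.abs_cast, Complex.ofReal_natCast]
  ring

/-- the un-normalised Fricke transform `f#(z) = z ^ (-k) f(-1/(p z))` -/
def m16eisw_sharp (k : ℤ) (f : ℍ → ℂ) : ℍ → ℂ := fun z => (z : ℂ) ^ (-k) * f (m16nrm_wp p z)

theorem m16eisw_sharp_eq (k : ℤ) (f : ℍ → ℂ) :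
    m16eisw_sharp p k f = (p : ℂ) • (f ∣[k] m16eisw_W p) := by
  funext z
  have hp : (p : ℂ) ≠ 0 := by exact_mod_cast NeZero.ne p
  simp only [m16eisw_sharp, Pi.smul_apply, m16eisw_slash_apply, smul_eq_mul]
  rw [mul_zpow, ← mul_assoc, ← mul_assoc, ← mul_assoc]
  congr 1
  have h1 : (p : ℂ) * (p : ℂ) ^ (k - 1) * (p : ℂ) ^ (-k) = 1 := by
    rw [← zpow_one_add₀ hp, ← zpow_add₀ hp]
    simp
  rw [h1, one_mul]

/-- the companion matrix for `W`: for `γ = [[a, b], [p e, d]]`, `γ'' = [[d, -e], [-p b, a]]` -/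
def m16eisw_conj (γ : SL(2, ℤ)) (e : ℤ) (he : γ 1 0 = p * e) : SL(2, ℤ) :=
  ⟨!![γ 1 1, -e; -(p * γ 0 1), γ 0 0], by
    have hdet := γ.det_coe
    rw [Matrix.det_fin_two] at hdet
    rw [Matrix.det_fin_two_of]
    linear_combination hdet + (γ 0 1) * he⟩

omit [NeZero p] in
theorem m16eisw_conj_val (γ : SL(2, ℤ)) (e : ℤ) (he : γ 1 0 = p * e) :
    (m16eisw_conj p γ e he : Matrix (Fin 2) (Fin 2) ℤ) = !![γ 1 1, -e; -(p * γ 0 1), γ 0 0] :=
  rfl

omit [NeZero p] in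
theorem m16eisw_conj_mem (γ : SL(2, ℤ)) (e : ℤ) (he : γ 1 0 = p * e) :
    m16eisw_conj p γ e he ∈ CongruenceSubgroup.Gamma0 p := by
  rw [CongruenceSubgroup.Gamma0_mem]
  simp [m16eisw_conj_val]

theorem m16eisw_conj_mul (γ : SL(2, ℤ)) (e : ℤ) (he : γ 1 0 = p * e) :
    m16eisw_W p * mapGL ℝ γ = mapGL ℝ (m16eisw_conj p γ e he) * m16eisw_W p := by
  ext i j
  fin_cases i <;> fin_cases j <;>
    simp [Matrix.mul_apply, Fin.sum_univ_two, m16eisw_conj_val, m16eisw_W_val]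
  all_goals first
    | (have := congrArg (Int.cast : ℤ → ℝ) he; push_cast at this ⊢; linear_combination this)
    | (have := congrArg (Int.cast : ℤ → ℝ) he; push_cast at this ⊢; linear_combination -this)
    | ring1

/-- the Fricke transform of a modular form on `Γ₀(p)` is `Good` -/
theorem m16eisw_good_sharp {F : Type*} [FunLike F ℍ ℂ]
    [ModularFormClass F (CongruenceSubgroup.Gamma0 p : Subgroup (GL (Fin 2) ℝ)) k] (f : F) :
    m16nrm_Good p k (m16eisw_sharp p k (f : ℍ → ℂ)) := by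
  have hf := m16nrm_good_of_form p k f
  rw [m16eisw_sharp_eq]
  refine ⟨(hf.mdiff.slash k _).const_smul _, fun γ hγ => ?_, ?_⟩
  · have hdvd : (p : ℤ) ∣ γ 1 0 := by
      rw [CongruenceSubgroup.Gamma0_mem] at hγ
      exact (ZMod.intCast_zmod_eq_zero_iff_dvd _ _).mp hγ
    obtain ⟨e, he⟩ := hdvd
    rw [ModularForm.SL_smul_slash]
    congr 1
    have h1 : ((f : ℍ → ℂ) ∣[k] m16eisw_W p) ∣[k] (mapGL ℝ γ) = (f : ℍ → ℂ) ∣[k] m16eisw_W p := by
      rw [← SlashAction.slash_mul, m16eisw_conj_mul p γ e he, SlashAction.slash_mul]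
      congr 1
      exact hf.slash _ (m16eisw_conj_mem p γ e he)
    exact h1
  · have hcusp : IsCusp OnePoint.infty (CongruenceSubgroup.Gamma0 p : Subgroup (GL (Fin 2) ℝ)) :=
      Subgroup.isCusp_of_mem_strictPeriods one_pos
        (CongruenceSubgroup.one_mem_strictPeriods_Gamma0 p)
    have hc2 := P2MW.S_ModularFormClass_isBoundedAt_heckeT.ModularForm.S06W2.isCusp_ratCast_smul
      hcusp (m16eisw_Wq p)
    have hb : IsBoundedAtImInfty ((f : ℍ → ℂ) ∣[k] m16eisw_W p) :=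
      ModularFormClass.bdd_at_cusps f hc2 (m16eisw_W p) rfl
    exact hb.const_smul_left _

/-- `(f, f#)` satisfies the Fricke relation with constant `1` (by definition) -/
theorem m16eisw_fricke (k : ℤ) (f : ℍ → ℂ) :
    m16nrm_IsFricke p k 1 f (m16eisw_sharp p k f) := by
  intro z
  simp [m16eisw_sharp]

/-- weight 2: `(f#)# = p² f` -/
theorem m16eisw_fricke_sharp (f : ℍ → ℂ) :
    m16nrm_IsFricke p 2 1 (m16eisw_sharp p 2 f) (((p : ℂ) ^ 2) • f) := by
  intro z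
  have hp : (p : ℂ) ≠ 0 := by exact_mod_cast NeZero.ne p
  have hz : (z : ℂ) ≠ 0 := ne_zero z
  simp only [m16eisw_sharp, Pi.smul_apply, smul_eq_mul, one_mul, m16nrm_wp_wp, m16nrm_coe_wp]
  have h2 : ∀ w : ℂ, w ^ (-(2 : ℤ)) = (w ^ 2)⁻¹ := fun w => by
    rw [zpow_neg]; norm_cast
  rw [h2, h2]
  field_simp

/-- **field `cusp` of `m16_FrkAPI`, from the field `trace`** (for every modular form of weight 2
on `Γ₀(p)`; in particular for cusp forms): `f# = - p U_p f`. -/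
theorem m16eisw_pair_of_trace
    (htr : ∀ (a b : PowerSeries ℂ), m16_Pair p 2 a b →
      ∃ T : ModularForm 𝒮ℒ 2, qExpansion 1 (T : ℍ → ℂ) = a + ((p : ℂ) ^ (1 - (2 : ℤ))) • m16_U p b)
    {F : Type*} [FunLike F ℍ ℂ]
    [ModularFormClass F (CongruenceSubgroup.Gamma0 p : Subgroup (GL (Fin 2) ℝ)) 2] (f : F) :
    m16_Pair p 2 (qExpansion 1 (f : ℍ → ℂ)) ((-(p : ℂ)) • m16_U p (qExpansion 1 (f : ℍ → ℂ))) := by
  have hp : (p : ℂ) ≠ 0 := by exact_mod_cast NeZero.ne p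
  have hf := m16nrm_good_of_form p 2 f
  have hs := m16eisw_good_sharp p (k := 2) f
  have hpair : m16_Pair p 2 (qExpansion 1 (m16eisw_sharp p 2 (f : ℍ → ℂ)))
      (((p : ℂ) ^ 2) • qExpansion 1 (f : ℍ → ℂ)) :=
    ⟨m16eisw_sharp p 2 f, ((p : ℂ) ^ 2) • (f : ℍ → ℂ), hs, m16uba_good_smul _ hf,
      m16eisw_fricke_sharp p f, rfl, qr_qExpansion_smul _ (m16nrm_good_mem_qr hf)⟩
  obtain ⟨T, hT⟩ := htr _ _ hpair
  have hT0 : T = 0 := rank_zero_iff_forall_zero.mp levelOne_weight_two_rank_zero T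
  have hq0 : qExpansion 1 (T : ℍ → ℂ) = 0 := by
    rw [hT0]
    exact qExpansion_zero 1
  rw [hq0, m16_U_smul] at hT
  have hkey : qExpansion 1 (m16eisw_sharp p 2 (f : ℍ → ℂ)) =
      (-(p : ℂ)) • m16_U p (qExpansion 1 (f : ℍ → ℂ)) := by
    have h1 : qExpansion 1 (m16eisw_sharp p 2 (f : ℍ → ℂ)) =
        -(((p : ℂ) ^ (1 - (2 : ℤ))) • ((p : ℂ) ^ 2) • m16_U p (qExpansion 1 (f : ℍ → ℂ))) :=
      eq_neg_of_add_eq_zero_left hT.symm
    have h2 : (p : ℂ) ^ (1 - (2 : ℤ)) * (p : ℂ) ^ 2 = (p : ℂ) := by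
      rw [show (1 - (2 : ℤ)) = -1 by norm_num, zpow_neg_one]
      field_simp
    rw [h1, smul_smul, h2]
    exact (_root_.neg_smul _ _).symm
  exact ⟨f, m16eisw_sharp p 2 f, hf, hs, m16eisw_fricke p 2 f, rfl, hkey⟩

/-- **the whole interface `m16_FrkAPI p` from its field `trace`** -/
theorem m16eisw_api_of_trace
    (htr : ∀ (k : ℤ) (a b : PowerSeries ℂ), m16_Pair p k a b →
      ∃ T : ModularForm 𝒮ℒ k, qExpansion 1 (T : ℍ → ℂ) = a + ((p : ℂ) ^ (1 - k)) • m16_U p b) :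
    m16_FrkAPI p :=
  ⟨m16eislev_lev1 p, m16eislev_lev1' p, htr,
    fun f => m16eisw_pair_of_trace p (htr 2) f, m16eis_pair p⟩

end

end Fermat.Agent.M16
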