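/-
M16 (S16 project), package FRK-core, part 1: the explicit coset decomposition
`SL(2,ℤ) = Γ₀(p) ⊔ ⨆_{j mod p} Γ₀(p) S T^j` and the resulting formulas for Mathlib's
`ModularForm.trace` and `ModularForm.norm` from `Γ₀(p)` to level one.

* `m16frkc_equiv p : Option (Fin p) ≃ 𝒮ℒ ⧸ Γ₀(p)`, `m16frkc_card`;
* `m16frkc_trace_apply`, `m16frkc_norm_apply` (pointwise formulas).
-/
import Mathlib

set_option autoImplicit false

open UpperHalfPlane CongruenceSubgroup ModularForm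
open scoped MatrixGroups ModularForm

noncomputable section

namespace Fermat.Agent.M16

variable (p : ℕ)

/-- the coset space used by Mathlib's trace and norm -/
abbrev m16frkc_Q : Type :=
  ↥𝒮ℒ ⧸ ((Gamma0 p : Subgroup (GL (Fin 2) ℝ)).subgroupOf 𝒮ℒ)

/-- the element of `𝒮ℒ` attached to `γ : SL(2,ℤ)` -/
def m16frkc_toSL (γ : SL(2, ℤ)) : ↥𝒮ℒ := ⟨Matrix.SpecialLinearGroup.mapGL ℝ γ, ⟨γ, rfl⟩⟩

theorem m16frkc_toSL_mul (a b : SL(2, ℤ)) :
    m16frkc_toSL (a * b) = m16frkc_toSL a * m16frkc_toSL b := by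
  apply Subtype.ext
  simp [m16frkc_toSL]

theorem m16frkc_toSL_inv (a : SL(2, ℤ)) :
    m16frkc_toSL a⁻¹ = (m16frkc_toSL a)⁻¹ := by
  apply Subtype.ext
  simp [m16frkc_toSL]

theorem m16frkc_toSL_surj (h : ↥𝒮ℒ) : ∃ γ : SL(2, ℤ), m16frkc_toSL γ = h := by
  obtain ⟨γ, hγ⟩ := h.2
  exact ⟨γ, Subtype.ext hγ⟩

theorem m16frkc_toSL_mem (γ : SL(2, ℤ)) :
    m16frkc_toSL γ ∈ ((Gamma0 p : Subgroup (GL (Fin 2) ℝ)).subgroupOf 𝒮ℒ) ↔ γ ∈ Gamma0 p := by
  rw [Subgroup.mem_subgroupOf]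
  show Matrix.SpecialLinearGroup.mapGL ℝ γ ∈ Subgroup.map _ _ ↔ _
  constructor
  · rintro ⟨g, hg, hgg⟩
    have : g = γ := Matrix.SpecialLinearGroup.mapGL_injective hgg
    rwa [← this]
  · intro h
    exact ⟨γ, h, rfl⟩

/-- the representatives `S T^j` -/
def m16frkc_rep (j : ℤ) : SL(2, ℤ) := ModularGroup.S * ModularGroup.T ^ j

theorem m16frkc_rep_coe (j : ℤ) :
    (m16frkc_rep j : Matrix (Fin 2) (Fin 2) ℤ) = !![0, -1; 1, j] := by
  rw [m16frkc_rep, Matrix.SpecialLinearGroup.coe_mul, ModularGroup.coe_S, ModularGroup.coe_T_zpow]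
  ext a b
  fin_cases a <;> fin_cases b <;> simp [Matrix.mul_apply, Fin.sum_univ_two]

theorem m16frkc_rep_mul_10 (j : ℤ) (γ : SL(2, ℤ)) :
    ((m16frkc_rep j * γ : SL(2, ℤ)) 1 0 : ℤ) = γ 0 0 + j * γ 1 0 := by
  rw [Matrix.SpecialLinearGroup.coe_mul, m16frkc_rep_coe, Matrix.mul_apply, Fin.sum_univ_two]
  simp

theorem m16frkc_rep_10 (j : ℤ) : ((m16frkc_rep j : SL(2, ℤ)) 1 0 : ℤ) = 1 := by
  rw [m16frkc_rep_coe]; simp

theorem m16frkc_rep_11 (j : ℤ) : ((m16frkc_rep j : SL(2, ℤ)) 1 1 : ℤ) = j := by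
  rw [m16frkc_rep_coe]; simp

theorem m16frkc_rep_inv_00 (j : ℤ) : (((m16frkc_rep j)⁻¹ : SL(2, ℤ)) 0 0 : ℤ) = j := by
  rw [Matrix.SpecialLinearGroup.SL2_inv_expl]
  simp [m16frkc_rep_11]

theorem m16frkc_rep_inv_10 (j : ℤ) : (((m16frkc_rep j)⁻¹ : SL(2, ℤ)) 1 0 : ℤ) = -1 := by
  rw [Matrix.SpecialLinearGroup.SL2_inv_expl]
  simp [m16frkc_rep_10]

theorem m16frkc_rep_mul_inv_10 (i j : ℤ) :
    ((m16frkc_rep i * (m16frkc_rep j)⁻¹ : SL(2, ℤ)) 1 0 : ℤ) = j - i := by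
  rw [m16frkc_rep_mul_10, m16frkc_rep_inv_00, m16frkc_rep_inv_10]
  ring

theorem m16frkc_not_dvd_one [Fact p.Prime] {x : ℤ} (hx : x = 1 ∨ x = -1) :
    ¬ ((x : ZMod p) = 0) := by
  have hp : p.Prime := Fact.out
  intro h1
  have h2 : (p : ℤ) ∣ x := (ZMod.intCast_zmod_eq_zero_iff_dvd _ _).mp h1
  have h3 : (p : ℤ) ∣ 1 := by
    rcases hx with rfl | rfl
    · exact h2
    · exact (dvd_neg).mp h2
  have h4 := Int.eq_one_of_dvd_one (by positivity) h3
  have : p = 1 := by exact_mod_cast h4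
  exact hp.one_lt.ne' this

/-- the map from `Option (Fin p)` to the coset space -/
def m16frkc_phi : Option (Fin p) → m16frkc_Q p
  | none => QuotientGroup.mk (1 : ↥𝒮ℒ)
  | some j => QuotientGroup.mk (m16frkc_toSL (m16frkc_rep (j.1 : ℤ)))⁻¹

theorem m16frkc_phi_injective [Fact p.Prime] : Function.Injective (m16frkc_phi p) := by
  intro a b hab
  rcases a with _ | i <;> rcases b with _ | j
  · rfl
  · exfalso
    simp only [m16frkc_phi] at hab
    rw [QuotientGroup.eq, inv_one, one_mul, ← m16frkc_toSL_inv, m16frkc_toSL_mem, Gamma0_mem,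
      m16frkc_rep_inv_10] at hab
    exact m16frkc_not_dvd_one p (Or.inr rfl) hab
  · exfalso
    simp only [m16frkc_phi] at hab
    rw [QuotientGroup.eq, inv_inv, mul_one, m16frkc_toSL_mem, Gamma0_mem, m16frkc_rep_10] at hab
    exact m16frkc_not_dvd_one p (Or.inl rfl) hab
  · simp only [m16frkc_phi] at hab
    rw [QuotientGroup.eq, inv_inv, ← m16frkc_toSL_inv, ← m16frkc_toSL_mul, m16frkc_toSL_mem,
      Gamma0_mem, m16frkc_rep_mul_inv_10] at hab
    have h2 : (p : ℤ) ∣ (j.1 : ℤ) - (i.1 : ℤ) := (ZMod.intCast_zmod_eq_zero_iff_dvd _ _).mp hab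
    have hi := i.2
    have hj := j.2
    have h3 : (j.1 : ℤ) - (i.1 : ℤ) = 0 := by
      apply Int.eq_zero_of_abs_lt_dvd h2
      rw [abs_lt]
      constructor <;> omega
    congr 1
    apply Fin.ext
    omega

theorem m16frkc_phi_surjective [Fact p.Prime] : Function.Surjective (m16frkc_phi p) := by
  have hp : p.Prime := Fact.out
  have : NeZero p := ⟨hp.ne_zero⟩
  intro q
  induction q using Quotient.inductionOn with
  | h r =>
    obtain ⟨γ, rfl⟩ := m16frkc_toSL_surj r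
    by_cases hγ : γ ∈ Gamma0 p
    · refine ⟨none, ?_⟩
      show (QuotientGroup.mk (1 : ↥𝒮ℒ) : m16frkc_Q p) = QuotientGroup.mk (m16frkc_toSL γ)
      rw [QuotientGroup.eq, inv_one, one_mul, m16frkc_toSL_mem]
      exact hγ
    · rw [Gamma0_mem] at hγ
      set c : ZMod p := ((γ 1 0 : ℤ) : ZMod p) with hc
      set a : ZMod p := ((γ 0 0 : ℤ) : ZMod p) with ha
      set t : ZMod p := -a * c⁻¹ with ht
      refine ⟨some ⟨t.val, ZMod.val_lt t⟩, ?_⟩
      show (QuotientGroup.mk (m16frkc_toSL (m16frkc_rep ((t.val : ℕ) : ℤ)))⁻¹ : m16frkc_Q p) =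
        QuotientGroup.mk (m16frkc_toSL γ)
      rw [QuotientGroup.eq, inv_inv, ← m16frkc_toSL_mul, m16frkc_toSL_mem, Gamma0_mem,
        m16frkc_rep_mul_10]
      push_cast
      rw [ZMod.natCast_zmod_val, ← hc, ← ha, ht]
      field_simp
      ring

/-- the bijection `Option (Fin p) ≃ SL(2,ℤ)/Γ₀(p)` -/
def m16frkc_equiv [Fact p.Prime] : Option (Fin p) ≃ m16frkc_Q p :=
  Equiv.ofBijective (m16frkc_phi p) ⟨m16frkc_phi_injective p, m16frkc_phi_surjective p⟩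

theorem m16frkc_card [Fact p.Prime] : Nat.card (m16frkc_Q p) = p + 1 := by
  rw [← Nat.card_congr (m16frkc_equiv p)]
  simp


/-! ### the conjugates -/

variable {p}
variable {k : ℤ} {F : Type*} [FunLike F ℍ ℂ]

theorem m16frkc_quot_none [SlashInvariantFormClass F (Gamma0 p : Subgroup (GL (Fin 2) ℝ)) k]
    (f : F) : SlashInvariantForm.quotientFunc f (m16frkc_phi p none) = ⇑f := by
  show SlashInvariantForm.quotientFunc f ⟦(1 : ↥𝒮ℒ)⟧ = ⇑f
  rw [SlashInvariantForm.quotientFunc_mk]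
  simp

theorem m16frkc_quot_some [SlashInvariantFormClass F (Gamma0 p : Subgroup (GL (Fin 2) ℝ)) k]
    (f : F) (j : Fin p) :
    SlashInvariantForm.quotientFunc f (m16frkc_phi p (some j)) =
      ⇑f ∣[k] (m16frkc_rep (j.1 : ℤ)) := by
  show SlashInvariantForm.quotientFunc f ⟦(m16frkc_toSL (m16frkc_rep (j.1 : ℤ)))⁻¹⟧ = _
  rw [SlashInvariantForm.quotientFunc_mk, ModularForm.SL_slash]
  simp only [m16frkc_toSL]
  rfl

/-- **(C1)** the trace from `Γ₀(p)` to level one, pointwise. -/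
theorem m16frkc_trace_apply [Fact p.Prime]
    [ModularFormClass F (Gamma0 p : Subgroup (GL (Fin 2) ℝ)) k] (f : F) (τ : ℍ) :
    (ModularForm.trace 𝒮ℒ f) τ =
      f τ + ∑ j ∈ Finset.range p, (⇑f ∣[k] (m16frkc_rep (j : ℤ))) τ := by
  classical
  let _ : Fintype (m16frkc_Q p) := Fintype.ofFinite _
  rw [ModularForm.coe_trace, Finset.sum_apply]
  rw [← (m16frkc_equiv p).sum_comp (fun q => SlashInvariantForm.quotientFunc f q τ),
    Fintype.sum_option]
  have h1 : (m16frkc_equiv p) none = m16frkc_phi p none := rfl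
  have h2 : ∀ j : Fin p, (m16frkc_equiv p) (some j) = m16frkc_phi p (some j) := fun _ => rfl
  rw [h1, m16frkc_quot_none]
  simp only [h2, m16frkc_quot_some]
  rw [Finset.sum_range (fun j => (⇑f ∣[k] (m16frkc_rep (j : ℤ))) τ)]

/-- **(C2)** the norm from `Γ₀(p)` to level one, pointwise. -/
theorem m16frkc_norm_apply [Fact p.Prime]
    [ModularFormClass F (Gamma0 p : Subgroup (GL (Fin 2) ℝ)) k] (f : F) (τ : ℍ) :
    (ModularForm.norm 𝒮ℒ f) τ =
      f τ * ∏ j ∈ Finset.range p, (⇑f ∣[k] (m16frkc_rep (j : ℤ))) τ := by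
  classical
  let _ : Fintype (m16frkc_Q p) := Fintype.ofFinite _
  rw [ModularForm.coe_norm, Finset.prod_apply]
  rw [← (m16frkc_equiv p).prod_comp (fun q => SlashInvariantForm.quotientFunc f q τ),
    Fintype.prod_option]
  have h1 : (m16frkc_equiv p) none = m16frkc_phi p none := rfl
  have h2 : ∀ j : Fin p, (m16frkc_equiv p) (some j) = m16frkc_phi p (some j) := fun _ => rfl
  rw [h1, m16frkc_quot_none]
  simp only [h2, m16frkc_quot_some]
  rw [Finset.prod_range (fun j => (⇑f ∣[k] (m16frkc_rep (j : ℤ))) τ)]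

end Fermat.Agent.M16
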