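/-
M16 (S16 project), package FRK-core, part 2: the `q`-expansion of the trace from `Γ₀(p)` to
level one.

For `f` of weight `k` on `Γ₀(p)` put `a = qExpansion 1 f` (expansion at `∞`) and
`b = qExpansion p (f ∣[k] S)` (expansion at the cusp `0`, in the parameter `e(τ/p)`).  Then

  `a_n(Tr f) = a_n(f) + p * b_{p n}(f)`      (`m16frkc_trace_coeff`).
-/
import Mathlib
import Fermat.Agent.M16.FrkCos

set_option autoImplicit false

open UpperHalfPlane CongruenceSubgroup ModularForm Complex Function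
open scoped MatrixGroups ModularForm Real Manifold

noncomputable section

namespace Fermat.Agent.M16

local notation "𝕢" => Function.Periodic.qParam

variable {p : ℕ} {k : ℤ} {F : Type*} [FunLike F ℍ ℂ]

/-! ### slash by `T ^ n` is translation -/

theorem m16frkc_denom_T_zpow (n : ℤ) (τ : ℍ) : denom (ModularGroup.T ^ n : SL(2, ℤ)) τ = 1 := by
  have h := ModularGroup.coe_T_zpow n
  rw [ModularGroup.denom_apply]
  have h10 : ((ModularGroup.T ^ n : SL(2, ℤ)) 1 0 : ℤ) = 0 := by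
    have := congrFun (congrFun h 1) 0
    simpa using this
  have h11 : ((ModularGroup.T ^ n : SL(2, ℤ)) 1 1 : ℤ) = 1 := by
    have := congrFun (congrFun h 1) 1
    simpa using this
  rw [h10, h11]
  simp

theorem m16frkc_T_zpow_smul (n : ℤ) (τ : ℍ) :
    (ModularGroup.T ^ n : SL(2, ℤ)) • τ = ((n : ℝ)) +ᵥ τ := by
  rw [modular_T_zpow_smul τ n]

theorem m16frkc_slash_T_zpow (G : ℍ → ℂ) (k : ℤ) (n : ℤ) (τ : ℍ) :
    (G ∣[k] (ModularGroup.T ^ n : SL(2, ℤ))) τ = G ((n : ℝ) +ᵥ τ) := by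
  rw [ModularForm.SL_slash_apply, m16frkc_denom_T_zpow, one_zpow, mul_one, m16frkc_T_zpow_smul]

/-- `(f ∣ S T^j)(τ) = (f ∣ S)(τ + j)` -/
theorem m16frkc_slash_rep_apply (G : ℍ → ℂ) (k : ℤ) (j : ℤ) (τ : ℍ) :
    (G ∣[k] (m16frkc_rep j)) τ = (G ∣[k] ModularGroup.S) ((j : ℝ) +ᵥ τ) := by
  rw [m16frkc_rep, SlashAction.slash_mul, m16frkc_slash_T_zpow]

/-! ### the form at the cusp `0` -/

theorem m16frkc_slash_of_mem [SlashInvariantFormClass F (Gamma0 p : Subgroup (GL (Fin 2) ℝ)) k]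
    (f : F) (γ : SL(2, ℤ)) (hγ : γ ∈ Gamma0 p) : (⇑f : ℍ → ℂ) ∣[k] γ = ⇑f :=
  SlashInvariantFormClass.slash_action_eq f _ ⟨γ, hγ, rfl⟩

theorem m16frkc_conj_T_mem (p : ℕ) :
    ModularGroup.S * ModularGroup.T ^ (p : ℤ) * ModularGroup.S⁻¹ ∈ Gamma0 p := by
  rw [Gamma0_mem]
  have h : ModularGroup.S * ModularGroup.T ^ (p : ℤ) * ModularGroup.S⁻¹ =
      m16frkc_rep (p : ℤ) * (m16frkc_rep 0)⁻¹ := by
    simp [m16frkc_rep]
  rw [h, m16frkc_rep_mul_inv_10]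
  simp

/-- `f ∣ S` has period `p`. -/
theorem m16frkc_S_periodic [SlashInvariantFormClass F (Gamma0 p : Subgroup (GL (Fin 2) ℝ)) k]
    (f : F) (τ : ℍ) :
    ((⇑f : ℍ → ℂ) ∣[k] ModularGroup.S) ((p : ℝ) +ᵥ τ) = ((⇑f : ℍ → ℂ) ∣[k] ModularGroup.S) τ := by
  have h1 := m16frkc_slash_T_zpow ((⇑f : ℍ → ℂ) ∣[k] ModularGroup.S) k (p : ℤ) τ
  rw [← SlashAction.slash_mul] at h1
  have h2 : ModularGroup.S * ModularGroup.T ^ (p : ℤ) =
      (ModularGroup.S * ModularGroup.T ^ (p : ℤ) * ModularGroup.S⁻¹) * ModularGroup.S := by group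
  rw [h2, SlashAction.slash_mul, m16frkc_slash_of_mem f _ (m16frkc_conj_T_mem p)] at h1
  rw [h1]
  simp

theorem m16frkc_S_mdiff [ModularFormClass F (Gamma0 p : Subgroup (GL (Fin 2) ℝ)) k] (f : F) :
    MDiff ((⇑f : ℍ → ℂ) ∣[k] ModularGroup.S) := by
  rw [ModularForm.SL_slash]
  exact (ModularFormClass.holo f).slash k _

theorem m16frkc_S_bdd [NeZero p] [ModularFormClass F (Gamma0 p : Subgroup (GL (Fin 2) ℝ)) k]
    (f : F) : IsBoundedAtImInfty ((⇑f : ℍ → ℂ) ∣[k] ModularGroup.S) :=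
  ModularFormClass.bdd_at_infty_slash f ModularGroup.S


/-! ### periodicity and `q`-parameters -/

theorem m16frkc_periodic_of_vadd {h : ℝ} {G : ℍ → ℂ} (hG : ∀ τ : ℍ, G (h +ᵥ τ) = G τ) :
    Periodic (G ∘ ofComplex) (h : ℂ) := by
  intro w
  by_cases hw : 0 < w.im
  · have hw' : 0 < (w + (h : ℂ)).im := by simpa using hw
    simp only [comp_apply, ofComplex_apply_of_im_pos hw', ofComplex_apply_of_im_pos hw]
    rw [← hG ⟨w, hw⟩]
    congr 1
    ext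
    simp [add_comm]
  · have hw0 : w.im ≤ 0 := not_lt.mp hw
    have hw' : (w + (h : ℂ)).im ≤ 0 := by simpa using hw0
    simp only [comp_apply]
    rw [ofComplex_apply_of_im_nonpos hw', ofComplex_apply_of_im_nonpos hw0]

/-- the root of unity `e(1/p)` -/
def m16frkc_zeta (p : ℕ) : ℂ := Complex.exp (2 * π * Complex.I / p)

theorem m16frkc_zeta_isPrimitiveRoot (p : ℕ) [NeZero p] : IsPrimitiveRoot (m16frkc_zeta p) p :=
  Complex.isPrimitiveRoot_exp p (NeZero.ne p)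

theorem m16frkc_q_vadd (p : ℕ) [NeZero p] (j : ℕ) (τ : ℍ) :
    𝕢 (p : ℝ) (((j : ℝ) +ᵥ τ : ℍ) : ℂ) = m16frkc_zeta p ^ j * 𝕢 (p : ℝ) τ := by
  unfold Function.Periodic.qParam m16frkc_zeta
  have hp : (p : ℂ) ≠ 0 := Nat.cast_ne_zero.mpr (NeZero.ne p)
  rw [← Complex.exp_nat_mul, ← Complex.exp_add, UpperHalfPlane.coe_vadd]
  congr 1
  push_cast
  field_simp

theorem m16frkc_q_pow (p : ℕ) [NeZero p] (τ : ℍ) :
    𝕢 (p : ℝ) (τ : ℂ) ^ p = 𝕢 (1 : ℝ) (τ : ℂ) := by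
  unfold Function.Periodic.qParam
  have hp : (p : ℂ) ≠ 0 := Nat.cast_ne_zero.mpr (NeZero.ne p)
  rw [← Complex.exp_nat_mul]
  congr 1
  push_cast
  field_simp

theorem m16frkc_sum_zeta (p : ℕ) [NeZero p] (m : ℕ) :
    ∑ j ∈ Finset.range p, (m16frkc_zeta p ^ j) ^ m = if p ∣ m then (p : ℂ) else 0 := by
  have hζ := m16frkc_zeta_isPrimitiveRoot p
  have h1 : ∀ j : ℕ, (m16frkc_zeta p ^ j) ^ m = (m16frkc_zeta p ^ m) ^ j := fun j => by
    rw [← pow_mul, ← pow_mul, mul_comm]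
  simp only [h1]
  split_ifs with hd
  · have h2 : m16frkc_zeta p ^ m = 1 := (hζ.pow_eq_one_iff_dvd m).mpr hd
    simp [h2]
  · have h2 : m16frkc_zeta p ^ m ≠ 1 := fun h => hd ((hζ.pow_eq_one_iff_dvd m).mp h)
    have h3 : (m16frkc_zeta p ^ m) ^ p = 1 := by
      rw [← pow_mul, mul_comm, pow_mul, hζ.pow_eq_one, one_pow]
    rw [geom_sum_eq h2, h3, sub_self, zero_div]

/-! ### the expansions -/

section expansions

theorem m16frkc_T_mem (p : ℕ) : ModularGroup.T ∈ Gamma0 p := by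
  rw [Gamma0_mem, ModularGroup.coe_T]
  simp

theorem m16frkc_one_periodic
    [SlashInvariantFormClass F (Gamma0 p : Subgroup (GL (Fin 2) ℝ)) k] (f : F) (τ : ℍ) :
    (⇑f : ℍ → ℂ) ((1 : ℝ) +ᵥ τ) = f τ := by
  have h1 := m16frkc_slash_T_zpow (⇑f : ℍ → ℂ) k 1 τ
  rw [zpow_one, m16frkc_slash_of_mem f _ (m16frkc_T_mem p)] at h1
  rw [h1]
  simp

theorem m16frkc_bdd [NeZero p]
    [ModularFormClass F (Gamma0 p : Subgroup (GL (Fin 2) ℝ)) k] (f : F) :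
    IsBoundedAtImInfty (⇑f : ℍ → ℂ) := by
  have h := ModularFormClass.bdd_at_infty_slash f (1 : SL(2, ℤ))
  rwa [SlashAction.slash_one] at h

/-- the expansion of `f` at `∞` -/
theorem m16frkc_hasSum [NeZero p]
    [ModularFormClass F (Gamma0 p : Subgroup (GL (Fin 2) ℝ)) k] (f : F) (τ : ℍ) :
    HasSum (fun m : ℕ => (qExpansion (1 : ℝ) (⇑f : ℍ → ℂ)).coeff m • 𝕢 (1 : ℝ) τ ^ m) (f τ) := by
  have hper : Periodic ((⇑f : ℍ → ℂ) ∘ ofComplex) ((1 : ℝ) : ℂ) :=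
    m16frkc_periodic_of_vadd (m16frkc_one_periodic f)
  have := UpperHalfPlane.hasSum_qExpansion (h := 1) one_pos (by simpa using hper)
    (ModularFormClass.holo f) (m16frkc_bdd f) τ
  exact this

/-- the expansion of `f ∣ S` (the expansion of `f` at the cusp `0`) -/
theorem m16frkc_S_hasSum [NeZero p]
    [ModularFormClass F (Gamma0 p : Subgroup (GL (Fin 2) ℝ)) k] (f : F) (τ : ℍ) :
    HasSum (fun m : ℕ => (qExpansion (p : ℝ) ((⇑f : ℍ → ℂ) ∣[k] ModularGroup.S)).coeff m •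
      𝕢 (p : ℝ) τ ^ m) (((⇑f : ℍ → ℂ) ∣[k] ModularGroup.S) τ) := by
  have hp : 0 < p := NeZero.pos p
  have hper : Periodic (((⇑f : ℍ → ℂ) ∣[k] ModularGroup.S) ∘ ofComplex) ((p : ℝ) : ℂ) :=
    m16frkc_periodic_of_vadd (m16frkc_S_periodic f)
  exact UpperHalfPlane.hasSum_qExpansion (h := (p : ℝ)) (by exact_mod_cast hp) hper
    (m16frkc_S_mdiff f) (m16frkc_S_bdd f) τ

/-- `∑_{j < p} (f ∣ S)(τ + j) = p ∑ b_{p n} q ^ n` -/
theorem m16frkc_sum_S_hasSum [NeZero p]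
    [ModularFormClass F (Gamma0 p : Subgroup (GL (Fin 2) ℝ)) k] (f : F) (τ : ℍ) :
    HasSum (fun n : ℕ =>
        ((p : ℂ) * (qExpansion (p : ℝ) ((⇑f : ℍ → ℂ) ∣[k] ModularGroup.S)).coeff (p * n)) •
          𝕢 (1 : ℝ) τ ^ n)
      (∑ j ∈ Finset.range p, ((⇑f : ℍ → ℂ) ∣[k] ModularGroup.S) ((j : ℝ) +ᵥ τ)) := by
  set b := qExpansion (p : ℝ) ((⇑f : ℍ → ℂ) ∣[k] ModularGroup.S) with hb
  set G := (⇑f : ℍ → ℂ) ∣[k] ModularGroup.S with hG
  have h1 : ∀ j ∈ Finset.range p,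
      HasSum (fun m : ℕ => b.coeff m • (m16frkc_zeta p ^ j * 𝕢 (p : ℝ) τ) ^ m)
        (G ((j : ℝ) +ᵥ τ)) := by
    intro j _
    rw [← m16frkc_q_vadd]
    exact m16frkc_S_hasSum f ((j : ℝ) +ᵥ τ)
  have h2 := hasSum_sum h1
  have h3 : (fun m : ℕ => ∑ j ∈ Finset.range p,
      b.coeff m • (m16frkc_zeta p ^ j * 𝕢 (p : ℝ) τ) ^ m) =
      fun m : ℕ => (if p ∣ m then (p : ℂ) * b.coeff m * 𝕢 (p : ℝ) τ ^ m else 0) := by
    funext m
    have : ∀ j : ℕ, b.coeff m • (m16frkc_zeta p ^ j * 𝕢 (p : ℝ) τ) ^ m =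
        (b.coeff m * 𝕢 (p : ℝ) τ ^ m) * (m16frkc_zeta p ^ j) ^ m := fun j => by
      rw [smul_eq_mul, mul_pow]; ring
    simp only [this]
    rw [← Finset.mul_sum, m16frkc_sum_zeta]
    split_ifs <;> ring
  rw [h3] at h2
  have hinj : Function.Injective (fun n : ℕ => p * n) := fun a c hac =>
    Nat.eq_of_mul_eq_mul_left (NeZero.pos p) hac
  have h4 := (Function.Injective.hasSum_iff hinj (f := fun m : ℕ =>
      (if p ∣ m then (p : ℂ) * b.coeff m * 𝕢 (p : ℝ) τ ^ m else 0))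
      (a := ∑ j ∈ Finset.range p, G ((j : ℝ) +ᵥ τ)) (by
        intro m hm
        have : ¬ p ∣ m := fun ⟨c, hc⟩ => hm ⟨c, hc.symm⟩
        simp [this])).mpr h2
  convert h4 using 1
  funext n
  simp only [Function.comp_apply, dvd_mul_right, if_true, smul_eq_mul]
  rw [pow_mul, m16frkc_q_pow]

/-- **(T)** the `q`-expansion of the trace from `Γ₀(p)` to level one:
`a_n(Tr f) = a_n(f) + p * b_{p n}(f)`, where `b` is the expansion of `f ∣ S` in `e(τ/p)`. -/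
theorem m16frkc_trace_coeff [Fact p.Prime]
    [ModularFormClass F (Gamma0 p : Subgroup (GL (Fin 2) ℝ)) k] (f : F) (n : ℕ) :
    (qExpansion (1 : ℝ) (ModularForm.trace 𝒮ℒ f)).coeff n =
      (qExpansion (1 : ℝ) (⇑f : ℍ → ℂ)).coeff n +
        (p : ℂ) * (qExpansion (p : ℝ) ((⇑f : ℍ → ℂ) ∣[k] ModularGroup.S)).coeff (p * n) := by
  have : NeZero p := ⟨(Fact.out : p.Prime).ne_zero⟩
  symm
  refine ModularFormClass.qExpansion_coeff_unique (Γ := 𝒮ℒ) (k := k) one_pos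
    (by simp) (f := ModularForm.trace 𝒮ℒ f)
    (c := fun n => (qExpansion (1 : ℝ) (⇑f : ℍ → ℂ)).coeff n +
        (p : ℂ) * (qExpansion (p : ℝ) ((⇑f : ℍ → ℂ) ∣[k] ModularGroup.S)).coeff (p * n))
    (fun τ => ?_) n
  rw [m16frkc_trace_apply]
  have h1 := m16frkc_hasSum f τ
  have h2 := m16frkc_sum_S_hasSum f τ
  have h3 := h1.add h2
  simp only [m16frkc_slash_rep_apply, Int.cast_natCast]
  convert h3 using 1
  funext m
  simp only [smul_eq_mul]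
  ring

end expansions

end Fermat.Agent.M16
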