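/-
M16 (S16 project), package NRM, part 2: the norm to level one of a Fricke pair `(F, Fs)` on
`Γ₀(p)`, constructed directly as
  `N z = F z * ∏ j : ZMod p, Fs ((z + j) / p)`.

* `m16nrm_fac`, `m16nrm_prod`, `m16nrm_norm`: the factors, their product, and the norm;
* `m16nrm_norm_T`, `m16nrm_norm_S`: pointwise invariance under `T` and `S`;
* `m16nrm_exists_form`: the norm is a level-one modular form of weight `k (p + 1)`.
-/
import Fermat.Agent.M16.NrmConj

set_option autoImplicit false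

noncomputable section

namespace Fermat.Agent.M16

open UpperHalfPlane CongruenceSubgroup ModularFormClass Fermat.Agent.S23
open scoped MatrixGroups ModularForm Manifold

/-- the function `z ↦ Fs ((z + j) / p)` -/
def m16nrm_fac (p : ℕ) (Fs : ℍ → ℂ) (j : ℕ) (z : ℍ) : ℂ :=
  Fs (ModularForm.heckeMatrix p j • z)

/-- the product `∏ j mod p, Fs ((z + j) / p)` -/
def m16nrm_prod (p : ℕ) [NeZero p] (Fs : ℍ → ℂ) (z : ℍ) : ℂ :=
  ∏ j : ZMod p, m16nrm_fac p Fs j.val z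

/-- the norm `F z * ∏ j mod p, Fs ((z + j) / p)` -/
def m16nrm_norm (p : ℕ) [NeZero p] (F Fs : ℍ → ℂ) (z : ℍ) : ℂ :=
  F z * m16nrm_prod p Fs z

section basic

variable {p : ℕ} [NeZero p] {k : ℤ} {c : ℂ} {F Fs : ℍ → ℂ}

theorem m16nrm_fac_add_mul (hFs : m16nrm_Good p k Fs) (a m : ℕ) (z : ℍ) :
    m16nrm_fac p Fs (a + p * m) z = m16nrm_fac p Fs a z := by
  have hp := m16nrm_p_ne_zero p
  have h : ModularForm.heckeMatrix p (a + p * m) • z =
      ((m : ℤ) : ℝ) +ᵥ (ModularForm.heckeMatrix p a • z) := by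
    apply UpperHalfPlane.ext
    rw [UpperHalfPlane.coe_vadd, ModularForm.coe_heckeMatrix_smul (NeZero.ne p),
      ModularForm.coe_heckeMatrix_smul (NeZero.ne p)]
    push_cast
    field_simp
    ring
  rw [m16nrm_fac, m16nrm_fac, h, m16nrm_periodic_int hFs]

theorem m16nrm_fac_mod (hFs : m16nrm_Good p k Fs) (a : ℕ) (z : ℍ) :
    m16nrm_fac p Fs (a % p) z = m16nrm_fac p Fs a z := by
  conv_rhs => rw [← Nat.mod_add_div a p]
  rw [m16nrm_fac_add_mul hFs]

theorem m16nrm_fac_vadd (j : ℕ) (z : ℍ) :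
    m16nrm_fac p Fs j ((1 : ℝ) +ᵥ z) = m16nrm_fac p Fs (j + 1) z := by
  have hp := m16nrm_p_ne_zero p
  have h : ModularForm.heckeMatrix p j • ((1 : ℝ) +ᵥ z) = ModularForm.heckeMatrix p (j + 1) • z := by
    apply UpperHalfPlane.ext
    rw [ModularForm.coe_heckeMatrix_smul (NeZero.ne p),
      ModularForm.coe_heckeMatrix_smul (NeZero.ne p), UpperHalfPlane.coe_vadd]
    push_cast
    ring
  rw [m16nrm_fac, m16nrm_fac, h]

theorem m16nrm_fac_val_natCast (hFs : m16nrm_Good p k Fs) (a : ℕ) (z : ℍ) :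
    m16nrm_fac p Fs ((a : ZMod p).val) z = m16nrm_fac p Fs a z := by
  rw [ZMod.val_natCast, m16nrm_fac_mod hFs]

/-- the product is `1`-periodic -/
theorem m16nrm_prod_T (hFs : m16nrm_Good p k Fs) (z : ℍ) :
    m16nrm_prod p Fs ((1 : ℝ) +ᵥ z) = m16nrm_prod p Fs z := by
  unfold m16nrm_prod
  rw [← Equiv.prod_comp (Equiv.addRight (1 : ZMod p)) (fun j => m16nrm_fac p Fs j.val z)]
  refine Finset.prod_congr rfl fun j _ => ?_
  rw [m16nrm_fac_vadd, Equiv.coe_addRight]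
  rw [← m16nrm_fac_val_natCast hFs (j.val + 1)]
  congr 2
  push_cast
  rw [ZMod.natCast_zmod_val]

theorem m16nrm_norm_T (hF : m16nrm_Good p k F) (hFs : m16nrm_Good p k Fs) (z : ℍ) :
    m16nrm_norm p F Fs ((1 : ℝ) +ᵥ z) = m16nrm_norm p F Fs z := by
  rw [m16nrm_norm, m16nrm_norm, m16nrm_prod_T hFs, m16nrm_periodic hF]

end basic

end Fermat.Agent.M16

namespace Fermat.Agent.M16

open UpperHalfPlane CongruenceSubgroup ModularFormClass Fermat.Agent.S23
open scoped MatrixGroups ModularForm Manifold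

section Sinv

variable {p : ℕ} [Fact p.Prime] {k : ℤ} {c : ℂ} {F Fs : ℍ → ℂ}

theorem m16nrm_dvd_val_mul (j : ZMod p) (hj : j ≠ 0) : p ∣ j.val * (-j⁻¹).val + 1 := by
  rw [← ZMod.natCast_eq_zero_iff]
  push_cast
  rw [ZMod.natCast_zmod_val, ZMod.natCast_zmod_val]
  field_simp
  ring

theorem m16nrm_heckeMatrix_zero_S (z : ℍ) :
    ModularForm.heckeMatrix p 0 • (ModularGroup.S • z) = m16nrm_wp p z := by
  have hp := m16nrm_p_ne_zero p
  have hz := ne_zero z
  apply UpperHalfPlane.ext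
  rw [m16nrm_coe_wp, ModularForm.coe_heckeMatrix_smul (NeZero.ne p), modular_S_smul]
  simp only [Nat.cast_zero, add_zero]
  field_simp

/-- the product over the nonzero residues, after `z ↦ -1/z` -/
theorem m16nrm_prod_erase_S (hFs : m16nrm_Good p k Fs) (z : ℍ) :
    ∏ j ∈ (Finset.univ : Finset (ZMod p)).erase 0, m16nrm_fac p Fs j.val (ModularGroup.S • z) =
      ((z : ℂ) ^ k) ^ (p - 1) *
        ∏ j ∈ (Finset.univ : Finset (ZMod p)).erase 0, m16nrm_fac p Fs j.val z := by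
  have h1 : ∀ j ∈ (Finset.univ : Finset (ZMod p)).erase 0,
      m16nrm_fac p Fs j.val (ModularGroup.S • z) =
        (z : ℂ) ^ k * m16nrm_fac p Fs (-j⁻¹).val z := by
    intro j hj
    have hj0 : j ≠ 0 := (Finset.mem_erase.mp hj).1
    exact m16nrm_C3 hFs j.val (-j⁻¹).val (m16nrm_dvd_val_mul j hj0) z
  rw [Finset.prod_congr rfl h1, Finset.prod_mul_distrib, Finset.prod_const,
    Finset.card_erase_of_mem (Finset.mem_univ _), Finset.card_univ, ZMod.card]
  congr 1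
  refine Finset.prod_nbij' (fun j => -j⁻¹) (fun j => -j⁻¹) ?_ ?_ ?_ ?_ ?_
  · intro j hj
    have hj0 : j ≠ 0 := (Finset.mem_erase.mp hj).1
    exact Finset.mem_erase.mpr ⟨neg_ne_zero.mpr (inv_ne_zero hj0), Finset.mem_univ _⟩
  · intro j hj
    have hj0 : j ≠ 0 := (Finset.mem_erase.mp hj).1
    exact Finset.mem_erase.mpr ⟨neg_ne_zero.mpr (inv_ne_zero hj0), Finset.mem_univ _⟩
  · intro j _
    simp
  · intro j _
    simp
  · intro j _
    rfl

/-- **`S`-invariance of the norm** in pointwise form -/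
theorem m16nrm_norm_S (hk : Even k) (hc : c ≠ 0) (hFs : m16nrm_Good p k Fs)
    (hF : m16nrm_IsFricke p k c F Fs) (z : ℍ) :
    m16nrm_norm p F Fs (ModularGroup.S • z) =
      (z : ℂ) ^ (k * ((p : ℤ) + 1)) * m16nrm_norm p F Fs z := by
  have hp := m16nrm_p_ne_zero p
  have hz := ne_zero z
  have hp1 : 1 ≤ p := (Fact.out : p.Prime).one_lt.le
  unfold m16nrm_norm m16nrm_prod
  rw [← Finset.mul_prod_erase Finset.univ _ (Finset.mem_univ (0 : ZMod p)),
    ← Finset.mul_prod_erase Finset.univ (fun j : ZMod p => m16nrm_fac p Fs j.val z)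
      (Finset.mem_univ (0 : ZMod p)), m16nrm_prod_erase_S hFs, ZMod.val_zero]
  have e0 : m16nrm_fac p Fs 0 (ModularGroup.S • z) = c * ((p : ℂ) * z) ^ k * F z := by
    rw [m16nrm_fac, m16nrm_heckeMatrix_zero_S, m16nrm_C2 hk hF]
  have e1 : F (ModularGroup.S • z) = c⁻¹ * ((z : ℂ) / p) ^ k * m16nrm_fac p Fs 0 z :=
    m16nrm_C1 hc hF z
  rw [e0, e1]
  have hpow : (z : ℂ) ^ (k * ((p : ℤ) + 1)) = ((z : ℂ) ^ k) ^ (p - 1) * ((z : ℂ) ^ k) ^ 2 := by
    rw [← pow_add, ← zpow_natCast, ← zpow_mul]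
    congr 1
    have : ((p - 1 + 2 : ℕ) : ℤ) = (p : ℤ) + 1 := by
      have : p - 1 + 2 = p + 1 := by omega
      rw [this]; push_cast; ring
    rw [this]
  have hsq : ((z : ℂ) / p) ^ k * ((p : ℂ) * z) ^ k = ((z : ℂ) ^ k) ^ 2 := by
    rw [← mul_zpow, sq, ← mul_zpow]
    congr 1
    field_simp
  rw [hpow]
  have : c⁻¹ * c = 1 := inv_mul_cancel₀ hc
  calc c⁻¹ * ((z : ℂ) / p) ^ k * m16nrm_fac p Fs 0 z *
        (c * ((p : ℂ) * z) ^ k * F z *
          (((z : ℂ) ^ k) ^ (p - 1) *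
            ∏ j ∈ (Finset.univ : Finset (ZMod p)).erase 0, m16nrm_fac p Fs j.val z))
      = (c⁻¹ * c) * (((z : ℂ) / p) ^ k * ((p : ℂ) * z) ^ k) * ((z : ℂ) ^ k) ^ (p - 1) *
          (F z * (m16nrm_fac p Fs 0 z *
            ∏ j ∈ (Finset.univ : Finset (ZMod p)).erase 0, m16nrm_fac p Fs j.val z)) := by ring
    _ = _ := by rw [this, hsq]; ring

end Sinv

end Fermat.Agent.M16

namespace Fermat.Agent.M16

open UpperHalfPlane CongruenceSubgroup ModularFormClass Fermat.Agent.S23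
open scoped MatrixGroups ModularForm Manifold

section analytic

variable {p : ℕ} [NeZero p] {k : ℤ} {F Fs : ℍ → ℂ}

theorem m16nrm_fac_eq_smul_slash (k : ℤ) (Fs : ℍ → ℂ) (j : ℕ) :
    m16nrm_fac p Fs j = (p : ℂ) • (Fs ∣[k] ModularForm.heckeMatrix p j) := by
  have hp := m16nrm_p_ne_zero p
  funext z
  rw [Pi.smul_apply, ModularForm.slash_heckeMatrix_apply k (NeZero.ne p), smul_eq_mul,
    ← mul_assoc, mul_inv_cancel₀ hp, one_mul, m16nrm_fac]

theorem m16nrm_fac_mdiff (hFs : MDiff Fs) (j : ℕ) : MDiff (m16nrm_fac p Fs j) := by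
  rw [m16nrm_fac_eq_smul_slash 0 Fs j]
  exact (hFs.slash 0 _).const_smul _

theorem m16nrm_im_heckeMatrix_smul (j : ℕ) (z : ℍ) :
    (ModularForm.heckeMatrix p j • z).im = z.im / p := by
  have h := congrArg Complex.im (ModularForm.coe_heckeMatrix_smul (NeZero.ne p) j z)
  rw [UpperHalfPlane.coe_im] at h
  rw [h, Complex.div_natCast_im]
  simp

theorem m16nrm_fac_bdd (hFs : IsBoundedAtImInfty Fs) (j : ℕ) :
    IsBoundedAtImInfty (m16nrm_fac p Fs j) := by
  rw [isBoundedAtImInfty_iff] at hFs ⊢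
  obtain ⟨M, A, h⟩ := hFs
  refine ⟨M, p * A, fun z hz => h _ ?_⟩
  rw [m16nrm_im_heckeMatrix_smul]
  have hp : (0 : ℝ) < p := Nat.cast_pos.mpr (Nat.pos_of_ne_zero (NeZero.ne p))
  rw [le_div_iff₀ hp]
  linarith [mul_comm (p : ℝ) A]

theorem m16nrm_prod_eq (Fs : ℍ → ℂ) :
    m16nrm_prod p Fs = ∏ j : ZMod p, m16nrm_fac p Fs j.val := by
  funext z
  rw [m16nrm_prod, Finset.prod_apply]

theorem m16nrm_prod_mdiff (hFs : MDiff Fs) : MDiff (m16nrm_prod p Fs) := by
  rw [m16nrm_prod_eq]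
  refine Finset.prod_induction _ (fun G : ℍ → ℂ => MDiff G) (fun a b ha hb => ha.mul hb)
    mdifferentiable_const fun j _ => m16nrm_fac_mdiff hFs _

theorem m16nrm_prod_bdd (hFs : IsBoundedAtImInfty Fs) : IsBoundedAtImInfty (m16nrm_prod p Fs) := by
  rw [m16nrm_prod_eq]
  refine Finset.prod_induction _ (fun G : ℍ → ℂ => IsBoundedAtImInfty G)
    (fun a b ha hb => ha.mul hb) (Filter.const_boundedAtFilter _ (1 : ℂ))
    fun j _ => m16nrm_fac_bdd hFs _

theorem m16nrm_prod_mem_qr (hFs : m16nrm_Good p k Fs) : m16nrm_prod p Fs ∈ qr_ring :=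
  ⟨m16nrm_prod_mdiff hFs.mdiff, m16nrm_prod_T hFs, m16nrm_prod_bdd hFs.bdd⟩

theorem m16nrm_norm_eq (F Fs : ℍ → ℂ) : m16nrm_norm p F Fs = F * m16nrm_prod p Fs := rfl

end analytic

section form

variable {p : ℕ} [Fact p.Prime] {k : ℤ} {c : ℂ} {F Fs : ℍ → ℂ}

/-- **the norm of a Fricke pair is a level-one modular form of weight `k (p + 1)`** -/
theorem m16nrm_exists_form (hk : Even k) (hc : c ≠ 0) (hF : m16nrm_Good p k F)
    (hFs : m16nrm_Good p k Fs) (hW : m16nrm_IsFricke p k c F Fs) :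
    ∃ N : ModularForm 𝒮ℒ (k * ((p : ℤ) + 1)), ⇑N = m16nrm_norm p F Fs := by
  refine cj_mkModularForm ?_ ?_ ?_
  · rw [m16nrm_norm_eq]
    exact hF.mdiff.mul (m16nrm_prod_mdiff hFs.mdiff)
  · apply SlashInvariantForm.slash_action_generators_SL2Z
    · rw [cj_slash_eq_iff]
      intro τ
      rw [m16nrm_norm_S hk hc hFs hW]
      congr 2
      simp [cj_denom, denom, ModularGroup.S]
    · rw [cj_slash_eq_iff]
      intro τ
      rw [modular_T_smul, m16nrm_norm_T hF hFs]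
      have : cj_denom ModularGroup.T τ = 1 := by
        simp [cj_denom, denom, ModularGroup.T]
      rw [this, one_zpow, one_mul]
  · rw [m16nrm_norm_eq]
    exact hF.bdd.mul (m16nrm_prod_bdd hFs.bdd)

end form

end Fermat.Agent.M16
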