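/-
M16 (S16 project), package FRK-core, part 3: the field `trace` of `m16_FrkAPI`.

* `m16frkc_bundle` : a `Good` Fricke pair `(G, Gs)` gives a modular form on `Γ₀(p)`;
* `m16frkc_S_coeff` : the period-`p` expansion of `G ∣ S` is `c⁻¹ p ^ (-k)` times the expansion
  of `Gs`;
* `m16frkc_trace_pair` : `Tr G = G + p ^ (1 - k) U_p (G#)` in terms of `m16_Pair`.
-/
import Mathlib
import Fermat.Agent.M16.FrkCosExp
import Fermat.Agent.M16.NrmNorm
import Fermat.Agent.M16.UbaDefs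
import Fermat.Agent.M16.UbaSeries

set_option autoImplicit false

open UpperHalfPlane CongruenceSubgroup ModularForm Complex Function
open scoped MatrixGroups ModularForm Real Manifold

noncomputable section

namespace Fermat.Agent.M16

local notation "𝕢" => Function.Periodic.qParam

variable {p : ℕ} {k : ℤ}

/-- every element of `SL(2,ℤ)` lies in `Γ₀(p)` or in a coset `Γ₀(p) S T^j`. -/
theorem m16frkc_decomp [Fact p.Prime] (γ : SL(2, ℤ)) :
    γ ∈ Gamma0 p ∨ ∃ j : ℕ, γ * (m16frkc_rep (j : ℤ))⁻¹ ∈ Gamma0 p := by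
  have hp : p.Prime := Fact.out
  have : NeZero p := ⟨hp.ne_zero⟩
  by_cases hγ : γ ∈ Gamma0 p
  · exact Or.inl hγ
  · right
    rw [Gamma0_mem] at hγ
    set c : ZMod p := ((γ 1 0 : ℤ) : ZMod p) with hc
    set d : ZMod p := ((γ 1 1 : ℤ) : ZMod p) with hd
    set t : ZMod p := d * c⁻¹ with ht
    refine ⟨t.val, ?_⟩
    rw [Gamma0_mem]
    have h10 : ((γ * (m16frkc_rep ((t.val : ℕ) : ℤ))⁻¹ : SL(2, ℤ)) 1 0 : ℤ) =
        γ 1 0 * (t.val : ℤ) - γ 1 1 := by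
      rw [Matrix.SpecialLinearGroup.coe_mul, Matrix.mul_apply, Fin.sum_univ_two,
        m16frkc_rep_inv_00, m16frkc_rep_inv_10]
      ring
    rw [h10]
    push_cast
    rw [ZMod.natCast_zmod_val, ← hc, ← hd, ht]
    field_simp
    ring

section pair

variable [NeZero p] {c : ℂ} {G Gs : ℍ → ℂ}

/-- `(G ∣ S)(z) = c⁻¹ p ^ (-k) Gs(z / p)` -/
theorem m16frkc_slash_S_eq (hc : c ≠ 0) (hW : m16nrm_IsFricke p k c G Gs) (z : ℍ) :
    (G ∣[k] ModularGroup.S) z = c⁻¹ * (p : ℂ) ^ (-k) * m16nrm_fac p Gs 0 z := by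
  have hp := m16nrm_p_ne_zero p
  have hz := ne_zero z
  rw [ModularForm.SL_slash_apply, m16nrm_C1 hc hW, m16nrm_fac]
  have hden : denom (ModularGroup.S : SL(2, ℤ)) z = (z : ℂ) := by
    rw [ModularGroup.denom_apply]
    simp [ModularGroup.S]
  rw [hden, div_zpow, zpow_neg, zpow_neg]
  have hzk : (z : ℂ) ^ k ≠ 0 := zpow_ne_zero _ hz
  have hpk : (p : ℂ) ^ k ≠ 0 := zpow_ne_zero _ hp
  field_simp

theorem m16frkc_fac_vadd (j : ℕ) (z : ℍ) :
    m16nrm_fac p Gs 0 ((j : ℝ) +ᵥ z) = m16nrm_fac p Gs j z := by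
  have h : ModularForm.heckeMatrix p 0 • ((j : ℝ) +ᵥ z) = ModularForm.heckeMatrix p j • z := by
    apply UpperHalfPlane.ext
    rw [ModularForm.coe_heckeMatrix_smul (NeZero.ne p),
      ModularForm.coe_heckeMatrix_smul (NeZero.ne p), UpperHalfPlane.coe_vadd]
    push_cast
    ring
  rw [m16nrm_fac, m16nrm_fac, h]

/-- `(G ∣ S T^j)(z) = c⁻¹ p ^ (-k) Gs((z + j) / p)` -/
theorem m16frkc_slash_rep_eq (hc : c ≠ 0) (hW : m16nrm_IsFricke p k c G Gs) (j : ℕ) (z : ℍ) :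
    (G ∣[k] (m16frkc_rep (j : ℤ))) z = c⁻¹ * (p : ℂ) ^ (-k) * m16nrm_fac p Gs j z := by
  rw [m16frkc_slash_rep_apply, m16frkc_slash_S_eq hc hW, Int.cast_natCast, m16frkc_fac_vadd]

theorem m16frkc_slash_bdd [Fact p.Prime] (hc : c ≠ 0) (hG : m16nrm_Good p k G)
    (hGs : m16nrm_Good p k Gs) (hW : m16nrm_IsFricke p k c G Gs) (γ : SL(2, ℤ)) :
    IsBoundedAtImInfty (G ∣[k] γ) := by
  rcases m16frkc_decomp (p := p) γ with h | ⟨j, h⟩
  · rw [hG.slash γ h]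
    exact hG.bdd
  · have h1 : γ = (γ * (m16frkc_rep (j : ℤ))⁻¹) * m16frkc_rep (j : ℤ) := by group
    rw [h1, SlashAction.slash_mul, hG.slash _ h]
    have h2 : G ∣[k] (m16frkc_rep (j : ℤ)) =
        (c⁻¹ * (p : ℂ) ^ (-k)) • m16nrm_fac p Gs j := by
      funext z
      rw [m16frkc_slash_rep_eq hc hW, Pi.smul_apply, smul_eq_mul]
    rw [h2]
    exact (m16nrm_fac_bdd hGs.bdd j).const_smul_left _

/-- a `Good` Fricke pair gives a modular form on `Γ₀(p)`. -/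
theorem m16frkc_bundle [Fact p.Prime] (hc : c ≠ 0) (hG : m16nrm_Good p k G)
    (hGs : m16nrm_Good p k Gs) (hW : m16nrm_IsFricke p k c G Gs) :
    ∃ F : ModularForm (Gamma0 p : Subgroup (GL (Fin 2) ℝ)) k, ⇑F = G := by
  refine ⟨{ toFun := G
            slash_action_eq' := fun g hg => ?_
            holo' := hG.mdiff
            bdd_at_cusps' := fun {c'} hc' => ?_ }, rfl⟩
  · obtain ⟨γ, hγ, rfl⟩ := hg
    have := hG.slash γ hγ
    rwa [ModularForm.SL_slash] at this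
  · have hc'' : IsCusp c' 𝒮ℒ := (Subgroup.IsArithmetic.isCusp_iff_isCusp_SL2Z _).mp hc'
    rw [OnePoint.isBoundedAt_iff_forall_SL2Z hc'']
    intro γ _
    exact m16frkc_slash_bdd hc hG hGs hW γ

omit [NeZero p] in
/-- the expansion of a `Good` function at `∞` -/
theorem m16frkc_good_hasSum (hGs : m16nrm_Good p k Gs) (τ : ℍ) :
    HasSum (fun m : ℕ => (qExpansion (1 : ℝ) Gs).coeff m • 𝕢 (1 : ℝ) τ ^ m) (Gs τ) := by
  have hper : Periodic (Gs ∘ ofComplex) ((1 : ℝ) : ℂ) :=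
    m16frkc_periodic_of_vadd (m16nrm_periodic hGs)
  exact UpperHalfPlane.hasSum_qExpansion (h := 1) one_pos (by simpa using hper)
    hGs.mdiff hGs.bdd τ

theorem m16frkc_q_heckeMatrix_zero (z : ℍ) :
    𝕢 (1 : ℝ) ((ModularForm.heckeMatrix p 0 • z : ℍ) : ℂ) = 𝕢 (p : ℝ) (z : ℂ) := by
  rw [ModularForm.coe_heckeMatrix_smul (NeZero.ne p)]
  unfold Function.Periodic.qParam
  congr 1
  push_cast
  ring

theorem m16frkc_S_good_periodic (hc : c ≠ 0) (hGs : m16nrm_Good p k Gs)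
    (hW : m16nrm_IsFricke p k c G Gs) (z : ℍ) :
    (G ∣[k] ModularGroup.S) ((p : ℝ) +ᵥ z) = (G ∣[k] ModularGroup.S) z := by
  rw [m16frkc_slash_S_eq hc hW, m16frkc_slash_S_eq hc hW, m16frkc_fac_vadd]
  congr 1
  have := m16nrm_fac_add_mul hGs 0 1 z
  simpa using this

/-- the period-`p` expansion of `G ∣ S` is `c⁻¹ p ^ (-k)` times the expansion of `Gs`. -/
theorem m16frkc_S_coeff (hc : c ≠ 0) (hG : m16nrm_Good p k G) (hGs : m16nrm_Good p k Gs)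
    (hW : m16nrm_IsFricke p k c G Gs) (m : ℕ) :
    (qExpansion (p : ℝ) (G ∣[k] ModularGroup.S)).coeff m =
      c⁻¹ * (p : ℂ) ^ (-k) * (qExpansion (1 : ℝ) Gs).coeff m := by
  have hp : (0 : ℝ) < p := Nat.cast_pos.mpr (NeZero.pos p)
  have hper : Periodic ((G ∣[k] ModularGroup.S) ∘ ofComplex) ((p : ℝ) : ℂ) :=
    m16frkc_periodic_of_vadd (m16frkc_S_good_periodic hc hGs hW)
  have hmd : MDiff (G ∣[k] ModularGroup.S) := by
    rw [ModularForm.SL_slash]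
    exact hG.mdiff.slash k _
  have hbdd : IsBoundedAtImInfty (G ∣[k] ModularGroup.S) := by
    have h2 : G ∣[k] ModularGroup.S = (c⁻¹ * (p : ℂ) ^ (-k)) • m16nrm_fac p Gs 0 := by
      funext z
      rw [m16frkc_slash_S_eq hc hW, Pi.smul_apply, smul_eq_mul]
    rw [h2]
    exact (m16nrm_fac_bdd hGs.bdd 0).const_smul_left _
  have han : AnalyticAt ℂ (cuspFunction (p : ℝ) (G ∣[k] ModularGroup.S)) 0 :=
    UpperHalfPlane.analyticAt_cuspFunction_zero hp hper hmd hbdd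
  have key : ∀ τ : ℍ, HasSum (fun n : ℕ =>
      (c⁻¹ * (p : ℂ) ^ (-k) * (qExpansion (1 : ℝ) Gs).coeff n) • 𝕢 (p : ℝ) (τ : ℂ) ^ n)
      ((G ∣[k] ModularGroup.S) τ) := by
    intro τ
    rw [m16frkc_slash_S_eq hc hW, m16nrm_fac]
    have h1 : HasSum (fun n : ℕ => (qExpansion (1 : ℝ) Gs).coeff n • 𝕢 (p : ℝ) (τ : ℂ) ^ n)
        (Gs (ModularForm.heckeMatrix p 0 • τ)) := by
      have := m16frkc_good_hasSum hGs (ModularForm.heckeMatrix p 0 • τ)
      rwa [m16frkc_q_heckeMatrix_zero] at this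
    have h2 := h1.mul_left (c⁻¹ * (p : ℂ) ^ (-k))
    have h3 : (fun n : ℕ =>
        (c⁻¹ * (p : ℂ) ^ (-k) * (qExpansion (1 : ℝ) Gs).coeff n) • 𝕢 (p : ℝ) (τ : ℂ) ^ n) =
        fun n : ℕ => c⁻¹ * (p : ℂ) ^ (-k) *
          ((qExpansion (1 : ℝ) Gs).coeff n • 𝕢 (p : ℝ) (τ : ℂ) ^ n) := by
      funext n
      simp only [smul_eq_mul]
      ring
    rw [h3]
    exact h2
  let _ : FunLike (ℍ → ℂ) ℍ ℂ := ⟨fun f => f, fun _ _ h => h⟩
  exact (UpperHalfPlane.qExpansion_coeff_unique (F := ℍ → ℂ) (h := (p : ℝ))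
    (G ∣[k] ModularGroup.S)
    (c := fun m => c⁻¹ * (p : ℂ) ^ (-k) * (qExpansion (1 : ℝ) Gs).coeff m) hp han key m).symm

end pair

/-- **field `trace` of `m16_FrkAPI`**: `Tr G = G + p ^ (1 - k) U_p (G#)`. -/
theorem m16frkc_trace_pair [Fact p.Prime] (k : ℤ) (a b : PowerSeries ℂ)
    (h : m16_Pair p k a b) :
    ∃ T : ModularForm 𝒮ℒ k,
      qExpansion 1 (T : ℍ → ℂ) = a + ((p : ℂ) ^ (1 - k)) • m16_U p b := by
  obtain ⟨G, Gs, hG, hGs, hW, rfl, rfl⟩ := h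
  obtain ⟨F, hF⟩ := m16frkc_bundle one_ne_zero hG hGs hW
  refine ⟨ModularForm.trace 𝒮ℒ F, ?_⟩
  ext n
  have hp : (p : ℂ) ≠ 0 := m16nrm_p_ne_zero p
  rw [m16frkc_trace_coeff F n, hF, m16frkc_S_coeff one_ne_zero hG hGs hW, map_add,
    PowerSeries.coeff_smul, m16_U_coeff, smul_eq_mul]
  congr 1
  rw [inv_one, one_mul, ← mul_assoc]
  congr 1
  rw [sub_eq_add_neg, zpow_add₀ hp, zpow_one]

end Fermat.Agent.M16
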