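/-
M16 (S16 project), packages EIS + FRK: the interface `m16_FrkAPI p` for every prime `p`.

* `m16frk_api p : m16_FrkAPI p`, from the field `trace` (`m16frkc_trace_pair`, FrkCosTrace.lean)
  and helper8's `m16eisw_api_of_trace` (EisW.lean: fields `lev1`, `lev1'`, `cusp`, `eis`).
-/
import Fermat.Agent.M16.FrkCosTrace
import Fermat.Agent.M16.EisW

set_option autoImplicit false

namespace Fermat.Agent.M16

/-- **the interface of the packages EIS + FRK** -/
theorem m16frk_api (p : ℕ) [Fact p.Prime] : m16_FrkAPI p :=
  m16eisw_api_of_trace p (fun k a b h => m16frkc_trace_pair k a b h)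

end Fermat.Agent.M16
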