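/-
S16, package H1 (helper9): the constant term of `j^m` (`m ≥ 1`) is even.

`j = q⁻¹ * jNum`, `jNum = E4^3 * (η-unit)⁻¹ = (1 + 2 G)^3 * h^2` with `h = (etaProd^12)⁻¹`, and
for every integral power series `h` the coefficient of `q^m` in `h^(2m)` is even
(`m * [q^m] h^(2m) = [q^(m-1)] (h^(2m))' = 2 m [q^(m-1)] h^(2m-1) h'`).
-/
import Mathlib
import Fermat.Prelude.Def_ModularCurve_X0ModL

set_option autoImplicit false

namespace Fermat.Agent.M16

open ModularCurve PowerSeries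

/-- the coefficient of `q^m` in `h^(2m)` is even, `m ≥ 1`. -/
theorem m16h1_coeff_pow_two_mul (h : PowerSeries ℤ) (m : ℕ) (hm : 1 ≤ m) :
    ∃ c : ℤ, PowerSeries.coeff m (h ^ (2 * m)) = 2 * c := by
  obtain ⟨k, rfl⟩ : ∃ k, m = k + 1 := ⟨m - 1, by omega⟩
  have h1 := PowerSeries.coeff_derivative (R := ℤ) (h ^ (2 * (k + 1))) k
  have h2 : PowerSeries.derivative ℤ (h ^ (2 * (k + 1)))
      = ((2 * (k + 1) : ℕ) : PowerSeries ℤ) * (h ^ (2 * (k + 1) - 1) * PowerSeries.derivative ℤ h) := by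
    rw [Derivation.leibniz_pow]
    simp only [nsmul_eq_mul, smul_eq_mul]
  rw [h2] at h1
  have h3 : ((2 * (k + 1) : ℕ) : PowerSeries ℤ) = PowerSeries.C ((2 * (k + 1) : ℕ) : ℤ) := by
    simp
  rw [h3, PowerSeries.coeff_C_mul] at h1
  refine ⟨PowerSeries.coeff k (h ^ (2 * (k + 1) - 1) * PowerSeries.derivative ℤ h), ?_⟩
  have hk : ((k : ℤ) + 1) ≠ 0 := by positivity
  have h4 : PowerSeries.coeff (k + 1) (h ^ (2 * (k + 1))) * ((k : ℤ) + 1)
      = (2 * PowerSeries.coeff k (h ^ (2 * (k + 1) - 1) * PowerSeries.derivative ℤ h))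
        * ((k : ℤ) + 1) := by
    rw [← h1]
    push_cast
    ring
  exact mul_right_cancel₀ hk h4

/-- `E4 = 1 + 2 G`. -/
theorem m16h1_eisenstein4_eq :
    ∃ G : PowerSeries ℤ, eisenstein4 = 1 + 2 * G := by
  refine ⟨PowerSeries.mk fun n => if n = 0 then 0 else 120 * ∑ d ∈ n.divisors, (d : ℤ) ^ 3, ?_⟩
  ext n
  have h2 : (2 : PowerSeries ℤ) = PowerSeries.C (2 : ℤ) := by simp
  rw [eisenstein4, map_add, h2, PowerSeries.coeff_C_mul, PowerSeries.coeff_mk, PowerSeries.coeff_mk,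
    PowerSeries.coeff_one]
  split_ifs
  · ring
  · ring

theorem m16h1_one_add_two_pow (G : PowerSeries ℤ) (k : ℕ) :
    ∃ G' : PowerSeries ℤ, (1 + 2 * G) ^ k = 1 + 2 * G' := by
  induction k with
  | zero => exact ⟨0, by simp⟩
  | succ k ih =>
    obtain ⟨G', hG'⟩ := ih
    refine ⟨G' + G + 2 * G' * G, ?_⟩
    rw [pow_succ, hG']
    ring

/-- the inverse of the `η`-unit is a square. -/
theorem m16h1_etaInv_eq_sq : ∃ h : PowerSeries ℤ, dedekindEtaUnitInv = h ^ 2 := by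
  have hc : PowerSeries.constantCoeff (etaProd ^ 12) = ((1 : ℤˣ) : ℤ) := by
    rw [map_pow, constantCoeff_etaProd, one_pow]
    rfl
  refine ⟨(etaProd ^ 12).invOfUnit 1, ?_⟩
  have h1 : etaProd ^ 12 * (etaProd ^ 12).invOfUnit 1 = 1 :=
    PowerSeries.mul_invOfUnit _ _ hc
  have h2 : dedekindEtaUnit * ((etaProd ^ 12).invOfUnit 1) ^ 2 = 1 := by
    have : dedekindEtaUnit * ((etaProd ^ 12).invOfUnit 1) ^ 2
        = (etaProd ^ 12 * (etaProd ^ 12).invOfUnit 1) ^ 2 := by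
      rw [dedekindEtaUnit]
      ring
    rw [this, h1, one_pow]
  calc dedekindEtaUnitInv
      = dedekindEtaUnitInv * (dedekindEtaUnit * ((etaProd ^ 12).invOfUnit 1) ^ 2) := by
        rw [h2, mul_one]
    _ = (dedekindEtaUnit * dedekindEtaUnitInv) * ((etaProd ^ 12).invOfUnit 1) ^ 2 := by ring
    _ = ((etaProd ^ 12).invOfUnit 1) ^ 2 := by rw [dedekindEtaUnit_mul_inv, one_mul]

/-- the coefficient of `q^m` in `jNum^m` is even, `m ≥ 1`. -/
theorem m16h1_coeff_jNum_pow (m : ℕ) (hm : 1 ≤ m) :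
    ∃ c : ℤ, PowerSeries.coeff m (jNum ^ m) = 2 * c := by
  obtain ⟨G, hG⟩ := m16h1_eisenstein4_eq
  obtain ⟨h, hh⟩ := m16h1_etaInv_eq_sq
  obtain ⟨G', hG'⟩ := m16h1_one_add_two_pow G (3 * m)
  obtain ⟨c, hc⟩ := m16h1_coeff_pow_two_mul h m hm
  have e : jNum ^ m = h ^ (2 * m) + PowerSeries.C (2 : ℤ) * (G' * h ^ (2 * m)) := by
    have h2 : (2 : PowerSeries ℤ) = PowerSeries.C (2 : ℤ) := by simp
    rw [← h2, jNum, hG, hh, mul_pow, ← pow_mul, ← pow_mul, hG']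
    ring
  refine ⟨c + PowerSeries.coeff m (G' * h ^ (2 * m)), ?_⟩
  rw [e, map_add, PowerSeries.coeff_C_mul, hc]
  ring

/-- the constant term of `j^m` is even, `m ≥ 1`. -/
theorem m16h1_CT_jq_pow (R : Type*) [CommRing R] (m : ℕ) (hm : 1 ≤ m) :
    ∃ c : ℤ, ((jqModC R) ^ m).coeff 0 = 2 * (c : R) := by
  obtain ⟨c, hc⟩ := m16h1_coeff_jNum_pow m hm
  refine ⟨c, ?_⟩
  rw [jqModC_pow]
  have h0 : (0 : ℤ) = (m : ℤ) + (-(m : ℤ)) := by ring
  rw [h0, HahnSeries.coeff_single_mul_add, one_mul, HahnSeries.ofPowerSeries_apply_coeff,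
    ← map_pow, PowerSeries.coeff_map, hc]
  simp

/-- the constant term of `j(q^d)^m` is even, `m ≥ 1`. -/
theorem m16h1_CT_jd_pow (R : Type*) [CommRing R] (d : ℕ) [NeZero d] (m : ℕ) (hm : 1 ≤ m) :
    ∃ c : ℤ, ((qExpand R d (jqModC R)) ^ m).coeff 0 = 2 * (c : R) := by
  obtain ⟨c, hc⟩ := m16h1_CT_jq_pow R m hm
  refine ⟨c, ?_⟩
  rw [← map_pow]
  have h0 : (0 : ℤ) = (d : ℤ) * 0 := by ring
  rw [h0, qExpand_coeff_mul, hc]

end Fermat.Agent.M16
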