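/-
S16, package H1 (helper9): the level-one principle.

An element `b` of `ana_ring p` which is invariant under `S` and `T` (hence under `SL(2,ℤ)`) and
whose `q_p`-expansion has coefficients in a subring `R ⊂ ℂ` is `P(J)` with `P ∈ R[X]`; hence its
values at points with `J ∈ R` lie in `R`, and `b(i) - CT(b) ∈ 2 R`.
-/
import Mathlib
import Fermat.Agent.M28.PaMain
import Fermat.Agent.M28.PfQprin
import Fermat.Agent.M16.H1Par

set_option autoImplicit false
set_option linter.unusedSectionVars false

noncomputable section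

namespace Fermat.Agent.M16

open UpperHalfPlane hiding I
open Filter Function Topology ModularForm Complex ModularCurve
open scoped Manifold MatrixGroups ModularForm Real CongruenceSubgroup
open CongruenceSubgroup
open Fermat.Agent.S23 Fermat.Agent.S24 Fermat.Agent.M28

variable (p : ℕ) [NeZero p]

/-- invariance under `S` and `T` implies invariance under `SL(2,ℤ)`. -/
theorem m16h1_inv_of_ST (b : ana_ring p) (hS : ana_comp p ModularGroup.S b = b)
    (hT : ana_comp p ModularGroup.T b = b) (g : SL(2, ℤ)) : ana_comp p g b = b := by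
  let H : Subgroup SL(2, ℤ) :=
    { carrier := {g | ana_comp p g b = b}
      mul_mem' := by
        intro x y hx hy
        show ana_comp p (x * y) b = b
        rw [ana_comp_mul, hx, hy]
      one_mem' := ana_comp_one p b
      inv_mem' := by
        intro x hx
        show ana_comp p x⁻¹ b = b
        have h := congrArg (ana_comp p x⁻¹) hx
        rw [← ana_comp_mul, mul_inv_cancel, ana_comp_one] at h
        exact h.symm }
  have hle : Subgroup.closure ({ModularGroup.S, ModularGroup.T} : Set SL(2, ℤ)) ≤ H := by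
    rw [Subgroup.closure_le]
    intro x hx
    rcases hx with rfl | rfl
    · exact hS
    · exact hT
  have hg : g ∈ Subgroup.closure ({ModularGroup.S, ModularGroup.T} : Set SL(2, ℤ)) := by
    rw [_root_.SpecialLinearGroup.SL2Z_generators]
    exact Subgroup.mem_top g
  exact hle hg

/-- a Laurent series with coefficients in a subring comes from the subring. -/
theorem m16h1_mem_int_of_coeff (R : Subring ℂ) (x : LaurentSeries ℂ)
    (h : ∀ n, x.coeff n ∈ R) : x ∈ m28pf_int R.subtype := by
  refine ⟨⟨fun n => ⟨x.coeff n, h n⟩, ?_⟩, ?_⟩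
  · refine x.isPWO_support.mono ?_
    intro n hn
    rw [Function.mem_support] at hn
    rw [HahnSeries.mem_support]
    intro h0
    apply hn
    exact Subtype.ext h0
  · ext n
    rfl

theorem m16h1_coeff_of_mem_int (R : Subring ℂ) {x : LaurentSeries ℂ}
    (h : x ∈ m28pf_int R.subtype) (n : ℤ) : x.coeff n ∈ R := by
  obtain ⟨y, hy⟩ := m28pf_coeff_mem h n
  rw [← hy]
  exact y.2

/-- the subring of Laurent series with coefficients in `R`. -/
def m16h1_LR (R : Subring ℂ) : Subring (LaurentSeries ℂ) := m28pf_int R.subtype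

theorem m16h1_mem_LR_iff (R : Subring ℂ) (x : LaurentSeries ℂ) :
    x ∈ m16h1_LR R ↔ ∀ n, x.coeff n ∈ R :=
  ⟨fun h n => m16h1_coeff_of_mem_int R h n, fun h => m16h1_mem_int_of_coeff R x h⟩

/-- **the level-one principle**: an invariant with expansion over `R` is `P(J)`, `P ∈ R[X]`. -/
theorem m16h1_level_one_poly (R : Subring ℂ) (b : ana_ring p)
    (hb : ∀ g : SL(2, ℤ), ana_comp p g b = b) (hR : ana_qexp p b ∈ m16h1_LR R) :
    ∃ P : Polynomial ℂ, (∀ i, P.coeff i ∈ R) ∧ (∀ τ : ℍ, (b : ℍ → ℂ) τ = P.eval (ord_J τ)) ∧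
      ana_qexp p b = P.eval₂ HahnSeries.C (qExpand ℂ p (jqModC ℂ)) := by
  obtain ⟨P, hP⟩ := m28pa_hinv p b (fun g => hb g⁻¹)
  have hq : ana_qexp p b = P.eval₂ HahnSeries.C (qExpand ℂ p (jqModC ℂ)) := by
    rw [hP, Polynomial.hom_eval₂, m28pa_E_J]
    congr 1
    ext c
    exact congrArg (fun x : LaurentSeries ℂ => x.coeff _) (ana_qexp_const p c)
  refine ⟨P, fun i => ?_, fun τ => ?_, hq⟩
  · have h := m28pf_qprinciple R.subtype p P (by rw [← hq]; exact hR) i
    obtain ⟨y, hy⟩ := h
    rw [← hy]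
    exact y.2
  · rw [hP, m28pa_eval₂_apply]

/-- values of an invariant with expansion over `R`, at points where `J ∈ R`. -/
theorem m16h1_level_one_value (R : Subring ℂ) (b : ana_ring p)
    (hb : ∀ g : SL(2, ℤ), ana_comp p g b = b) (hR : ana_qexp p b ∈ m16h1_LR R) (τ : ℍ)
    (hτ : ord_J τ ∈ R) : (b : ℍ → ℂ) τ ∈ R := by
  obtain ⟨P, hP, hval, -⟩ := m16h1_level_one_poly p R b hb hR
  rw [hval, Polynomial.eval_eq_sum_range]
  exact R.sum_mem fun i _ => R.mul_mem (hP i) (R.pow_mem hτ i)

theorem m16h1_1728_mem (R : Subring ℂ) : (1728 : ℂ) ∈ R := by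
  have h := natCast_mem R 1728
  exact_mod_cast h

/-- the value at `i` of an invariant with expansion over `R` is in `R`. -/
theorem m16h1_level_one_I (R : Subring ℂ) (b : ana_ring p)
    (hb : ∀ g : SL(2, ℤ), ana_comp p g b = b) (hR : ana_qexp p b ∈ m16h1_LR R) :
    (b : ℍ → ℂ) UpperHalfPlane.I ∈ R :=
  m16h1_level_one_value p R b hb hR _ (by rw [ord_J_I]; exact m16h1_1728_mem R)

/-- **value at `i` and constant term agree modulo `2 R`**. -/
theorem m16h1_level_one_CT (R : Subring ℂ) (b : ana_ring p)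
    (hb : ∀ g : SL(2, ℤ), ana_comp p g b = b) (hR : ana_qexp p b ∈ m16h1_LR R) :
    ∃ y ∈ R, (b : ℍ → ℂ) UpperHalfPlane.I - (ana_qexp p b).coeff 0 = 2 * y := by
  obtain ⟨P, hP, hval, hq⟩ := m16h1_level_one_poly p R b hb hR
  have hterm : ∀ i : ℕ, ∃ y ∈ R,
      P.coeff i * (1728 : ℂ) ^ i
        - (HahnSeries.C (P.coeff i) * (qExpand ℂ p (jqModC ℂ)) ^ i).coeff 0 = 2 * y := by
    intro i
    rcases Nat.eq_zero_or_pos i with rfl | hi
    · refine ⟨0, R.zero_mem, ?_⟩
      rw [pow_zero, pow_zero, mul_one, mul_one, HahnSeries.C_apply, HahnSeries.coeff_single_same]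
      ring
    · obtain ⟨c, hc⟩ := m16h1_CT_jd_pow ℂ p i hi
      refine ⟨P.coeff i * (864 * (1728 : ℂ) ^ (i - 1) - (c : ℂ)), ?_, ?_⟩
      · refine R.mul_mem (hP i) (R.sub_mem (R.mul_mem ?_ (R.pow_mem (m16h1_1728_mem R) _))
          (intCast_mem R c))
        have h := natCast_mem R 864
        exact_mod_cast h
      · rw [HahnSeries.C_apply, HahnSeries.coeff_single_zero_mul, hc]
        have h1 : (1728 : ℂ) ^ i = 1728 * 1728 ^ (i - 1) := by
          rw [← pow_succ']
          congr 1
          omega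
        rw [h1]
        ring
  choose y hyR hy using hterm
  refine ⟨∑ i ∈ Finset.range (P.natDegree + 1), y i, R.sum_mem fun i _ => hyR i, ?_⟩
  rw [hval, ord_J_I, hq, Polynomial.eval_eq_sum_range, Polynomial.eval₂_eq_sum_range,
    HahnSeries.coeff_sum, ← Finset.sum_sub_distrib, Finset.mul_sum]
  exact Finset.sum_congr rfl fun i _ => hy i

end Fermat.Agent.M16

end
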