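/-
S16, package H1 (helper9): the ring `m16h1_Z` of `2`-integral algebraic numbers
(`x ∈ ℂ` with `n * x` an algebraic integer for some odd `n`).

* it is a subring of `ℂ` containing the algebraic integers and the rationals of odd denominator;
* `m16h1_Z ∩ ℚ = ℤ_(2)` (`m16h1_Z_rat_odd`);
* it is integrally closed in `ℂ` (`m16h1_Z_root`);
* it is stable under complex conjugation;
* Gauss: if `x + y i ∈ m16h1_Z` with `x y : ℚ` then `x ∈ ℤ_(2)` (`m16h1_gauss`).
-/
import Mathlib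

set_option autoImplicit false

namespace Fermat.Agent.M16

open Polynomial

theorem m16h1_isIntegral_natCast (n : ℕ) : IsIntegral ℤ (n : ℂ) := by
  have h := isIntegral_algebraMap (R := ℤ) (A := ℂ) (x := (n : ℤ))
  simpa using h

/-- the ring of `2`-integral algebraic numbers. -/
def m16h1_Z : Subring ℂ where
  carrier := {x | ∃ n : ℕ, Odd n ∧ IsIntegral ℤ ((n : ℂ) * x)}
  mul_mem' := by
    rintro x y ⟨n, hn, hx⟩ ⟨m, hm, hy⟩
    refine ⟨n * m, hn.mul hm, ?_⟩
    have h := hx.mul hy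
    have e : ((n * m : ℕ) : ℂ) * (x * y) = (n : ℂ) * x * ((m : ℂ) * y) := by
      push_cast; ring
    rw [e]
    exact h
  one_mem' := ⟨1, odd_one, by simpa using (isIntegral_one : IsIntegral ℤ (1 : ℂ))⟩
  add_mem' := by
    rintro x y ⟨n, hn, hx⟩ ⟨m, hm, hy⟩
    refine ⟨n * m, hn.mul hm, ?_⟩
    have h := ((m16h1_isIntegral_natCast m).mul hx).add ((m16h1_isIntegral_natCast n).mul hy)
    have e : ((n * m : ℕ) : ℂ) * (x + y) = (m : ℂ) * ((n : ℂ) * x) + (n : ℂ) * ((m : ℂ) * y) := by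
      push_cast; ring
    rw [e]
    exact h
  zero_mem' := ⟨1, odd_one, by simpa using (isIntegral_zero : IsIntegral ℤ (0 : ℂ))⟩
  neg_mem' := by
    rintro x ⟨n, hn, hx⟩
    refine ⟨n, hn, ?_⟩
    have h := hx.neg
    rw [mul_neg]
    exact h

theorem m16h1_mem_Z_iff {x : ℂ} :
    x ∈ m16h1_Z ↔ ∃ n : ℕ, Odd n ∧ IsIntegral ℤ ((n : ℂ) * x) := Iff.rfl

theorem m16h1_Z_of_isIntegral {x : ℂ} (hx : IsIntegral ℤ x) : x ∈ m16h1_Z :=
  ⟨1, odd_one, by simpa using hx⟩

theorem m16h1_Z_intCast (a : ℤ) : (a : ℂ) ∈ m16h1_Z := intCast_mem m16h1_Z a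

theorem m16h1_Z_natCast (a : ℕ) : (a : ℂ) ∈ m16h1_Z := natCast_mem m16h1_Z a

/-- rationals of odd denominator are in `m16h1_Z`. -/
theorem m16h1_Z_rat (r : ℚ) (h : Odd r.den) : (r : ℂ) ∈ m16h1_Z := by
  refine ⟨r.den, h, ?_⟩
  have e : ((r.den : ℕ) : ℂ) * (r : ℂ) = ((r.num : ℤ) : ℂ) := by
    have h1 : ((r.den : ℚ)) * r = (r.num : ℚ) := by
      rw [mul_comm]
      exact Rat.mul_den_eq_num r
    exact_mod_cast h1
  rw [e]
  have h := isIntegral_algebraMap (R := ℤ) (A := ℂ) (x := r.num)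
  simpa using h

/-- a rational number in `m16h1_Z` has odd denominator. -/
theorem m16h1_Z_rat_odd (r : ℚ) (h : (r : ℂ) ∈ m16h1_Z) : Odd r.den := by
  obtain ⟨n, hn, hint⟩ := h
  have h1 : IsIntegral ℤ (((n : ℚ) * r : ℚ)) := by
    have e : ((n : ℂ) * (r : ℂ)) = algebraMap ℚ ℂ ((n : ℚ) * r) := by
      simp
    rw [e] at hint
    exact (isIntegral_algebraMap_iff (algebraMap ℚ ℂ).injective).mp hint
  obtain ⟨m, hm⟩ := IsIntegrallyClosed.isIntegral_iff.mp h1
  have hn0 : (n : ℚ) ≠ 0 := by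
    have : n ≠ 0 := fun h0 => by
      rw [h0] at hn
      exact absurd hn (by decide)
    exact_mod_cast this
  have hr : r = (m : ℚ) / (n : ℚ) := by
    rw [eq_div_iff hn0, mul_comm]
    rw [← hm]
    simp
  have hdvd : r.den ∣ n := by
    have h2 : ((r.den : ℕ) : ℤ) ∣ (n : ℤ) := by
      have h3 := Rat.den_dvd m (n : ℤ)
      rw [Rat.divInt_eq_div] at h3
      rw [hr]
      exact_mod_cast h3
    exact_mod_cast h2
  exact hn.of_dvd_nat hdvd

theorem m16h1_Z_exists_common {ι : Type*} (s : Finset ι) (f : ι → ℂ)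
    (hf : ∀ i ∈ s, f i ∈ m16h1_Z) :
    ∃ n : ℕ, Odd n ∧ ∀ i ∈ s, IsIntegral ℤ ((n : ℂ) * f i) := by
  classical
  induction s using Finset.induction_on with
  | empty => exact ⟨1, odd_one, fun i hi => absurd hi (Finset.notMem_empty i)⟩
  | insert a s ha ih =>
    obtain ⟨n, hn, hs⟩ := ih (fun i hi => hf i (Finset.mem_insert_of_mem hi))
    obtain ⟨m, hm, hma⟩ := hf a (Finset.mem_insert_self a s)
    refine ⟨n * m, hn.mul hm, fun i hi => ?_⟩
    rcases Finset.mem_insert.mp hi with rfl | hi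
    · have e : ((n * m : ℕ) : ℂ) * f i = (n : ℂ) * ((m : ℂ) * f i) := by push_cast; ring
      rw [e]
      exact (m16h1_isIntegral_natCast n).mul hma
    · have e : ((n * m : ℕ) : ℂ) * f i = (m : ℂ) * ((n : ℂ) * f i) := by push_cast; ring
      rw [e]
      exact (m16h1_isIntegral_natCast m).mul (hs i hi)

/-- `m16h1_Z` is integrally closed in `ℂ`. -/
theorem m16h1_Z_root (P : ℂ[X]) (hP : P.Monic) (hc : ∀ i, P.coeff i ∈ m16h1_Z) (x : ℂ)
    (hx : P.eval x = 0) : x ∈ m16h1_Z := by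
  obtain ⟨n, hn, hint⟩ := m16h1_Z_exists_common (Finset.range (P.natDegree + 1))
    (fun i => P.coeff i) (fun i _ => hc i)
  refine ⟨n, hn, ?_⟩
  have hQ : ∀ i, IsIntegral ℤ ((scaleRoots P (n : ℂ)).coeff i) := by
    intro i
    rw [coeff_scaleRoots]
    rcases lt_trichotomy i P.natDegree with h | h | h
    · have h1 : P.natDegree - i = (P.natDegree - i - 1) + 1 := by omega
      rw [h1, pow_succ]
      have e : P.coeff i * ((n : ℂ) ^ (P.natDegree - i - 1) * (n : ℂ))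
          = (n : ℂ) ^ (P.natDegree - i - 1) * ((n : ℂ) * P.coeff i) := by ring
      rw [e]
      exact ((m16h1_isIntegral_natCast n).pow _).mul
        (hint i (Finset.mem_range.mpr (by omega)))
    · rw [h, Nat.sub_self, pow_zero, mul_one]
      have : P.coeff P.natDegree = 1 := hP
      rw [this]
      exact isIntegral_one
    · rw [coeff_eq_zero_of_natDegree_lt h, zero_mul]
      exact isIntegral_zero
  have hlift : scaleRoots P (n : ℂ) ∈ Polynomial.lifts (algebraMap (integralClosure ℤ ℂ) ℂ) := by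
    rw [Polynomial.lifts_iff_coeff_lifts]
    intro i
    exact ⟨⟨_, hQ i⟩, rfl⟩
  have hmonic : (scaleRoots P (n : ℂ)).Monic := (monic_scaleRoots_iff _).mpr hP
  obtain ⟨q, hq, -, hqm⟩ := Polynomial.lifts_and_degree_eq_and_monic hlift hmonic
  have hroot : (scaleRoots P (n : ℂ)).eval ((n : ℂ) * x) = 0 := by
    have h := scaleRoots_eval₂_eq_zero (p := P) (f := RingHom.id ℂ) (r := x) (s := (n : ℂ))
      (by simpa using hx)
    simpa using h
  have h1 : IsIntegral (integralClosure ℤ ℂ) ((n : ℂ) * x) := by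
    refine ⟨q, hqm, ?_⟩
    rw [← Polynomial.eval_map, hq]
    exact hroot
  exact isIntegral_trans _ h1

/-- `m16h1_Z` is stable under complex conjugation. -/
theorem m16h1_Z_conj {x : ℂ} (hx : x ∈ m16h1_Z) : (starRingEnd ℂ) x ∈ m16h1_Z := by
  obtain ⟨n, hn, hint⟩ := hx
  refine ⟨n, hn, ?_⟩
  have h := map_isIntegral_int (starRingEnd ℂ) hint
  simpa using h

theorem m16h1_odd_den_of_eq_div (x : ℚ) (a : ℤ) (n : ℕ) (hn : Odd n) (h : x = (a : ℚ) / (n : ℚ)) :
    Odd x.den := by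
  have hdvd : x.den ∣ n := by
    have h2 : ((x.den : ℕ) : ℤ) ∣ (n : ℤ) := by
      have h3 := Rat.den_dvd a (n : ℤ)
      rw [Rat.divInt_eq_div] at h3
      rw [h]
      exact_mod_cast h3
    exact_mod_cast h2
  exact hn.of_dvd_nat hdvd

theorem m16h1_sq_add_sq_mod_four (u v : ZMod 4) (h : u ^ 2 + v ^ 2 = 0) : v = 0 ∨ v = 2 := by
  revert u v
  decide

theorem m16h1_gauss_aux (x y : ℚ) (h1 : Odd (2 * x).den) (h2 : Odd (x ^ 2 + y ^ 2).den) :
    Odd x.den := by
  set n : ℕ := (2 * x).den with hn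
  set a : ℤ := (2 * x).num with ha
  set m : ℕ := (x ^ 2 + y ^ 2).den with hm
  set b : ℤ := (x ^ 2 + y ^ 2).num with hb
  have hn0 : (n : ℚ) ≠ 0 := by
    have : n ≠ 0 := (2 * x).den_ne_zero
    exact_mod_cast this
  have hm0 : (m : ℚ) ≠ 0 := by
    have : m ≠ 0 := (x ^ 2 + y ^ 2).den_ne_zero
    exact_mod_cast this
  have e1 : 2 * x * (n : ℚ) = (a : ℚ) := Rat.mul_den_eq_num (2 * x)
  have e2 : (x ^ 2 + y ^ 2) * (m : ℚ) = (b : ℚ) := Rat.mul_den_eq_num (x ^ 2 + y ^ 2)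
  -- `Y = 2 n m y` has integral square
  have hY2 : (2 * n * m * y) ^ 2 = ((4 * n ^ 2 * m * b - m ^ 2 * a ^ 2 : ℤ) : ℚ) := by
    push_cast
    rw [← e1, ← e2]
    ring
  have hYint : IsIntegral ℤ (2 * (n : ℚ) * m * y) := by
    refine IsIntegral.of_pow (n := 2) (by norm_num) ?_
    rw [hY2]
    exact isIntegral_algebraMap (R := ℤ) (A := ℚ)
  obtain ⟨c, hc⟩ := IsIntegrallyClosed.isIntegral_iff.mp hYint
  have hc' : ((c : ℤ) : ℚ) = 2 * (n : ℚ) * m * y := by
    rw [← hc]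
    simp
  have hcz : c ^ 2 + (m * a) ^ 2 = 4 * (n ^ 2 * m * b) := by
    have : ((c ^ 2 + (m * a) ^ 2 : ℤ) : ℚ) = ((4 * (n ^ 2 * m * b) : ℤ) : ℚ) := by
      push_cast
      rw [hc']
      have := hY2
      push_cast at this
      linear_combination this
    exact_mod_cast this
  have hmod : ((c : ZMod 4)) ^ 2 + (((m : ℤ) * a : ℤ) : ZMod 4) ^ 2 = 0 := by
    have h : ((c ^ 2 + (m * a) ^ 2 : ℤ) : ZMod 4) = ((4 * (n ^ 2 * m * b) : ℤ) : ZMod 4) := by
      rw [hcz]
    push_cast at h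
    have h4 : (4 : ZMod 4) = 0 := by decide
    rw [h4, zero_mul] at h
    push_cast
    exact h
  have heven : Even ((m : ℤ) * a) := by
    rcases m16h1_sq_add_sq_mod_four _ _ hmod with h | h
    · have := (ZMod.intCast_zmod_eq_zero_iff_dvd _ 4).mp h
      have h2 : (2 : ℤ) ∣ (m : ℤ) * a := dvd_trans (by norm_num) this
      exact even_iff_two_dvd.mpr h2
    · have h' : ((((m : ℤ) * a - 2 : ℤ)) : ZMod 4) = 0 := by
        push_cast
        push_cast at h
        rw [h]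
        ring
      have := (ZMod.intCast_zmod_eq_zero_iff_dvd _ 4).mp h'
      have h2 : (2 : ℤ) ∣ (m : ℤ) * a - 2 := dvd_trans (by norm_num) this
      have h3 : (2 : ℤ) ∣ (m : ℤ) * a := by
        have := dvd_add h2 (dvd_refl (2 : ℤ))
        simpa using this
      exact even_iff_two_dvd.mpr h3
  have hmodd : Odd (m : ℤ) := by exact_mod_cast h2
  have ha_even : Even a := by
    rcases Int.even_mul.mp heven with h | h
    · exact absurd h (Int.not_even_iff_odd.mpr hmodd)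
    · exact h
  obtain ⟨a', ha'⟩ := ha_even
  refine m16h1_odd_den_of_eq_div x a' n h1 ?_
  rw [eq_div_iff hn0]
  have : 2 * x * (n : ℚ) = 2 * (a' : ℚ) := by
    rw [e1, ha']
    push_cast
    ring
  linarith

/-- **Gauss**: if `x + y i` is `2`-integral with `x y` rational, then `x` is `2`-integral. -/
theorem m16h1_gauss (x y : ℚ) (h : (x : ℂ) + (y : ℂ) * Complex.I ∈ m16h1_Z) : Odd x.den := by
  have hc := m16h1_Z_conj h
  have hconj : (starRingEnd ℂ) ((x : ℂ) + (y : ℂ) * Complex.I) = (x : ℂ) - (y : ℂ) * Complex.I := by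
    simp [sub_eq_add_neg]
  rw [hconj] at hc
  have hs : (((2 * x : ℚ)) : ℂ) ∈ m16h1_Z := by
    have := m16h1_Z.add_mem h hc
    have e : (x : ℂ) + (y : ℂ) * Complex.I + ((x : ℂ) - (y : ℂ) * Complex.I) = ((2 * x : ℚ) : ℂ) := by
      push_cast; ring
    rwa [e] at this
  have hp : (((x ^ 2 + y ^ 2 : ℚ)) : ℂ) ∈ m16h1_Z := by
    have := m16h1_Z.mul_mem h hc
    have e : ((x : ℂ) + (y : ℂ) * Complex.I) * ((x : ℂ) - (y : ℂ) * Complex.I)
        = ((x ^ 2 + y ^ 2 : ℚ) : ℂ) := by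
      push_cast
      have hI : Complex.I ^ 2 = -1 := Complex.I_sq
      linear_combination (-(y : ℂ) ^ 2) * hI
    rwa [e] at this
  exact m16h1_gauss_aux x y (m16h1_Z_rat_odd _ hs) (m16h1_Z_rat_odd _ hp)

end Fermat.Agent.M16
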