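/-
S16, package H1 (helper9): the `p + 1` conjugates of a `Γ₀(p)`-invariant function.

For `ψ ∈ ana_ring p` invariant under `Γ₀(p)`: `ψ_∞ = ψ`, `ψ_k = ψ ∘ S ∘ T^k` (`k mod p`).
`T` acts by `k ↦ k + 1` (fixing `∞`), `S` by `∞ ↔ 0`, `k ↦ -1/k`.
The `q_p`-expansion of `ψ_k` is the twist by `ζ_p^k` of that of `ψ ∘ S`.
-/
import Mathlib
import Fermat.Agent.S24.AnaTwist
import Fermat.Agent.M28.PfSym
import Fermat.Agent.M16.H1Lvl
import Fermat.Agent.M16.H1Ring

set_option autoImplicit false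
set_option linter.unusedSectionVars false

noncomputable section

namespace Fermat.Agent.M16

open UpperHalfPlane hiding I
open Filter Function Topology ModularForm Complex ModularCurve
open scoped Manifold MatrixGroups ModularForm Real CongruenceSubgroup
open CongruenceSubgroup
open Fermat.Agent.S23 Fermat.Agent.S24 Fermat.Agent.M28

variable (p : ℕ) [Fact p.Prime]

/-- `ψ ∘ S ∘ T^n`. -/
def m16h1_cjZ (ψ : ana_ring p) (n : ℤ) : ana_ring p :=
  ana_comp p (ModularGroup.T ^ n) (ana_comp p ModularGroup.S ψ)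

theorem m16h1_comp_T_pow_p (f : ana_ring p) (m : ℤ) :
    ana_comp p (ModularGroup.T ^ ((p : ℤ) * m)) f = f := by
  apply Subtype.ext
  funext τ
  rw [ana_comp_apply, UpperHalfPlane.modular_T_zpow_smul]
  have h1 : ∀ (n : ℕ) (τ : ℍ), (f : ℍ → ℂ) ((((p : ℤ) * (n : ℤ) : ℤ) : ℝ) +ᵥ τ) = (f : ℍ → ℂ) τ := by
    intro n
    induction n with
    | zero =>
      intro τ
      simp
    | succ n ih =>
      intro τ
      have h2 := (f.2.2 1).1 ((((p : ℤ) * (n : ℤ) : ℤ) : ℝ) +ᵥ τ)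
      rw [one_smul, one_smul] at h2
      rw [← ih τ, ← h2, vadd_vadd]
      push_cast
      ring_nf
  have h3 : ∀ (n : ℕ) (τ : ℍ), (f : ℍ → ℂ) ((((p : ℤ) * (-(n : ℤ)) : ℤ) : ℝ) +ᵥ τ) = (f : ℍ → ℂ) τ := by
    intro n τ
    have h4 := h1 n ((((p : ℤ) * (-(n : ℤ)) : ℤ) : ℝ) +ᵥ τ)
    rw [vadd_vadd] at h4
    rw [← h4]
    have : (((p : ℤ) * (n : ℤ) : ℤ) : ℝ) + (((p : ℤ) * (-(n : ℤ)) : ℤ) : ℝ) = 0 := by
      push_cast
      ring
    rw [this, zero_vadd]
  rcases Int.eq_nat_or_neg m with ⟨n, rfl | rfl⟩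
  · exact h1 n τ
  · exact h3 n τ

theorem m16h1_cjZ_add_mul (ψ : ana_ring p) (n m : ℤ) :
    m16h1_cjZ p ψ (n + (p : ℤ) * m) = m16h1_cjZ p ψ n := by
  unfold m16h1_cjZ
  rw [zpow_add, ana_comp_mul, m16h1_comp_T_pow_p]

theorem m16h1_cjZ_congr (ψ : ana_ring p) {n m : ℤ} (h : (n : ZMod p) = (m : ZMod p)) :
    m16h1_cjZ p ψ n = m16h1_cjZ p ψ m := by
  have h1 : (p : ℤ) ∣ m - n := by
    rw [← ZMod.intCast_zmod_eq_zero_iff_dvd]
    push_cast
    rw [h, sub_self]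
  obtain ⟨d, hd⟩ := h1
  have h2 : m = n + (p : ℤ) * d := by linarith
  rw [h2, m16h1_cjZ_add_mul]

/-- the conjugates, indexed by `Option (ZMod p)` (`none = ∞`). -/
def m16h1_cj (ψ : ana_ring p) : Option (ZMod p) → ana_ring p
  | none => ψ
  | some k => m16h1_cjZ p ψ ((k.val : ℕ) : ℤ)

theorem m16h1_cj_none (ψ : ana_ring p) : m16h1_cj p ψ none = ψ := rfl

theorem m16h1_cj_some (ψ : ana_ring p) (k : ZMod p) :
    m16h1_cj p ψ (some k) = m16h1_cjZ p ψ ((k.val : ℕ) : ℤ) := rfl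

theorem m16h1_cj_some_intCast (ψ : ana_ring p) (n : ℤ) :
    m16h1_cj p ψ (some (n : ZMod p)) = m16h1_cjZ p ψ n := by
  rw [m16h1_cj_some]
  apply m16h1_cjZ_congr
  simp

/-! ### the matrix identity for `S T^k S` -/

theorem m16h1_STS (k k' m : ℤ) (h : k * k' + 1 = (p : ℤ) * m) :
    ∃ γ ∈ Gamma0 p, ModularGroup.S * ModularGroup.T ^ k * ModularGroup.S
      = γ * (ModularGroup.S * ModularGroup.T ^ k') := by
  have hdet : (!![-k', -1; (p : ℤ) * m, k] : Matrix (Fin 2) (Fin 2) ℤ).det = 1 := by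
    rw [Matrix.det_fin_two_of]
    linarith
  set γ : SL(2, ℤ) := ⟨!![-k', -1; (p : ℤ) * m, k], hdet⟩ with hγ
  refine ⟨γ, ?_, ?_⟩
  · rw [Gamma0_mem]
    have : (γ 1 0 : ℤ) = (p : ℤ) * m := rfl
    rw [this]
    simp
  · apply Subtype.ext
    rw [Matrix.SpecialLinearGroup.coe_mul, Matrix.SpecialLinearGroup.coe_mul,
      Matrix.SpecialLinearGroup.coe_mul, Matrix.SpecialLinearGroup.coe_mul,
      ModularGroup.coe_S, ModularGroup.coe_T_zpow, ModularGroup.coe_T_zpow]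
    have hγc : (γ : Matrix (Fin 2) (Fin 2) ℤ) = !![-k', -1; (p : ℤ) * m, k] := rfl
    rw [hγc]
    ext i j
    fin_cases i <;> fin_cases j
    · simp [Matrix.mul_apply, Fin.sum_univ_two]
    · simp [Matrix.mul_apply, Fin.sum_univ_two]
    · simp [Matrix.mul_apply, Fin.sum_univ_two]
    · simp [Matrix.mul_apply, Fin.sum_univ_two]
      linarith

/-! ### the action of `T` and `S` on the conjugates -/

/-- the permutation of the indices induced by `T`. -/
def m16h1_sT : Equiv.Perm (Option (ZMod p)) := Equiv.optionCongr (Equiv.addRight (1 : ZMod p))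

theorem m16h1_sT_none : m16h1_sT p none = none := rfl

theorem m16h1_sT_some (k : ZMod p) : m16h1_sT p (some k) = some (k + 1) := rfl

theorem m16h1_comp_T_cjZ (ψ : ana_ring p) (n : ℤ) :
    ana_comp p ModularGroup.T (m16h1_cjZ p ψ n) = m16h1_cjZ p ψ (n + 1) := by
  unfold m16h1_cjZ
  rw [← ana_comp_mul, zpow_add_one]

theorem m16h1_T_mem : ModularGroup.T ∈ Gamma0 p := by
  rw [Gamma0_mem]
  simp [ModularGroup.coe_T]

theorem m16h1_comp_T_cj (ψ : ana_ring p) (hΓ : ∀ γ ∈ Gamma0 p, ana_comp p γ ψ = ψ)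
    (c : Option (ZMod p)) :
    ana_comp p ModularGroup.T (m16h1_cj p ψ c) = m16h1_cj p ψ (m16h1_sT p c) := by
  cases c with
  | none => exact hΓ _ (m16h1_T_mem p)
  | some k =>
    rw [m16h1_sT_some, m16h1_cj_some, m16h1_comp_T_cjZ, ← m16h1_cj_some_intCast]
    congr 2
    push_cast
    rw [ZMod.natCast_zmod_val]

/-- the involution of the indices induced by `S`. -/
def m16h1_sSfun : Option (ZMod p) → Option (ZMod p)
  | none => some 0
  | some k => if k = 0 then none else some (-k⁻¹)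

theorem m16h1_sSfun_invol : Function.Involutive (m16h1_sSfun p) := by
  intro c
  cases c with
  | none => simp [m16h1_sSfun]
  | some k =>
    by_cases hk : k = 0
    · simp [m16h1_sSfun, hk]
    · have h1 : -k⁻¹ ≠ 0 := neg_ne_zero.mpr (inv_ne_zero hk)
      simp [m16h1_sSfun, hk]

/-- the permutation of the indices induced by `S`. -/
def m16h1_sS : Equiv.Perm (Option (ZMod p)) := (m16h1_sSfun_invol p).toPerm _

theorem m16h1_sS_apply (c : Option (ZMod p)) : m16h1_sS p c = m16h1_sSfun p c := rfl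

theorem m16h1_sS_sS (c : Option (ZMod p)) : m16h1_sS p (m16h1_sS p c) = c :=
  m16h1_sSfun_invol p c

theorem m16h1_sS_none : m16h1_sS p none = some 0 := rfl

theorem m16h1_sS_zero : m16h1_sS p (some 0) = none := by
  rw [m16h1_sS_apply]
  simp [m16h1_sSfun]

theorem m16h1_sS_some (k : ZMod p) (hk : k ≠ 0) : m16h1_sS p (some k) = some (-k⁻¹) := by
  rw [m16h1_sS_apply]
  simp [m16h1_sSfun, hk]

theorem m16h1_SS_mem : ModularGroup.S * ModularGroup.S ∈ Gamma0 p := by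
  rw [Gamma0_mem]
  simp [ModularGroup.coe_S, Matrix.mul_apply, Fin.sum_univ_two]

theorem m16h1_SS_comp (ψ : ana_ring p) (hΓ : ∀ γ ∈ Gamma0 p, ana_comp p γ ψ = ψ) :
    ana_comp p ModularGroup.S (ana_comp p ModularGroup.S ψ) = ψ := by
  rw [← ana_comp_mul]
  exact hΓ _ (m16h1_SS_mem p)

theorem m16h1_cjZ_zero (ψ : ana_ring p) : m16h1_cjZ p ψ 0 = ana_comp p ModularGroup.S ψ := by
  unfold m16h1_cjZ
  rw [zpow_zero, ana_comp_one]

theorem m16h1_cj_zero (ψ : ana_ring p) :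
    m16h1_cj p ψ (some 0) = ana_comp p ModularGroup.S ψ := by
  rw [m16h1_cj_some, ZMod.val_zero, Nat.cast_zero, m16h1_cjZ_zero]

theorem m16h1_comp_S_cjZ (ψ : ana_ring p) (hΓ : ∀ γ ∈ Gamma0 p, ana_comp p γ ψ = ψ)
    (k k' m : ℤ) (h : k * k' + 1 = (p : ℤ) * m) :
    ana_comp p ModularGroup.S (m16h1_cjZ p ψ k) = m16h1_cjZ p ψ k' := by
  obtain ⟨γ, hγ, hmat⟩ := m16h1_STS p k k' m h
  unfold m16h1_cjZ
  rw [← ana_comp_mul, ← ana_comp_mul, ← mul_assoc, hmat, ana_comp_mul, hΓ γ hγ, ana_comp_mul]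

theorem m16h1_comp_S_cj (ψ : ana_ring p) (hΓ : ∀ γ ∈ Gamma0 p, ana_comp p γ ψ = ψ)
    (c : Option (ZMod p)) :
    ana_comp p ModularGroup.S (m16h1_cj p ψ c) = m16h1_cj p ψ (m16h1_sS p c) := by
  cases c with
  | none =>
    rw [m16h1_sS_none, m16h1_cj_zero, m16h1_cj_none]
  | some k =>
    by_cases hk : k = 0
    · subst hk
      rw [m16h1_sS_zero, m16h1_cj_zero, m16h1_cj_none, m16h1_SS_comp p ψ hΓ]
    · rw [m16h1_sS_some p k hk, m16h1_cj_some, m16h1_cj_some]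
      have h1 : (p : ℤ) ∣ ((k.val : ℕ) : ℤ) * (((-k⁻¹ : ZMod p).val : ℕ) : ℤ) + 1 := by
        rw [← ZMod.intCast_zmod_eq_zero_iff_dvd]
        push_cast
        rw [ZMod.natCast_zmod_val, ZMod.natCast_zmod_val, mul_neg, mul_inv_cancel₀ hk]
        ring
      obtain ⟨m, hm⟩ := h1
      exact m16h1_comp_S_cjZ p ψ hΓ _ _ m hm

/-! ### expansions of the conjugates -/

theorem m16h1_qexp_cjZ (ψ : ana_ring p) (n : ℤ) :
    ana_qexp p (m16h1_cjZ p ψ n)
      = cf_twist (atw_zeta p ^ n) (ana_qexp p (ana_comp p ModularGroup.S ψ)) := by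
  have h := atw_qexp_comp_T (N := p) (-n) (ana_comp p ModularGroup.S ψ)
  have e1 : (ModularGroup.T ^ (-n))⁻¹ = ModularGroup.T ^ n := by rw [zpow_neg, inv_inv]
  have e2 : (atw_zeta p)⁻¹ ^ (-n) = atw_zeta p ^ n := by rw [inv_zpow, zpow_neg, inv_inv]
  rw [e1, e2] at h
  exact h

theorem m16h1_zeta_zpow_mem (n : ℤ) : ((atw_zeta p ^ n : ℂˣ) : ℂ) ∈ m16h1_Z := by
  apply m16h1_Z_of_isIntegral
  have hp0 : p ≠ 0 := (Fact.out : p.Prime).ne_zero
  refine ⟨Polynomial.X ^ p - Polynomial.C 1, Polynomial.monic_X_pow_sub_C 1 hp0, ?_⟩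
  rw [Polynomial.eval₂_sub, Polynomial.eval₂_pow, Polynomial.eval₂_X, Polynomial.eval₂_C,
    map_one, ← Units.val_pow_eq_pow_val, ← zpow_natCast, ← zpow_mul, mul_comm, zpow_mul,
    zpow_natCast, (atw_zeta_isPrimitiveRoot p).pow_eq_one, one_zpow, Units.val_one, sub_self]

/-- a `Γ₀(p)`-invariant function with expansions over `R` at both cusps. -/
structure m16h1_Good (R : Subring ℂ) (ψ : ana_ring p) : Prop where
  inv : ∀ γ ∈ Gamma0 p, ana_comp p γ ψ = ψ
  exp_inf : ana_qexp p ψ ∈ m16h1_LR R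
  exp_zero : ana_qexp p (ana_comp p ModularGroup.S ψ) ∈ m16h1_LR R

theorem m16h1_Good.mul {R : Subring ℂ} {ψ φ : ana_ring p} (hψ : m16h1_Good p R ψ)
    (hφ : m16h1_Good p R φ) : m16h1_Good p R (ψ * φ) where
  inv γ hγ := by rw [map_mul, hψ.inv γ hγ, hφ.inv γ hγ]
  exp_inf := by rw [map_mul]; exact Subring.mul_mem _ hψ.exp_inf hφ.exp_inf
  exp_zero := by rw [map_mul, map_mul]; exact Subring.mul_mem _ hψ.exp_zero hφ.exp_zero

theorem m16h1_Good.one (R : Subring ℂ) : m16h1_Good p R (1 : ana_ring p) where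
  inv γ hγ := map_one _
  exp_inf := by rw [map_one]; exact Subring.one_mem _
  exp_zero := by rw [map_one, map_one]; exact Subring.one_mem _

theorem m16h1_Good.pow {R : Subring ℂ} {ψ : ana_ring p} (hψ : m16h1_Good p R ψ) (n : ℕ) :
    m16h1_Good p R (ψ ^ n) := by
  induction n with
  | zero => rw [pow_zero]; exact m16h1_Good.one p R
  | succ n ih => rw [pow_succ]; exact ih.mul p hψ

theorem m16h1_LR_mono {R R' : Subring ℂ} (h : R ≤ R') {x : LaurentSeries ℂ}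
    (hx : x ∈ m16h1_LR R) : x ∈ m16h1_LR R' := by
  rw [m16h1_mem_LR_iff] at hx ⊢
  exact fun n => h (hx n)

theorem m16h1_Good.mono {R R' : Subring ℂ} (h : R ≤ R') {ψ : ana_ring p}
    (hψ : m16h1_Good p R ψ) : m16h1_Good p R' ψ where
  inv := hψ.inv
  exp_inf := m16h1_LR_mono h hψ.exp_inf
  exp_zero := m16h1_LR_mono h hψ.exp_zero

/-- the expansions of the conjugates of a function good over `m16h1_Z`. -/
theorem m16h1_qexp_cj_mem {ψ : ana_ring p} (hψ : m16h1_Good p m16h1_Z ψ)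
    (c : Option (ZMod p)) : ana_qexp p (m16h1_cj p ψ c) ∈ m16h1_LR m16h1_Z := by
  cases c with
  | none => exact hψ.exp_inf
  | some k =>
    rw [m16h1_cj_some, m16h1_qexp_cjZ, m16h1_mem_LR_iff]
    intro n
    rw [cf_twist_coeff, ← zpow_mul]
    exact m16h1_Z.mul_mem (m16h1_zeta_zpow_mem p _) ((m16h1_mem_LR_iff _ _).mp hψ.exp_zero n)

end Fermat.Agent.M16

end
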