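/-
S16, package H1 (helper9): a sum over a set without fixed points of an involution, of a function
invariant under the involution with values in a subring `R ⊂ ℂ`, lies in `2 R`.
-/
import Mathlib

set_option autoImplicit false

namespace Fermat.Agent.M16

/-- the additive subgroup `2 R`. -/
def m16h1_twoR (R : Subring ℂ) : AddSubgroup ℂ :=
  R.toAddSubgroup.map (AddMonoidHom.mulLeft (2 : ℂ))

theorem m16h1_mem_twoR_iff (R : Subring ℂ) (x : ℂ) :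
    x ∈ m16h1_twoR R ↔ ∃ y ∈ R, x = 2 * y := by
  unfold m16h1_twoR
  rw [AddSubgroup.mem_map]
  constructor
  · rintro ⟨y, hy, rfl⟩
    exact ⟨y, hy, rfl⟩
  · rintro ⟨y, hy, rfl⟩
    exact ⟨y, hy, rfl⟩

theorem m16h1_sum_pairs {ι : Type*} [DecidableEq ι] (R : Subring ℂ)
    (σ : ι → ι) (hσ : ∀ c, σ (σ c) = c) (v : ι → ℂ) (hv : ∀ c, v c ∈ R)
    (hσv : ∀ c, v (σ c) = v c) (s : Finset ι) (hs : ∀ c ∈ s, σ c ∈ s)
    (hne : ∀ c ∈ s, σ c ≠ c) :
    ∃ y ∈ R, ∑ c ∈ s, v c = 2 * y := by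
  have h := Finset.sum_involution (s := s)
    (f := fun c => (QuotientAddGroup.mk (v c) : ℂ ⧸ m16h1_twoR R))
    (fun c _ => σ c)
    (fun c _ => by
      show (QuotientAddGroup.mk (v c) : ℂ ⧸ m16h1_twoR R) + QuotientAddGroup.mk (v (σ c)) = 0
      rw [hσv, ← QuotientAddGroup.mk_add, QuotientAddGroup.eq_zero_iff, m16h1_mem_twoR_iff]
      exact ⟨v c, hv c, by ring⟩)
    (fun c hc _ => hne c hc)
    (fun c hc => hs c hc)
    (fun c _ => hσ c)
  have h2 : (QuotientAddGroup.mk (∑ c ∈ s, v c) : ℂ ⧸ m16h1_twoR R) = 0 := by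
    rw [← h]
    exact map_sum (QuotientAddGroup.mk' (m16h1_twoR R)) v s
  rw [QuotientAddGroup.eq_zero_iff, m16h1_mem_twoR_iff] at h2
  exact h2

/-- the sum over everything, with exactly two fixed points. -/
theorem m16h1_sum_pairs_two {ι : Type*} [Fintype ι] [DecidableEq ι] (R : Subring ℂ)
    (σ : ι → ι) (hσ : ∀ c, σ (σ c) = c) (v : ι → ℂ) (hv : ∀ c, v c ∈ R)
    (hσv : ∀ c, v (σ c) = v c) (c₁ c₂ : ι) (h12 : c₁ ≠ c₂) (h1 : σ c₁ = c₁) (h2 : σ c₂ = c₂)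
    (hne : ∀ c, c ≠ c₁ → c ≠ c₂ → σ c ≠ c) :
    ∃ y ∈ R, ∑ c, v c = 2 * y + (v c₁ + v c₂) := by
  set s : Finset ι := (Finset.univ.erase c₁).erase c₂ with hs
  have hc2 : c₂ ∈ Finset.univ.erase c₁ := Finset.mem_erase.mpr ⟨h12.symm, Finset.mem_univ _⟩
  have hsplit : ∑ c, v c = v c₁ + v c₂ + ∑ c ∈ s, v c := by
    rw [← Finset.add_sum_erase Finset.univ v (Finset.mem_univ c₁),
      ← Finset.add_sum_erase (Finset.univ.erase c₁) v hc2, add_assoc]
  have hmem : ∀ c, c ∈ s ↔ c ≠ c₁ ∧ c ≠ c₂ := by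
    intro c
    rw [hs, Finset.mem_erase, Finset.mem_erase]
    constructor
    · rintro ⟨h, h', -⟩
      exact ⟨h', h⟩
    · rintro ⟨h, h'⟩
      exact ⟨h', h, Finset.mem_univ _⟩
  obtain ⟨y, hy, hsum⟩ := m16h1_sum_pairs R σ hσ v hv hσv s
    (fun c hc => by
      rw [hmem] at hc ⊢
      refine ⟨fun h => hc.1 ?_, fun h => hc.2 ?_⟩
      · rw [← hσ c, h, h1]
      · rw [← hσ c, h, h2])
    (fun c hc => by
      rw [hmem] at hc
      exact hne c hc.1 hc.2)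
  refine ⟨y, hy, ?_⟩
  rw [hsplit, hsum]
  ring

end Fermat.Agent.M16
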