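/-
S16, package H1 (helper9): symmetric functions of the conjugates.

* the coefficients of `∏ (X - ψ_c)` and the trace `∑ ψ_c` are `SL(2,ℤ)`-invariant;
* their expansions have coefficients in `m16h1_Z` (resp. in `R` for the trace);
* the values `ψ_c(i)` are `2`-integral algebraic numbers;
* the values at `i` are invariant under the involution `m16h1_sS`, hence the trace at `i` is
  `2 y + ψ_{k₀}(i) + ψ_{-k₀}(i)` with `y` integral, where `k₀^2 = -1`.
-/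
import Mathlib
import Fermat.Agent.M16.H1Conj

set_option autoImplicit false
set_option linter.unusedSectionVars false

noncomputable section

namespace Fermat.Agent.M16

open UpperHalfPlane hiding I
open Filter Function Topology ModularForm Complex ModularCurve
open scoped Manifold MatrixGroups ModularForm Real CongruenceSubgroup
open CongruenceSubgroup
open Fermat.Agent.S23 Fermat.Agent.S24 Fermat.Agent.M28

variable (p : ℕ) [Fact p.Prime]

/-- the characteristic polynomial of the conjugates. -/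
def m16h1_Phi (ψ : ana_ring p) : Polynomial (ana_ring p) := m28pf_Phi (m16h1_cj p ψ)

theorem m16h1_Phi_coeff_inv (ψ : ana_ring p) (hΓ : ∀ γ ∈ Gamma0 p, ana_comp p γ ψ = ψ) (i : ℕ)
    (g : SL(2, ℤ)) : ana_comp p g ((m16h1_Phi p ψ).coeff i) = (m16h1_Phi p ψ).coeff i :=
  m16h1_inv_of_ST p _
    (m28pf_Phi_coeff_fixed (ana_comp p ModularGroup.S) (m16h1_sS p) _ (m16h1_comp_S_cj p ψ hΓ) i)
    (m28pf_Phi_coeff_fixed (ana_comp p ModularGroup.T) (m16h1_sT p) _ (m16h1_comp_T_cj p ψ hΓ) i)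
    g

theorem m16h1_Phi_coeff_qexp {ψ : ana_ring p} (hψ : m16h1_Good p m16h1_Z ψ) (i : ℕ) :
    ana_qexp p ((m16h1_Phi p ψ).coeff i) ∈ m16h1_LR m16h1_Z := by
  rw [m16h1_Phi, ← Polynomial.coeff_map, m28pf_Phi_map]
  exact m28pf_Phi_coeff_mem (m16h1_LR m16h1_Z) _ (m16h1_qexp_cj_mem p hψ) i

/-- the value at `i` of the conjugate `c`. -/
def m16h1_val (ψ : ana_ring p) (c : Option (ZMod p)) : ℂ :=
  (m16h1_cj p ψ c : ℍ → ℂ) UpperHalfPlane.I

theorem m16h1_val_eq (ψ : ana_ring p) (c : Option (ZMod p)) :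
    m16h1_val p ψ c = m28pa_evalAt p UpperHalfPlane.I (m16h1_cj p ψ c) := rfl

/-- **the values at `i` of the conjugates are `2`-integral**. -/
theorem m16h1_val_mem {ψ : ana_ring p} (hψ : m16h1_Good p m16h1_Z ψ) (c : Option (ZMod p)) :
    m16h1_val p ψ c ∈ m16h1_Z := by
  have hmap : (m16h1_Phi p ψ).map (m28pa_evalAt p UpperHalfPlane.I)
      = m28pf_Phi (fun c => m16h1_val p ψ c) := by
    rw [m16h1_Phi, m28pf_Phi_map]
    rfl
  refine m16h1_Z_root (m28pf_Phi (fun c => m16h1_val p ψ c)) (m28pf_Phi_monic _) ?_ _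
    (m28pf_Phi_eval (fun c => m16h1_val p ψ c) c)
  intro i
  rw [← hmap, Polynomial.coeff_map]
  exact m16h1_level_one_I p m16h1_Z _ (m16h1_Phi_coeff_inv p ψ hψ.inv i)
    (m16h1_Phi_coeff_qexp p hψ i)

theorem m16h1_val_sS (ψ : ana_ring p) (hΓ : ∀ γ ∈ Gamma0 p, ana_comp p γ ψ = ψ)
    (c : Option (ZMod p)) : m16h1_val p ψ (m16h1_sS p c) = m16h1_val p ψ c := by
  unfold m16h1_val
  rw [← m16h1_comp_S_cj p ψ hΓ c, ana_comp_apply, ord_S_smul_I]

theorem m16h1_val_mul (ψ φ : ana_ring p) (c : Option (ZMod p)) :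
    m16h1_val p (ψ * φ) c = m16h1_val p ψ c * m16h1_val p φ c := by
  cases c with
  | none => rfl
  | some k =>
    unfold m16h1_val
    rw [m16h1_cj_some, m16h1_cj_some, m16h1_cj_some]
    unfold m16h1_cjZ
    rw [map_mul, map_mul]
    rfl

theorem m16h1_val_pow (ψ : ana_ring p) (n : ℕ) (c : Option (ZMod p)) :
    m16h1_val p (ψ ^ n) c = m16h1_val p ψ c ^ n := by
  induction n with
  | zero =>
    rw [pow_zero, pow_zero]
    cases c with
    | none => rfl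
    | some k =>
      unfold m16h1_val
      rw [m16h1_cj_some]
      unfold m16h1_cjZ
      rw [map_one, map_one]
      rfl
  | succ n ih => rw [pow_succ, pow_succ, m16h1_val_mul, ih]

/-! ### the trace -/

/-- the trace `∑ ψ_c`. -/
def m16h1_tr (ψ : ana_ring p) : ana_ring p := ∑ c, m16h1_cj p ψ c

theorem m16h1_tr_inv (ψ : ana_ring p) (hΓ : ∀ γ ∈ Gamma0 p, ana_comp p γ ψ = ψ)
    (g : SL(2, ℤ)) : ana_comp p g (m16h1_tr p ψ) = m16h1_tr p ψ := by
  refine m16h1_inv_of_ST p _ ?_ ?_ g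
  · unfold m16h1_tr
    rw [map_sum]
    simp_rw [m16h1_comp_S_cj p ψ hΓ]
    exact Equiv.sum_comp (m16h1_sS p) (m16h1_cj p ψ)
  · unfold m16h1_tr
    rw [map_sum]
    simp_rw [m16h1_comp_T_cj p ψ hΓ]
    exact Equiv.sum_comp (m16h1_sT p) (m16h1_cj p ψ)

theorem m16h1_tr_I (ψ : ana_ring p) :
    (m16h1_tr p ψ : ℍ → ℂ) UpperHalfPlane.I = ∑ c, m16h1_val p ψ c := by
  rw [← m28pa_evalAt_apply, m16h1_tr, map_sum]
  rfl

theorem m16h1_sum_range_pow (ξ : ℂ) (hξ : ξ ^ p = 1) :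
    ∑ j ∈ Finset.range p, ξ ^ j = if ξ = 1 then (p : ℂ) else 0 := by
  split_ifs with h
  · rw [h]
    simp
  · rw [geom_sum_eq h, hξ, sub_self, zero_div]

theorem m16h1_sum_zmod (f : ℕ → ℂ) : ∑ k : ZMod p, f k.val = ∑ j ∈ Finset.range p, f j := by
  have hp0 : p ≠ 0 := (Fact.out : p.Prime).ne_zero
  obtain ⟨m, rfl⟩ : ∃ m, p = m + 1 := ⟨p - 1, by omega⟩
  rw [← Fin.sum_univ_eq_sum_range]
  rfl

theorem m16h1_sum_zeta (n : ℤ) :
    ∑ k : ZMod p, (((atw_zeta p ^ ((k.val : ℕ) : ℤ)) ^ n : ℂˣ) : ℂ)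
      = if (p : ℤ) ∣ n then (p : ℂ) else 0 := by
  set ξ : ℂ := ((atw_zeta p ^ n : ℂˣ) : ℂ) with hξ
  have h1 : ∀ k : ZMod p, (((atw_zeta p ^ ((k.val : ℕ) : ℤ)) ^ n : ℂˣ) : ℂ) = ξ ^ k.val := by
    intro k
    rw [hξ, ← Units.val_pow_eq_pow_val, ← zpow_natCast, ← zpow_mul, ← zpow_mul, mul_comm]
  simp_rw [h1]
  rw [m16h1_sum_zmod p (fun j => ξ ^ j)]
  have hξp : ξ ^ p = 1 := by
    rw [hξ, ← Units.val_pow_eq_pow_val, ← zpow_natCast, ← zpow_mul, mul_comm, zpow_mul,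
      zpow_natCast, (atw_zeta_isPrimitiveRoot p).pow_eq_one, one_zpow, Units.val_one]
  rw [m16h1_sum_range_pow p ξ hξp]
  have h2 : ξ = 1 ↔ (p : ℤ) ∣ n := by
    rw [hξ, Units.val_eq_one]
    exact (atw_zeta_isPrimitiveRoot p).zpow_eq_one_iff_dvd n
  simp only [h2]

/-- the expansion of the trace. -/
theorem m16h1_tr_coeff (ψ : ana_ring p) (n : ℤ) :
    (ana_qexp p (m16h1_tr p ψ)).coeff n
      = (ana_qexp p ψ).coeff n
        + (if (p : ℤ) ∣ n then (p : ℂ) else 0)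
          * (ana_qexp p (ana_comp p ModularGroup.S ψ)).coeff n := by
  rw [m16h1_tr, Fintype.sum_option, map_add, map_sum, HahnSeries.coeff_add, HahnSeries.coeff_sum,
    m16h1_cj_none, ← m16h1_sum_zeta p n, Finset.sum_mul]
  congr 1
  refine Finset.sum_congr rfl fun k _ => ?_
  rw [m16h1_cj_some, m16h1_qexp_cjZ, cf_twist_coeff]

theorem m16h1_tr_qexp_mem {R : Subring ℂ} {ψ : ana_ring p} (hψ : m16h1_Good p R ψ) :
    ana_qexp p (m16h1_tr p ψ) ∈ m16h1_LR R := by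
  rw [m16h1_mem_LR_iff]
  intro n
  rw [m16h1_tr_coeff]
  refine R.add_mem ((m16h1_mem_LR_iff _ _).mp hψ.exp_inf n)
    (R.mul_mem ?_ ((m16h1_mem_LR_iff _ _).mp hψ.exp_zero n))
  split_ifs
  · exact natCast_mem R p
  · exact R.zero_mem

/-- the trace at `i` of a function good over `R` lies in `R`. -/
theorem m16h1_sum_val_mem {R : Subring ℂ} {ψ : ana_ring p} (hψ : m16h1_Good p R ψ) :
    ∑ c, m16h1_val p ψ c ∈ R := by
  rw [← m16h1_tr_I]
  exact m16h1_level_one_I p R _ (m16h1_tr_inv p ψ hψ.inv) (m16h1_tr_qexp_mem p hψ)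

/-- the trace at `i` is congruent modulo `2 R` to `CT_∞ + p CT_0`. -/
theorem m16h1_sum_val_CT {R : Subring ℂ} {ψ : ana_ring p} (hψ : m16h1_Good p R ψ) :
    ∃ y ∈ R, ∑ c, m16h1_val p ψ c
      - ((ana_qexp p ψ).coeff 0 + (p : ℂ) * (ana_qexp p (ana_comp p ModularGroup.S ψ)).coeff 0)
      = 2 * y := by
  obtain ⟨y, hy, h⟩ := m16h1_level_one_CT p R _ (m16h1_tr_inv p ψ hψ.inv)
    (m16h1_tr_qexp_mem p hψ)
  refine ⟨y, hy, ?_⟩
  rw [← h, m16h1_tr_I, m16h1_tr_coeff, if_pos (dvd_zero _)]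

end Fermat.Agent.M16

end
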