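/-
S16, package H1 (helper9): the fixed points of the involution `k ↦ -1/k` on `P¹(𝔽_p)` and the
main congruence modulo the contribution of the two elliptic cosets.

For `k₀^2 = -1` in `ZMod p`: the fixed points of `m16h1_sS` are `some k₀`, `some (-k₀)`, and
`c_0 - b_0 ∈ 2 Z` as soon as `ψ_{k₀}(i) + ψ_{-k₀}(i) ∈ 2 Z`.
-/
import Mathlib
import Fermat.Agent.M16.H1Sym
import Fermat.Agent.M16.H1Pair

set_option autoImplicit false
set_option linter.unusedSectionVars false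

noncomputable section

namespace Fermat.Agent.M16

open UpperHalfPlane hiding I
open Filter Function Topology ModularForm Complex ModularCurve
open scoped Manifold MatrixGroups ModularForm Real CongruenceSubgroup
open CongruenceSubgroup
open Fermat.Agent.S23 Fermat.Agent.S24 Fermat.Agent.M28

variable (p : ℕ) [Fact p.Prime]

theorem m16h1_k0_ne_zero (k₀ : ZMod p) (hk₀ : k₀ ^ 2 = -1) : k₀ ≠ 0 := by
  intro h
  rw [h] at hk₀
  have : (0 : ZMod p) = -1 := by simp at hk₀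
  have h1 : (1 : ZMod p) = 0 := by
    have := congrArg (fun x : ZMod p => -x) this
    simpa using this.symm
  exact one_ne_zero h1

theorem m16h1_neg_inv_eq (k₀ : ZMod p) (hk₀ : k₀ ^ 2 = -1) : -k₀⁻¹ = k₀ := by
  have h0 := m16h1_k0_ne_zero p k₀ hk₀
  have h1 : k₀ * k₀ = -1 := by rw [← sq]; exact hk₀
  have h2 : k₀⁻¹ = -k₀ := by
    apply inv_eq_of_mul_eq_one_left
    rw [neg_mul, h1, neg_neg]
  rw [h2, neg_neg]

theorem m16h1_sS_fix (k₀ : ZMod p) (hk₀ : k₀ ^ 2 = -1) : m16h1_sS p (some k₀) = some k₀ := by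
  rw [m16h1_sS_some p k₀ (m16h1_k0_ne_zero p k₀ hk₀), m16h1_neg_inv_eq p k₀ hk₀]

theorem m16h1_neg_sq (k₀ : ZMod p) (hk₀ : k₀ ^ 2 = -1) : (-k₀) ^ 2 = -1 := by
  rw [neg_sq, hk₀]

theorem m16h1_k0_ne_neg (hp2 : p ≠ 2) (k₀ : ZMod p) (hk₀ : k₀ ^ 2 = -1) : k₀ ≠ -k₀ := by
  intro h
  have h0 := m16h1_k0_ne_zero p k₀ hk₀
  have h2 : (2 : ZMod p) * k₀ = 0 := by
    have : k₀ + k₀ = 0 := by
      nth_rewrite 1 [h]
      exact neg_add_cancel k₀
    rw [two_mul]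
    exact this
  rcases mul_eq_zero.mp h2 with h3 | h3
  · have h4 : ((2 : ℕ) : ZMod p) = 0 := by exact_mod_cast h3
    rw [ZMod.natCast_eq_zero_iff] at h4
    have hp : p.Prime := Fact.out
    have := (Nat.prime_dvd_prime_iff_eq hp Nat.prime_two).mp h4
    exact hp2 this
  · exact h0 h3

theorem m16h1_sS_ne (k₀ : ZMod p) (hk₀ : k₀ ^ 2 = -1) (c : Option (ZMod p))
    (h1 : c ≠ some k₀) (h2 : c ≠ some (-k₀)) : m16h1_sS p c ≠ c := by
  cases c with
  | none =>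
    rw [m16h1_sS_none]
    simp
  | some k =>
    by_cases hk : k = 0
    · subst hk
      rw [m16h1_sS_zero]
      simp
    · rw [m16h1_sS_some p k hk]
      intro h
      have h3 : -k⁻¹ = k := Option.some.inj h
      have h4 : k ^ 2 = -1 := by
        have : k * k⁻¹ = 1 := mul_inv_cancel₀ hk
        have h5 : k⁻¹ = -k := by
          have := congrArg (fun x : ZMod p => -x) h3
          simpa using this
        rw [h5, mul_neg, ← sq] at this
        rw [← this, neg_neg]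
      have h5 : (k - k₀) * (k + k₀) = 0 := by
        have : (k - k₀) * (k + k₀) = k ^ 2 - k₀ ^ 2 := by ring
        rw [this, h4, hk₀, sub_self]
      rcases mul_eq_zero.mp h5 with h6 | h6
      · exact h1 (congrArg some (sub_eq_zero.mp h6))
      · exact h2 (congrArg some (eq_neg_of_add_eq_zero_left h6))

/-- the trace at `i` is `2 y + ψ_{k₀}(i) + ψ_{-k₀}(i)`. -/
theorem m16h1_sum_val_split {ψ : ana_ring p} (hψ : m16h1_Good p m16h1_Z ψ) (hp2 : p ≠ 2)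
    (k₀ : ZMod p) (hk₀ : k₀ ^ 2 = -1) :
    ∃ y ∈ m16h1_Z, ∑ c, m16h1_val p ψ c
      = 2 * y + (m16h1_val p ψ (some k₀) + m16h1_val p ψ (some (-k₀))) := by
  refine m16h1_sum_pairs_two m16h1_Z (m16h1_sS p) (m16h1_sS_sS p) (m16h1_val p ψ)
    (m16h1_val_mem p hψ) (m16h1_val_sS p ψ hψ.inv) (some k₀) (some (-k₀)) ?_
    (m16h1_sS_fix p k₀ hk₀) (m16h1_sS_fix p (-k₀) (m16h1_neg_sq p k₀ hk₀))
    (m16h1_sS_ne p k₀ hk₀)
  intro h
  exact m16h1_k0_ne_neg p hp2 k₀ hk₀ (Option.some.inj h)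

/-- **the main congruence, modulo the two elliptic cosets**. -/
theorem m16h1_main_of_beta {ψ : ana_ring p} (hψ : m16h1_Good p m16h1_Z ψ) (hp2 : p ≠ 2)
    (k₀ : ZMod p) (hk₀ : k₀ ^ 2 = -1) (x : ℂ) (hx : x ∈ m16h1_Z)
    (hβ : m16h1_val p ψ (some k₀) + m16h1_val p ψ (some (-k₀)) = 2 * x) :
    ∃ y ∈ m16h1_Z,
      (ana_qexp p (ana_comp p ModularGroup.S ψ)).coeff 0 - (ana_qexp p ψ).coeff 0 = 2 * y := by
  obtain ⟨y₁, hy₁, h1⟩ := m16h1_sum_val_split p hψ hp2 k₀ hk₀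
  obtain ⟨y₂, hy₂, h2⟩ := m16h1_sum_val_CT p hψ
  have hb : (ana_qexp p ψ).coeff 0 ∈ m16h1_Z := (m16h1_mem_LR_iff _ _).mp hψ.exp_inf 0
  have hc : (ana_qexp p (ana_comp p ModularGroup.S ψ)).coeff 0 ∈ m16h1_Z :=
    (m16h1_mem_LR_iff _ _).mp hψ.exp_zero 0
  have hp : p.Prime := Fact.out
  have hodd : Odd p := hp.odd_of_ne_two hp2
  obtain ⟨m, hm⟩ := hodd
  refine ⟨y₁ + x - y₂ - (ana_qexp p ψ).coeff 0
      - (m : ℂ) * (ana_qexp p (ana_comp p ModularGroup.S ψ)).coeff 0, ?_, ?_⟩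
  · exact m16h1_Z.sub_mem (m16h1_Z.sub_mem (m16h1_Z.sub_mem (m16h1_Z.add_mem hy₁ hx) hy₂) hb)
      (m16h1_Z.mul_mem (natCast_mem m16h1_Z m) hc)
  · rw [h1, hβ] at h2
    have hpc : (p : ℂ) = 2 * (m : ℂ) + 1 := by
      rw [hm]
      push_cast
      ring
    rw [hpc] at h2
    linear_combination -h2

end Fermat.Agent.M16

end
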