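/-
S16, package H1 (helper9): zeros of `E₆` have complex multiplication by `i`.

If `E₆ τ = 0` then the lattice `ℤ τ + ℤ` is stable under multiplication by `i`
(`g₃ = 0`, so the lattices `L` and `i L` have the same invariants `g₂`, `g₃`, and a lattice is
determined by its invariants: `li_lattice_eq_of_g2_g3`).  Consequences:
`E₆ ((n + i)/p) = 0 → p ∣ n^2 + 1` and `E₆ (p i) ≠ 0` for `p ≥ 2`.
-/
import Mathlib
import Fermat.Agent.S24.LatticeInj

set_option autoImplicit false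

noncomputable section

namespace Fermat.Agent.M16

open UpperHalfPlane hiding I
open Complex EisensteinSeries ModularForm
open Fermat.Agent.S24

/-- the period pair `(ω τ, ω)`. -/
def m16h1_pp (ω : ℂ) (hω : ω ≠ 0) (τ : ℍ) : PeriodPair where
  ω₁ := ω * τ
  ω₂ := ω
  indep := by
    rw [LinearIndependent.pair_iff]
    intro s t h
    have h1 : ω * ((s : ℂ) * τ + t) = 0 := by
      rw [← h]
      simp only [Complex.real_smul]
      ring
    have h2 : (s : ℂ) * τ + t = 0 := by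
      rcases mul_eq_zero.mp h1 with h | h
      · exact absurd h hω
      · exact h
    have h3 := congrArg Complex.im h2
    simp only [Complex.add_im, Complex.mul_im, Complex.ofReal_re, Complex.ofReal_im, zero_mul,
      add_zero, Complex.zero_im, UpperHalfPlane.coe_im] at h3
    have hs : s = 0 := by
      rcases mul_eq_zero.mp h3 with h | h
      · exact h
      · exact absurd h τ.im_ne_zero
    subst hs
    refine ⟨rfl, ?_⟩
    simpa using h2

theorem m16h1_pp_ω₁ (ω : ℂ) (hω : ω ≠ 0) (τ : ℍ) : (m16h1_pp ω hω τ).ω₁ = ω * τ := rfl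

theorem m16h1_pp_ω₂ (ω : ℂ) (hω : ω ≠ 0) (τ : ℍ) : (m16h1_pp ω hω τ).ω₂ = ω := rfl

/-- the lattice sum of `(ω τ, ω)` in terms of the Eisenstein summands. -/
theorem m16h1_G_pp (ω : ℂ) (hω : ω ≠ 0) (τ : ℍ) (k : ℕ) :
    (m16h1_pp ω hω τ).G k = (ω ^ k)⁻¹ * ∑' v : Fin 2 → ℤ, eisSummand k v τ := by
  set L := m16h1_pp ω hω τ with hL
  rw [PeriodPair.G]
  have e := ((finTwoArrowEquiv ℤ).trans L.latticeEquivProd.symm.toEquiv).tsum_eq
    (fun l : L.lattice => ((l : ℂ) ^ k)⁻¹)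
  rw [← e, ← tsum_mul_left]
  refine tsum_congr fun v => ?_
  have h1 : ((((finTwoArrowEquiv ℤ).trans L.latticeEquivProd.symm.toEquiv) v : L.lattice) : ℂ)
      = (v 0 : ℂ) * (ω * τ) + (v 1 : ℂ) * ω := by
    have := L.latticeEquiv_symm_apply ((finTwoArrowEquiv ℤ) v)
    simpa [hL, m16h1_pp] using this
  rw [h1, eisSummand, zpow_neg, zpow_natCast, ← mul_inv, ← mul_pow]
  congr 2
  ring

theorem m16h1_tsum_eisSummand (τ : ℍ) {k : ℕ} (hk : 3 ≤ k) :
    ∑' v : Fin 2 → ℤ, eisSummand k v τ = riemannZeta k * (2 * E hk τ) := by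
  rw [tsum_eisSummand_eq_riemannZeta_mul_eisensteinSeries hk τ]
  have h : E hk τ = (1 / 2 : ℂ) • eisensteinSeriesSIF (N := 1) 0 k τ := rfl
  rw [h, eisensteinSeriesSIF_apply]
  simp only [smul_eq_mul]
  ring

/-- if `E₆ τ = 0`, the lattices `ℤ τ + ℤ` and `i (ℤ τ + ℤ)` coincide. -/
theorem m16h1_lattice_eq (τ : ℍ) (h : E₆ τ = 0) :
    (m16h1_pp Complex.I Complex.I_ne_zero τ).lattice = (m16h1_pp 1 one_ne_zero τ).lattice := by
  have hI4 : Complex.I ^ 4 = 1 := Complex.I_pow_four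
  refine li_lattice_eq_of_g2_g3 _ _ ?_ ?_
  · rw [PeriodPair.g₂, PeriodPair.g₂, m16h1_G_pp, m16h1_G_pp, hI4, one_pow]
  · have h6 : ∑' v : Fin 2 → ℤ, eisSummand (6 : ℕ) v τ = 0 := by
      rw [m16h1_tsum_eisSummand τ (by norm_num : 3 ≤ 6)]
      have : E (by norm_num : 3 ≤ 6) τ = 0 := h
      rw [this, mul_zero, mul_zero]
    rw [PeriodPair.g₃, PeriodPair.g₃, m16h1_G_pp, m16h1_G_pp, h6]
    simp only [mul_zero]

/-- **complex multiplication**: if `E₆ τ = 0` then `i` and `i τ` lie in `ℤ τ + ℤ`. -/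
theorem m16h1_cm (τ : ℍ) (h : E₆ τ = 0) :
    (∃ m n : ℤ, (m : ℂ) * τ + n = Complex.I) ∧ (∃ m n : ℤ, (m : ℂ) * τ + n = Complex.I * τ) := by
  have hl := m16h1_lattice_eq τ h
  constructor
  · have h1 : Complex.I ∈ (m16h1_pp Complex.I Complex.I_ne_zero τ).lattice :=
      (m16h1_pp Complex.I Complex.I_ne_zero τ).ω₂_mem_lattice
    rw [hl, PeriodPair.mem_lattice] at h1
    obtain ⟨m, n, hmn⟩ := h1
    refine ⟨m, n, ?_⟩
    rw [← hmn, m16h1_pp_ω₁, m16h1_pp_ω₂]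
    ring
  · have h1 : Complex.I * τ ∈ (m16h1_pp Complex.I Complex.I_ne_zero τ).lattice :=
      (m16h1_pp Complex.I Complex.I_ne_zero τ).ω₁_mem_lattice
    rw [hl, PeriodPair.mem_lattice] at h1
    obtain ⟨m, n, hmn⟩ := h1
    refine ⟨m, n, ?_⟩
    rw [← hmn, m16h1_pp_ω₁, m16h1_pp_ω₂]
    ring

/-- `E₆ ((n + i)/p) = 0` implies `p ∣ n^2 + 1`. -/
theorem m16h1_E6_div (p : ℕ) (hp : 0 < p) (n : ℤ) (τ : ℍ)
    (hτ : (τ : ℂ) = ((n : ℂ) + Complex.I) / p) (h : E₆ τ = 0) : (p : ℤ) ∣ n ^ 2 + 1 := by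
  obtain ⟨-, m, n', hmn⟩ := m16h1_cm τ h
  have hp0 : (p : ℂ) ≠ 0 := by exact_mod_cast hp.ne'
  rw [hτ] at hmn
  have h1 : (m : ℂ) * ((n : ℂ) + Complex.I) + n' * p = Complex.I * ((n : ℂ) + Complex.I) := by
    field_simp at hmn
    linear_combination hmn
  have hre := congrArg Complex.re h1
  have him := congrArg Complex.im h1
  simp at hre him
  have him' : m = n := by exact_mod_cast him
  have hre' : (m : ℝ) * n + n' * p = -1 := by linarith
  have hz : m * n + n' * p = -1 := by exact_mod_cast hre'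
  rw [him'] at hz
  exact ⟨-n', by linear_combination hz⟩

/-- `E₆ (p i) ≠ 0` for `p ≥ 2`. -/
theorem m16h1_E6_mul (p : ℕ) (hp : 2 ≤ p) (τ : ℍ) (hτ : (τ : ℂ) = (p : ℂ) * Complex.I) :
    E₆ τ ≠ 0 := by
  intro h
  obtain ⟨⟨m, n, hmn⟩, -⟩ := m16h1_cm τ h
  rw [hτ] at hmn
  have him := congrArg Complex.im hmn
  simp at him
  have h1 : m * (p : ℤ) = 1 := by exact_mod_cast him
  have h2 : (p : ℤ) ∣ 1 := ⟨m, by linarith⟩
  have h3 : (p : ℤ) ≤ 1 := Int.le_of_dvd one_pos h2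
  omega

end Fermat.Agent.M16

end
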