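/-
S16, package H1 (helper9): the conjugates of `x = J(p τ)` at `i`.

`x_∞(i) = J(p i) ≠ 1728`, and `x_k(i) = J((k + i)/p) = 1728` forces `k^2 = -1` in `ZMod p`.
-/
import Mathlib
import Fermat.Agent.M16.H1Sym
import Fermat.Agent.M16.H1Ell
import Fermat.Agent.M28.PaX

set_option autoImplicit false
set_option linter.unusedSectionVars false

noncomputable section

namespace Fermat.Agent.M16

open UpperHalfPlane hiding I
open Filter Function Topology ModularForm Complex ModularCurve
open scoped Manifold MatrixGroups ModularForm Real CongruenceSubgroup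
open CongruenceSubgroup
open Fermat.Agent.S23 Fermat.Agent.S24 Fermat.Agent.M28

variable (p : ℕ) [Fact p.Prime]

theorem m16h1_val_x_none : m16h1_val p (m28pa_x p) none ≠ 1728 := by
  intro h
  have hp : p.Prime := Fact.out
  have h1 : m16h1_val p (m28pa_x p) none = ord_J (pe_mulN p (NeZero.pos p) UpperHalfPlane.I) := rfl
  rw [h1, ord_J_eq_1728_iff] at h
  refine m16h1_E6_mul p hp.two_le _ ?_ h
  rw [pe_mulN_coe]
  rfl

theorem m16h1_val_x_some (k : ZMod p) (h : m16h1_val p (m28pa_x p) (some k) = 1728) :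
    k ^ 2 = -1 := by
  have hp : p.Prime := Fact.out
  have h1 : m16h1_val p (m28pa_x p) (some k)
      = ord_J (m28pa_div p 0 (ModularGroup.T ^ ((k.val : ℕ) : ℤ) • UpperHalfPlane.I)) := by
    have h2 : m16h1_val p (m28pa_x p) (some k)
        = (m28pa_x p : ℍ → ℂ)
            (ModularGroup.S • (ModularGroup.T ^ ((k.val : ℕ) : ℤ) • UpperHalfPlane.I)) := rfl
    rw [h2, m28pa_x_apply, m28pa_mulN_S, ord_J_smul]
  rw [h1, ord_J_eq_1728_iff] at h
  have h3 := m16h1_E6_div p hp.pos ((k.val : ℕ) : ℤ) _ ?_ h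
  · have h4 : (((((k.val : ℕ) : ℤ)) ^ 2 + 1 : ℤ) : ZMod p) = 0 :=
      (ZMod.intCast_zmod_eq_zero_iff_dvd _ p).mpr h3
    push_cast at h4
    rw [ZMod.natCast_zmod_val] at h4
    exact eq_neg_of_add_eq_zero_left h4
  · rw [m28pa_div_coe, UpperHalfPlane.modular_T_zpow_smul, UpperHalfPlane.coe_vadd]
    push_cast
    ring

end Fermat.Agent.M16

end
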