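/-
S16, package H1 (helper9): rationality by power sums (Newton) and a Lagrange-type lemma.

* `m16h1_prod_coeff_mem` : if all power sums of a finite family `a` lie in a subfield `K ⊂ ℂ`,
  then `∏ (X - a c)` has coefficients in `K`.
* `m16h1_linalg` : if moreover all `∑ b c * a c ^ l` lie in `K` and exactly two members
  `a c₁ = a c₂ = A ∈ K` of the family take the value `A`, then `b c₁ + b c₂ ∈ K`.
-/
import Mathlib

set_option autoImplicit false

namespace Fermat.Agent.M16

open Polynomial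

theorem m16h1_esymm_mem {ι : Type*} [Fintype ι] [DecidableEq ι] (K : Subfield ℂ) (a : ι → ℂ)
    (ha : ∀ l : ℕ, ∑ c, a c ^ l ∈ K) (k : ℕ) :
    MvPolynomial.aeval a (MvPolynomial.esymm ι ℂ k) ∈ K := by
  induction k using Nat.strong_induction_on with
  | _ k ih =>
    rcases Nat.eq_zero_or_pos k with rfl | hk
    · rw [MvPolynomial.esymm_zero, map_one]
      exact K.one_mem
    · have h := congrArg (MvPolynomial.aeval a) (MvPolynomial.mul_esymm_eq_sum ι ℂ k)
      rw [map_mul, map_natCast, map_mul, map_pow, map_neg, map_one, map_sum] at h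
      have hmem : (k : ℂ) * MvPolynomial.aeval a (MvPolynomial.esymm ι ℂ k) ∈ K := by
        rw [h]
        refine K.mul_mem (K.pow_mem (K.neg_mem K.one_mem) _) (K.sum_mem fun x hx => ?_)
        rw [map_mul, map_mul, map_pow, map_neg, map_one]
        have hx1 : x.1 < k := (Finset.mem_filter.mp hx).2
        refine K.mul_mem (K.mul_mem (K.pow_mem (K.neg_mem K.one_mem) _) (ih x.1 hx1)) ?_
        rw [MvPolynomial.psum, map_sum]
        simp only [map_pow, MvPolynomial.aeval_X]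
        exact ha x.2
      have hk' : (k : ℂ) ∈ K := natCast_mem K k
      have hk0 : (k : ℂ) ≠ 0 := by exact_mod_cast hk.ne'
      have e : MvPolynomial.aeval a (MvPolynomial.esymm ι ℂ k)
          = (k : ℂ)⁻¹ * ((k : ℂ) * MvPolynomial.aeval a (MvPolynomial.esymm ι ℂ k)) := by
        field_simp
      rw [e]
      exact K.mul_mem (K.inv_mem hk') hmem

/-- if all power sums of `a` are in `K`, then `∏ (X - a c)` has coefficients in `K`. -/
theorem m16h1_prod_coeff_mem {ι : Type*} [Fintype ι] [DecidableEq ι] (K : Subfield ℂ)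
    (a : ι → ℂ) (ha : ∀ l : ℕ, ∑ c, a c ^ l ∈ K) (i : ℕ) :
    (∏ c, (X - C (a c))).coeff i ∈ K := by
  have h1 : (∏ c, (X - C (a c)) : ℂ[X])
      = ((Finset.univ.val.map a).map fun t => X - C t).prod := by
    rw [Multiset.map_map]
    rfl
  rw [h1]
  by_cases hi : i ≤ Multiset.card (Finset.univ.val.map a)
  · rw [Multiset.prod_X_sub_C_coeff _ hi,
      ← MvPolynomial.aeval_esymm_eq_multiset_esymm (σ := ι) (R := ℂ) (S := ℂ) _ a]
    exact K.mul_mem (K.pow_mem (K.neg_mem K.one_mem) _) (m16h1_esymm_mem K a ha _)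
  · rw [Polynomial.coeff_eq_zero_of_natDegree_lt]
    · exact K.zero_mem
    · have hdeg := Polynomial.natDegree_multiset_prod_X_sub_C_eq_card (Finset.univ.val.map a)
      rw [hdeg]
      omega

/-- the same for a product over a finset. -/
theorem m16h1_prod_coeff_mem_finset {ι : Type*} [DecidableEq ι] (K : Subfield ℂ)
    (s : Finset ι) (a : ι → ℂ) (ha : ∀ l : ℕ, ∑ c ∈ s, a c ^ l ∈ K) (i : ℕ) :
    (∏ c ∈ s, (X - C (a c))).coeff i ∈ K := by
  have h := m16h1_prod_coeff_mem K (fun c : s => a c) (fun l => by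
    have := ha l
    rwa [← Finset.sum_coe_sort] at this) i
  rwa [Finset.prod_coe_sort s (fun c => (X - C (a c) : ℂ[X]))] at h

theorem m16h1_eval_mem (K : Subfield ℂ) (W : ℂ[X]) (hW : ∀ i, W.coeff i ∈ K) {A : ℂ}
    (hA : A ∈ K) : W.eval A ∈ K := by
  rw [Polynomial.eval_eq_sum_range]
  exact K.sum_mem fun i _ => K.mul_mem (hW i) (K.pow_mem hA i)

/-- **Lagrange-type lemma**. -/
theorem m16h1_linalg {ι : Type*} [Fintype ι] [DecidableEq ι] (K : Subfield ℂ) (a b : ι → ℂ)
    (ha : ∀ l : ℕ, ∑ c, a c ^ l ∈ K) (hb : ∀ l : ℕ, ∑ c, b c * a c ^ l ∈ K)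
    (c₁ c₂ : ι) (h12 : c₁ ≠ c₂) (A : ℂ) (hA : A ∈ K) (h1 : a c₁ = A) (h2 : a c₂ = A)
    (hne : ∀ c, c ≠ c₁ → c ≠ c₂ → a c ≠ A) : b c₁ + b c₂ ∈ K := by
  set s : Finset ι := (Finset.univ.erase c₁).erase c₂ with hs
  have hc2 : c₂ ∈ Finset.univ.erase c₁ := Finset.mem_erase.mpr ⟨h12.symm, Finset.mem_univ _⟩
  have hsplit : ∀ f : ι → ℂ, ∑ c, f c = f c₁ + f c₂ + ∑ c ∈ s, f c := by
    intro f
    rw [← Finset.add_sum_erase Finset.univ f (Finset.mem_univ c₁),
      ← Finset.add_sum_erase (Finset.univ.erase c₁) f hc2, add_assoc]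
  set W : ℂ[X] := ∏ c ∈ s, (X - C (a c)) with hW
  have hWK : ∀ i, W.coeff i ∈ K := by
    refine m16h1_prod_coeff_mem_finset K s a fun l => ?_
    have h := hsplit (fun c => a c ^ l)
    have e : ∑ c ∈ s, a c ^ l = ∑ c, a c ^ l - A ^ l - A ^ l := by
      rw [h, h1, h2]
      ring
    rw [e]
    exact K.sub_mem (K.sub_mem (ha l) (K.pow_mem hA l)) (K.pow_mem hA l)
  have hroot : ∀ c ∈ s, W.eval (a c) = 0 := by
    intro c hc
    rw [hW, Polynomial.eval_prod]
    exact Finset.prod_eq_zero hc (by simp)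
  have hω : W.eval A ≠ 0 := by
    rw [hW, Polynomial.eval_prod]
    refine Finset.prod_ne_zero_iff.mpr fun c hc => ?_
    rw [Polynomial.eval_sub, Polynomial.eval_X, Polynomial.eval_C, sub_ne_zero]
    have hc' := Finset.mem_erase.mp hc
    have hc'' := Finset.mem_erase.mp hc'.2
    exact (hne c hc''.1 hc'.1).symm
  have hsum : ∑ c, b c * W.eval (a c) ∈ K := by
    have e : ∑ c, b c * W.eval (a c)
        = ∑ i ∈ Finset.range (W.natDegree + 1), W.coeff i * ∑ c, b c * a c ^ i := by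
      simp_rw [Polynomial.eval_eq_sum_range, Finset.mul_sum]
      rw [Finset.sum_comm]
      refine Finset.sum_congr rfl fun i _ => Finset.sum_congr rfl fun c _ => ?_
      ring
    rw [e]
    exact K.sum_mem fun i _ => K.mul_mem (hWK i) (hb i)
  have e2 : ∑ c, b c * W.eval (a c) = (b c₁ + b c₂) * W.eval A := by
    rw [hsplit (fun c => b c * W.eval (a c)), h1, h2]
    rw [Finset.sum_eq_zero (fun c hc => by rw [hroot c hc, mul_zero])]
    ring
  rw [e2] at hsum
  have hωK : W.eval A ∈ K := m16h1_eval_mem K W hWK hA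
  have e3 : b c₁ + b c₂ = (b c₁ + b c₂) * W.eval A * (W.eval A)⁻¹ := by
    field_simp
  rw [e3]
  exact K.mul_mem hsum (K.inv_mem hωK)

end Fermat.Agent.M16
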