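/-
S16, package H1 (helper9): the values at the two elliptic cosets lie in `ℚ(i)` and are conjugate.

Given a separating function `u` (good over `ℚ`) with `u_{k₀}(i) = e + f i`, `u_{-k₀}(i) = e - f i`,
`f ≠ 0`, and `x_{±k₀}(i) = 1728` for `x = J(p τ)`:
`ψ_{k₀}(i) = x' + y' i`, `ψ_{-k₀}(i) = x' - y' i` with `x', y' ∈ ℚ`, for every `ψ` good over `ℚ`.
-/
import Mathlib
import Fermat.Agent.M16.H1Fix
import Fermat.Agent.M16.H1Jp
import Fermat.Agent.M16.H1Lin

set_option autoImplicit false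
set_option linter.unusedSectionVars false

noncomputable section

namespace Fermat.Agent.M16

open UpperHalfPlane hiding I
open Filter Function Topology ModularForm Complex ModularCurve
open scoped Manifold MatrixGroups ModularForm Real CongruenceSubgroup
open CongruenceSubgroup
open Fermat.Agent.S23 Fermat.Agent.S24 Fermat.Agent.M28

/-- the rational numbers, as a subfield of `ℂ`. -/
def m16h1_Q : Subfield ℂ := (algebraMap ℚ ℂ).fieldRange

theorem m16h1_mem_Q_iff (x : ℂ) : x ∈ m16h1_Q ↔ ∃ r : ℚ, x = (r : ℂ) := by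
  unfold m16h1_Q
  rw [RingHom.mem_fieldRange]
  constructor
  · rintro ⟨r, rfl⟩
    exact ⟨r, rfl⟩
  · rintro ⟨r, rfl⟩
    exact ⟨r, rfl⟩

theorem m16h1_ratCast_mem_Q (r : ℚ) : (r : ℂ) ∈ m16h1_Q := (m16h1_mem_Q_iff _).mpr ⟨r, rfl⟩

variable (p : ℕ) [Fact p.Prime]

theorem m16h1_sq_cases (k₀ : ZMod p) (hk₀ : k₀ ^ 2 = -1) (k : ZMod p) (hk : k ^ 2 = -1) :
    k = k₀ ∨ k = -k₀ := by
  have h5 : (k - k₀) * (k + k₀) = 0 := by
    have : (k - k₀) * (k + k₀) = k ^ 2 - k₀ ^ 2 := by ring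
    rw [this, hk, hk₀, sub_self]
  rcases mul_eq_zero.mp h5 with h6 | h6
  · exact Or.inl (sub_eq_zero.mp h6)
  · exact Or.inr (eq_neg_of_add_eq_zero_left h6)

/-- the sum of the values at the two elliptic cosets is rational. -/
theorem m16h1_beta_sum_mem {ψ : ana_ring p} (hψ : m16h1_Good p m16h1_Q.toSubring ψ)
    (hx : m16h1_Good p m16h1_Q.toSubring (m28pa_x p))
    (hp2 : p ≠ 2) (k₀ : ZMod p) (hk₀ : k₀ ^ 2 = -1)
    (hx1 : m16h1_val p (m28pa_x p) (some k₀) = 1728)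
    (hx2 : m16h1_val p (m28pa_x p) (some (-k₀)) = 1728) :
    m16h1_val p ψ (some k₀) + m16h1_val p ψ (some (-k₀)) ∈ m16h1_Q := by
  refine m16h1_linalg m16h1_Q (fun c => m16h1_val p (m28pa_x p) c) (fun c => m16h1_val p ψ c)
    ?_ ?_ (some k₀) (some (-k₀)) ?_ 1728 ?_ hx1 hx2 ?_
  · intro l
    have h := m16h1_sum_val_mem p (hx.pow p l)
    simp_rw [m16h1_val_pow] at h
    exact h
  · intro l
    have h := m16h1_sum_val_mem p (hψ.mul p (hx.pow p l))
    simp_rw [m16h1_val_mul, m16h1_val_pow] at h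
    exact h
  · intro h
    exact m16h1_k0_ne_neg p hp2 k₀ hk₀ (Option.some.inj h)
  · have h := natCast_mem m16h1_Q 1728
    exact_mod_cast h
  · intro c h1 h2 h
    cases c with
    | none => exact m16h1_val_x_none p h
    | some k =>
      rcases m16h1_sq_cases p k₀ hk₀ k (m16h1_val_x_some p k h) with h3 | h3
      · exact h1 (congrArg some h3)
      · exact h2 (congrArg some h3)

/-- **the values at the two elliptic cosets are conjugate elements of `ℚ(i)`**. -/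
theorem m16h1_beta_rat {ψ : ana_ring p} (hψ : m16h1_Good p m16h1_Q.toSubring ψ)
    (hx : m16h1_Good p m16h1_Q.toSubring (m28pa_x p))
    (u : ana_ring p) (hu : m16h1_Good p m16h1_Q.toSubring u)
    (hp2 : p ≠ 2) (k₀ : ZMod p) (hk₀ : k₀ ^ 2 = -1)
    (hx1 : m16h1_val p (m28pa_x p) (some k₀) = 1728)
    (hx2 : m16h1_val p (m28pa_x p) (some (-k₀)) = 1728)
    (e f : ℚ) (hf : f ≠ 0) (hu1 : m16h1_val p u (some k₀) = (e : ℂ) + (f : ℂ) * Complex.I)
    (hu2 : m16h1_val p u (some (-k₀)) = (e : ℂ) - (f : ℂ) * Complex.I) :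
    ∃ x y : ℚ, m16h1_val p ψ (some k₀) = (x : ℂ) + (y : ℂ) * Complex.I ∧
      m16h1_val p ψ (some (-k₀)) = (x : ℂ) - (y : ℂ) * Complex.I := by
  have hs := m16h1_beta_sum_mem p hψ hx hp2 k₀ hk₀ hx1 hx2
  have ht := m16h1_beta_sum_mem p (hψ.mul p hu) hx hp2 k₀ hk₀ hx1 hx2
  rw [m16h1_val_mul, m16h1_val_mul, hu1, hu2] at ht
  obtain ⟨s, hs⟩ := (m16h1_mem_Q_iff _).mp hs
  obtain ⟨t, ht⟩ := (m16h1_mem_Q_iff _).mp ht
  set β₁ := m16h1_val p ψ (some k₀) with hβ₁
  set β₂ := m16h1_val p ψ (some (-k₀)) with hβ₂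
  have hfc : (f : ℂ) ≠ 0 := by exact_mod_cast hf
  have hI : Complex.I ^ 2 = -1 := Complex.I_sq
  have key1 : 2 * (f : ℂ) * β₁ = (f : ℂ) * s - ((t : ℂ) - e * s) * Complex.I := by
    linear_combination ((f : ℂ) + e * Complex.I) * hs - Complex.I * ht
      + (f : ℂ) * (β₁ - β₂) * hI
  have key2 : 2 * (f : ℂ) * β₂ = (f : ℂ) * s + ((t : ℂ) - e * s) * Complex.I := by
    linear_combination ((f : ℂ) - e * Complex.I) * hs + Complex.I * ht
      - (f : ℂ) * (β₁ - β₂) * hI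
  refine ⟨s / 2, -(t - e * s) / (2 * f), ?_, ?_⟩
  · push_cast
    field_simp
    linear_combination key1
  · push_cast
    field_simp
    linear_combination key2

end Fermat.Agent.M16

end
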