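/-
M16 (S16 project), LOWER BOUND side: interface definitions (architect: helper3).

Notation (paper): `A` = modular functions `ψ` on `Γ₀(p)`, holomorphic on `ℍ`, meromorphic at the
cusp `∞`, holomorphic at the cusp `0`.  Representation: `ψ : ana_ring p` (S24: holomorphic on `ℍ`,
every `SL(2,ℤ)`-translate `p`-periodic and meromorphic at `i∞`) which is `Γ₀(p)`-invariant.

* `m16lb_b p ψ k` : coefficient of `q ^ k` of `ψ` at `∞` (`q = e^{2πiτ}`, i.e. `q_p ^ (p k)`);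
* `m16lb_c p ψ k` : coefficient of `q ^ k` of `ψ* = ψ ∘ W_p` at `∞`, i.e. the coefficient of
  `q_p ^ k` of `ψ ∘ S` (`ψ(-1/τ) = ψ*(τ/p)`);
* `m16lb_Orth p π` : the integral principal part `π = ∑ π_k q^{-k}` is orthogonal to all cusp forms
  of weight 2 on `Γ₀(p)`.

Targets (each a `Prop`; the owner proves `theorem m16<pkg>_main : m16lb_<PKG>`):
`m16lb_PSI` (Mittag-Leffler from Riemann-Roch), `m16lb_RES` (residue theorem for `E`),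
`m16lb_INT` (integrality at both cusps, from Igusa), `m16lb_H1` (the extra factor `2`),
and the key statement `m16lb_KEY` assembled from them in `LbKey.lean`.
-/
import Fermat.Agent.M16.TopDefs
import Fermat.Agent.S24.AnaQexp

set_option autoImplicit false

noncomputable section

namespace Fermat.Agent.M16

open Fermat.Agent.S24
open scoped MatrixGroups

/-- `ψ` is `Γ₀(p)`-invariant and holomorphic at the cusp `0`. -/
def m16lb_IsA (p : ℕ) [NeZero p] (ψ : ana_ring p) : Prop :=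
  (∀ γ : SL(2, ℤ), γ ∈ CongruenceSubgroup.Gamma0 p → ana_comp p γ ψ = ψ) ∧
    ∀ k : ℤ, k < 0 → (ana_qexp p (ana_comp p ModularGroup.S ψ)).coeff k = 0

/-- the coefficient of `q ^ k` (`q = e^{2πiτ}`) of `ψ` at the cusp `∞`. -/
def m16lb_b (p : ℕ) [NeZero p] (ψ : ana_ring p) (k : ℤ) : ℂ :=
  (ana_qexp p ψ).coeff ((p : ℤ) * k)

/-- the coefficient of `q ^ k` of `ψ ∘ W_p` at `∞` (= the expansion of `ψ` at the cusp `0`). -/
def m16lb_c (p : ℕ) [NeZero p] (ψ : ana_ring p) (k : ℤ) : ℂ :=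
  (ana_qexp p (ana_comp p ModularGroup.S ψ)).coeff k

/-- `x` is a rational number which is integral at `ℓ`. -/
def m16lb_IsLInt (ℓ : ℕ) (x : ℂ) : Prop := ∃ r : ℚ, ¬ ℓ ∣ r.den ∧ x = (r : ℂ)

/-- the integral principal part `π` (supported on `k ≥ 1`) is orthogonal to all cusp forms. -/
def m16lb_Orth (p : ℕ) (π : ℕ →₀ ℤ) : Prop :=
  π 0 = 0 ∧ ∀ f : CuspForm (CongruenceSubgroup.Gamma0 p) 2,
    (π.sum fun k a => (a : ℂ) * ModularFormClass.qCoeff f k) = 0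

/-- `ψ` has principal part `π` at `∞`. -/
def m16lb_HasPP (p : ℕ) [NeZero p] (ψ : ana_ring p) (π : ℕ →₀ ℤ) : Prop :=
  ∀ k : ℕ, 1 ≤ k → m16lb_b p ψ (-(k : ℤ)) = ((π k : ℤ) : ℂ)

/-- `⟨π, σ'⟩ = ∑ π_k σ'(k)`. -/
def m16lb_pair (p : ℕ) (π : ℕ →₀ ℤ) : ℤ := π.sum fun k a => a * (m16_sigma p k : ℤ)

/-- **(PSI)** Mittag-Leffler: an integral principal part orthogonal to all cusp forms is the
principal part of some `ψ ∈ A` with RATIONAL `q`-expansions at both cusps and `b_0 = 0`. -/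
def m16lb_PSI : Prop :=
  ∀ (p : ℕ) [Fact p.Prime] (π : ℕ →₀ ℤ), m16lb_Orth p π →
    haveI : NeZero p := ⟨(Fact.out : p.Prime).ne_zero⟩
    ∃ ψ : ana_ring p, m16lb_IsA p ψ ∧ m16lb_HasPP p ψ π ∧ m16lb_b p ψ 0 = 0 ∧
      (∀ k : ℤ, ∃ r : ℚ, m16lb_b p ψ k = (r : ℂ)) ∧ (∀ k : ℤ, ∃ r : ℚ, m16lb_c p ψ k = (r : ℂ))

/-- **(RES)** the residue theorem for `ψ · E`: `∑ π_k σ'(k) = (p-1)/24 · (c_0 - b_0)`. -/
def m16lb_RES : Prop :=
  ∀ (p : ℕ) [Fact p.Prime] (π : ℕ →₀ ℤ),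
    haveI : NeZero p := ⟨(Fact.out : p.Prime).ne_zero⟩
    ∀ ψ : ana_ring p, π 0 = 0 → m16lb_IsA p ψ → m16lb_HasPP p ψ π →
      ((m16lb_pair p π : ℤ) : ℂ) = ((p : ℂ) - 1) / 24 * (m16lb_c p ψ 0 - m16lb_b p ψ 0)

/-- **(INT)** integrality at both cusps: for a prime `ℓ ≠ p`, a `ψ ∈ A` with rational
`q`-expansions whose coefficients `b_k`, `k ≤ 0`, are `ℓ`-integral has ALL `b_k` and `c_k`
`ℓ`-integral. -/
def m16lb_INT : Prop :=
  ∀ (p : ℕ) [Fact p.Prime] (ℓ : ℕ), ℓ.Prime → ℓ ≠ p →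
    haveI : NeZero p := ⟨(Fact.out : p.Prime).ne_zero⟩
    ∀ ψ : ana_ring p, m16lb_IsA p ψ →
      (∀ k : ℤ, ∃ r : ℚ, m16lb_b p ψ k = (r : ℂ)) → (∀ k : ℤ, ∃ r : ℚ, m16lb_c p ψ k = (r : ℂ)) →
      (∀ k : ℤ, k ≤ 0 → m16lb_IsLInt ℓ (m16lb_b p ψ k)) →
      (∀ k : ℤ, m16lb_IsLInt ℓ (m16lb_b p ψ k)) ∧ (∀ k : ℤ, m16lb_IsLInt ℓ (m16lb_c p ψ k))

/-- **(H1)** `p ≡ 1 mod 4`: for `ψ ∈ A`, `2`-integral at both cusps, `c_0 - b_0 ∈ 2 ℤ_(2)`. -/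
def m16lb_H1 : Prop :=
  ∀ (p : ℕ) [Fact p.Prime], p % 4 = 1 →
    haveI : NeZero p := ⟨(Fact.out : p.Prime).ne_zero⟩
    ∀ ψ : ana_ring p, m16lb_IsA p ψ →
      (∀ k : ℤ, m16lb_IsLInt 2 (m16lb_b p ψ k)) → (∀ k : ℤ, m16lb_IsLInt 2 (m16lb_c p ψ k)) →
      ∃ r : ℚ, ¬ 2 ∣ r.den ∧ m16lb_c p ψ 0 - m16lb_b p ψ 0 = 2 * (r : ℂ)

/-- **(KEY)** every integral principal part orthogonal to all cusp forms pairs with the
Eisenstein `q`-series to a multiple of `n = eisensteinNumerator p`. -/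
def m16lb_KEY : Prop :=
  ∀ (p : ℕ) [Fact p.Prime] (π : ℕ →₀ ℤ), m16lb_Orth p π →
    (ModularCurve.eisensteinNumerator p : ℤ) ∣ m16lb_pair p π

end Fermat.Agent.M16
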