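/-
S16, package H1 (helper9): the conditional assembly of (H1).

`m16h1_core` : for `p ≡ 1 mod 4` and `ψ` good over `m16h1_Z` and over `ℚ`: `c_0 - b_0 ∈ 2 Z`,
given the three leaves X1 (`(w + z i)^12 ∉ ℝ`), X2 (`J(p τ)` and the modular unit are good over
`ℚ`), X3 (values at the elliptic points `δ • i`).
`m16h1_lb_of` : the same in the shape of `m16lb_H1`.
-/
import Mathlib
import Fermat.Agent.M16.H1Rat
import Fermat.Agent.M16.H1Del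
import Fermat.Agent.M16.LbDefs
import Fermat.Agent.M28.PbPhi

set_option autoImplicit false
set_option linter.unusedSectionVars false

noncomputable section

namespace Fermat.Agent.M16

open UpperHalfPlane hiding I
open Filter Function Topology ModularForm Complex ModularCurve
open scoped Manifold MatrixGroups ModularForm Real CongruenceSubgroup
open CongruenceSubgroup
open Fermat.Agent.S23 Fermat.Agent.S24 Fermat.Agent.M28

variable (p : ℕ) [Fact p.Prime]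

/-- leaf X1. -/
def m16h1_X1 : Prop :=
  ∀ (w z : ℤ), w ^ 2 + z ^ 2 = (p : ℤ) →
    ∃ e f : ℚ, f ≠ 0 ∧ ((w : ℂ) + z * Complex.I) ^ 12 = (e : ℂ) + (f : ℂ) * Complex.I ∧
      ((w : ℂ) - z * Complex.I) ^ 12 = (e : ℂ) - (f : ℂ) * Complex.I

/-- leaf X2. -/
def m16h1_X2 : Prop :=
  m16h1_Good p m16h1_Q.toSubring (m28pa_x p) ∧ m16h1_Good p m16h1_Q.toSubring (m28pb_phi p)

/-- leaf X3. -/
def m16h1_X3 : Prop :=
  (∀ (φ : ana_ring p), (∀ γ ∈ Gamma0 p, ana_comp p γ φ = φ) → ∀ (δ : SL(2, ℤ)) (k : ZMod p),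
      ((δ 1 1 : ℤ) : ZMod p) = k * ((δ 1 0 : ℤ) : ZMod p) →
      m16h1_val p φ (some k) = (φ : ℍ → ℂ) (δ • UpperHalfPlane.I)) ∧
  (∀ δ : SL(2, ℤ), (δ 1 0) ^ 2 + (δ 1 1) ^ 2 = (p : ℤ) →
      (m28pa_x p : ℍ → ℂ) (δ • UpperHalfPlane.I) = 1728) ∧
  (∀ δ : SL(2, ℤ), (δ 1 0) ^ 2 + (δ 1 1) ^ 2 = (p : ℤ) →
      (m28pb_phi p : ℍ → ℂ) (δ • UpperHalfPlane.I)
        = ((δ 1 1 : ℂ) - (δ 1 0 : ℂ) * Complex.I) ^ 12)

/-- **(H1), conditional on the leaves**. -/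
theorem m16h1_core (h1 : m16h1_X1 p) (h2 : m16h1_X2 p) (h3 : m16h1_X3 p) (hp4 : p % 4 = 1)
    {ψ : ana_ring p} (hψZ : m16h1_Good p m16h1_Z ψ)
    (hψQ : m16h1_Good p m16h1_Q.toSubring ψ) :
    ∃ y ∈ m16h1_Z,
      (ana_qexp p (ana_comp p ModularGroup.S ψ)).coeff 0 - (ana_qexp p ψ).coeff 0 = 2 * y := by
  have hp2 : p ≠ 2 := by
    intro h
    rw [h] at hp4
    norm_num at hp4
  obtain ⟨δ, δ', k₀, hk₀, hδ, hδ', e10, e11, hk, hk'⟩ := m16h1_exists_delta p hp4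
  obtain ⟨hval, hxδ, huδ⟩ := h3
  obtain ⟨e, f, hf, hpow1, hpow2⟩ := h1 (δ 1 1) (δ 1 0) (by rw [add_comm]; exact hδ)
  have hx1 : m16h1_val p (m28pa_x p) (some k₀) = 1728 := by
    rw [hval _ (fun γ hγ => Subtype.ext (funext fun τ => m28pa_x_inv p γ hγ τ)) δ k₀ hk,
      hxδ δ hδ]
  have hx2 : m16h1_val p (m28pa_x p) (some (-k₀)) = 1728 := by
    rw [hval _ (fun γ hγ => Subtype.ext (funext fun τ => m28pa_x_inv p γ hγ τ)) δ' (-k₀) hk',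
      hxδ δ' hδ']
  have hu1 : m16h1_val p (m28pb_phi p) (some k₀) = (e : ℂ) + ((-f : ℚ) : ℂ) * Complex.I := by
    rw [hval _ h2.2.inv δ k₀ hk, huδ δ hδ, hpow2]
    push_cast
    ring
  have hu2 : m16h1_val p (m28pb_phi p) (some (-k₀)) = (e : ℂ) - ((-f : ℚ) : ℂ) * Complex.I := by
    rw [hval _ h2.2.inv δ' (-k₀) hk', huδ δ' hδ', e10, e11]
    push_cast
    have e1 : ((δ 1 1 : ℤ) : ℂ) - -((δ 1 0 : ℤ) : ℂ) * Complex.I
        = ((δ 1 1 : ℤ) : ℂ) + ((δ 1 0 : ℤ) : ℂ) * Complex.I := by ring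
    have e2 : (e : ℂ) - -(f : ℂ) * Complex.I = (e : ℂ) + (f : ℂ) * Complex.I := by ring
    rw [e1, e2]
    exact hpow1
  obtain ⟨x, y, hβ₁, hβ₂⟩ := m16h1_beta_rat p hψQ h2.1 (m28pb_phi p) h2.2 hp2 k₀ hk₀ hx1 hx2
    e (-f) (neg_ne_zero.mpr hf) hu1 hu2
  have hmem : (x : ℂ) + (y : ℂ) * Complex.I ∈ m16h1_Z := by
    rw [← hβ₁]
    exact m16h1_val_mem p hψZ _
  have hxodd : Odd x.den := m16h1_gauss x y hmem
  refine m16h1_main_of_beta p hψZ hp2 k₀ hk₀ (x : ℂ) (m16h1_Z_rat x hxodd) ?_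
  rw [hβ₁, hβ₂]
  ring

/-! ### the shape of `m16lb_H1` -/

theorem m16h1_coeff_eq_zero (ψ : ana_ring p) (hΓ : ∀ γ ∈ Gamma0 p, ana_comp p γ ψ = ψ) (n : ℤ)
    (hn : ¬ (p : ℤ) ∣ n) : (ana_qexp p ψ).coeff n = 0 := by
  by_contra h
  apply hn
  have hper : ∀ τ : ℍ, (ψ : ℍ → ℂ) (((1 : ℕ) : ℝ) +ᵥ τ) = (ψ : ℍ → ℂ) τ := by
    intro τ
    have h1 := congrFun (congrArg Subtype.val (hΓ _ (m16h1_T_mem p))) τ
    rw [ana_comp_apply, UpperHalfPlane.modular_T_smul] at h1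
    rw [← h1]
    simp
  have h2 := atw_laurent_coeff_of_periodic (N := p) 1 (one_dvd p) (ana_isMer_of_mem ψ.2) hper n
    (by rw [← ana_qexp_apply]; exact h)
  simpa using h2

theorem m16h1_odd_of_not_dvd {r : ℚ} (h : ¬ 2 ∣ r.den) : Odd r.den := by
  rw [← Nat.not_even_iff_odd, even_iff_two_dvd]
  exact h

theorem m16h1_good_of_lint (R : Subring ℂ)
    (hR : ∀ r : ℚ, ¬ 2 ∣ r.den → (r : ℂ) ∈ R) (ψ : ana_ring p)
    (hΓ : ∀ γ ∈ Gamma0 p, ana_comp p γ ψ = ψ)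
    (hb : ∀ k : ℤ, m16lb_IsLInt 2 (m16lb_b p ψ k)) (hc : ∀ k : ℤ, m16lb_IsLInt 2 (m16lb_c p ψ k)) :
    m16h1_Good p R ψ where
  inv := hΓ
  exp_inf := by
    rw [m16h1_mem_LR_iff]
    intro n
    by_cases hn : (p : ℤ) ∣ n
    · obtain ⟨k, rfl⟩ := hn
      obtain ⟨r, hr, hbr⟩ := hb k
      have : (ana_qexp p ψ).coeff ((p : ℤ) * k) = (r : ℂ) := hbr
      rw [this]
      exact hR r hr
    · rw [m16h1_coeff_eq_zero p ψ hΓ n hn]
      exact R.zero_mem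
  exp_zero := by
    rw [m16h1_mem_LR_iff]
    intro n
    obtain ⟨r, hr, hcr⟩ := hc n
    have : (ana_qexp p (ana_comp p ModularGroup.S ψ)).coeff n = (r : ℂ) := hcr
    rw [this]
    exact hR r hr

/-- **(H1) in the shape of `m16lb_H1`, conditional on the leaves**. -/
theorem m16h1_lb_of (h1 : m16h1_X1 p) (h2 : m16h1_X2 p) (h3 : m16h1_X3 p) (hp4 : p % 4 = 1)
    (ψ : ana_ring p) (hA : m16lb_IsA p ψ)
    (hb : ∀ k : ℤ, m16lb_IsLInt 2 (m16lb_b p ψ k)) (hc : ∀ k : ℤ, m16lb_IsLInt 2 (m16lb_c p ψ k)) :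
    ∃ r : ℚ, ¬ 2 ∣ r.den ∧ m16lb_c p ψ 0 - m16lb_b p ψ 0 = 2 * (r : ℂ) := by
  have hψZ : m16h1_Good p m16h1_Z ψ :=
    m16h1_good_of_lint p m16h1_Z (fun r hr => m16h1_Z_rat r (m16h1_odd_of_not_dvd hr)) ψ hA.1
      hb hc
  have hψQ : m16h1_Good p m16h1_Q.toSubring ψ :=
    m16h1_good_of_lint p m16h1_Q.toSubring (fun r _ => m16h1_ratCast_mem_Q r) ψ hA.1 hb hc
  obtain ⟨y, hy, h⟩ := m16h1_core p h1 h2 h3 hp4 hψZ hψQ
  obtain ⟨rb, -, hrb⟩ := hb 0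
  obtain ⟨rc, -, hrc⟩ := hc 0
  have hb0 : (ana_qexp p ψ).coeff 0 = (rb : ℂ) := by
    have : m16lb_b p ψ 0 = (ana_qexp p ψ).coeff 0 := by
      unfold m16lb_b
      rw [mul_zero]
    rw [← this, hrb]
  have hc0 : (ana_qexp p (ana_comp p ModularGroup.S ψ)).coeff 0 = (rc : ℂ) := hrc
  have hy2 : y = (((rc - rb) / 2 : ℚ) : ℂ) := by
    rw [hb0, hc0] at h
    push_cast
    linear_combination -(1 / 2 : ℂ) * h
  refine ⟨(rc - rb) / 2, ?_, ?_⟩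
  · have hodd : Odd ((rc - rb) / 2 : ℚ).den := m16h1_Z_rat_odd _ (by rw [← hy2]; exact hy)
    rw [← even_iff_two_dvd, Nat.not_even_iff_odd]
    exact hodd
  · rw [hrc, ← hc0]
    have : m16lb_b p ψ 0 = (ana_qexp p ψ).coeff 0 := by
      unfold m16lb_b
      rw [mul_zero]
    rw [this, h, hy2]

end Fermat.Agent.M16

end
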