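/-
S16, package H1 (helper9): the two elliptic matrices attached to `p = z^2 + w^2`.

For a prime `p ≡ 1 mod 4` there are `δ, δ' ∈ SL(2,ℤ)` with lower rows `(z, w)`, `(-z, w)`,
`z^2 + w^2 = p`, and `k₀ ∈ ZMod p` with `k₀^2 = -1`, `w = k₀ z`.
-/
import Mathlib

set_option autoImplicit false

namespace Fermat.Agent.M16

open scoped MatrixGroups

theorem m16h1_coprime_of_sq_add_sq (p : ℕ) (hp : p.Prime) (a b : ℕ) (h : a ^ 2 + b ^ 2 = p) :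
    IsCoprime (a : ℤ) (b : ℤ) := by
  rw [Int.isCoprime_iff_gcd_eq_one, Int.gcd_natCast_natCast]
  set g := Nat.gcd a b with hg
  have h1 : g ∣ a := Nat.gcd_dvd_left a b
  have h2 : g ∣ b := Nat.gcd_dvd_right a b
  have h3 : g ^ 2 ∣ p := by
    rw [← h]
    exact dvd_add (pow_dvd_pow_of_dvd h1 2) (pow_dvd_pow_of_dvd h2 2)
  have h4 : g ∣ p := dvd_trans (dvd_pow_self g (by norm_num)) h3
  rcases (Nat.dvd_prime hp).mp h4 with h5 | h5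
  · exact h5
  · exfalso
    rw [h5] at h3
    have h6 : p ^ 2 ≤ p := Nat.le_of_dvd hp.pos h3
    have h7 : 2 ≤ p := hp.two_le
    nlinarith

theorem m16h1_not_dvd_of_sq_add_sq (p : ℕ) (hp : p.Prime) (a b : ℕ) (h : a ^ 2 + b ^ 2 = p) :
    ¬ p ∣ a := by
  intro h1
  have h2 : p ∣ b ^ 2 := by
    have h3 : p ∣ a ^ 2 + b ^ 2 := by rw [h]
    exact (Nat.dvd_add_right (dvd_pow h1 (by norm_num))).mp h3
  have h4 : p ∣ b := hp.dvd_of_dvd_pow h2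
  have h5 : p ^ 2 ∣ p := by
    nth_rewrite 2 [← h]
    exact dvd_add (pow_dvd_pow_of_dvd h1 2) (pow_dvd_pow_of_dvd h4 2)
  have h6 : p ^ 2 ≤ p := Nat.le_of_dvd hp.pos h5
  have h7 : 2 ≤ p := hp.two_le
  nlinarith

/-- the elliptic matrices. -/
theorem m16h1_exists_delta (p : ℕ) [Fact p.Prime] (hp4 : p % 4 = 1) :
    ∃ (δ δ' : SL(2, ℤ)) (k₀ : ZMod p), k₀ ^ 2 = -1 ∧
      (δ 1 0) ^ 2 + (δ 1 1) ^ 2 = (p : ℤ) ∧ (δ' 1 0) ^ 2 + (δ' 1 1) ^ 2 = (p : ℤ) ∧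
      δ' 1 0 = -δ 1 0 ∧ δ' 1 1 = δ 1 1 ∧
      ((δ 1 1 : ℤ) : ZMod p) = k₀ * ((δ 1 0 : ℤ) : ZMod p) ∧
      ((δ' 1 1 : ℤ) : ZMod p) = (-k₀) * ((δ' 1 0 : ℤ) : ZMod p) := by
  have hp : p.Prime := Fact.out
  obtain ⟨a, b, hab⟩ := Nat.Prime.sq_add_sq (p := p) (by omega)
  obtain ⟨u, v, huv⟩ := m16h1_coprime_of_sq_add_sq p hp a b hab
  have hdet : (!![v, -u; (a : ℤ), (b : ℤ)] : Matrix (Fin 2) (Fin 2) ℤ).det = 1 := by
    rw [Matrix.det_fin_two_of]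
    linarith
  have hdet' : (!![v, u; -(a : ℤ), (b : ℤ)] : Matrix (Fin 2) (Fin 2) ℤ).det = 1 := by
    rw [Matrix.det_fin_two_of]
    linarith
  set δ : SL(2, ℤ) := ⟨!![v, -u; (a : ℤ), (b : ℤ)], hdet⟩ with hδ
  set δ' : SL(2, ℤ) := ⟨!![v, u; -(a : ℤ), (b : ℤ)], hdet'⟩ with hδ'
  have e10 : δ 1 0 = (a : ℤ) := rfl
  have e11 : δ 1 1 = (b : ℤ) := rfl
  have e10' : δ' 1 0 = -(a : ℤ) := rfl
  have e11' : δ' 1 1 = (b : ℤ) := rfl
  have ha0 : (a : ZMod p) ≠ 0 := by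
    intro h
    rw [ZMod.natCast_eq_zero_iff] at h
    exact m16h1_not_dvd_of_sq_add_sq p hp a b hab h
  have hsum : (a : ZMod p) ^ 2 + (b : ZMod p) ^ 2 = 0 := by
    have := congrArg (fun n : ℕ => (n : ZMod p)) hab
    simp only [Nat.cast_add, Nat.cast_pow, ZMod.natCast_self] at this
    exact this
  refine ⟨δ, δ', (b : ZMod p) * (a : ZMod p)⁻¹, ?_, ?_, ?_, ?_, ?_, ?_, ?_⟩
  · rw [mul_pow, inv_pow]
    have h1 : (b : ZMod p) ^ 2 = -(a : ZMod p) ^ 2 := by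
      rw [eq_neg_iff_add_eq_zero, add_comm]
      exact hsum
    rw [h1, neg_mul, mul_inv_cancel₀ (pow_ne_zero 2 ha0)]
  · rw [e10, e11]
    exact_mod_cast hab
  · rw [e10', e11', neg_sq]
    exact_mod_cast hab
  · rw [e10', e10]
  · rw [e11', e11]
  · rw [e10, e11]
    push_cast
    rw [mul_assoc, inv_mul_cancel₀ ha0, mul_one]
  · rw [e10', e11']
    push_cast
    rw [neg_mul_neg, mul_assoc, inv_mul_cancel₀ ha0, mul_one]

end Fermat.Agent.M16
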