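/-
M16 / H1 leaf X2 (helper1): the two basic `Γ₀(p)`-invariant functions
`x = J(pτ)` and `φ = p^12 Δ(pτ)/Δ(τ)` are "good" over every subring of `ℂ`:
they are `Γ₀(p)`-invariant and their expansions at both cusps have coefficients in
the subring (indeed in `ℤ`).
-/
import Mathlib
import Fermat.Agent.M16.H1Conj
import Fermat.Agent.M28.PbPhi
import Fermat.Agent.M28.PaX

set_option linter.unusedSectionVars false
set_option linter.style.longLine false

noncomputable section

namespace Fermat.Agent.M16

open UpperHalfPlane hiding I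
open Filter Function Topology ModularForm Complex ModularCurve
open scoped Manifold MatrixGroups ModularForm Real CongruenceSubgroup
open CongruenceSubgroup
open Fermat.Agent.S23 Fermat.Agent.S24 Fermat.Agent.M28

local notation "Δ" => ModularForm.discriminant

variable (p : ℕ) [Fact p.Prime]

/-- the function `x = J(pτ)` is good over every subring. -/
theorem m16h1y_good_x (R : Subring ℂ) : m16h1_Good p R (m28pa_x p) where
  inv γ hγ := by
    apply Subtype.ext
    funext τ
    rw [ana_comp_apply]
    exact m28pa_x_inv p γ hγ τ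
  exp_inf := by
    rw [m28pa_E_x]
    exact m28pf_qExpand_mem _ p (m28pf_jd_mem _ p)
  exp_zero := by
    have h : ana_comp p ModularGroup.S (m28pa_x p)
        = m28pa_X p ((ModularGroup.S⁻¹ : SL(2, ℤ)) : s24Q p) := by
      rw [m28pa_X, m28pa_conj_mk p (m28pa_x_inv p), inv_inv]
    rw [h, m28pa_E_X_S]
    exact m28pf_jq_mem _

/-- `φ ∘ S = Δ(τ/p)/Δ(τ)`. -/
theorem m16h1y_phi_S (τ : ℍ) :
    m28pb_phiFun p (ModularGroup.S • τ) = Δ (m28pa_div p 0 τ) / Δ τ := by
  have hppos : (0 : ℤ) < p := m28pa_p_pos p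
  have h := m28pb_phi_smul p ModularGroup.S ModularGroup.S 1 0 p one_pos hppos (by simp)
    (by simp [ModularGroup.S]) (by simp [ModularGroup.S]) (by simp [ModularGroup.S])
    (by simp [ModularGroup.S]) τ
  rw [h]
  simp only [Int.cast_one, one_pow, one_mul]
  rfl

/-- the function `φ = p^12 Δ(pτ)/Δ(τ)` is good over every subring. -/
theorem m16h1y_good_phi (R : Subring ℂ) : m16h1_Good p R (m28pb_phi p) where
  inv γ hγ := by
    apply Subtype.ext
    funext τ
    rw [ana_comp_apply]
    exact m28pb_phi_inv p γ hγ τ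
  exp_inf := by
    rw [m28pb_E_phi]
    refine m28pf_qExpand_mem _ p (Subring.mul_mem _ ?_ ⟨m28pf_w R p, m28pf_coeffMap_w _ p⟩)
    have h := m28pf_C_mem R.subtype ((p : R) ^ 12)
    rwa [map_pow, map_natCast] at h
  exp_zero := by
    have hδmem : m28pf_delta ℂ ∈ m16h1_LR R :=
      ⟨m28pf_delta R, m28pf_coeffMap_delta R.subtype⟩
    have hδImem : m28pf_deltaInv ℂ ∈ m16h1_LR R :=
      ⟨m28pf_deltaInv R, m28pf_coeffMap_deltaInv R.subtype⟩
    have hδ : HahnSeries.ofPowerSeries ℤ ℂ
        (PowerSeries.X * ModularCurve.dedekindEtaUnit.map (Int.castRingHom ℂ)) = m28pf_delta ℂ := by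
      rw [m28pf_delta, map_mul, HahnSeries.ofPowerSeries_X, m28pf_eta]
    have hnice := m28pa_nice_div p pj_disc_mem 0
    have heq : ((ana_comp p ModularGroup.S (m28pb_phi p) : ana_ring p) : ℍ → ℂ)
        = fun τ => (fun τ => Δ (m28pa_div p 0 τ)) τ / Δ τ := by
      funext τ
      rw [ana_comp_apply, m28pb_phi_apply, m16h1y_phi_S]
    rw [ana_qexp_apply, heq, m28pb_laurent_div p hnice, m28pa_laurent_div p pj_disc_mem 0,
      br_qExpansion_discriminant, hδ, zpow_zero, cf_twist_one]
    exact Subring.mul_mem _ hδmem (m28pf_qExpand_mem _ p hδImem)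

end Fermat.Agent.M16

end
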