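/-
M16 (S16 project), H1, leaf X3: the elliptic points of order 2 on `X₀(p)`.

For `δ ∈ SL(2,ℤ)` whose bottom row `(z, w)` satisfies `z ^ 2 + w ^ 2 = p`:
`p · (δ • i) = n + i` with `n = δ₀₀ δ₁₀ + δ₀₁ δ₁₁`, hence `J(p · δ • i) = 1728` and
`φ(δ • i) = (w - z i) ^ 12` for the modular unit `φ = p ^ 12 Δ(p τ) / Δ(τ)`.
Moreover `ψ(δ • i)` is the value at `i` of the conjugate `ψ ∘ S ∘ T ^ k` for `k = w / z` mod `p`.
-/
import Mathlib
import Fermat.Agent.M16.H1Sym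
import Fermat.Agent.M28.PbPhi
import Fermat.Agent.M28.PaX

set_option autoImplicit false
set_option linter.unusedSectionVars false

noncomputable section

namespace Fermat.Agent.M16

open UpperHalfPlane hiding I
open Filter Function Topology ModularForm Complex ModularCurve
open scoped Manifold MatrixGroups ModularForm Real CongruenceSubgroup
open CongruenceSubgroup
open Fermat.Agent.S23 Fermat.Agent.S24 Fermat.Agent.M28

variable (p : ℕ) [Fact p.Prime]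

theorem m16h1z_fac (c d : ℂ) :
    c ^ 2 + d ^ 2 = (c * Complex.I + d) * (d - c * Complex.I) := by
  linear_combination (c ^ 2) * Complex.I_sq

theorem m16h1z_key (a b c d P : ℂ) (hP : c ^ 2 + d ^ 2 = P) (hdet : a * d - b * c = 1)
    (hden : c * Complex.I + d ≠ 0) :
    P * ((a * Complex.I + b) / (c * Complex.I + d)) = (a * c + b * d) + Complex.I := by
  rw [mul_div_assoc', div_eq_iff hden]
  linear_combination (a * Complex.I + b) * (-hP) + (d * Complex.I - c) * hdet -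
    c * Complex.I_sq

theorem m16h1z_den_ne (δ : SL(2, ℤ)) (hδ : (δ 1 0) ^ 2 + (δ 1 1) ^ 2 = (p : ℤ)) :
    ((δ 1 0 : ℤ) : ℂ) * Complex.I + ((δ 1 1 : ℤ) : ℂ) ≠ 0 := by
  have hpC : ((δ 1 0 : ℤ) : ℂ) ^ 2 + ((δ 1 1 : ℤ) : ℂ) ^ 2 = (p : ℂ) := by
    exact_mod_cast hδ
  have hp0 : (p : ℂ) ≠ 0 := by
    have := (Fact.out : p.Prime).ne_zero
    exact_mod_cast this
  intro h0
  apply hp0
  rw [← hpC, m16h1z_fac, h0, zero_mul]

/-- `p · (δ • i) = T ^ n • i`. -/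
theorem m16h1z_mul_I (δ : SL(2, ℤ)) (hδ : (δ 1 0) ^ 2 + (δ 1 1) ^ 2 = (p : ℤ)) :
    pe_mulN p (NeZero.pos p) (δ • UpperHalfPlane.I) =
      ModularGroup.T ^ (δ 0 0 * δ 1 0 + δ 0 1 * δ 1 1) • UpperHalfPlane.I := by
  apply UpperHalfPlane.ext
  rw [pe_mulN_coe, UpperHalfPlane.coe_specialLinearGroup_apply,
    UpperHalfPlane.modular_T_zpow_smul, UpperHalfPlane.coe_vadd, UpperHalfPlane.coe_I]
  have hdet : δ 0 0 * δ 1 1 - δ 0 1 * δ 1 0 = 1 := by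
    have := δ.det_coe
    rw [Matrix.det_fin_two] at this
    exact this
  have hdetC : ((δ 0 0 : ℤ) : ℂ) * ((δ 1 1 : ℤ) : ℂ) - ((δ 0 1 : ℤ) : ℂ) * ((δ 1 0 : ℤ) : ℂ) = 1 := by
    exact_mod_cast hdet
  have hpC : ((δ 1 0 : ℤ) : ℂ) ^ 2 + ((δ 1 1 : ℤ) : ℂ) ^ 2 = (p : ℂ) := by
    exact_mod_cast hδ
  have key := m16h1z_key ((δ 0 0 : ℤ) : ℂ) ((δ 0 1 : ℤ) : ℂ) ((δ 1 0 : ℤ) : ℂ) ((δ 1 1 : ℤ) : ℂ)
    (p : ℂ) hpC hdetC (m16h1z_den_ne p δ hδ)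
  simp only [algebraMap_int_eq, Int.coe_castRingHom, eq_intCast, Complex.ofReal_intCast]
  rw [key]
  push_cast
  ring

/-- `J(p · δ • i) = 1728`. -/
theorem m16h1z_x_delta (δ : SL(2, ℤ)) (hδ : (δ 1 0) ^ 2 + (δ 1 1) ^ 2 = (p : ℤ)) :
    (m28pa_x p : ℍ → ℂ) (δ • UpperHalfPlane.I) = 1728 := by
  rw [m28pa_x_apply, m16h1z_mul_I p δ hδ, ord_J_smul, ord_J_I]

/-- `φ(δ • i) = (w - z i) ^ 12`. -/
theorem m16h1z_phi_delta (δ : SL(2, ℤ)) (hδ : (δ 1 0) ^ 2 + (δ 1 1) ^ 2 = (p : ℤ)) :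
    (m28pb_phi p : ℍ → ℂ) (δ • UpperHalfPlane.I) =
      (((δ 1 1 : ℤ) : ℂ) - ((δ 1 0 : ℤ) : ℂ) * Complex.I) ^ 12 := by
  rw [m28pb_phi_apply]
  unfold m28pb_phiFun
  rw [m16h1z_mul_I p δ hδ, pe_discriminant_smul, pe_discriminant_smul]
  have hT10 : ((ModularGroup.T ^ (δ 0 0 * δ 1 0 + δ 0 1 * δ 1 1) : SL(2, ℤ)) 1 0 : ℤ) = 0 := by
    rw [ModularGroup.coe_T_zpow]; rfl
  have hT11 : ((ModularGroup.T ^ (δ 0 0 * δ 1 0 + δ 0 1 * δ 1 1) : SL(2, ℤ)) 1 1 : ℤ) = 1 := by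
    rw [ModularGroup.coe_T_zpow]; rfl
  rw [hT10, hT11, UpperHalfPlane.coe_I]
  have hpC : ((δ 1 0 : ℤ) : ℂ) ^ 2 + ((δ 1 1 : ℤ) : ℂ) ^ 2 = (p : ℂ) := by
    exact_mod_cast hδ
  have hden := m16h1z_den_ne p δ hδ
  have hΔ : ModularForm.discriminant UpperHalfPlane.I ≠ 0 := ord_disc_ne_zero _
  rw [div_eq_iff (mul_ne_zero (pow_ne_zero _ hden) hΔ), ← hpC, m16h1z_fac]
  push_cast
  ring

/-- the value of `ψ` at `δ • i` is the value at `i` of the conjugate of index `k = w / z`. -/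
theorem m16h1z_val_eq (ψ : ana_ring p) (hΓ : ∀ γ ∈ Gamma0 p, ana_comp p γ ψ = ψ)
    (δ : SL(2, ℤ)) (k : ZMod p)
    (h : ((δ 1 1 : ℤ) : ZMod p) = k * ((δ 1 0 : ℤ) : ZMod p)) :
    m16h1_val p ψ (some k) = (ψ : ℍ → ℂ) (δ • UpperHalfPlane.I) := by
  unfold m16h1_val
  rw [m16h1_cj_some]
  unfold m16h1_cjZ
  rw [ana_comp_apply, ana_comp_apply]
  set n : ℤ := ((k.val : ℕ) : ℤ) with hn
  have hdet0 : δ 0 0 * δ 1 1 - δ 0 1 * δ 1 0 = 1 := by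
    have := δ.det_coe
    rw [Matrix.det_fin_two] at this
    exact this
  -- `γ = δ (S T^n)⁻¹ ∈ Γ₀(p)`
  have hdet : (!![δ 0 0 * n - δ 0 1, δ 0 0; δ 1 0 * n - δ 1 1, δ 1 0] :
      Matrix (Fin 2) (Fin 2) ℤ).det = 1 := by
    rw [Matrix.det_fin_two_of]
    linarith
  set γ : SL(2, ℤ) := ⟨!![δ 0 0 * n - δ 0 1, δ 0 0; δ 1 0 * n - δ 1 1, δ 1 0], hdet⟩ with hγ
  have hγmem : γ ∈ Gamma0 p := by
    rw [Gamma0_mem]
    have h10 : (γ 1 0 : ℤ) = δ 1 0 * n - δ 1 1 := rfl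
    rw [h10]
    push_cast
    rw [h, hn]
    simp
    ring
  have hδγ : δ = γ * (ModularGroup.S * ModularGroup.T ^ n) := by
    apply Subtype.ext
    rw [Matrix.SpecialLinearGroup.coe_mul, Matrix.SpecialLinearGroup.coe_mul,
      ModularGroup.coe_S, ModularGroup.coe_T_zpow]
    have hγc : (γ : Matrix (Fin 2) (Fin 2) ℤ) =
        !![δ 0 0 * n - δ 0 1, δ 0 0; δ 1 0 * n - δ 1 1, δ 1 0] := rfl
    rw [hγc]
    ext i j
    fin_cases i <;> fin_cases j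
    · simp [Matrix.mul_apply, Fin.sum_univ_two]
    · simp [Matrix.mul_apply, Fin.sum_univ_two]
    · simp [Matrix.mul_apply, Fin.sum_univ_two]
    · simp [Matrix.mul_apply, Fin.sum_univ_two]
  have h1 : δ • UpperHalfPlane.I =
      γ • (ModularGroup.S • (ModularGroup.T ^ n • UpperHalfPlane.I)) := by
    conv_lhs => rw [hδγ]
    rw [mul_smul, mul_smul]
  rw [h1]
  have h2 := congrArg (fun f : ana_ring p => (f : ℍ → ℂ)
    (ModularGroup.S • (ModularGroup.T ^ n • UpperHalfPlane.I))) (hΓ γ hγmem)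
  simp only [ana_comp_apply] at h2
  exact h2.symm

end Fermat.Agent.M16
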