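/-
S16, package H1 (helper9): **(H1)** - for a prime `p ≡ 1 mod 4` and a `Γ₀(p)`-invariant modular
function `ψ`, holomorphic on `ℍ`, with `2`-integral rational expansions at both cusps,
`c_0 - b_0 ∈ 2 ℤ_(2)`.

Assembly of `m16h1_lb_of` (H1Core) with the leaves X1 (`m16h1x_pow12`, lead), X2 (`m16h1y_good_x`,
`m16h1y_good_phi`, helper1), X3 (`m16h1z_val_eq`, `m16h1z_x_delta`, `m16h1z_phi_delta`, lead).
-/
import Mathlib
import Fermat.Agent.M16.H1Core
import Fermat.Agent.M16.H1xPow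
import Fermat.Agent.M16.H1yGood
import Fermat.Agent.M16.H1zPts

set_option autoImplicit false

noncomputable section

namespace Fermat.Agent.M16

open UpperHalfPlane hiding I
open scoped MatrixGroups
open CongruenceSubgroup
open Fermat.Agent.S23 Fermat.Agent.S24 Fermat.Agent.M28

theorem m16h1_x1 (p : ℕ) [Fact p.Prime] (hp2 : p ≠ 2) : m16h1_X1 p :=
  fun w z h => m16h1x_pow12 w z p Fact.out hp2 h

theorem m16h1_x2 (p : ℕ) [Fact p.Prime] : m16h1_X2 p :=
  ⟨m16h1y_good_x p _, m16h1y_good_phi p _⟩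

theorem m16h1_x3 (p : ℕ) [Fact p.Prime] : m16h1_X3 p :=
  ⟨fun φ hΓ δ k h => m16h1z_val_eq p φ hΓ δ k h, fun δ hδ => m16h1z_x_delta p δ hδ,
    fun δ hδ => m16h1z_phi_delta p δ hδ⟩

/-- **(H1)**. -/
theorem m16h1_main : m16lb_H1 := by
  intro p _ hp4 ψ hA hb hc
  have hp2 : p ≠ 2 := by
    intro h
    rw [h] at hp4
    norm_num at hp4
  exact m16h1_lb_of p (m16h1_x1 p hp2) (m16h1_x2 p) (m16h1_x3 p) hp4 ψ hA hb hc

end Fermat.Agent.M16

end
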