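/-
M16 (S16 project), H1, leaf X1: the twelfth power of a Gaussian integer of odd prime norm is
`e + f i` with rational `e`, `f` and `f ≠ 0`.
-/
import Mathlib

set_option autoImplicit false

namespace Fermat.Agent.M16

/-- `3 A ^ 2 = B ^ 2` has only the trivial solution in integers -/
theorem m16h1x_three (A B : ℤ) (h : 3 * A ^ 2 = B ^ 2) : B = 0 := by
  by_contra hB
  have hA : A ≠ 0 := by
    rintro rfl
    apply hB
    have : B ^ 2 = 0 := by rw [← h]; ring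
    exact pow_eq_zero_iff (two_ne_zero) |>.mp this
  have : Fact (Nat.Prime 3) := ⟨by norm_num⟩
  have h1 : padicValRat 3 ((3 : ℚ) * (A : ℚ) ^ 2) = 1 + 2 * padicValRat 3 (A : ℚ) := by
    rw [padicValRat.mul (by norm_num) (pow_ne_zero 2 (by exact_mod_cast hA)),
      padicValRat.pow]
    have : padicValRat 3 (3 : ℚ) = 1 := by
      have := padicValRat.self (p := 3) (by norm_num)
      simpa using this
    rw [this]; push_cast; ring
  have h2 : padicValRat 3 ((B : ℚ) ^ 2) = 2 * padicValRat 3 (B : ℚ) := by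
    rw [padicValRat.pow]; push_cast; ring
  have h3 : ((3 : ℚ) * (A : ℚ) ^ 2) = (B : ℚ) ^ 2 := by exact_mod_cast h
  rw [h3, h2] at h1
  omega

/-- the twelfth power of `a + b i` -/
theorem m16h1x_pow12_aux (a b : ℂ) :
    (a + b * Complex.I) ^ 12 =
      ((a ^ 4 - 6 * a ^ 2 * b ^ 2 + b ^ 4) ^ 3 -
          3 * (a ^ 4 - 6 * a ^ 2 * b ^ 2 + b ^ 4) * (4 * a * b * (a ^ 2 - b ^ 2)) ^ 2) +
        ((4 * a * b * (a ^ 2 - b ^ 2)) *
          (3 * (a ^ 4 - 6 * a ^ 2 * b ^ 2 + b ^ 4) ^ 2 - (4 * a * b * (a ^ 2 - b ^ 2)) ^ 2)) *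
            Complex.I := by
  have h2 : (a + b * Complex.I) ^ 2 = (a ^ 2 - b ^ 2) + (2 * a * b) * Complex.I := by
    linear_combination b ^ 2 * Complex.I_sq
  have h4 : (a + b * Complex.I) ^ 4 =
      (a ^ 4 - 6 * a ^ 2 * b ^ 2 + b ^ 4) + (4 * a * b * (a ^ 2 - b ^ 2)) * Complex.I := by
    have : (a + b * Complex.I) ^ 4 = ((a + b * Complex.I) ^ 2) ^ 2 := by ring
    rw [this, h2]
    linear_combination (2 * a * b) ^ 2 * Complex.I_sq
  have : (a + b * Complex.I) ^ 12 = ((a + b * Complex.I) ^ 4) ^ 3 := by ring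
  rw [this, h4]
  generalize (a ^ 4 - 6 * a ^ 2 * b ^ 2 + b ^ 4) = A
  generalize (4 * a * b * (a ^ 2 - b ^ 2)) = B
  linear_combination (3 * A * B ^ 2 + B ^ 3 * Complex.I) * Complex.I_sq

/-- **X1** -/
theorem m16h1x_pow12 (w z : ℤ) (p : ℕ) (hp : p.Prime) (hp2 : p ≠ 2)
    (h : w ^ 2 + z ^ 2 = (p : ℤ)) :
    ∃ e f : ℚ, f ≠ 0 ∧
      ((w : ℂ) + z * Complex.I) ^ 12 = (e : ℂ) + (f : ℂ) * Complex.I ∧
      ((w : ℂ) - z * Complex.I) ^ 12 = (e : ℂ) - (f : ℂ) * Complex.I := by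
  -- `w ≠ 0`, `z ≠ 0`, `w² ≠ z²`
  have hsq : ∀ x : ℤ, x ^ 2 ≠ (p : ℤ) := by
    intro x hx
    have h1 : (x.natAbs) ^ 2 = p := by
      have : ((x.natAbs : ℤ)) ^ 2 = (p : ℤ) := by rw [Int.natAbs_sq]; exact hx
      exact_mod_cast this
    have h2 : x.natAbs ∣ p := ⟨x.natAbs, by rw [← h1]; ring⟩
    rcases (Nat.dvd_prime hp).mp h2 with h3 | h3
    · rw [h3] at h1
      have := hp.one_lt
      omega
    · rw [h3] at h1
      have := hp.one_lt
      nlinarith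
  have hw : w ≠ 0 := by
    rintro rfl
    exact hsq z (by rw [← h]; ring)
  have hz : z ≠ 0 := by
    rintro rfl
    exact hsq w (by rw [← h]; ring)
  have hwz : w ^ 2 - z ^ 2 ≠ 0 := by
    intro h0
    have h1 : (p : ℤ) = 2 * w ^ 2 := by rw [← h]; linarith
    have h2 : (2 : ℤ) ∣ (p : ℤ) := ⟨w ^ 2, h1⟩
    have h3 : (2 : ℕ) ∣ p := by exact_mod_cast h2
    exact hp2 ((Nat.prime_dvd_prime_iff_eq Nat.prime_two hp).mp h3).symm
  set A : ℤ := w ^ 4 - 6 * w ^ 2 * z ^ 2 + z ^ 4 with hA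
  set B : ℤ := 4 * w * z * (w ^ 2 - z ^ 2) with hB
  have hB0 : B ≠ 0 := by
    rw [hB]
    exact mul_ne_zero (mul_ne_zero (mul_ne_zero (by norm_num) hw) hz) hwz
  have hAB : 3 * A ^ 2 - B ^ 2 ≠ 0 := by
    intro h0
    exact hB0 (m16h1x_three A B (by linarith))
  refine ⟨((A ^ 3 - 3 * A * B ^ 2 : ℤ) : ℚ), ((B * (3 * A ^ 2 - B ^ 2) : ℤ) : ℚ), ?_, ?_, ?_⟩
  · exact_mod_cast mul_ne_zero hB0 hAB
  · rw [m16h1x_pow12_aux]
    simp only [hA, hB]
    push_cast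
    ring
  · have := m16h1x_pow12_aux (w : ℂ) (-(z : ℂ))
    have h1 : (w : ℂ) - z * Complex.I = (w : ℂ) + (-(z : ℂ)) * Complex.I := by ring
    rw [h1, this]
    simp only [hA, hB]
    push_cast
    ring

end Fermat.Agent.M16
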