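/-
M16 (S16 project), package INT, part 2: coefficient rings and formal series (prefix `m16int_`).

* `m16int_Z ℓ`    : the ring of `ℓ`-integral algebraic numbers in `ℂ`;
* `m16int_Zl ℓ`   : the `ℓ`-integral rational numbers in `ℂ` (`= ℚ ∩ m16int_Z ℓ`);
* `m16int_ser B`  : Laurent series with all coefficients in the subring `B`;
* `m16int_serN ℓ` : Laurent series over `m16int_Z ℓ` whose polar coefficients are divisible by `ℓ`.
-/
import Mathlib
import Fermat.Agent.S24.CuspFormal
import Fermat.Agent.S24.AnaTrans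
import Fermat.Prelude.Def_ModularCurve_JqCoeff
import Fermat.Prelude.Def_GaloisRep_Flat
import Fermat.Prelude.Def_ModularCurve_X0ModL
import Fermat.Prelude.Thm_ModularCurve_coeffMap_qExpand

set_option autoImplicit false
set_option linter.deprecated false
set_option linter.unusedSectionVars false
set_option linter.unusedVariables false
set_option linter.style.haveILetI false

noncomputable section

namespace Fermat.Agent.M16

open Polynomial ModularCurve Fermat.Agent.S24

variable (ℓ : ℕ) [hℓ : Fact ℓ.Prime]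

/-- the ring of `ℓ`-integral algebraic numbers. -/
def m16int_Z : Subring ℂ where
  carrier := {x | ∃ n : ℕ, ¬ ℓ ∣ n ∧ IsIntegral ℤ ((n : ℂ) * x)}
  mul_mem' := by
    rintro x y ⟨n, hn, hx⟩ ⟨m, hm, hy⟩
    refine ⟨n * m, fun h => ?_, ?_⟩
    · rcases (Nat.Prime.dvd_mul hℓ.out).mp h with h | h
      exacts [hn h, hm h]
    · have : ((n * m : ℕ) : ℂ) * (x * y) = ((n : ℂ) * x) * ((m : ℂ) * y) := by push_cast; ring
      rw [this]
      exact hx.mul hy
  one_mem' := ⟨1, fun h => hℓ.out.one_lt.ne' (Nat.dvd_one.mp h), by simpa using isIntegral_one⟩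
  add_mem' := by
    rintro x y ⟨n, hn, hx⟩ ⟨m, hm, hy⟩
    refine ⟨n * m, fun h => ?_, ?_⟩
    · rcases (Nat.Prime.dvd_mul hℓ.out).mp h with h | h
      exacts [hn h, hm h]
    · have : ((n * m : ℕ) : ℂ) * (x + y) = (m : ℂ) * ((n : ℂ) * x) + (n : ℂ) * ((m : ℂ) * y) := by
        push_cast; ring
      rw [this]
      have hm' : IsIntegral ℤ ((m : ℂ)) := by
        simpa using (isIntegral_algebraMap (R := ℤ) (A := ℂ) (x := (m : ℤ)))
      have hn' : IsIntegral ℤ ((n : ℂ)) := by
        simpa using (isIntegral_algebraMap (R := ℤ) (A := ℂ) (x := (n : ℤ)))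
      exact (hm'.mul hx).add (hn'.mul hy)
  zero_mem' := ⟨1, fun h => hℓ.out.one_lt.ne' (Nat.dvd_one.mp h), by simpa using isIntegral_zero⟩
  neg_mem' := by
    rintro x ⟨n, hn, hx⟩
    exact ⟨n, hn, by rw [mul_neg]; exact hx.neg⟩

theorem m16int_Z_of_isIntegral {x : ℂ} (hx : IsIntegral ℤ x) : x ∈ m16int_Z ℓ :=
  ⟨1, fun h => hℓ.out.one_lt.ne' (Nat.dvd_one.mp h), by simpa using hx⟩

/-- the `ℓ`-integral rational numbers, inside `ℂ`. -/
def m16int_Zl : Subring ℂ where
  carrier := {x | ∃ r : ℚ, ¬ ℓ ∣ r.den ∧ x = (r : ℂ)}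
  mul_mem' := by
    rintro x y ⟨r, hr, rfl⟩ ⟨s, hs, rfl⟩
    refine ⟨r * s, fun h => ?_, by push_cast; rfl⟩
    have h1 : ℓ ∣ r.den * s.den := h.trans (Rat.mul_den_dvd r s)
    rcases (Nat.Prime.dvd_mul hℓ.out).mp h1 with h | h
    exacts [hr h, hs h]
  one_mem' := ⟨1, fun h => hℓ.out.one_lt.ne' (Nat.dvd_one.mp (by simpa using h)), by simp⟩
  add_mem' := by
    rintro x y ⟨r, hr, rfl⟩ ⟨s, hs, rfl⟩
    refine ⟨r + s, fun h => ?_, by push_cast; rfl⟩
    have h1 : ℓ ∣ r.den * s.den := h.trans (Rat.add_den_dvd r s)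
    rcases (Nat.Prime.dvd_mul hℓ.out).mp h1 with h | h
    exacts [hr h, hs h]
  zero_mem' := ⟨0, fun h => hℓ.out.one_lt.ne' (Nat.dvd_one.mp (by simpa using h)), by simp⟩
  neg_mem' := by
    rintro x ⟨r, hr, rfl⟩
    exact ⟨-r, by simpa using hr, by push_cast; rfl⟩

theorem m16int_Zl_le_Z : m16int_Zl ℓ ≤ m16int_Z ℓ := by
  rintro x ⟨r, hr, rfl⟩
  refine ⟨r.den, hr, ?_⟩
  have : ((r.den : ℕ) : ℂ) * (r : ℂ) = ((r.num : ℤ) : ℂ) := by
    have h := Rat.den_mul_eq_num r
    have h2 : (((r.den : ℚ) * r : ℚ) : ℂ) = ((r.num : ℚ) : ℂ) := by rw [h]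
    push_cast at h2
    exact h2
  rw [this]
  exact isIntegral_algebraMap (R := ℤ) (A := ℂ) (x := r.num)

/-- a rational number which is an `ℓ`-integral algebraic number is `ℓ`-integral. -/
theorem m16int_rat_mem_Z {r : ℚ} (h : (r : ℂ) ∈ m16int_Z ℓ) : ¬ ℓ ∣ r.den := by
  obtain ⟨n, hn, hint⟩ := h
  have h1 : IsIntegral ℤ (((n : ℚ) * r : ℚ)) := by
    have : ((n : ℂ) * (r : ℂ)) = algebraMap ℚ ℂ ((n : ℚ) * r) := by simp
    rw [this] at hint
    exact (isIntegral_algebraMap_iff (algebraMap ℚ ℂ).injective).mp hint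
  obtain ⟨a, ha⟩ := IsIntegrallyClosed.isIntegral_iff.mp h1
  have hn0 : (n : ℚ) ≠ 0 := by
    rintro h0
    apply hn
    have : n = 0 := by exact_mod_cast h0
    rw [this]
    exact dvd_zero _
  have hr : r = (a : ℚ) / ((n : ℤ) : ℚ) := by
    rw [eq_div_iff (by exact_mod_cast hn0)]
    rw [mul_comm]
    simpa using ha.symm
  intro hd
  apply hn
  have h2 : ((r.den : ℕ) : ℤ) ∣ (n : ℤ) := by
    rw [hr, ← Rat.divInt_eq_div]
    exact Rat.den_dvd a n
  have h3 : (r.den : ℕ) ∣ n := by exact_mod_cast h2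
  exact hd.trans h3

theorem m16int_mem_Zl_iff {x : ℂ} :
    x ∈ m16int_Zl ℓ ↔ (∃ r : ℚ, x = (r : ℂ)) ∧ x ∈ m16int_Z ℓ := by
  constructor
  · intro h
    refine ⟨?_, m16int_Zl_le_Z ℓ h⟩
    obtain ⟨r, -, rfl⟩ := h
    exact ⟨r, rfl⟩
  · rintro ⟨⟨r, rfl⟩, h⟩
    exact ⟨r, m16int_rat_mem_Z ℓ h, rfl⟩

theorem m16int_l_ne_zero : (ℓ : ℂ) ≠ 0 := by
  exact_mod_cast hℓ.out.ne_zero

/-- `x / ℓ` is an `ℓ`-integral rational number if `x` is rational and `x / ℓ` is an
`ℓ`-integral algebraic number. -/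
theorem m16int_div_mem_Zl {x : ℂ} (hx : ∃ r : ℚ, x = (r : ℂ)) (h : x / ℓ ∈ m16int_Z ℓ) :
    x / ℓ ∈ m16int_Zl ℓ := by
  rw [m16int_mem_Zl_iff]
  refine ⟨?_, h⟩
  obtain ⟨r, rfl⟩ := hx
  exact ⟨r / ℓ, by push_cast; rfl⟩

/-! ## series with coefficients in a subring -/

/-- Laurent series with all coefficients in the subring `B`. -/
def m16int_ser (B : Subring ℂ) : Subring (LaurentSeries ℂ) where
  carrier := {f | ∀ n, f.coeff n ∈ B}
  mul_mem' := by
    intro f g hf hg n
    rw [HahnSeries.coeff_mul]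
    exact B.sum_mem fun ij _ => B.mul_mem (hf _) (hg _)
  one_mem' := by
    intro n
    rw [HahnSeries.coeff_one]
    split_ifs
    exacts [B.one_mem, B.zero_mem]
  add_mem' := fun {f g} hf hg n => by
    rw [HahnSeries.coeff_add]
    exact B.add_mem (hf n) (hg n)
  zero_mem' := fun n => by
    rw [HahnSeries.coeff_zero]
    exact B.zero_mem
  neg_mem' := fun {f} hf n => by
    rw [HahnSeries.coeff_neg]
    exact B.neg_mem (hf n)

theorem m16int_mem_ser {B : Subring ℂ} {f : LaurentSeries ℂ} :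
    f ∈ m16int_ser B ↔ ∀ n, f.coeff n ∈ B := Iff.rfl

theorem m16int_ser_mono {B B' : Subring ℂ} (h : B ≤ B') : m16int_ser B ≤ m16int_ser B' :=
  fun _ hf n => h (hf n)

/-- Laurent series over `m16int_Z ℓ` whose polar coefficients are divisible by `ℓ`. -/
def m16int_serN : Subring (LaurentSeries ℂ) where
  carrier := {f | (∀ n, f.coeff n ∈ m16int_Z ℓ) ∧ ∀ n, n < 0 → f.coeff n / ℓ ∈ m16int_Z ℓ}
  mul_mem' := by
    intro f g hf hg
    refine ⟨(m16int_ser (m16int_Z ℓ)).mul_mem hf.1 hg.1, fun n hn => ?_⟩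
    rw [HahnSeries.coeff_mul, Finset.sum_div]
    refine Subring.sum_mem _ fun ij hij => ?_
    have hsum : ij.1 + ij.2 = n := (Finset.mem_antidiagonal.mp hij).2.2
    rcases lt_or_ge ij.1 0 with h1 | h1
    · have : f.coeff ij.1 * g.coeff ij.2 / ℓ = (f.coeff ij.1 / ℓ) * g.coeff ij.2 := by ring
      rw [this]
      exact Subring.mul_mem _ (hf.2 _ h1) (hg.1 _)
    · have h2 : ij.2 < 0 := by omega
      have : f.coeff ij.1 * g.coeff ij.2 / ℓ = f.coeff ij.1 * (g.coeff ij.2 / ℓ) := by ring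
      rw [this]
      exact Subring.mul_mem _ (hf.1 _) (hg.2 _ h2)
  one_mem' := by
    refine ⟨(m16int_ser (m16int_Z ℓ)).one_mem, fun n hn => ?_⟩
    rw [HahnSeries.coeff_one, if_neg hn.ne, zero_div]
    exact Subring.zero_mem _
  add_mem' := fun {f g} hf hg => by
    refine ⟨(m16int_ser (m16int_Z ℓ)).add_mem hf.1 hg.1, fun n hn => ?_⟩
    rw [HahnSeries.coeff_add, add_div]
    exact Subring.add_mem _ (hf.2 n hn) (hg.2 n hn)
  zero_mem' := by
    refine ⟨(m16int_ser (m16int_Z ℓ)).zero_mem, fun n hn => ?_⟩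
    rw [HahnSeries.coeff_zero, zero_div]
    exact Subring.zero_mem _
  neg_mem' := fun {f} hf => by
    refine ⟨(m16int_ser (m16int_Z ℓ)).neg_mem hf.1, fun n hn => ?_⟩
    rw [HahnSeries.coeff_neg, neg_div]
    exact Subring.neg_mem _ (hf.2 n hn)

/-! ## twists -/

section twist

variable {p : ℕ} (hp : 0 < p) (ζ : ℂˣ) (hζp : ζ ^ p = 1)

include hp hζp in
theorem m16int_zpow_mem_Z (n : ℤ) : ((ζ ^ n : ℂˣ) : ℂ) ∈ m16int_Z ℓ := by
  apply m16int_Z_of_isIntegral
  apply IsIntegral.of_pow hp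
  have : (((ζ ^ n : ℂˣ) : ℂ)) ^ p = 1 := by
    rw [← Units.val_pow_eq_pow_val, ← zpow_natCast, ← zpow_mul, mul_comm, zpow_mul, zpow_natCast,
      hζp, one_zpow, Units.val_one]
  rw [this]
  exact isIntegral_one

include hp hζp in
theorem m16int_twist_mem_ser (k : ℕ) {f : LaurentSeries ℂ}
    (hf : f ∈ m16int_ser (m16int_Z ℓ)) : cf_twist (ζ ^ k) f ∈ m16int_ser (m16int_Z ℓ) := by
  intro n
  rw [cf_twist_coeff]
  refine Subring.mul_mem _ ?_ (hf n)
  have h1 : (ζ ^ k) ^ p = 1 := by rw [← pow_mul, mul_comm, pow_mul, hζp, one_pow]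
  exact m16int_zpow_mem_Z ℓ hp (ζ ^ k) h1 n

include hp hζp in
theorem m16int_twist_mem_serN (k : ℕ) {f : LaurentSeries ℂ}
    (hf : f ∈ m16int_ser (m16int_Z ℓ)) (h0 : ∀ n, n < 0 → f.coeff n = 0) :
    cf_twist (ζ ^ k) f ∈ m16int_serN ℓ := by
  refine ⟨m16int_twist_mem_ser ℓ hp ζ hζp k hf, fun n hn => ?_⟩
  rw [cf_twist_coeff, h0 n hn, mul_zero, zero_div]
  exact Subring.zero_mem _

/-- the sum of all twists by the `p`-th roots of unity. -/
theorem m16int_sum_twist_coeff (hζ : IsPrimitiveRoot ζ p) (f : LaurentSeries ℂ) (n : ℤ) :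
    (∑ k ∈ Finset.range p, cf_twist (ζ ^ k) f).coeff n =
      if (p : ℤ) ∣ n then (p : ℂ) * f.coeff n else 0 := by
  rw [HahnSeries.coeff_sum]
  simp only [cf_twist_coeff]
  rw [← Finset.sum_mul]
  have h1 : ∀ k : ℕ, (((ζ ^ k) ^ n : ℂˣ) : ℂ) = (((ζ ^ n : ℂˣ) : ℂ)) ^ k := by
    intro k
    rw [← Units.val_pow_eq_pow_val, ← zpow_natCast, ← zpow_natCast, ← zpow_mul, ← zpow_mul,
      mul_comm]
  simp only [h1]
  split_ifs with hd
  · have h2 : ζ ^ n = 1 := (hζ.zpow_eq_one_iff_dvd n).mpr hd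
    rw [h2]
    simp
  · have h2 : ζ ^ n ≠ 1 := fun h => hd ((hζ.zpow_eq_one_iff_dvd n).mp h)
    have h3 : (((ζ ^ n : ℂˣ) : ℂ)) ≠ 1 := by
      intro h
      apply h2
      exact Units.ext (by rw [h]; rfl)
    have h4 : (((ζ ^ n : ℂˣ) : ℂ)) ^ p = 1 := by
      rw [← Units.val_pow_eq_pow_val, ← zpow_natCast, ← zpow_mul, mul_comm, zpow_mul, zpow_natCast,
        hζ.pow_eq_one, one_zpow, Units.val_one]
    have h5 := mul_geom_sum (((ζ ^ n : ℂˣ) : ℂ)) p
    rw [h4, sub_self] at h5
    rcases mul_eq_zero.mp h5 with h6 | h6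
    · exact absurd (sub_eq_zero.mp h6) h3
    · rw [h6, zero_mul]

end twist

/-! ## the series `j(t)`, `j(t^p)`, `j(t^(p^2))` -/

/-- `j(t)` -/
def m16int_J0 : LaurentSeries ℂ := coeffEmb ℂ jq

/-- `j(t^p)` -/
def m16int_J1 (p : ℕ) [NeZero p] : LaurentSeries ℂ := qExpand ℂ p m16int_J0

/-- `j(t^(p^2))` -/
def m16int_J2 (p : ℕ) [NeZero p] : LaurentSeries ℂ := qExpand ℂ p (m16int_J1 p)

theorem m16int_J0_eq : m16int_J0 = coeffMap (Int.castRingHom ℂ) (jqModC ℤ) := by
  unfold m16int_J0 coeffEmb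
  rw [← jqModC_rat, jqModC_eq_map_intCast ℚ]
  have : (jqModC ℤ).map (Int.castRingHom ℚ) = coeffMap (Int.castRingHom ℚ) (jqModC ℤ) := rfl
  rw [this, coeffMap_coeffMap]
  exact coeffMap_congr (RingHom.ext_int _ _) _

theorem m16int_J0_pow_coeff (d : ℕ) (n : ℤ) :
    ∃ m : ℤ, (m16int_J0 ^ d).coeff n = (m : ℂ) := by
  rw [m16int_J0_eq, ← map_pow]
  exact ⟨((jqModC ℤ) ^ d).coeff n, rfl⟩

theorem m16int_qExpand_coeff_int (p : ℕ) [NeZero p] (f : LaurentSeries ℂ)
    (hf : ∀ n, ∃ m : ℤ, f.coeff n = (m : ℂ)) (n : ℤ) :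
    ∃ m : ℤ, (qExpand ℂ p f).coeff n = (m : ℂ) := by
  by_cases hd : (p : ℤ) ∣ n
  · obtain ⟨k, rfl⟩ := hd
    rw [qExpand_coeff_mul]
    exact hf k
  · rw [qExpand_coeff_of_not_dvd p f hd]
    exact ⟨0, by simp⟩

theorem m16int_J1_pow_coeff (p : ℕ) [NeZero p] (d : ℕ) (n : ℤ) :
    ∃ m : ℤ, (m16int_J1 p ^ d).coeff n = (m : ℂ) := by
  unfold m16int_J1
  rw [← map_pow]
  exact m16int_qExpand_coeff_int p _ (m16int_J0_pow_coeff d) n

theorem m16int_int_mem_ser (B : Subring ℂ) {f : LaurentSeries ℂ}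
    (hf : ∀ n, ∃ m : ℤ, f.coeff n = (m : ℂ)) : f ∈ m16int_ser B := by
  intro n
  obtain ⟨m, hm⟩ := hf n
  rw [hm]
  exact intCast_mem B m

theorem m16int_J0_mem (B : Subring ℂ) : m16int_J0 ∈ m16int_ser B :=
  m16int_int_mem_ser B fun n => by simpa using m16int_J0_pow_coeff 1 n

theorem m16int_J1_mem (p : ℕ) [NeZero p] (B : Subring ℂ) : m16int_J1 p ∈ m16int_ser B :=
  m16int_int_mem_ser B fun n => by simpa using m16int_J1_pow_coeff p 1 n

theorem m16int_J2_mem (p : ℕ) [NeZero p] (B : Subring ℂ) : m16int_J2 p ∈ m16int_ser B :=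
  m16int_int_mem_ser B (m16int_qExpand_coeff_int p _ fun n => by
    simpa using m16int_J1_pow_coeff p 1 n)

/-! ## leading terms -/

/-- `f = c t^n₀ + higher terms` -/
def m16int_LT (f : LaurentSeries ℂ) (n₀ : ℤ) (c : ℂ) : Prop :=
  f.coeff n₀ = c ∧ ∀ n, n < n₀ → f.coeff n = 0

theorem m16int_LT_J0 : m16int_LT m16int_J0 (-1) 1 := by
  constructor
  · have h := ad_coeff_jq_pow ℂ 1 1 le_rfl
    simp only [pow_one, Nat.cast_one, if_true] at h
    exact h
  · intro n hn
    unfold m16int_J0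
    rw [coeffEmb_coeff]
    have h := coeff_jq_pow_of_lt (n := 1) (m := n) (by simpa using hn)
    rw [pow_one] at h
    rw [h, map_zero]

theorem m16int_LT_qExpand (p : ℕ) [NeZero p] {f : LaurentSeries ℂ} {n₀ : ℤ} {c : ℂ}
    (h : m16int_LT f n₀ c) : m16int_LT (qExpand ℂ p f) ((p : ℤ) * n₀) c := by
  constructor
  · rw [qExpand_coeff_mul]
    exact h.1
  · intro n hn
    by_cases hd : (p : ℤ) ∣ n
    · obtain ⟨k, rfl⟩ := hd
      rw [qExpand_coeff_mul]
      apply h.2
      have hp : (0 : ℤ) < p := by exact_mod_cast NeZero.pos p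
      exact lt_of_mul_lt_mul_left hn hp.le
    · exact qExpand_coeff_of_not_dvd p f hd

theorem m16int_LT_twist {f : LaurentSeries ℂ} {n₀ : ℤ} {c : ℂ} (ξ : ℂˣ)
    (h : m16int_LT f n₀ c) : m16int_LT (cf_twist ξ f) n₀ (((ξ ^ n₀ : ℂˣ) : ℂ) * c) := by
  constructor
  · rw [cf_twist_coeff, h.1]
  · intro n hn
    rw [cf_twist_coeff, h.2 n hn, mul_zero]

theorem m16int_LT_sub_left {f g : LaurentSeries ℂ} {n₀ : ℤ} {c : ℂ}
    (h : m16int_LT f n₀ c) (hg : ∀ n, n ≤ n₀ → g.coeff n = 0) : m16int_LT (f - g) n₀ c := by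
  constructor
  · rw [HahnSeries.coeff_sub, h.1, hg n₀ le_rfl, sub_zero]
  · intro n hn
    rw [HahnSeries.coeff_sub, h.2 n hn, hg n hn.le, sub_zero]

theorem m16int_LT_sub_right {f g : LaurentSeries ℂ} {n₀ : ℤ} {c : ℂ}
    (h : m16int_LT f n₀ c) (hg : ∀ n, n ≤ n₀ → g.coeff n = 0) : m16int_LT (g - f) n₀ (-c) := by
  constructor
  · rw [HahnSeries.coeff_sub, h.1, hg n₀ le_rfl, zero_sub]
  · intro n hn
    rw [HahnSeries.coeff_sub, h.2 n hn, hg n hn.le, sub_zero]

theorem m16int_LT_sub_same {f g : LaurentSeries ℂ} {n₀ : ℤ} {c d : ℂ}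
    (h : m16int_LT f n₀ c) (hg : m16int_LT g n₀ d) : m16int_LT (f - g) n₀ (c - d) := by
  constructor
  · rw [HahnSeries.coeff_sub, h.1, hg.1]
  · intro n hn
    rw [HahnSeries.coeff_sub, h.2 n hn, hg.2 n hn, sub_zero]

theorem m16int_LT_mul {f g : LaurentSeries ℂ} {n m : ℤ} {c d : ℂ}
    (hf : m16int_LT f n c) (hg : m16int_LT g m d) : m16int_LT (f * g) (n + m) (c * d) := by
  have key : ∀ N : ℤ, ∀ ij ∈ Finset.antidiagonal f.isPWO_support g.isPWO_support N,
      n ≤ ij.1 ∧ m ≤ ij.2 ∧ ij.1 + ij.2 = N := by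
    intro N ij hij
    obtain ⟨h1, h2, h3⟩ := Finset.mem_antidiagonal.mp hij
    refine ⟨?_, ?_, h3⟩
    · by_contra hlt
      exact h1 (hf.2 _ (not_le.mp hlt))
    · by_contra hlt
      exact h2 (hg.2 _ (not_le.mp hlt))
  constructor
  · rw [HahnSeries.coeff_mul, Finset.sum_eq_single (n, m)]
    · rw [hf.1, hg.1]
    · intro ij hij hne
      exfalso
      obtain ⟨h1, h2, h3⟩ := key _ ij hij
      apply hne
      ext <;> simp <;> omega
    · intro hnot
      rw [Finset.mem_antidiagonal] at hnot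
      simp only [HahnSeries.mem_support, ne_eq, and_true, not_and, not_not] at hnot
      by_cases h0 : f.coeff n = 0
      · rw [h0, zero_mul]
      · rw [hnot h0, mul_zero]
  · intro N hN
    rw [HahnSeries.coeff_mul]
    apply Finset.sum_eq_zero
    intro ij hij
    exfalso
    obtain ⟨h1, h2, h3⟩ := key _ ij hij
    omega

theorem m16int_LT_one : m16int_LT 1 0 1 := by
  constructor
  · simp
  · intro n hn
    rw [HahnSeries.coeff_one, if_neg hn.ne]

theorem m16int_LT_prod {ι : Type*} (s : Finset ι) (f : ι → LaurentSeries ℂ) (n : ι → ℤ)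
    (c : ι → ℂ) (h : ∀ i ∈ s, m16int_LT (f i) (n i) (c i)) :
    m16int_LT (∏ i ∈ s, f i) (∑ i ∈ s, n i) (∏ i ∈ s, c i) := by
  classical
  induction s using Finset.induction_on with
  | empty => simpa using m16int_LT_one
  | insert a s ha ih =>
    rw [Finset.prod_insert ha, Finset.sum_insert ha, Finset.prod_insert ha]
    exact m16int_LT_mul (h a (Finset.mem_insert_self a s))
      (ih fun i hi => h i (Finset.mem_insert_of_mem hi))

/-- **(UNIT)** division by a series with invertible leading coefficient preserves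
coefficient conditions. -/
theorem m16int_unit (I : AddSubgroup ℂ) (B : Subring ℂ)
    (hBI : ∀ b ∈ B, ∀ x ∈ I, b * x ∈ I) (F u : LaurentSeries ℂ) (n₀ : ℤ) (c c' : ℂ)
    (hc : c' * c = 1) (hc' : c' ∈ B) (hF : m16int_LT F n₀ c) (hFB : F ∈ m16int_ser B)
    (hFu : ∀ n, (F * u).coeff n ∈ I) : ∀ n, u.coeff n ∈ I := by
  have hc0 : c ≠ 0 := fun h => by rw [h, mul_zero] at hc; exact zero_ne_one hc
  -- a lower bound for the support of `u`
  obtain ⟨M, hM⟩ : ∃ M : ℤ, ∀ n, n < M → u.coeff n = 0 := by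
    by_cases hu : u = 0
    · exact ⟨0, fun n _ => by rw [hu, HahnSeries.coeff_zero]⟩
    · exact ⟨u.order, fun n hn => HahnSeries.coeff_eq_zero_of_lt_order hn⟩
  have main : ∀ k : ℕ, ∀ n, n < M + k → u.coeff n ∈ I := by
    intro k
    induction k with
    | zero =>
      intro n hn
      rw [hM n (by simpa using hn)]
      exact I.zero_mem
    | succ k ih =>
      intro n hn
      rcases lt_or_ge n (M + k) with h1 | h1
      · exact ih n h1
      by_cases hun : u.coeff n = 0
      · rw [hun]; exact I.zero_mem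
      have hmem : (n₀, n) ∈ Finset.antidiagonal F.isPWO_support u.isPWO_support (n₀ + n) := by
        rw [Finset.mem_antidiagonal]
        refine ⟨?_, hun, rfl⟩
        rw [HahnSeries.mem_support, hF.1]
        exact hc0
      have hsum := hFu (n₀ + n)
      rw [HahnSeries.coeff_mul, ← Finset.add_sum_erase _ _ hmem, hF.1] at hsum
      have hrest : ∑ ij ∈ (Finset.antidiagonal F.isPWO_support u.isPWO_support (n₀ + n)).erase
          (n₀, n), F.coeff ij.1 * u.coeff ij.2 ∈ I := by
        refine I.sum_mem fun ij hij => ?_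
        obtain ⟨hne, hij'⟩ := Finset.mem_erase.mp hij
        obtain ⟨h1', h2', h3'⟩ := Finset.mem_antidiagonal.mp hij'
        have hi : n₀ ≤ ij.1 := by
          by_contra hlt
          exact h1' (hF.2 _ (not_le.mp hlt))
        have hj : ij.2 < n := by
          rcases lt_or_ge ij.2 n with h | h
          · exact h
          · exfalso
            apply hne
            ext <;> simp <;> omega
        exact hBI _ (hFB _) _ (ih _ (by omega))
      have h2 : c * u.coeff n ∈ I := by
        have := I.sub_mem hsum hrest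
        simpa using this
      have h3 := hBI c' hc' _ h2
      rwa [← mul_assoc, hc, one_mul] at h3
  intro n
  rcases le_or_gt M n with h | h
  · exact main (n - M + 1).toNat n (by
      have : ((n - M + 1).toNat : ℤ) = n - M + 1 := Int.toNat_of_nonneg (by omega)
      omega)
  · rw [hM n h]
    exact I.zero_mem

/-! ## polynomials in `j(t^p)` -/

theorem m16int_aeval_J1 (p : ℕ) [NeZero p] (P : ℂ[X]) :
    aeval (m16int_J1 p) P = qExpand ℂ p (aeval m16int_J0 P) := by
  unfold m16int_J1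
  rw [← qExpandAlgHomC_apply ℂ p, ← qExpandAlgHomC_apply ℂ p, Polynomial.aeval_algHom_apply]

theorem m16int_aeval_J1_lead (p : ℕ) [NeZero p] (P : ℂ[X]) :
    (aeval (m16int_J1 p) P).coeff (-((p : ℤ) * P.natDegree)) = P.leadingCoeff := by
  rw [m16int_aeval_J1, ← mul_neg, qExpand_coeff_mul]
  exact ad_coeff_aeval_jq ℂ P

/-- **(POLY)** if the coefficients of `P(j(t^p))` at the exponents `n ≤ 0` lie in the additive
group `I`, so do all coefficients of `P`. -/
theorem m16int_poly_coeff_mem (p : ℕ) [NeZero p] (I : AddSubgroup ℂ) (P : ℂ[X])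
    (h : ∀ n : ℤ, n ≤ 0 → (aeval (m16int_J1 p) P).coeff n ∈ I) : ∀ i, P.coeff i ∈ I := by
  induction hd : P.natDegree using Nat.strong_induction_on generalizing P with
  | _ d ih =>
    have hlc : P.leadingCoeff ∈ I := by
      rw [← m16int_aeval_J1_lead p P]
      apply h
      have : (0 : ℤ) ≤ (p : ℤ) * P.natDegree := by positivity
      omega
    rcases Nat.eq_zero_or_pos d with h0 | h0
    · intro i
      rcases Nat.eq_zero_or_pos i with hi | hi
      · subst hi
        have : P.coeff 0 = P.leadingCoeff := by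
          rw [Polynomial.leadingCoeff, hd, h0]
        rw [this]; exact hlc
      · rw [Polynomial.coeff_eq_zero_of_natDegree_lt (by omega)]
        exact I.zero_mem
    · have hP : P.eraseLead + C P.leadingCoeff * X ^ P.natDegree = P :=
        Polynomial.eraseLead_add_C_mul_X_pow P
      have hdeg : P.eraseLead.natDegree < d := by
        have hP0 : P ≠ 0 := by
          rintro rfl
          simp at hd
          omega
        rcases Nat.lt_or_ge P.eraseLead.natDegree d with h1 | h1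
        · exact h1
        · exfalso
          have h2 := Polynomial.eraseLead_natDegree_le P
          have h3 : P.eraseLead.natDegree = P.natDegree - 1 := by omega
          have h4 := Polynomial.eraseLead_natDegree_lt_or_eraseLead_eq_zero P
          rcases h4 with h4 | h4
          · omega
          · rw [h4] at h1
            simp at h1
            omega
      have h' : ∀ n : ℤ, n ≤ 0 → (aeval (m16int_J1 p) P.eraseLead).coeff n ∈ I := by
        intro n hn
        have e0 : aeval (m16int_J1 p) P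
            = aeval (m16int_J1 p) P.eraseLead
              + algebraMap ℂ (LaurentSeries ℂ) P.leadingCoeff * (m16int_J1 p ^ P.natDegree) := by
          conv_lhs => rw [← hP]
          rw [map_add, map_mul, Polynomial.aeval_C, map_pow, Polynomial.aeval_X]
        have e1 : aeval (m16int_J1 p) P.eraseLead
            = aeval (m16int_J1 p) P
              - algebraMap ℂ (LaurentSeries ℂ) P.leadingCoeff * (m16int_J1 p ^ P.natDegree) :=
          eq_sub_of_add_eq e0.symm
        rw [e1, HahnSeries.coeff_sub, algebraMap_laurentSeries_eq_single,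
          HahnSeries.coeff_single_zero_mul]
        refine I.sub_mem (h n hn) ?_
        obtain ⟨m, hm⟩ := m16int_J1_pow_coeff p P.natDegree n
        rw [hm, mul_comm, ← zsmul_eq_mul]
        exact I.zsmul_mem hlc m
      have ih' := ih _ hdeg P.eraseLead h' rfl
      intro i
      by_cases hi : i = P.natDegree
      · rw [hi]; exact hlc
      · rw [← Polynomial.eraseLead_coeff_of_ne i hi]
        exact ih' i

/-- **(POLY')** the same for the polar part: if the coefficients of `P(j(t^p))` at the exponents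
`n < 0` lie in `I`, so do all coefficients of `P` of positive degree. -/
theorem m16int_poly_coeff_mem' (p : ℕ) [NeZero p] (I : AddSubgroup ℂ) (P : ℂ[X])
    (h : ∀ n : ℤ, n < 0 → (aeval (m16int_J1 p) P).coeff n ∈ I) : ∀ i, 1 ≤ i → P.coeff i ∈ I := by
  induction hd : P.natDegree using Nat.strong_induction_on generalizing P with
  | _ d ih =>
    rcases Nat.eq_zero_or_pos d with h0 | h0
    · intro i hi
      rw [Polynomial.coeff_eq_zero_of_natDegree_lt (by omega)]
      exact I.zero_mem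
    · have hlc : P.leadingCoeff ∈ I := by
        rw [← m16int_aeval_J1_lead p P]
        apply h
        have hp : (0 : ℤ) < p := by exact_mod_cast NeZero.pos p
        have : (0 : ℤ) < (p : ℤ) * P.natDegree := by
          apply mul_pos hp
          rw [hd]
          exact_mod_cast h0
        omega
      have hP : P.eraseLead + C P.leadingCoeff * X ^ P.natDegree = P :=
        Polynomial.eraseLead_add_C_mul_X_pow P
      have hdeg : P.eraseLead.natDegree < d := by
        rcases Nat.lt_or_ge P.eraseLead.natDegree d with h1 | h1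
        · exact h1
        · exfalso
          have h2 := Polynomial.eraseLead_natDegree_le P
          have h4 := Polynomial.eraseLead_natDegree_lt_or_eraseLead_eq_zero P
          rcases h4 with h4 | h4
          · omega
          · rw [h4] at h1
            simp at h1
            omega
      have h' : ∀ n : ℤ, n < 0 → (aeval (m16int_J1 p) P.eraseLead).coeff n ∈ I := by
        intro n hn
        have e0 : aeval (m16int_J1 p) P
            = aeval (m16int_J1 p) P.eraseLead
              + algebraMap ℂ (LaurentSeries ℂ) P.leadingCoeff * (m16int_J1 p ^ P.natDegree) := by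
          conv_lhs => rw [← hP]
          rw [map_add, map_mul, Polynomial.aeval_C, map_pow, Polynomial.aeval_X]
        have e1 : aeval (m16int_J1 p) P.eraseLead
            = aeval (m16int_J1 p) P
              - algebraMap ℂ (LaurentSeries ℂ) P.leadingCoeff * (m16int_J1 p ^ P.natDegree) :=
          eq_sub_of_add_eq e0.symm
        rw [e1, HahnSeries.coeff_sub, algebraMap_laurentSeries_eq_single,
          HahnSeries.coeff_single_zero_mul]
        refine I.sub_mem (h n hn) ?_
        obtain ⟨m, hm⟩ := m16int_J1_pow_coeff p P.natDegree n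
        rw [hm, mul_comm, ← zsmul_eq_mul]
        exact I.zsmul_mem hlc m
      have ih' := ih _ hdeg P.eraseLead h' rfl
      intro i hi1
      by_cases hi : i = P.natDegree
      · rw [hi]; exact hlc
      · rw [← Polynomial.eraseLead_coeff_of_ne i hi]
        exact ih' i hi1

end Fermat.Agent.M16
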