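/-
M16 (S16 project), package INT, part 3: reduction modulo `ℓ` (prefix `m16int_`).

* `m16int_iota`, `m16int_red` : the coefficient maps `ℤ_(ℓ)((t)) → ℂ((t))`, `ℤ_(ℓ)((t)) → 𝔽_ℓ((t))`;
* `m16int_field_root` : a series without polar and constant term which is algebraic over the
  constants vanishes;
* `m16int_red_root`   : **(RED-1)** the characteristic polynomial step.
-/
import Fermat.Agent.M16.Int5Ser
import Fermat.Agent.M28.BmRes

set_option autoImplicit false
set_option linter.deprecated false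
set_option linter.unusedSectionVars false
set_option linter.unusedVariables false
set_option linter.style.haveILetI false

noncomputable section

namespace Fermat.Agent.M16

open Polynomial ModularCurve Fermat.Agent.S24 Fermat.Agent.M28

variable (ℓ : ℕ) [hℓ : Fact ℓ.Prime]

/-- the embedding `ℤ_(ℓ) → ℂ`. -/
def m16int_emb : ↥(GaloisRep.ratLocalizedAt ℓ) →+* ℂ :=
  (algebraMap ℚ ℂ).comp (GaloisRep.ratLocalizedAt ℓ).subtype

theorem m16int_emb_apply (a : ↥(GaloisRep.ratLocalizedAt ℓ)) :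
    m16int_emb ℓ a = ((a : ℚ) : ℂ) := rfl

theorem m16int_emb_injective : Function.Injective (m16int_emb ℓ) := by
  intro a b h
  apply Subtype.ext
  have : ((a : ℚ) : ℂ) = ((b : ℚ) : ℂ) := h
  exact_mod_cast this

theorem m16int_mem_Zl_iff_emb {x : ℂ} : x ∈ m16int_Zl ℓ ↔ ∃ a, m16int_emb ℓ a = x := by
  constructor
  · rintro ⟨r, hr, rfl⟩
    refine ⟨⟨r, ?_⟩, rfl⟩
    show r.den.Coprime ℓ
    exact ((Nat.Prime.coprime_iff_not_dvd hℓ.out).mpr hr).symm
  · rintro ⟨a, rfl⟩
    refine ⟨(a : ℚ), ?_, rfl⟩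
    have h : (a : ℚ).den.Coprime ℓ := a.2
    exact (Nat.Prime.coprime_iff_not_dvd hℓ.out).mp h.symm

/-- the coefficient embedding `ℤ_(ℓ)((t)) → ℂ((t))`. -/
def m16int_iota : LaurentSeries ↥(GaloisRep.ratLocalizedAt ℓ) →+* LaurentSeries ℂ :=
  coeffMap (m16int_emb ℓ)

theorem m16int_iota_coeff (F : LaurentSeries ↥(GaloisRep.ratLocalizedAt ℓ)) (n : ℤ) :
    (m16int_iota ℓ F).coeff n = m16int_emb ℓ (F.coeff n) := rfl

theorem m16int_iota_injective : Function.Injective (m16int_iota ℓ) := by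
  intro F G h
  ext n
  have := congrArg (fun f : LaurentSeries ℂ => f.coeff n) h
  exact congrArg Subtype.val (m16int_emb_injective ℓ this)

theorem m16int_iota_mem (F : LaurentSeries ↥(GaloisRep.ratLocalizedAt ℓ)) :
    m16int_iota ℓ F ∈ m16int_ser (m16int_Zl ℓ) :=
  fun n => (m16int_mem_Zl_iff_emb ℓ).mpr ⟨F.coeff n, rfl⟩

/-- a series with `ℓ`-integral rational coefficients comes from `ℤ_(ℓ)((t))`. -/
theorem m16int_lift {f : LaurentSeries ℂ} (hf : f ∈ m16int_ser (m16int_Zl ℓ)) :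
    ∃ F, m16int_iota ℓ F = f := by
  have h : ∀ n, ∃ a, m16int_emb ℓ a = f.coeff n := fun n => (m16int_mem_Zl_iff_emb ℓ).mp (hf n)
  choose a ha using h
  refine ⟨⟨a, f.isPWO_support.mono fun n hn => ?_⟩, ?_⟩
  · rw [Function.mem_support] at hn
    rw [HahnSeries.mem_support]
    intro h0
    apply hn
    apply m16int_emb_injective ℓ
    rw [ha, h0, map_zero]
  · ext n
    exact ha n

/-- the reduction `ℤ_(ℓ)((t)) → 𝔽_ℓ((t))`. -/
def m16int_red : LaurentSeries ↥(GaloisRep.ratLocalizedAt ℓ) →+* LaurentSeries (ZMod ℓ) :=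
  coeffMap (m28bm_res ℓ)

theorem m16int_red_coeff (F : LaurentSeries ↥(GaloisRep.ratLocalizedAt ℓ)) (n : ℤ) :
    (m16int_red ℓ F).coeff n = m28bm_res ℓ (F.coeff n) := rfl

theorem m16int_res_eq_zero_iff (a : ↥(GaloisRep.ratLocalizedAt ℓ)) :
    m28bm_res ℓ a = 0 ↔ m16int_emb ℓ a / ℓ ∈ m16int_Zl ℓ := by
  have hl := m16int_l_ne_zero ℓ
  constructor
  · intro h
    have h1 : a ∈ RingHom.ker (m28bm_res ℓ) := h
    rw [m28bm_res_ker, Ideal.mem_span_singleton] at h1
    obtain ⟨b, rfl⟩ := h1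
    rw [m16int_mem_Zl_iff_emb]
    refine ⟨b, ?_⟩
    rw [map_mul, map_natCast]
    field_simp
  · intro h
    rw [m16int_mem_Zl_iff_emb] at h
    obtain ⟨b, hb⟩ := h
    have h1 : a = (ℓ : ↥(GaloisRep.ratLocalizedAt ℓ)) * b := by
      apply m16int_emb_injective ℓ
      rw [map_mul, map_natCast, hb]
      field_simp
    rw [h1, map_mul, map_natCast, ZMod.natCast_self, zero_mul]

theorem m16int_red_coeff_eq_zero_iff (F : LaurentSeries ↥(GaloisRep.ratLocalizedAt ℓ)) (n : ℤ) :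
    (m16int_red ℓ F).coeff n = 0 ↔ (m16int_iota ℓ F).coeff n / ℓ ∈ m16int_Zl ℓ := by
  rw [m16int_red_coeff, m16int_iota_coeff]
  exact m16int_res_eq_zero_iff ℓ _

theorem m16int_red_eq_zero_iff (F : LaurentSeries ↥(GaloisRep.ratLocalizedAt ℓ)) :
    m16int_red ℓ F = 0 ↔ ∀ n, (m16int_iota ℓ F).coeff n / ℓ ∈ m16int_Zl ℓ := by
  constructor
  · intro h n
    rw [← m16int_red_coeff_eq_zero_iff, h, HahnSeries.coeff_zero]
  · intro h
    ext n
    rw [HahnSeries.coeff_zero]
    exact (m16int_red_coeff_eq_zero_iff ℓ F n).mpr (h n)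

/-! ## a series in `t k[[t]]` which is algebraic over `k` vanishes -/

theorem m16int_field_root {k : Type*} [Field k] (f : LaurentSeries k)
    (hf : ∀ n, n ≤ 0 → f.coeff n = 0) (Q : k[X]) (hQ : Q ≠ 0) (h : aeval f Q = 0) : f = 0 := by
  by_contra hf0
  have hord : 0 < f.order := by
    by_contra hle
    exact hf0 (HahnSeries.coeff_order_eq_zero.mp (hf _ (not_lt.mp hle)))
  have hv : cf_val f < 1 := by
    rw [cf_val_eq hf0, ← WithZero.exp_zero, WithZero.exp_lt_exp]
    omega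
  have hv0 : cf_val f ≠ 0 := (Valuation.ne_zero_iff _).mpr hf0
  have hv0' : 0 < cf_val f := zero_lt_iff.mpr hv0
  set i₀ := Q.natTrailingDegree with hi₀
  have hmem : i₀ ∈ Q.support := Polynomial.natTrailingDegree_mem_support_of_nonzero hQ
  have hb : Q.coeff i₀ ≠ 0 := Polynomial.mem_support_iff.mp hmem
  have hsum : aeval f Q = ∑ i ∈ Q.support, algebraMap k (LaurentSeries k) (Q.coeff i) * f ^ i := by
    rw [Polynomial.aeval_def, Polynomial.eval₂_eq_sum]
    rfl
  rw [hsum, ← Finset.add_sum_erase _ _ hmem] at h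
  have hfirst : cf_val (algebraMap k (LaurentSeries k) (Q.coeff i₀) * f ^ i₀) = cf_val f ^ i₀ := by
    rw [map_mul, cf_val_algebraMap hb, one_mul, map_pow]
  have hrest : cf_val (∑ i ∈ Q.support.erase i₀,
      algebraMap k (LaurentSeries k) (Q.coeff i) * f ^ i) < cf_val f ^ i₀ := by
    apply Valuation.map_sum_lt _ (pow_ne_zero _ hv0)
    intro i hi
    obtain ⟨hne, hi'⟩ := Finset.mem_erase.mp hi
    have hc : Q.coeff i ≠ 0 := Polynomial.mem_support_iff.mp hi'
    have hlt : i₀ < i := lt_of_le_of_ne (Polynomial.natTrailingDegree_le_of_mem_supp i hi')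
      (Ne.symm hne)
    rw [map_mul, cf_val_algebraMap hc, one_mul, map_pow]
    exact pow_lt_pow_right_of_lt_one₀ hv0' hv hlt
  have hval := Valuation.map_add_eq_of_lt_left cf_val (hfirst ▸ hrest)
  rw [h, map_zero, hfirst] at hval
  exact pow_ne_zero _ hv0 hval.symm

/-! ## transport of `j` and of polynomials in `j` -/

theorem m16int_J0_eq_jqModC : m16int_J0 = jqModC ℂ := by
  rw [m16int_J0_eq, jqModC_eq_map_intCast ℂ]
  rfl

theorem m16int_coeffMap_jqModC {R S : Type*} [CommRing R] [CommRing S] (f : R →+* S) :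
    coeffMap f (jqModC R) = jqModC S :=
  map_jqModC f

/-- `j(t^p)` over `ℤ_(ℓ)`. -/
def m16int_J1l (p : ℕ) [NeZero p] : LaurentSeries ↥(GaloisRep.ratLocalizedAt ℓ) :=
  qExpand _ p (jqModC _)

/-- `j(t^(p^2))` over `ℤ_(ℓ)`. -/
def m16int_J2l (p : ℕ) [NeZero p] : LaurentSeries ↥(GaloisRep.ratLocalizedAt ℓ) :=
  qExpand _ p (m16int_J1l ℓ p)

theorem m16int_iota_J1l (p : ℕ) [NeZero p] : m16int_iota ℓ (m16int_J1l ℓ p) = m16int_J1 p := by
  unfold m16int_iota m16int_J1l m16int_J1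
  rw [coeffMap_qExpand, m16int_coeffMap_jqModC, m16int_J0_eq_jqModC]

theorem m16int_iota_J2l (p : ℕ) [NeZero p] : m16int_iota ℓ (m16int_J2l ℓ p) = m16int_J2 p := by
  unfold m16int_J2l m16int_J2
  rw [← m16int_iota_J1l ℓ p]
  exact coeffMap_qExpand _ _ _

theorem m16int_red_J1l (p : ℕ) [NeZero p] :
    m16int_red ℓ (m16int_J1l ℓ p) = qExpand (ZMod ℓ) p (jqModC (ZMod ℓ)) := by
  unfold m16int_red m16int_J1l
  rw [coeffMap_qExpand, m16int_coeffMap_jqModC]

theorem m16int_red_J2l (p : ℕ) [NeZero p] :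
    m16int_red ℓ (m16int_J2l ℓ p)
      = qExpand (ZMod ℓ) p (qExpand (ZMod ℓ) p (jqModC (ZMod ℓ))) := by
  unfold m16int_J2l
  rw [← m16int_red_J1l ℓ p]
  exact coeffMap_qExpand _ _ _

theorem m16int_algebraMap_eq_C {R : Type*} [CommRing R] (a : R) :
    algebraMap R (LaurentSeries R) a = HahnSeries.C a := by
  have h1 : algebraMap R (PowerSeries R) a = PowerSeries.C a := by
    simp
  rw [HahnSeries.algebraMap_apply', h1, HahnSeries.ofPowerSeries_C]

theorem m16int_coeffMap_algebraMap {R S : Type*} [CommRing R] [CommRing S] (f : R →+* S)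
    (a : R) : coeffMap f (algebraMap R (LaurentSeries R) a) = algebraMap S (LaurentSeries S) (f a) := by
  rw [m16int_algebraMap_eq_C, m16int_algebraMap_eq_C, HahnSeries.C_apply, HahnSeries.C_apply]
  exact coeffMap_single f 0 a

theorem m16int_coeffMap_aeval {R S : Type*} [CommRing R] [CommRing S] (f : R →+* S)
    (x : LaurentSeries R) (P : R[X]) :
    coeffMap f (aeval x P) = aeval (coeffMap f x) (P.map f) := by
  rw [Polynomial.aeval_def, Polynomial.aeval_def, Polynomial.hom_eval₂, Polynomial.eval₂_map]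
  congr 1
  apply RingHom.ext
  intro a
  exact m16int_coeffMap_algebraMap f a

/-- a complex polynomial with `ℓ`-integral rational coefficients comes from `ℤ_(ℓ)[X]`. -/
theorem m16int_lift_poly (P : ℂ[X]) (hP : ∀ i, P.coeff i ∈ m16int_Zl ℓ) :
    ∃ P' : (↥(GaloisRep.ratLocalizedAt ℓ))[X], P'.map (m16int_emb ℓ) = P := by
  have h : P ∈ Polynomial.lifts (m16int_emb ℓ) := by
    rw [Polynomial.lifts_iff_coeff_lifts]
    intro n
    exact (m16int_mem_Zl_iff_emb ℓ).mp (hP n)
  exact (Polynomial.mem_lifts P).mp h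

/-- **(RED-1)** the characteristic polynomial step: a series `y` with `ℓ`-integral coefficients,
polar and constant coefficients divisible by `ℓ`, which is a root of a monic polynomial whose
coefficients are polynomials in `j(t^p)` that are constant modulo `ℓ`, is divisible by `ℓ`. -/
theorem m16int_red_root (p : ℕ) [NeZero p] (N : ℕ) (y : LaurentSeries ℂ)
    (hy : y ∈ m16int_ser (m16int_Zl ℓ)) (hy0 : ∀ n, n ≤ 0 → y.coeff n / ℓ ∈ m16int_Zl ℓ)
    (E : ℕ → ℂ[X]) (hE0 : E 0 = 1) (hE : ∀ j i, (E j).coeff i ∈ m16int_Zl ℓ)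
    (hE1 : ∀ j i, 1 ≤ i → (E j).coeff i / ℓ ∈ m16int_Zl ℓ)
    (hroot : ∑ j ∈ Finset.range (N + 1),
      (-1) ^ j * (aeval (m16int_J1 p) (E j) * y ^ (N - j)) = 0) :
    ∀ n, y.coeff n / ℓ ∈ m16int_Zl ℓ := by
  obtain ⟨Y, rfl⟩ := m16int_lift ℓ hy
  choose E' hE' using fun j => m16int_lift_poly ℓ (E j) (hE j)
  -- the identity over `ℤ_(ℓ)`
  have h1 : ∑ j ∈ Finset.range (N + 1),
      (-1) ^ j * (aeval (m16int_J1l ℓ p) (E' j) * Y ^ (N - j)) = 0 := by
    apply m16int_iota_injective ℓ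
    rw [map_zero, map_sum, ← hroot]
    apply Finset.sum_congr rfl
    intro j _
    rw [map_mul, map_pow, map_neg, map_one, map_mul, map_pow]
    congr 2
    have e1 := m16int_coeffMap_aeval (m16int_emb ℓ) (m16int_J1l ℓ p) (E' j)
    rw [hE' j] at e1
    have e2 : coeffMap (m16int_emb ℓ) (m16int_J1l ℓ p) = m16int_J1 p := m16int_iota_J1l ℓ p
    rw [e2] at e1
    exact e1
  -- reduce modulo `ℓ`
  have h2 := congrArg (m16int_red ℓ) h1
  rw [map_zero, map_sum] at h2
  have hconst : ∀ j, (E' j).map (m28bm_res ℓ) = C (m28bm_res ℓ ((E' j).coeff 0)) := by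
    intro j
    ext i
    rw [Polynomial.coeff_map, Polynomial.coeff_C]
    split_ifs with hi
    · rw [hi]
    · rw [m16int_res_eq_zero_iff]
      have := hE1 j i (Nat.one_le_iff_ne_zero.mpr hi)
      rw [← hE' j, Polynomial.coeff_map] at this
      exact this
  set Q : (ZMod ℓ)[X] := ∑ j ∈ Finset.range (N + 1),
    (-1) ^ j * (C (m28bm_res ℓ ((E' j).coeff 0)) * X ^ (N - j)) with hQ
  have h3 : aeval (m16int_red ℓ Y) Q = 0 := by
    rw [hQ, map_sum, ← h2]
    apply Finset.sum_congr rfl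
    intro j _
    rw [map_mul, map_pow, map_neg, map_one, map_mul, map_pow, map_mul, map_pow, map_neg, map_one,
      map_mul, map_pow, Polynomial.aeval_X, Polynomial.aeval_C]
    congr 2
    unfold m16int_red
    rw [m16int_coeffMap_aeval, hconst j, Polynomial.aeval_C]
  have hQ0 : Q ≠ 0 := by
    intro h0
    have hc := congrArg (fun f : (ZMod ℓ)[X] => f.coeff N) h0
    simp only [hQ, Polynomial.finset_sum_coeff, Polynomial.coeff_zero] at hc
    rw [Finset.sum_eq_single 0] at hc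
    · have e0 : (E' 0).coeff 0 = 1 := by
        apply m16int_emb_injective ℓ
        rw [← Polynomial.coeff_map, hE' 0, hE0, Polynomial.coeff_one_zero, map_one]
      simp [e0] at hc
    · intro j hj hj0
      rw [Finset.mem_range] at hj
      rw [← map_one C, ← map_neg C, ← map_pow C, ← mul_assoc, ← map_mul C,
        Polynomial.coeff_C_mul_X_pow, if_neg (by omega)]
    · intro h
      exact absurd (Finset.mem_range.mpr (Nat.succ_pos N)) h
  have hY0 : ∀ n, n ≤ 0 → (m16int_red ℓ Y).coeff n = 0 := fun n hn =>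
    (m16int_red_coeff_eq_zero_iff ℓ Y n).mpr (hy0 n hn)
  have h4 := m16int_field_root (m16int_red ℓ Y) hY0 Q hQ0 h3
  exact (m16int_red_eq_zero_iff ℓ Y).mp h4

end Fermat.Agent.M16
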