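/-
M16 (S16 project), package INT, part 4: the input from Igusa's theorem (M28), prefix `m16int_`.

* `m16int_indep`     : `1, j̄_p, …, j̄_p ^ p` are linearly independent over `𝔽_ℓ(j̄)` (`ℓ ≠ p`),
  in the form: a polynomial relation of `Y`-degree `≤ p` between `j̄` and `j̄_p` is trivial;
* `m16int_red_indep` : **(RED-2)** the same for polynomials with `ℓ`-integral coefficients.
-/
import Fermat.Agent.M16.Int5Red
import Fermat.Agent.M28.BmMain

set_option autoImplicit false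
set_option linter.deprecated false
set_option linter.unusedSectionVars false
set_option linter.unusedVariables false
set_option linter.style.haveILetI false

noncomputable section

namespace Fermat.Agent.M16

open Polynomial ModularCurve Fermat.Agent.S24 Fermat.Agent.M28 IntermediateField

theorem m16int_dedekindPsi_prime (p : ℕ) (hp : p.Prime) : dedekindPsi p = p + 1 := by
  unfold dedekindPsi
  rw [Nat.Prime.divisors hp, Finset.sum_filter, Finset.sum_pair hp.one_lt.ne]
  rw [if_pos squarefree_one, if_pos hp.squarefree, Nat.div_one, Nat.div_self hp.pos]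

variable (ℓ : ℕ) [hℓ : Fact ℓ.Prime] (p : ℕ) [hp : Fact p.Prime]

/-- `𝔽_ℓ(j̄)` -/
abbrev m16int_K0 : IntermediateField (ZMod ℓ) (LaurentSeries (ZMod ℓ)) :=
  IntermediateField.adjoin (ZMod ℓ) {jqModC (ZMod ℓ)}

/-- `j̄_p` -/
abbrev m16int_xp : LaurentSeries (ZMod ℓ) :=
  haveI : NeZero p := ⟨hp.out.ne_zero⟩
  qExpand (ZMod ℓ) p (jqModC (ZMod ℓ))

/-- the family of `p + 1` independent elements provided by M28. -/
theorem m16int_exists_family (hℓp : ℓ ≠ p) :
    haveI : NeZero p := ⟨hp.out.ne_zero⟩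
    ∃ v : Fin (dedekindPsi p) → LaurentSeries (ZMod ℓ),
      (∀ i, v i ∈ Algebra.adjoin (ZMod ℓ) (divisorExpansionsC (ZMod ℓ) p)) ∧
      LinearIndependent ↥(IntermediateField.adjoin (ZMod ℓ) {jqModC (ZMod ℓ)}) v := by
  haveI : NeZero p := ⟨hp.out.ne_zero⟩
  have hℓN : ¬ ℓ ∣ p := fun h => hℓp ((Nat.prime_dvd_prime_iff_eq hℓ.out hp.out).mp h)
  have hP0 : ∀ (q : ℕ) [NeZero q], q.Prime → q ∣ p → Nonempty (M28PrimeData m28Zbar q) :=
    fun q _ hq _ => m28p_primeData q hq
  have hPk : ∀ (q : ℕ) [NeZero q], q.Prime → q ∣ p → Nonempty (M28PrimeData (m28k_k ℓ) q) :=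
    fun q _ hq hqN => m28k_primeData_of ℓ q (hP0 q hq hqN)
  exact m28d_descent (m28k_k ℓ) ℓ p
    (m28di_tower_of m28b_tower_main (m28k_k ℓ) ℓ p hℓN hPk)

/-- a nonzero polynomial over `𝔽_ℓ(j̄)` which vanishes at `j̄_p` has degree at least `p + 1`. -/
theorem m16int_natDegree_ge (hℓp : ℓ ≠ p)
    (h : (↥(m16int_K0 ℓ))[X]) (h0 : h ≠ 0) (hx : aeval (m16int_xp ℓ p) h = 0) :
    p + 1 ≤ h.natDegree := by
  haveI : NeZero p := ⟨hp.out.ne_zero⟩
  have hint : IsIntegral (m16int_K0 ℓ) (m16int_xp ℓ p) := isAlgebraic_iff_isIntegral.mp ⟨h, h0, hx⟩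
  obtain ⟨v, hv, hli⟩ := m16int_exists_family ℓ p hℓp
  have hmem : ∀ i, v i ∈ (IntermediateField.adjoin (m16int_K0 ℓ) {m16int_xp ℓ p} :
      IntermediateField (m16int_K0 ℓ) (LaurentSeries (ZMod ℓ))) := by
    intro i
    refine Algebra.adjoin_induction (p := fun y _ => y ∈ (IntermediateField.adjoin (m16int_K0 ℓ) {m16int_xp ℓ p} :
      IntermediateField (m16int_K0 ℓ) (LaurentSeries (ZMod ℓ)))) ?_ ?_ ?_ ?_ (hv i)
    · rintro s ⟨d, hd, hdp, rfl⟩
      rcases (Nat.dvd_prime hp.out).mp hdp with h1 | h1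
      · subst h1
        rw [qExpand_one_apply]
        have hj : jqModC (ZMod ℓ) ∈ (m16int_K0 ℓ) := IntermediateField.mem_adjoin_simple_self _ _
        exact IntermediateField.algebraMap_mem _ (⟨jqModC (ZMod ℓ), hj⟩ : ↥(m16int_K0 ℓ))
      · subst h1
        exact IntermediateField.mem_adjoin_simple_self _ _
    · intro c
      have : algebraMap (ZMod ℓ) (LaurentSeries (ZMod ℓ)) c
          = algebraMap (m16int_K0 ℓ) (LaurentSeries (ZMod ℓ)) (algebraMap (ZMod ℓ) (m16int_K0 ℓ) c) := rfl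
      rw [this]
      exact IntermediateField.algebraMap_mem _ _
    · intro a b _ _ ha hb
      exact add_mem ha hb
    · intro a b _ _ ha hb
      exact mul_mem ha hb
  let v' : Fin (dedekindPsi p) → ↥(IntermediateField.adjoin (m16int_K0 ℓ) {m16int_xp ℓ p} :
      IntermediateField (m16int_K0 ℓ) (LaurentSeries (ZMod ℓ))) := fun i => ⟨v i, hmem i⟩
  have hli' : LinearIndependent (m16int_K0 ℓ) v' := by
    apply LinearIndependent.of_comp
      ((IntermediateField.adjoin (m16int_K0 ℓ) {m16int_xp ℓ p} :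
        IntermediateField (m16int_K0 ℓ) (LaurentSeries (ZMod ℓ))).val.toLinearMap)
    exact hli
  haveI : FiniteDimensional (m16int_K0 ℓ) ↥(IntermediateField.adjoin (m16int_K0 ℓ) {m16int_xp ℓ p} :
      IntermediateField (m16int_K0 ℓ) (LaurentSeries (ZMod ℓ))) :=
    IntermediateField.adjoin.finiteDimensional hint
  have hcard := hli'.fintype_card_le_finrank
  rw [IntermediateField.adjoin.finrank hint, Fintype.card_fin,
    m16int_dedekindPsi_prime p hp.out] at hcard
  have hdeg : (minpoly (m16int_K0 ℓ) (m16int_xp ℓ p)).natDegree ≤ h.natDegree :=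
    Polynomial.natDegree_le_natDegree (minpoly.degree_le_of_ne_zero (m16int_K0 ℓ) (m16int_xp ℓ p) h0 hx)
  omega

/-- **Igusa**: a polynomial relation of `Y`-degree `≤ p` between `j̄` and `j̄_p` is trivial. -/
theorem m16int_indep (hℓp : ℓ ≠ p) (g : ℕ → (ZMod ℓ)[X]) (hg0 : g 0 = 0)
    (H : haveI : NeZero p := ⟨hp.out.ne_zero⟩
      ∑ j ∈ Finset.range (p + 2), aeval (jqModC (ZMod ℓ)) (g j) *
        (qExpand (ZMod ℓ) p (jqModC (ZMod ℓ))) ^ (p + 1 - j) = 0) :
    ∀ j, j ∈ Finset.range (p + 2) → g j = 0 := by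
  haveI : NeZero p := ⟨hp.out.ne_zero⟩
  have hmemK : ∀ j, aeval (jqModC (ZMod ℓ)) (g j) ∈ (m16int_K0 ℓ) := by
    intro j
    apply IntermediateField.algebra_adjoin_le_adjoin (ZMod ℓ) _
    exact Polynomial.aeval_mem_adjoin_singleton _ _
  let c : ℕ → ↥(m16int_K0 ℓ) := fun j => ⟨aeval (jqModC (ZMod ℓ)) (g j), hmemK j⟩
  have hc0 : c 0 = 0 := by
    apply Subtype.ext
    show aeval (jqModC (ZMod ℓ)) (g 0) = 0
    rw [hg0, map_zero]
  set h : (↥(m16int_K0 ℓ))[X] := ∑ j ∈ Finset.range (p + 2), C (c j) * X ^ (p + 1 - j) with hh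
  have hx : aeval (m16int_xp ℓ p) h = 0 := by
    rw [hh, map_sum, ← H]
    apply Finset.sum_congr rfl
    intro j _
    rw [map_mul, map_pow, Polynomial.aeval_X, Polynomial.aeval_C]
    rfl
  have hdeg : h.natDegree ≤ p := by
    rw [hh]
    apply Polynomial.natDegree_sum_le_of_forall_le
    intro j hj
    rcases Nat.eq_zero_or_pos j with hj0 | hj0
    · rw [hj0, hc0, map_zero, zero_mul]
      simp
    · exact (Polynomial.natDegree_C_mul_X_pow_le _ _).trans (by omega)
  have hzero : h = 0 := by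
    by_contra hne
    have := m16int_natDegree_ge ℓ p hℓp h hne hx
    omega
  intro j hj
  rw [Finset.mem_range] at hj
  have hcj : c j = 0 := by
    have hcoef := congrArg (fun f : (↥(m16int_K0 ℓ))[X] => f.coeff (p + 1 - j)) hzero
    simp only [hh, Polynomial.finset_sum_coeff, Polynomial.coeff_zero] at hcoef
    rw [Finset.sum_eq_single j] at hcoef
    · simpa using hcoef
    · intro i hi hij
      rw [Finset.mem_range] at hi
      rw [Polynomial.coeff_C_mul_X_pow, if_neg (by omega)]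
    · intro hnot
      exact absurd (Finset.mem_range.mpr hj) hnot
  have hval : aeval (jqModC (ZMod ℓ)) (g j) = 0 := congrArg Subtype.val hcj
  by_contra hgj
  exact m28bm_htrl ℓ ⟨g j, hgj, hval⟩

/-- **(RED-2)** Igusa for polynomials with `ℓ`-integral coefficients: if
`∑_j G_j(j(t^p)) j(t^(p^2))^(p+1-j)` (`G_0 = 0`) is divisible by `ℓ`, so are all `G_j`. -/
theorem m16int_red_indep (hℓp : ℓ ≠ p) (G : ℕ → ℂ[X])
    (hG : ∀ j i, (G j).coeff i ∈ m16int_Zl ℓ) (hG0 : G 0 = 0)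
    (H : haveI : NeZero p := ⟨hp.out.ne_zero⟩
      ∀ n, (∑ j ∈ Finset.range (p + 2),
        aeval (m16int_J1 p) (G j) * m16int_J2 p ^ (p + 1 - j)).coeff n / ℓ ∈ m16int_Zl ℓ) :
    ∀ j, j ∈ Finset.range (p + 2) → ∀ i, (G j).coeff i / ℓ ∈ m16int_Zl ℓ := by
  haveI : NeZero p := ⟨hp.out.ne_zero⟩
  choose G' hG' using fun j => m16int_lift_poly ℓ (G j) (hG j)
  have hG'0 : G' 0 = 0 := by
    apply Polynomial.map_injective (m16int_emb ℓ) (m16int_emb_injective ℓ)
    rw [hG' 0, hG0, Polynomial.map_zero]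
  set H' : LaurentSeries ↥(GaloisRep.ratLocalizedAt ℓ) := ∑ j ∈ Finset.range (p + 2),
    aeval (m16int_J1l ℓ p) (G' j) * m16int_J2l ℓ p ^ (p + 1 - j) with hH'
  have h1 : m16int_iota ℓ H' = ∑ j ∈ Finset.range (p + 2),
      aeval (m16int_J1 p) (G j) * m16int_J2 p ^ (p + 1 - j) := by
    rw [hH', map_sum]
    apply Finset.sum_congr rfl
    intro j _
    rw [map_mul, map_pow, m16int_iota_J2l]
    congr 1
    have e1 := m16int_coeffMap_aeval (m16int_emb ℓ) (m16int_J1l ℓ p) (G' j)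
    rw [hG' j] at e1
    have e2 : coeffMap (m16int_emb ℓ) (m16int_J1l ℓ p) = m16int_J1 p := m16int_iota_J1l ℓ p
    rw [e2] at e1
    exact e1
  have h2 : m16int_red ℓ H' = 0 := by
    rw [m16int_red_eq_zero_iff, h1]
    exact H
  have h3 : m16int_red ℓ H' = qExpand (ZMod ℓ) p (∑ j ∈ Finset.range (p + 2),
      aeval (jqModC (ZMod ℓ)) ((G' j).map (m28bm_res ℓ)) *
        (qExpand (ZMod ℓ) p (jqModC (ZMod ℓ))) ^ (p + 1 - j)) := by
    rw [hH', map_sum, map_sum]
    apply Finset.sum_congr rfl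
    intro j _
    rw [map_mul, map_pow, map_mul, map_pow, m16int_red_J2l]
    congr 1
    have e1 := m16int_coeffMap_aeval (m28bm_res ℓ) (m16int_J1l ℓ p) (G' j)
    have e2 : coeffMap (m28bm_res ℓ) (m16int_J1l ℓ p)
        = qExpand (ZMod ℓ) p (jqModC (ZMod ℓ)) := m16int_red_J1l ℓ p
    rw [e2] at e1
    rw [show m16int_red ℓ (aeval (m16int_J1l ℓ p) (G' j))
      = coeffMap (m28bm_res ℓ) (aeval (m16int_J1l ℓ p) (G' j)) from rfl, e1,
      ← qExpandAlgHomC_apply (ZMod ℓ) p, ← qExpandAlgHomC_apply (ZMod ℓ) p,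
      Polynomial.aeval_algHom_apply]
  rw [h3] at h2
  have h4 := qExpand_injective p (h2.trans (map_zero _).symm)
  have h5 := m16int_indep ℓ p hℓp (fun j => (G' j).map (m28bm_res ℓ))
    (by simp only [hG'0, Polynomial.map_zero]) h4
  intro j hj i
  have h6 := congrArg (fun f : (ZMod ℓ)[X] => f.coeff i) (h5 j hj)
  simp only [Polynomial.coeff_map, Polynomial.coeff_zero] at h6
  have h7 := (m16int_res_eq_zero_iff ℓ _).mp h6
  rw [← hG' j, Polynomial.coeff_map]
  exact h7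

end Fermat.Agent.M16
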