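/-
M16 (S16 project), package INT, block I2 (IND) in the `t = q_p`-shape fixed by the lead
(`m16intd_ind`), derived from `m16int_indep` (Int5Ind.lean).  Prefix `m16int_`.
-/
import Fermat.Agent.M16.Int5Ind

set_option autoImplicit false
set_option linter.deprecated false
set_option linter.unusedSectionVars false
set_option linter.unusedVariables false
set_option linter.style.haveILetI false

noncomputable section

namespace Fermat.Agent.M16

open Polynomial ModularCurve Fermat.Agent.S24 Fermat.Agent.M28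

/-- `eval₂ C` is `aeval` for Laurent series. -/
theorem m16int_eval₂_C_eq_aeval {k : Type*} [CommRing k] (P : k[X]) (y : LaurentSeries k) :
    P.eval₂ HahnSeries.C y = aeval y P := by
  rw [Polynomial.aeval_def]
  congr 1
  ext a : 1
  exact (m16int_algebraMap_eq_C a).symm

/-- **(IND), `q`-shape with increasing exponents**: `1, j̄_p, …, j̄_p ^ p` are linearly
independent over `𝔽_ℓ[j̄]`. -/
theorem m16int_ind_q (ℓ p : ℕ) [Fact ℓ.Prime] [hp : Fact p.Prime] (hℓp : ℓ ≠ p)
    (R : ℕ → Polynomial (ZMod ℓ))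
    (h : haveI : NeZero p := ⟨hp.out.ne_zero⟩
      ∑ i ∈ Finset.range (p + 1),
        (R i).eval₂ HahnSeries.C (jqModC (ZMod ℓ))
          * (qExpand (ZMod ℓ) p (jqModC (ZMod ℓ))) ^ i = 0) :
    ∀ i ∈ Finset.range (p + 1), R i = 0 := by
  haveI : NeZero p := ⟨hp.out.ne_zero⟩
  have key := m16int_indep ℓ p hℓp (fun j => if j = 0 then 0 else R (p + 1 - j)) (by simp) (by
    rw [Finset.sum_range_succ', if_pos rfl, map_zero, zero_mul, add_zero]
    rw [← Finset.sum_range_reflect] at h
    rw [← h]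
    apply Finset.sum_congr rfl
    intro j hj
    have hj' : j < p + 1 := Finset.mem_range.mp hj
    rw [if_neg (Nat.succ_ne_zero j), m16int_eval₂_C_eq_aeval]
    have e1 : p + 1 - (j + 1) = p + 1 - 1 - j := by omega
    rw [e1])
  intro i hi
  have hi' : i < p + 1 := Finset.mem_range.mp hi
  have h1 := key (p + 1 - i) (Finset.mem_range.mpr (by omega))
  have h2 : p + 1 - i ≠ 0 := by omega
  simp only [if_neg h2] at h1
  have h3 : p + 1 - (p + 1 - i) = i := by omega
  rw [h3] at h1
  exact h1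

/-- **(IND), `t = q_p`-shape** (the statement `m16intd_ind` of the INT cut, verbatim up to the
`NeZero p` instance): no nontrivial relation of degree `≤ p` between `j̄(t^p)` and
`j̄(t^(p²))` over `𝔽_ℓ`. -/
theorem m16int_ind_t (ℓ p : ℕ) [Fact ℓ.Prime] [hp : Fact p.Prime] (hℓp : ℓ ≠ p)
    (R : ℕ → Polynomial (ZMod ℓ))
    (h : haveI : NeZero p := ⟨hp.out.ne_zero⟩
      ∑ i ∈ Finset.range (p + 1),
        (R i).eval₂ HahnSeries.C (qExpand (ZMod ℓ) p (jqModC (ZMod ℓ)))
          * (qExpand (ZMod ℓ) p (qExpand (ZMod ℓ) p (jqModC (ZMod ℓ)))) ^ i = 0) :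
    ∀ i ∈ Finset.range (p + 1), R i = 0 := by
  haveI : NeZero p := ⟨hp.out.ne_zero⟩
  apply m16int_ind_q ℓ p hℓp R
  apply qExpand_injective (R := ZMod ℓ) p
  rw [map_zero, ← h, map_sum]
  apply Finset.sum_congr rfl
  intro i _
  rw [map_mul, map_pow, m16int_eval₂_C_eq_aeval, m16int_eval₂_C_eq_aeval]
  congr 1
  rw [← qExpandAlgHomC_apply (ZMod ℓ) p, ← qExpandAlgHomC_apply (ZMod ℓ) p,
    Polynomial.aeval_algHom_apply]

end Fermat.Agent.M16
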