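/-
M16 (S16 project), package INT, part 1: pure algebra (prefix `m16int_`).

* `m16int_esymm_mem`  : Newton - if all power sums of a finite family lie in a `ℚ`-subalgebra,
  so do all elementary symmetric functions;
* `m16int_vieta_root` : every member of the family is a root of the Vieta polynomial;
* `m16int_lagrange`   : the Lagrange interpolation identity
  `y i₀ * ∏_{i ≠ i₀} (x i₀ - x i) = ∑_m φ_{m+1} ∑_{a ≤ m} x i₀ ^ a * (∑_i y i * x i ^ (m - a))`,
  `φ_m` the coefficients of `∏_i (X - x i)`.
-/
import Mathlib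

set_option autoImplicit false
set_option linter.deprecated false
set_option linter.unusedSectionVars false
set_option linter.unusedVariables false
set_option linter.style.haveILetI false

noncomputable section

namespace Fermat.Agent.M16

open Polynomial

/-- **Newton**: if all power sums of `z` lie in the `ℚ`-subalgebra `P`, then so do all elementary
symmetric functions of `z`. -/
theorem m16int_esymm_mem {A : Type*} [CommRing A] [Algebra ℚ A] {σ : Type*} [Fintype σ]
    (P : Subalgebra ℚ A) (z : σ → A) (h : ∀ n : ℕ, 1 ≤ n → ∑ i, z i ^ n ∈ P) (k : ℕ) :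
    (Finset.univ.val.map z).esymm k ∈ P := by
  induction k using Nat.strong_induction_on with
  | _ k ih =>
    rcases Nat.eq_zero_or_pos k with hk | hk
    · subst hk
      have h0 : (Finset.univ.val.map z).esymm 0 = 1 := by
        simp [Multiset.esymm, Multiset.powersetCard_zero_left]
      rw [h0]
      exact P.one_mem
    · have hN := congrArg (MvPolynomial.aeval z) (MvPolynomial.mul_esymm_eq_sum σ ℚ k)
      rw [map_mul, map_natCast, MvPolynomial.aeval_esymm_eq_multiset_esymm, map_mul, map_pow,
        map_neg, map_one, map_sum] at hN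
      have hmem : ((k : ℕ) : A) * (Finset.univ.val.map z).esymm k ∈ P := by
        rw [hN]
        refine P.mul_mem (P.pow_mem (P.neg_mem P.one_mem) _) (P.sum_mem fun a ha => ?_)
        have ha' := Finset.mem_filter.mp ha
        have ha1 : a.1 + a.2 = k := Finset.HasAntidiagonal.mem_antidiagonal.mp ha'.1
        have ha2 : a.1 < k := ha'.2
        rw [map_mul, map_mul, map_pow, map_neg, map_one,
          MvPolynomial.aeval_esymm_eq_multiset_esymm]
        refine P.mul_mem (P.mul_mem (P.pow_mem (P.neg_mem P.one_mem) _) (ih _ ha2)) ?_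
        rw [MvPolynomial.psum, map_sum]
        simp only [map_pow, MvPolynomial.aeval_X]
        exact h _ (by omega)
      have hk0 : ((k : ℕ) : ℚ) ≠ 0 := by exact_mod_cast hk.ne'
      have h2 := P.smul_mem hmem ((k : ℚ)⁻¹)
      have h3 : ((k : ℚ)⁻¹) • (((k : ℕ) : A) * (Finset.univ.val.map z).esymm k)
          = (Finset.univ.val.map z).esymm k := by
        rw [← smul_mul_assoc]
        have : ((k : ℚ)⁻¹) • ((k : ℕ) : A) = 1 := by
          rw [Algebra.smul_def, ← map_natCast (algebraMap ℚ A), ← map_mul, inv_mul_cancel₀ hk0,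
            map_one]
        rw [this, one_mul]
      rwa [h3] at h2

/-- **Vieta**: the product `∏ (X - z i)` in terms of the elementary symmetric functions. -/
theorem m16int_vieta {A : Type*} [CommRing A] {σ : Type*} [Fintype σ] (z : σ → A) :
    ∏ i, (X - C (z i)) = ∑ j ∈ Finset.range (Fintype.card σ + 1),
      (-1) ^ j * (C ((Finset.univ.val.map z).esymm j) * X ^ (Fintype.card σ - j)) := by
  have h := Multiset.prod_X_sub_X_eq_sum_esymm (Finset.univ.val.map z)
  rw [Multiset.map_map, Multiset.card_map] at h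
  have h2 : (Multiset.map ((fun t => X - C t) ∘ z) Finset.univ.val).prod
      = ∏ i, (X - C (z i)) := rfl
  rw [h2] at h
  rw [h]
  rfl

/-- every `z i₀` is a root of the Vieta polynomial. -/
theorem m16int_vieta_root {A : Type*} [CommRing A] {σ : Type*} [Fintype σ] (z : σ → A)
    (i₀ : σ) :
    ∑ j ∈ Finset.range (Fintype.card σ + 1),
      (-1) ^ j * ((Finset.univ.val.map z).esymm j * z i₀ ^ (Fintype.card σ - j)) = 0 := by
  have h := congrArg (Polynomial.eval (z i₀)) (m16int_vieta z)
  rw [Polynomial.eval_prod, Polynomial.eval_finsetSum] at h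
  have h0 : ∏ i, Polynomial.eval (z i₀) (X - C (z i)) = 0 := by
    apply Finset.prod_eq_zero (Finset.mem_univ i₀)
    simp
  rw [h0] at h
  rw [h]
  apply Finset.sum_congr rfl
  intro j _
  simp

/-- elementary symmetric functions of elements of a subring lie in the subring. -/
theorem m16int_esymm_mem_subring {A : Type*} [CommRing A] (R : Subring A) (s : Multiset A)
    (hs : ∀ a ∈ s, a ∈ R) (k : ℕ) : s.esymm k ∈ R := by
  unfold Multiset.esymm
  refine Subring.multiset_sum_mem _ _ fun c hc => ?_
  rw [Multiset.mem_map] at hc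
  obtain ⟨t, ht, rfl⟩ := hc
  refine Subring.multiset_prod_mem _ _ fun a ha => ?_
  exact hs a (Multiset.mem_of_le (Multiset.mem_powersetCard.mp ht).1 ha)

/-- the subalgebra of polynomials with coefficients in `P`. -/
def m16int_polyAlg {A : Type*} [CommRing A] [Algebra ℚ A] (P : Subalgebra ℚ A) :
    Subalgebra ℚ A[X] :=
  (Polynomial.mapAlgHom P.val).range

theorem m16int_polyAlg_coeff {A : Type*} [CommRing A] [Algebra ℚ A] (P : Subalgebra ℚ A)
    {f : A[X]} (hf : f ∈ m16int_polyAlg P) (n : ℕ) : f.coeff n ∈ P := by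
  obtain ⟨g, rfl⟩ := hf
  simp only [AlgHom.toRingHom_eq_coe, RingHom.coe_coe, Polynomial.coe_mapAlgHom,
    Polynomial.coeff_map]
  exact (g.coeff n).2

theorem m16int_polyAlg_C {A : Type*} [CommRing A] [Algebra ℚ A] (P : Subalgebra ℚ A)
    {a : A} (ha : a ∈ P) : C a ∈ m16int_polyAlg P :=
  ⟨C ⟨a, ha⟩, by simp⟩

theorem m16int_polyAlg_X {A : Type*} [CommRing A] [Algebra ℚ A] (P : Subalgebra ℚ A) :
    (X : A[X]) ∈ m16int_polyAlg P :=
  ⟨X, by simp⟩

/-- the coefficient of `ε` in `∏ (a i + ε b i)` when `a i₀ = 0`. -/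
theorem m16int_coeff_one_prod {A : Type*} [CommRing A] {σ : Type*} [Fintype σ] [DecidableEq σ]
    (a b : σ → A) (i₀ : σ) (h0 : a i₀ = 0) :
    (∏ i, (C (a i) + X * C (b i))).coeff 1 = b i₀ * ∏ i ∈ Finset.univ.erase i₀, a i := by
  rw [← Finset.mul_prod_erase Finset.univ _ (Finset.mem_univ i₀), h0, map_zero, zero_add,
    mul_assoc, Polynomial.coeff_X_mul, Polynomial.coeff_C_mul, Polynomial.coeff_zero_eq_eval_zero,
    Polynomial.eval_prod]
  congr 1
  apply Finset.prod_congr rfl
  intro i _
  simp

/-- **Lagrange interpolation through Newton**: if all mixed power sums `∑ x i ^ a * y i ^ b`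
lie in the `ℚ`-subalgebra `P`, there are `g j ∈ P`, `g 0 = 0`, with
`y i₀ * ∏_{i ≠ i₀} (x i₀ - x i) = ∑_j g j * x i₀ ^ (n - j)` for every node `i₀`. -/
theorem m16int_lagrange {A : Type*} [CommRing A] [Algebra ℚ A] {σ : Type*} [Fintype σ]
    [DecidableEq σ] (P : Subalgebra ℚ A) (x y : σ → A)
    (h : ∀ a b : ℕ, 1 ≤ a + b → ∑ i, x i ^ a * y i ^ b ∈ P) :
    ∃ g : ℕ → A, (∀ j, g j ∈ P) ∧ g 0 = 0 ∧
      (∀ R : Subring A, (∀ i, x i ∈ R) → (∀ i, y i ∈ R) → ∀ j, g j ∈ R) ∧ ∀ i₀ : σ,
      y i₀ * ∏ i ∈ Finset.univ.erase i₀, (x i₀ - x i) =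
        ∑ j ∈ Finset.range (Fintype.card σ + 1), g j * x i₀ ^ (Fintype.card σ - j) := by
  classical
  let z : σ → A[X] := fun i => C (x i) - X * C (y i)
  have hps : ∀ n : ℕ, 1 ≤ n → ∑ i, z i ^ n ∈ m16int_polyAlg P := by
    intro n hn
    have h1 : ∀ i, z i ^ n = ∑ m ∈ Finset.range (n + 1),
        C (x i ^ m * y i ^ (n - m)) * ((-X) ^ (n - m) * C ((n.choose m : ℕ) : A)) := by
      intro i
      have : z i = C (x i) + (-X) * C (y i) := by simp only [z]; ring
      rw [this, add_pow]
      apply Finset.sum_congr rfl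
      intro m _
      rw [mul_pow, map_mul, map_pow, map_pow, map_natCast]
      ring
    simp only [h1]
    rw [Finset.sum_comm]
    refine Subalgebra.sum_mem _ fun m hm => ?_
    rw [← Finset.sum_mul, ← map_sum]
    rw [Finset.mem_range] at hm
    refine Subalgebra.mul_mem _ (m16int_polyAlg_C P (h _ _ (by omega))) ?_
    refine Subalgebra.mul_mem _ (Subalgebra.pow_mem _ (Subalgebra.neg_mem _
      (m16int_polyAlg_X P)) _) ?_
    exact m16int_polyAlg_C P (natCast_mem P _)
  have hes := fun k => m16int_esymm_mem (m16int_polyAlg P) z hps k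
  refine ⟨fun j => (-1) ^ j * ((Finset.univ.val.map z).esymm j).coeff 1, fun j => ?_, ?_,
    fun R hx hy j => ?_, fun i₀ => ?_⟩
  · exact P.mul_mem (P.pow_mem (P.neg_mem P.one_mem) _) (m16int_polyAlg_coeff P (hes j) 1)
  · have h0 : (Finset.univ.val.map z).esymm 0 = 1 := by
      simp [Multiset.esymm, Multiset.powersetCard_zero_left]
    simp only [h0, pow_zero, one_mul]
    exact Polynomial.coeff_one
  · refine R.mul_mem (R.pow_mem (R.neg_mem R.one_mem) _) ?_
    have hz : ∀ a ∈ Finset.univ.val.map z, a ∈ (Polynomial.mapRingHom R.subtype).range := by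
      intro a ha
      rw [Multiset.mem_map] at ha
      obtain ⟨i, -, rfl⟩ := ha
      refine ⟨C ⟨x i, hx i⟩ - X * C ⟨y i, hy i⟩, ?_⟩
      simp [z]
    obtain ⟨f, hf⟩ := m16int_esymm_mem_subring _ _ hz j
    rw [← hf]
    simp only [Polynomial.coe_mapRingHom, Polynomial.coeff_map]
    exact (f.coeff 1).2
  · -- evaluate the Vieta identity at `T = C (x i₀)`
    have hV := congrArg (Polynomial.eval (C (x i₀))) (m16int_vieta z)
    rw [Polynomial.eval_prod, Polynomial.eval_finsetSum] at hV
    have hL : ∏ i, Polynomial.eval (C (x i₀)) (X - C (z i))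
        = ∏ i, (C (x i₀ - x i) + X * C (y i)) := by
      apply Finset.prod_congr rfl
      intro i _
      simp only [Polynomial.eval_sub, Polynomial.eval_X, Polynomial.eval_C, z, map_sub]
      ring
    rw [hL] at hV
    have hc := congrArg (fun f : A[X] => f.coeff 1) hV
    rw [m16int_coeff_one_prod (fun i => x i₀ - x i) y i₀ (sub_self _), Polynomial.finsetSum_coeff]
      at hc
    rw [hc]
    apply Finset.sum_congr rfl
    intro j _
    simp only [Polynomial.eval_mul, Polynomial.eval_pow, Polynomial.eval_neg, Polynomial.eval_one,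
      Polynomial.eval_C, Polynomial.eval_X]
    rw [← map_pow, mul_assoc, ← map_one C, ← map_neg C, ← map_pow C, Polynomial.coeff_C_mul,
      Polynomial.coeff_mul_C]

end Fermat.Agent.M16
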