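/-
M16 / INT block I1 (helper1): the Lagrange interpolation identity, in any commutative ring.

For finite families `x y : ι → A`, `Φ = ∏ (X - x c)`, `T b = ∑ c, y c * x c ^ b` and
`G = ∑ m, Φ_m ∑ i < m, X ^ i * T (m - 1 - i)`:
`G (x c0) = y c0 * ∏ c ≠ c0, (x c0 - x c)` for every `c0`.
-/
import Mathlib

set_option autoImplicit false

noncomputable section

namespace Fermat.Agent.M16

open Polynomial Finset

variable {A : Type*} [CommRing A] {ι : Type*} [Fintype ι] [DecidableEq ι]

/-- the polynomial `Φ = ∏ (X - x c)`. -/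
def m16intl_Phi (x : ι → A) : A[X] := ∏ c, (X - C (x c))

/-- the "traces" `T b = ∑ y_c x_c ^ b`. -/
def m16intl_T (x y : ι → A) (b : ℕ) : A := ∑ c, y c * x c ^ b

/-- the divided difference `(Φ(X) - Φ(b)) / (X - b)`. -/
def m16intl_Q (P : A[X]) (N : ℕ) (b : A) : A[X] :=
  ∑ m ∈ range N, C (P.coeff m) * ∑ i ∈ range m, X ^ i * C b ^ (m - 1 - i)

/-- the interpolation polynomial `G = ∑ m, Φ_m ∑ i < m, X ^ i T(m - 1 - i)`. -/
def m16intl_G (x y : ι → A) : A[X] :=
  ∑ m ∈ range (Fintype.card ι + 1), C ((m16intl_Phi x).coeff m)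
    * ∑ i ∈ range m, X ^ i * C (m16intl_T x y (m - 1 - i))

omit [DecidableEq ι] in
theorem m16intl_Phi_monic (x : ι → A) : (m16intl_Phi x).Monic :=
  monic_prod_of_monic _ _ fun c _ => monic_X_sub_C (x c)

omit [DecidableEq ι] in
theorem m16intl_Phi_natDegree_le (x : ι → A) : (m16intl_Phi x).natDegree ≤ Fintype.card ι := by
  unfold m16intl_Phi
  refine (natDegree_prod_le (Finset.univ : Finset ι) fun c => X - C (x c)).trans ?_
  have h1 : ∑ c : ι, (X - C (x c)).natDegree ≤ ∑ _c : ι, (1 : ℕ) :=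
    Finset.sum_le_sum fun c _ => natDegree_X_sub_C_le (x c)
  rwa [Finset.sum_const, Finset.card_univ, smul_eq_mul, mul_one] at h1

theorem m16intl_Q_mul (P : A[X]) (N : ℕ) (hN : P.natDegree < N) (b : A) :
    m16intl_Q P N b * (X - C b) = P - C (P.eval b) := by
  unfold m16intl_Q
  rw [Finset.sum_mul]
  have h1 : ∀ m ∈ range N, C (P.coeff m) * (∑ i ∈ range m, X ^ i * C b ^ (m - 1 - i)) * (X - C b)
      = C (P.coeff m) * X ^ m - C (P.coeff m * b ^ m) := by
    intro m _
    rw [mul_assoc, geom_sum₂_mul, mul_sub, C_mul, C_pow]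
  rw [Finset.sum_congr rfl h1, Finset.sum_sub_distrib, ← map_sum]
  congr 1
  · conv_rhs => rw [P.as_sum_range' N hN]
    exact Finset.sum_congr rfl fun m _ => by rw [C_mul_X_pow_eq_monomial]
  · rw [eval_eq_sum_range' hN]

theorem m16intl_Q_eq (x : ι → A) (c : ι) :
    m16intl_Q (m16intl_Phi x) (Fintype.card ι + 1) (x c)
      = ∏ c' ∈ univ.erase c, (X - C (x c')) := by
  have hroot : (m16intl_Phi x).eval (x c) = 0 := by
    unfold m16intl_Phi
    rw [eval_prod]
    exact Finset.prod_eq_zero (Finset.mem_univ c) (by simp)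
  have h1 := m16intl_Q_mul (m16intl_Phi x) (Fintype.card ι + 1)
    (Nat.lt_succ_of_le (m16intl_Phi_natDegree_le x)) (x c)
  rw [hroot, C_0, sub_zero] at h1
  have h2 : m16intl_Phi x = (∏ c' ∈ univ.erase c, (X - C (x c'))) * (X - C (x c)) := by
    unfold m16intl_Phi
    rw [Finset.prod_erase_mul _ _ (Finset.mem_univ c)]
  exact (monic_X_sub_C (x c)).isRegular.right (h1.trans h2)

theorem m16intl_eval_Q (P : A[X]) (N : ℕ) (a b : A) :
    (m16intl_Q P N b).eval a = ∑ m ∈ range N, P.coeff m * ∑ i ∈ range m, a ^ i * b ^ (m - 1 - i) := by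
  unfold m16intl_Q
  rw [eval_finsetSum]
  refine Finset.sum_congr rfl fun m _ => ?_
  rw [eval_mul, eval_C, eval_finsetSum]
  congr 1
  refine Finset.sum_congr rfl fun i _ => ?_
  rw [eval_mul, eval_pow, eval_pow, eval_X, eval_C]

omit [DecidableEq ι] in
theorem m16intl_eval_G (x y : ι → A) (a : A) :
    (m16intl_G x y).eval a = ∑ m ∈ range (Fintype.card ι + 1), (m16intl_Phi x).coeff m
      * ∑ i ∈ range m, a ^ i * m16intl_T x y (m - 1 - i) := by
  unfold m16intl_G
  rw [eval_finsetSum]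
  refine Finset.sum_congr rfl fun m _ => ?_
  rw [eval_mul, eval_C, eval_finsetSum]
  congr 1
  refine Finset.sum_congr rfl fun i _ => ?_
  rw [eval_mul, eval_pow, eval_X, eval_C]

/-- `G(a) = ∑_c y_c ∏_{c' ≠ c} (a - x_c')`. -/
theorem m16intl_eval_G_eq (x y : ι → A) (a : A) :
    (m16intl_G x y).eval a = ∑ c, y c * ∏ c' ∈ univ.erase c, (a - x c') := by
  have h : ∀ c, ∏ c' ∈ univ.erase c, (a - x c')
      = ∑ m ∈ range (Fintype.card ι + 1), (m16intl_Phi x).coeff m
          * ∑ i ∈ range m, a ^ i * x c ^ (m - 1 - i) := by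
    intro c
    rw [← m16intl_eval_Q, m16intl_Q_eq, eval_prod]
    exact Finset.prod_congr rfl fun c' _ => by simp
  rw [m16intl_eval_G]
  simp_rw [h, m16intl_T, Finset.mul_sum]
  rw [Finset.sum_comm]
  refine Finset.sum_congr rfl fun m _ => ?_
  rw [Finset.sum_comm]
  refine Finset.sum_congr rfl fun i _ => ?_
  refine Finset.sum_congr rfl fun c _ => ?_
  ring

/-- **Lagrange interpolation**, polynomial form. -/
theorem m16intl_eval_G_self (x y : ι → A) (c0 : ι) :
    (m16intl_G x y).eval (x c0) = y c0 * ∏ c ∈ univ.erase c0, (x c0 - x c) := by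
  rw [m16intl_eval_G_eq]
  refine Finset.sum_eq_single c0 (fun c _ hc => ?_) (fun h => absurd (Finset.mem_univ c0) h)
  rw [Finset.prod_eq_zero (Finset.mem_erase.mpr ⟨Ne.symm hc, Finset.mem_univ c0⟩) (sub_self _),
    mul_zero]

/-- **Lagrange interpolation** (block I1): for every `c0`,
`y c0 * ∏_{c ≠ c0} (x c0 - x c) = ∑_m Φ_m ∑_{i < m} x c0 ^ i * T (m - 1 - i)`. -/
theorem m16intl_lagrange (x y : ι → A) (c0 : ι) :
    y c0 * ∏ c ∈ Finset.univ.erase c0, (x c0 - x c)
      = ∑ m ∈ Finset.range (Fintype.card ι + 1),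
          (∏ c, (Polynomial.X - Polynomial.C (x c))).coeff m
            * ∑ i ∈ Finset.range m, x c0 ^ i * ∑ c, y c * x c ^ (m - 1 - i) := by
  rw [← m16intl_eval_G_self, m16intl_eval_G]
  rfl

omit [DecidableEq ι] in
/-- the coefficients of `G`. -/
theorem m16intl_G_coeff (x y : ι → A) (i : ℕ) :
    (m16intl_G x y).coeff i = ∑ m ∈ range (Fintype.card ι + 1),
      if i < m then (m16intl_Phi x).coeff m * m16intl_T x y (m - 1 - i) else 0 := by
  unfold m16intl_G
  rw [finsetSum_coeff]
  refine Finset.sum_congr rfl fun m _ => ?_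
  rw [coeff_C_mul, finsetSum_coeff]
  simp_rw [mul_comm (X ^ _ : A[X]) (C _), coeff_C_mul_X_pow]
  split_ifs with h
  · rw [Finset.sum_eq_single i]
    · simp
    · intro j _ hj
      rw [if_neg (Ne.symm hj)]
    · intro hi
      exact absurd (Finset.mem_range.mpr h) hi
  · rw [Finset.sum_eq_zero, mul_zero]
    intro j hj
    rw [if_neg]
    rintro rfl
    exact h (Finset.mem_range.mp hj)

omit [DecidableEq ι] in
/-- `deg G < card ι`. -/
theorem m16intl_G_coeff_eq_zero (x y : ι → A) {i : ℕ} (hi : Fintype.card ι ≤ i) :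
    (m16intl_G x y).coeff i = 0 := by
  rw [m16intl_G_coeff]
  refine Finset.sum_eq_zero fun m hm => ?_
  rw [if_neg]
  have := Finset.mem_range.mp hm
  omega

omit [DecidableEq ι] in
theorem m16intl_G_natDegree_le (x y : ι → A) : (m16intl_G x y).natDegree ≤ Fintype.card ι - 1 := by
  rw [natDegree_le_iff_coeff_eq_zero]
  intro i hi
  exact m16intl_G_coeff_eq_zero x y (by omega)

omit [DecidableEq ι] in
/-- coefficientwise membership: if the coefficients of `Φ` lie in a subring `S` and the traces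
in an additive subgroup `M` stable under multiplication by `S`, so do the coefficients of `G`. -/
theorem m16intl_G_coeff_mem (x y : ι → A) (S : Subring A) (M : AddSubgroup A)
    (hSM : ∀ s ∈ S, ∀ m ∈ M, s * m ∈ M)
    (hΦ : ∀ m, (m16intl_Phi x).coeff m ∈ S) (hT : ∀ b, b < Fintype.card ι → m16intl_T x y b ∈ M)
    (i : ℕ) : (m16intl_G x y).coeff i ∈ M := by
  rw [m16intl_G_coeff]
  refine AddSubgroup.sum_mem _ fun m hm => ?_
  split_ifs with h
  · refine hSM _ (hΦ m) _ (hT _ ?_)
    have := Finset.mem_range.mp hm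
    omega
  · exact M.zero_mem


/-! ### functoriality and invariance under permutations -/

section maps

variable {B : Type*} [CommRing B]

omit [DecidableEq ι] in
theorem m16intl_Phi_map (σ : A →+* B) (x : ι → A) :
    (m16intl_Phi x).map σ = m16intl_Phi fun c => σ (x c) := by
  unfold m16intl_Phi
  rw [Polynomial.map_prod]
  exact Finset.prod_congr rfl fun c _ => by rw [Polynomial.map_sub, map_X, map_C]

omit [DecidableEq ι] in
theorem m16intl_T_map (σ : A →+* B) (x y : ι → A) (b : ℕ) :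
    σ (m16intl_T x y b) = m16intl_T (fun c => σ (x c)) (fun c => σ (y c)) b := by
  unfold m16intl_T
  rw [map_sum]
  exact Finset.sum_congr rfl fun c _ => by rw [map_mul, map_pow]

omit [DecidableEq ι] in
theorem m16intl_G_map (σ : A →+* B) (x y : ι → A) :
    (m16intl_G x y).map σ = m16intl_G (fun c => σ (x c)) (fun c => σ (y c)) := by
  ext i
  rw [coeff_map, m16intl_G_coeff, m16intl_G_coeff, map_sum]
  refine Finset.sum_congr rfl fun m _ => ?_
  split_ifs
  · rw [map_mul, ← m16intl_Phi_map, coeff_map, m16intl_T_map]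
  · rw [map_zero]

omit [DecidableEq ι] in
theorem m16intl_Phi_perm (π : Equiv.Perm ι) (x : ι → A) :
    m16intl_Phi (fun c => x (π c)) = m16intl_Phi x := by
  unfold m16intl_Phi
  exact Equiv.prod_comp π fun c => X - C (x c)

omit [DecidableEq ι] in
theorem m16intl_T_perm (π : Equiv.Perm ι) (x y : ι → A) (b : ℕ) :
    m16intl_T (fun c => x (π c)) (fun c => y (π c)) b = m16intl_T x y b := by
  unfold m16intl_T
  exact Equiv.sum_comp π fun c => y c * x c ^ b

omit [DecidableEq ι] in
theorem m16intl_G_perm (π : Equiv.Perm ι) (x y : ι → A) :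
    m16intl_G (fun c => x (π c)) (fun c => y (π c)) = m16intl_G x y := by
  ext i
  rw [m16intl_G_coeff, m16intl_G_coeff]
  refine Finset.sum_congr rfl fun m _ => ?_
  rw [m16intl_Phi_perm, m16intl_T_perm]

omit [DecidableEq ι] in
/-- a ring endomorphism permuting the pairs `(x c, y c)` fixes the coefficients of `Φ`. -/
theorem m16intl_Phi_coeff_fixed (σ : A →+* A) (π : Equiv.Perm ι) (x : ι → A)
    (hx : ∀ c, σ (x c) = x (π c)) (i : ℕ) :
    σ ((m16intl_Phi x).coeff i) = (m16intl_Phi x).coeff i := by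
  rw [← coeff_map, m16intl_Phi_map, funext hx, m16intl_Phi_perm]

omit [DecidableEq ι] in
/-- a ring endomorphism permuting the pairs `(x c, y c)` fixes the traces. -/
theorem m16intl_T_fixed (σ : A →+* A) (π : Equiv.Perm ι) (x y : ι → A)
    (hx : ∀ c, σ (x c) = x (π c)) (hy : ∀ c, σ (y c) = y (π c)) (b : ℕ) :
    σ (m16intl_T x y b) = m16intl_T x y b := by
  rw [m16intl_T_map, funext hx, funext hy, m16intl_T_perm]

omit [DecidableEq ι] in
/-- a ring endomorphism permuting the pairs `(x c, y c)` fixes the coefficients of `G`. -/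
theorem m16intl_G_coeff_fixed (σ : A →+* A) (π : Equiv.Perm ι) (x y : ι → A)
    (hx : ∀ c, σ (x c) = x (π c)) (hy : ∀ c, σ (y c) = y (π c)) (i : ℕ) :
    σ ((m16intl_G x y).coeff i) = (m16intl_G x y).coeff i := by
  rw [← coeff_map, m16intl_G_map, funext hx, funext hy, m16intl_G_perm]

/-- **Lagrange interpolation** transported along a ring homomorphism `E` (e.g. an expansion
map): `E (y c0) * ∏_{c ≠ c0} (E (x c0) - E (x c)) = ∑_i E (G_i) * E (x c0) ^ i`. -/
theorem m16intl_lagrange_map (E : A →+* B) (x y : ι → A) (c0 : ι) :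
    E (y c0) * ∏ c ∈ univ.erase c0, (E (x c0) - E (x c))
      = ∑ i ∈ range (Fintype.card ι), E ((m16intl_G x y).coeff i) * E (x c0) ^ i := by
  have h := m16intl_eval_G_self (fun c => E (x c)) (fun c => E (y c)) c0
  rw [← h, ← m16intl_G_map, eval_eq_sum_range' (n := Fintype.card ι)]
  · exact Finset.sum_congr rfl fun i _ => by rw [coeff_map]
  · refine lt_of_le_of_lt (natDegree_map_le) ?_
    rcases Nat.eq_zero_or_pos (Fintype.card ι) with h0 | h0
    · exact absurd (Fintype.card_pos_iff.mpr ⟨c0⟩) (by omega)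
    · exact lt_of_le_of_lt (m16intl_G_natDegree_le x y) (by omega)

end maps

end Fermat.Agent.M16

end
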