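/-
M16 (S16 project), package NRM, part 4 (pure algebra):

* `m16nrm_O ℓ`  : the subring of `ℂ` of `ℓ`-integral algebraic numbers
                  (`x` such that `b x` is an algebraic integer for some integer `b` prime to `ℓ`);
* `m16nrm_J ℓ`  : the additive subgroup `ℓ · m16nrm_O ℓ`;
* `m16nrm_dvd_of_mem_J` : a rational number `a / b` (`ℓ ∤ b`) lying in `m16nrm_J ℓ` has `ℓ ∣ a`;
* `m16nrm_mul_low`, `m16nrm_prod_low` : lowest terms modulo `J` of products of power series.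
-/
import Mathlib
import Fermat.Agent.M16.NrmDefs

set_option autoImplicit false

noncomputable section

namespace Fermat.Agent.M16

open PowerSeries

/-- the ring of `ℓ`-integral algebraic numbers -/
def m16nrm_O (ℓ : ℕ) [Fact ℓ.Prime] : Subring ℂ where
  carrier := {x | ∃ b : ℕ, ¬ ℓ ∣ b ∧ IsIntegral ℤ ((b : ℂ) * x)}
  mul_mem' := by
    rintro x y ⟨b, hb, hx⟩ ⟨b', hb', hy⟩
    refine ⟨b * b', fun h => ?_, ?_⟩
    · rcases ((Fact.out : ℓ.Prime).dvd_mul).mp h with h | h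
      · exact hb h
      · exact hb' h
    · have : ((b * b' : ℕ) : ℂ) * (x * y) = ((b : ℂ) * x) * ((b' : ℂ) * y) := by
        push_cast; ring
      rw [this]
      exact hx.mul hy
  one_mem' := ⟨1, fun h => (Fact.out : ℓ.Prime).one_lt.ne' (Nat.dvd_one.mp h), by
    simpa using isIntegral_one⟩
  add_mem' := by
    rintro x y ⟨b, hb, hx⟩ ⟨b', hb', hy⟩
    refine ⟨b * b', fun h => ?_, ?_⟩
    · rcases ((Fact.out : ℓ.Prime).dvd_mul).mp h with h | h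
      · exact hb h
      · exact hb' h
    · have : ((b * b' : ℕ) : ℂ) * (x + y) =
          (algebraMap ℤ ℂ b') * ((b : ℂ) * x) + (algebraMap ℤ ℂ b) * ((b' : ℂ) * y) := by
        simp only [algebraMap_int_eq, eq_intCast, Int.cast_natCast]
        push_cast; ring
      rw [this]
      exact (isIntegral_algebraMap.mul hx).add (isIntegral_algebraMap.mul hy)
  zero_mem' := ⟨1, fun h => (Fact.out : ℓ.Prime).one_lt.ne' (Nat.dvd_one.mp h), by
    simpa using isIntegral_zero⟩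
  neg_mem' := by
    rintro x ⟨b, hb, hx⟩
    refine ⟨b, hb, ?_⟩
    rw [mul_neg]
    exact hx.neg

theorem m16nrm_mem_O {ℓ : ℕ} [Fact ℓ.Prime] {x : ℂ} :
    x ∈ m16nrm_O ℓ ↔ ∃ b : ℕ, ¬ ℓ ∣ b ∧ IsIntegral ℤ ((b : ℂ) * x) := Iff.rfl

/-- the additive subgroup `ℓ · O` -/
def m16nrm_J (ℓ : ℕ) [Fact ℓ.Prime] : AddSubgroup ℂ where
  carrier := {x | ∃ y ∈ m16nrm_O ℓ, x = (ℓ : ℂ) * y}
  add_mem' := by
    rintro x x' ⟨y, hy, rfl⟩ ⟨y', hy', rfl⟩
    exact ⟨y + y', (m16nrm_O ℓ).add_mem hy hy', by ring⟩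
  zero_mem' := ⟨0, (m16nrm_O ℓ).zero_mem, by simp⟩
  neg_mem' := by
    rintro x ⟨y, hy, rfl⟩
    exact ⟨-y, (m16nrm_O ℓ).neg_mem hy, by ring⟩

theorem m16nrm_mem_J {ℓ : ℕ} [Fact ℓ.Prime] {x : ℂ} :
    x ∈ m16nrm_J ℓ ↔ ∃ y ∈ m16nrm_O ℓ, x = (ℓ : ℂ) * y := Iff.rfl

theorem m16nrm_J_mul {ℓ : ℕ} [Fact ℓ.Prime] {x y : ℂ} (hx : x ∈ m16nrm_J ℓ)
    (hy : y ∈ m16nrm_O ℓ) : x * y ∈ m16nrm_J ℓ := by
  obtain ⟨t, ht, rfl⟩ := hx
  exact ⟨t * y, (m16nrm_O ℓ).mul_mem ht hy, by ring⟩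

theorem m16nrm_mul_J {ℓ : ℕ} [Fact ℓ.Prime] {x y : ℂ} (hx : x ∈ m16nrm_O ℓ)
    (hy : y ∈ m16nrm_J ℓ) : x * y ∈ m16nrm_J ℓ := by
  rw [mul_comm]; exact m16nrm_J_mul hy hx

theorem m16nrm_lint_mem_O {ℓ : ℕ} [Fact ℓ.Prime] {x : ℂ} (hx : m16nrm_IsLInt ℓ x) :
    x ∈ m16nrm_O ℓ := by
  obtain ⟨a, b, hb, h⟩ := hx
  refine ⟨b, hb, ?_⟩
  rw [mul_comm, h]
  exact isIntegral_algebraMap (R := ℤ) (A := ℂ) (x := a)

theorem m16nrm_ldiv_mem_J {ℓ : ℕ} [Fact ℓ.Prime] {x : ℂ} (hx : m16nrm_IsLDiv ℓ 1 x) :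
    x ∈ m16nrm_J ℓ := by
  obtain ⟨a, b, hb, h⟩ := hx
  have hb0 : (b : ℂ) ≠ 0 := by
    intro h0
    apply hb
    have : b = 0 := by exact_mod_cast h0
    rw [this]; exact dvd_zero _
  refine ⟨(a : ℂ) / b, ⟨b, hb, ?_⟩, ?_⟩
  · rw [mul_div_cancel₀ _ hb0]
    exact isIntegral_algebraMap (R := ℤ) (A := ℂ) (x := a)
  · rw [pow_one] at h
    field_simp
    linear_combination h

/-- a rational number `a / b` with `ℓ ∤ b` which lies in `ℓ O` has `ℓ ∣ a` -/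
theorem m16nrm_dvd_of_mem_J {ℓ : ℕ} [Fact ℓ.Prime] {x : ℂ} (hx : x ∈ m16nrm_J ℓ)
    (a : ℤ) (b : ℕ) (h : x * (b : ℂ) = (a : ℂ)) : (ℓ : ℤ) ∣ a := by
  have hℓ : ℓ.Prime := Fact.out
  obtain ⟨y, ⟨b', hb', hint⟩, rfl⟩ := hx
  have hℓ0 : (ℓ : ℂ) ≠ 0 := by exact_mod_cast hℓ.ne_zero
  by_cases hb0 : b = 0
  · subst hb0
    have : (a : ℂ) = 0 := by rw [← h]; simp
    have : a = 0 := by exact_mod_cast this
    rw [this]; exact dvd_zero _
  have hbC : (b : ℂ) ≠ 0 := by exact_mod_cast hb0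
  -- `t = b' y` is integral and rational
  have ht : (b' : ℂ) * y = algebraMap ℚ ℂ (((b' : ℤ) * a : ℤ) / ((ℓ * b : ℕ) : ℚ)) := by
    simp only [eq_ratCast]
    push_cast
    field_simp
    linear_combination (b' : ℂ) * h
  rw [ht] at hint
  have h2 : IsIntegral ℤ ((((b' : ℤ) * a : ℤ) : ℚ) / ((ℓ * b : ℕ) : ℚ)) :=
    (isIntegral_algebraMap_iff (algebraMap ℚ ℂ).injective).mp hint
  obtain ⟨m, hm⟩ := IsIntegrallyClosed.isIntegral_iff.mp h2
  have hlb : ((ℓ * b : ℕ) : ℚ) ≠ 0 := by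
    exact_mod_cast Nat.mul_ne_zero hℓ.ne_zero hb0
  have h3 : ((m * (ℓ * b : ℕ) : ℤ) : ℚ) = (((b' : ℤ) * a : ℤ) : ℚ) := by
    rw [eq_div_iff hlb] at hm
    simp only [algebraMap_int_eq, eq_intCast] at hm
    push_cast at hm ⊢
    exact hm
  have h4 : m * ((ℓ * b : ℕ) : ℤ) = (b' : ℤ) * a := by exact_mod_cast h3
  have h5 : (ℓ : ℤ) ∣ (b' : ℤ) * a := ⟨m * b, by rw [← h4]; push_cast; ring⟩
  rcases (Int.prime_iff_natAbs_prime.mpr (by simpa using hℓ)).dvd_or_dvd h5 with h6 | h6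
  · exact absurd (by exact_mod_cast h6) hb'
  · exact h6

theorem m16nrm_zeta_mem_O {ℓ : ℕ} [Fact ℓ.Prime] {ζ : ℂ} {n : ℕ} (hn : 0 < n) (h : ζ ^ n = 1) :
    ζ ∈ m16nrm_O ℓ := by
  refine ⟨1, fun h1 => (Fact.out : ℓ.Prime).one_lt.ne' (Nat.dvd_one.mp h1), ?_⟩
  rw [Nat.cast_one, one_mul]
  exact IsIntegral.of_pow hn (by rw [h]; exact isIntegral_one)

end Fermat.Agent.M16

namespace Fermat.Agent.M16

open PowerSeries

section low

variable (O : Subring ℂ) (J : AddSubgroup ℂ)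

/-- lowest terms modulo `J` of a product of two power series -/
theorem m16nrm_mul_low (hJ : ∀ x ∈ J, ∀ y ∈ O, x * y ∈ J)
    (φ ψ : PowerSeries ℂ) (a b : ℕ)
    (hφ : ∀ n, coeff n φ ∈ O) (hψ : ∀ n, coeff n ψ ∈ O)
    (hφl : ∀ n < a, coeff n φ ∈ J) (hψl : ∀ n < b, coeff n ψ ∈ J) :
    (∀ n < a + b, coeff n (φ * ψ) ∈ J) ∧
      coeff (a + b) (φ * ψ) - coeff a φ * coeff b ψ ∈ J := by
  have key : ∀ n, ∀ x ∈ Finset.HasAntidiagonal.antidiagonal n, x ≠ (a, b) → n ≤ a + b →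
      coeff x.1 φ * coeff x.2 ψ ∈ J := by
    intro n x hx hne hn
    have hsum : x.1 + x.2 = n := Finset.HasAntidiagonal.mem_antidiagonal.mp hx
    by_cases h1 : x.1 < a
    · exact hJ _ (hφl _ h1) _ (hψ _)
    · have h2 : x.2 < b := by
        by_contra h2
        rw [not_lt] at h1 h2
        apply hne
        have : x.1 = a ∧ x.2 = b := by omega
        exact Prod.ext this.1 this.2
      rw [mul_comm]
      exact hJ _ (hψl _ h2) _ (hφ _)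
  constructor
  · intro n hn
    rw [coeff_mul]
    refine AddSubgroup.sum_mem _ fun x hx => key n x hx ?_ hn.le
    intro h
    rw [h] at hx
    have := Finset.HasAntidiagonal.mem_antidiagonal.mp hx
    simp at this
    omega
  · rw [coeff_mul]
    have hmem : (a, b) ∈ Finset.HasAntidiagonal.antidiagonal (a + b) :=
      Finset.HasAntidiagonal.mem_antidiagonal.mpr rfl
    rw [← Finset.add_sum_erase _ _ hmem, add_sub_cancel_left]
    refine AddSubgroup.sum_mem _ fun x hx => ?_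
    exact key (a + b) x (Finset.mem_of_mem_erase hx) (Finset.ne_of_mem_erase hx) le_rfl

theorem m16nrm_mul_mem_O (φ ψ : PowerSeries ℂ) (hφ : ∀ n, coeff n φ ∈ O)
    (hψ : ∀ n, coeff n ψ ∈ O) (n : ℕ) : coeff n (φ * ψ) ∈ O := by
  rw [coeff_mul]
  exact Subring.sum_mem _ fun x _ => O.mul_mem (hφ _) (hψ _)

/-- lowest terms modulo `J` of a finite product of power series -/
theorem m16nrm_prod_low (hJ : ∀ x ∈ J, ∀ y ∈ O, x * y ∈ J) {ι : Type*} (s : Finset ι)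
    (φ : ι → PowerSeries ℂ) (a : ι → ℕ)
    (hφ : ∀ i ∈ s, ∀ n, coeff n (φ i) ∈ O) (hl : ∀ i ∈ s, ∀ n < a i, coeff n (φ i) ∈ J) :
    (∀ n, coeff n (∏ i ∈ s, φ i) ∈ O) ∧
      (∀ n < ∑ i ∈ s, a i, coeff n (∏ i ∈ s, φ i) ∈ J) ∧
      coeff (∑ i ∈ s, a i) (∏ i ∈ s, φ i) - ∏ i ∈ s, coeff (a i) (φ i) ∈ J := by
  classical
  induction s using Finset.induction_on with
  | empty =>
    refine ⟨fun n => ?_, fun n hn => ?_, ?_⟩
    · rw [Finset.prod_empty, coeff_one]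
      split_ifs
      · exact O.one_mem
      · exact O.zero_mem
    · simp at hn
    · simp
  | insert i s hi ih =>
    obtain ⟨ih1, ih2, ih3⟩ := ih (fun j hj => hφ j (Finset.mem_insert_of_mem hj))
      (fun j hj => hl j (Finset.mem_insert_of_mem hj))
    have hφi := hφ i (Finset.mem_insert_self i s)
    have hli := hl i (Finset.mem_insert_self i s)
    obtain ⟨m1, m2⟩ := m16nrm_mul_low O J hJ (φ i) (∏ j ∈ s, φ j) (a i) (∑ j ∈ s, a j)
      hφi ih1 hli ih2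
    rw [Finset.prod_insert hi, Finset.sum_insert hi, Finset.prod_insert hi]
    refine ⟨m16nrm_mul_mem_O O _ _ hφi ih1, m1, ?_⟩
    have h3 : coeff (a i) (φ i) * (coeff (∑ j ∈ s, a j) (∏ j ∈ s, φ j) -
        ∏ j ∈ s, coeff (a j) (φ j)) ∈ J := by
      rw [mul_comm]
      exact hJ _ ih3 _ (hφi _)
    have := J.add_mem m2 h3
    convert this using 1
    ring

end low

end Fermat.Agent.M16
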