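/-
M16 (S16 project), package INT, block I7 (helper4): BOUNDED DENOMINATORS, the assembly.

For `ψ` good over `ℚ` (invariant under `Γ₀(p)`, rational expansions at both cusps) and a prime
`ℓ ≠ p` there is `e` with `ℓ ^ e • (expansion of ψ at ∞ and at 0)` `ℓ`-integral.

Proof: Lagrange interpolation (helper1's `m16intl_eval_G_self`) for the conjugates
`X_c = ana_qexp (x_c)`, `Y_c = ana_qexp (ψ_c)` (`x = J(pτ)`):
`Y_c0 * U_c0 = ∑ G_i X_c0 ^ i`, `U_c0 = ∏_{c ≠ c0} (X_c0 - X_c)`.  The coefficients of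
`Φ = ∏ (X - X_c)` are Laurent series over `O` (the `ℓ`-integral algebraic numbers), the traces
`T_b = ∑ Y_c X_c ^ b = ana_qexp (tr (ψ x ^ b))` have bounded denominators (`hT`, from the level-one
principle), and `U_c0` can be cancelled over `O` (`hU`, its lowest coefficient is a unit).
-/
import Mathlib
import Fermat.Agent.M16.H1Sym
import Fermat.Agent.M16.H1yGood
import Fermat.Agent.M16.H1Rat
import Fermat.Agent.M16.IntLag
import Fermat.Agent.M16.IntNewton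
import Fermat.Agent.M16.NrmAlg
import Fermat.Agent.M16.LbDefs

set_option autoImplicit false
set_option linter.unusedSectionVars false

noncomputable section

namespace Fermat.Agent.M16

open UpperHalfPlane hiding I
open Filter Function Topology ModularForm Complex ModularCurve
open scoped Manifold MatrixGroups ModularForm Real CongruenceSubgroup
open CongruenceSubgroup
open Fermat.Agent.S23 Fermat.Agent.S24 Fermat.Agent.M28

/-! ### `O ∩ ℚ = ℤ_(ℓ)` -/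

/-- a rational number in `O` is `ℓ`-integral -/
theorem m16intb_lint_of_O {ℓ : ℕ} [Fact ℓ.Prime] {x : ℂ} (hx : x ∈ m16nrm_O ℓ) (r : ℚ)
    (hr : x = (r : ℂ)) : m16lb_IsLInt ℓ x := by
  have hℓ : ℓ.Prime := Fact.out
  refine ⟨r, fun hd => ?_, hr⟩
  obtain ⟨d', hd'⟩ := hd
  -- `num = ℓ * (x * d')`
  have hden : ((r.den : ℕ) : ℂ) ≠ 0 := by exact_mod_cast r.den_nz
  have h1 : ((r.num : ℤ) : ℂ) = (ℓ : ℂ) * (x * (d' : ℂ)) := by
    have h2 : (r : ℂ) * ((r.den : ℕ) : ℂ) = ((r.num : ℤ) : ℂ) := by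
      have := Rat.mul_den_eq_num r
      exact_mod_cast congrArg (fun q : ℚ => (q : ℂ)) this
    rw [← h2, hr, hd']
    push_cast
    ring
  have hJ : ((r.num : ℤ) : ℂ) ∈ m16nrm_J ℓ :=
    ⟨x * (d' : ℂ), (m16nrm_O ℓ).mul_mem hx (natCast_mem _ d'), h1⟩
  have h3 : (ℓ : ℤ) ∣ r.num := m16nrm_dvd_of_mem_J hJ r.num 1 (by simp)
  have h4 : ℓ ∣ r.num.natAbs := Int.natCast_dvd.mp h3
  have h5 : ℓ ∣ r.den := ⟨d', hd'⟩
  have h6 := Nat.dvd_gcd h4 h5
  rw [r.reduced] at h6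
  exact hℓ.one_lt.ne' (Nat.dvd_one.mp h6)

variable (p ℓ : ℕ) [Fact p.Prime] [Fact ℓ.Prime]

/-! ### the conjugates over `O` -/

theorem m16intb_zeta_zpow_mem (n : ℤ) : ((atw_zeta p ^ n : ℂˣ) : ℂ) ∈ m16nrm_O ℓ := by
  have hp0 : 0 < p := (Fact.out : p.Prime).pos
  refine m16nrm_zeta_mem_O hp0 ?_
  rw [← Units.val_pow_eq_pow_val, ← zpow_natCast, ← zpow_mul, mul_comm, zpow_mul,
    zpow_natCast, (atw_zeta_isPrimitiveRoot p).pow_eq_one, one_zpow, Units.val_one]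

/-- the expansions of the conjugates of a function good over `O` are over `O` -/
theorem m16intb_qexp_cj_mem {ψ : ana_ring p} (hψ : m16h1_Good p (m16nrm_O ℓ) ψ)
    (c : Option (ZMod p)) : ana_qexp p (m16h1_cj p ψ c) ∈ m16h1_LR (m16nrm_O ℓ) := by
  cases c with
  | none => exact hψ.exp_inf
  | some k =>
    rw [m16h1_cj_some, m16h1_qexp_cjZ, m16h1_mem_LR_iff]
    intro n
    rw [cf_twist_coeff, ← zpow_mul]
    exact (m16nrm_O ℓ).mul_mem (m16intb_zeta_zpow_mem p ℓ _)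
      ((m16h1_mem_LR_iff _ _).mp hψ.exp_zero n)

/-- the expansions of the conjugates of `x = J(pτ)` -/
def m16intb_Xc (c : Option (ZMod p)) : LaurentSeries ℂ :=
  ana_qexp p (m16h1_cj p (m28pa_x p) c)

/-- `U_c0 = ∏_{c ≠ c0} (X_c0 - X_c)` -/
def m16intb_U (c0 : Option (ZMod p)) : LaurentSeries ℂ :=
  ∏ c ∈ Finset.univ.erase c0, (m16intb_Xc p c0 - m16intb_Xc p c)

theorem m16intb_Xc_mem (c : Option (ZMod p)) : m16intb_Xc p c ∈ m16h1_LR (m16nrm_O ℓ) :=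
  m16intb_qexp_cj_mem p ℓ (m16h1y_good_x p (m16nrm_O ℓ)) c

theorem m16intb_U_mem (c0 : Option (ZMod p)) : m16intb_U p c0 ∈ m16h1_LR (m16nrm_O ℓ) :=
  Subring.prod_mem _ fun c _ => Subring.sub_mem _ (m16intb_Xc_mem p ℓ c0) (m16intb_Xc_mem p ℓ c)

/-- the coefficients of `∏ (X - a_c)`, `a_c` in a subring -/
theorem m16intb_Phi_coeff_mem {B : Type*} [CommRing B] {ι : Type*} [Fintype ι] (T : Subring B)
    (a : ι → B) (ha : ∀ c, a c ∈ T) (i : ℕ) : (m16intl_Phi a).coeff i ∈ T := by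
  have h : m16intl_Phi a = (m16intl_Phi (fun c => (⟨a c, ha c⟩ : T))).map T.subtype := by
    rw [m16intl_Phi_map]
    rfl
  rw [h, Polynomial.coeff_map]
  exact Subtype.property _

/-! ### Laurent series with bounded denominators -/

/-- `ℓ ^ (-e) · LR(O)` -/
def m16intb_M (e : ℕ) : AddSubgroup (LaurentSeries ℂ) where
  carrier := {z | HahnSeries.C ((ℓ : ℂ) ^ e) * z ∈ m16h1_LR (m16nrm_O ℓ)}
  add_mem' := by
    intro a b ha hb
    show HahnSeries.C ((ℓ : ℂ) ^ e) * (a + b) ∈ m16h1_LR (m16nrm_O ℓ)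
    rw [mul_add]
    exact Subring.add_mem _ ha hb
  zero_mem' := by
    show HahnSeries.C ((ℓ : ℂ) ^ e) * 0 ∈ m16h1_LR (m16nrm_O ℓ)
    rw [mul_zero]
    exact Subring.zero_mem _
  neg_mem' := by
    intro a ha
    show HahnSeries.C ((ℓ : ℂ) ^ e) * (-a) ∈ m16h1_LR (m16nrm_O ℓ)
    rw [mul_neg]
    exact Subring.neg_mem _ ha

theorem m16intb_mem_M (e : ℕ) (z : LaurentSeries ℂ) :
    z ∈ m16intb_M ℓ e ↔ HahnSeries.C ((ℓ : ℂ) ^ e) * z ∈ m16h1_LR (m16nrm_O ℓ) := Iff.rfl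

theorem m16intb_mem_M_iff (e : ℕ) (z : LaurentSeries ℂ) :
    z ∈ m16intb_M ℓ e ↔ ∀ n, (ℓ : ℂ) ^ e * z.coeff n ∈ m16nrm_O ℓ := by
  rw [m16intb_mem_M, m16h1_mem_LR_iff]
  refine forall_congr' fun n => ?_
  rw [HahnSeries.C_mul_eq_smul, HahnSeries.coeff_smul, smul_eq_mul]

theorem m16intb_mul_mem_M (e : ℕ) {s m : LaurentSeries ℂ} (hs : s ∈ m16h1_LR (m16nrm_O ℓ))
    (hm : m ∈ m16intb_M ℓ e) : s * m ∈ m16intb_M ℓ e := by
  rw [m16intb_mem_M] at hm ⊢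
  rw [mul_left_comm]
  exact Subring.mul_mem _ hs hm

/-! ### the assembly -/

/-- the traces `T_b` of the Lagrange interpolation are the expansions of `tr (ψ x ^ b)` -/
theorem m16intb_T_eq (ψ : ana_ring p) (b : ℕ) :
    m16intl_T (m16intb_Xc p) (fun c => ana_qexp p (m16h1_cj p ψ c)) b
      = ana_qexp p (m16h1_tr p (ψ * m28pa_x p ^ b)) := by
  unfold m16intl_T m16h1_tr m16intb_Xc
  rw [map_sum]
  refine Finset.sum_congr rfl fun c _ => ?_
  rw [m16intn_cj_mul, m16intn_cj_pow, map_mul, map_pow]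

/-- **bounded denominators for the conjugate `c0`**, conditional on the cancellation of `U_c0`
and on the bounded denominators of the traces. -/
theorem m16intb_conj (ψ : ana_ring p) (c0 : Option (ZMod p)) (e : ℕ)
    (hU : ∀ z y : LaurentSeries ℂ, z * m16intb_U p c0 = y → y ∈ m16h1_LR (m16nrm_O ℓ) →
      z ∈ m16h1_LR (m16nrm_O ℓ))
    (hT : ∀ b ≤ p, ∀ n : ℤ,
      (ℓ : ℂ) ^ e * (ana_qexp p (m16h1_tr p (ψ * m28pa_x p ^ b))).coeff n ∈ m16nrm_O ℓ) :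
    ∀ n : ℤ, (ℓ : ℂ) ^ e * (ana_qexp p (m16h1_cj p ψ c0)).coeff n ∈ m16nrm_O ℓ := by
  classical
  set X : Option (ZMod p) → LaurentSeries ℂ := m16intb_Xc p with hX
  set Y : Option (ZMod p) → LaurentSeries ℂ := fun c => ana_qexp p (m16h1_cj p ψ c) with hY
  have hcard : Fintype.card (Option (ZMod p)) = p + 1 := by
    rw [Fintype.card_option, ZMod.card]
  -- the coefficients of `G` have bounded denominators
  have hG : ∀ i, (m16intl_G X Y).coeff i ∈ m16intb_M ℓ e := by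
    refine m16intl_G_coeff_mem X Y (m16h1_LR (m16nrm_O ℓ)) (m16intb_M ℓ e)
      (fun s hs m hm => m16intb_mul_mem_M ℓ e hs hm)
      (fun m => m16intb_Phi_coeff_mem _ X (fun c => m16intb_Xc_mem p ℓ c) m) ?_
    intro b hb
    rw [hcard] at hb
    rw [hX, hY, m16intb_T_eq, m16intb_mem_M_iff]
    exact hT b (by omega)
  -- Lagrange
  have hL := m16intl_eval_G_self X Y c0
  have hmem : (m16intl_G X Y).eval (X c0) ∈ m16intb_M ℓ e := by
    rw [Polynomial.eval_eq_sum_range]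
    refine AddSubgroup.sum_mem _ fun i _ => ?_
    rw [mul_comm]
    exact m16intb_mul_mem_M ℓ e (Subring.pow_mem _ (m16intb_Xc_mem p ℓ c0) i) (hG i)
  rw [hL, m16intb_mem_M, ← mul_assoc] at hmem
  have h1 := hU _ _ rfl hmem
  exact (m16intb_mem_M_iff ℓ e _).mp h1

/-- **(BD) bounded denominators**, conditional on the cancellation of `U_∞`, `U_0` and on the
bounded denominators of the traces. -/
theorem m16intb_core (ψ : ana_ring p) (hψ : m16h1_Good p m16h1_Q.toSubring ψ)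
    (hU : ∀ z y : LaurentSeries ℂ, z * m16intb_U p none = y →
      y ∈ m16h1_LR (m16nrm_O ℓ) → z ∈ m16h1_LR (m16nrm_O ℓ))
    (hU0 : ∀ z y : LaurentSeries ℂ, z * m16intb_U p (some 0) = y →
      y ∈ m16h1_LR (m16nrm_O ℓ) → z ∈ m16h1_LR (m16nrm_O ℓ))
    (hT : ∃ e : ℕ, ∀ b ≤ p, ∀ n : ℤ,
      (ℓ : ℂ) ^ e * (ana_qexp p (m16h1_tr p (ψ * m28pa_x p ^ b))).coeff n ∈ m16nrm_O ℓ) :
    ∃ e : ℕ, (∀ n : ℤ, m16lb_IsLInt ℓ ((ℓ : ℂ) ^ e * (ana_qexp p ψ).coeff n)) ∧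
      (∀ n : ℤ, m16lb_IsLInt ℓ
        ((ℓ : ℂ) ^ e * (ana_qexp p (ana_comp p ModularGroup.S ψ)).coeff n)) := by
  obtain ⟨e, hT⟩ := hT
  refine ⟨e, fun n => ?_, fun n => ?_⟩
  · have h := m16intb_conj p ℓ ψ none e hU hT n
    rw [m16h1_cj_none] at h
    obtain ⟨r, hr⟩ := (m16h1_mem_Q_iff _).mp ((m16h1_mem_LR_iff _ _).mp hψ.exp_inf n)
    refine m16intb_lint_of_O h ((ℓ : ℚ) ^ e * r) ?_
    rw [hr]
    push_cast
    ring
  · have h := m16intb_conj p ℓ ψ (some 0) e hU0 hT n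
    rw [m16h1_cj_zero] at h
    obtain ⟨r, hr⟩ := (m16h1_mem_Q_iff _).mp ((m16h1_mem_LR_iff _ _).mp hψ.exp_zero n)
    refine m16intb_lint_of_O h ((ℓ : ℚ) ^ e * r) ?_
    rw [hr]
    push_cast
    ring

end Fermat.Agent.M16

end
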