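/-
M16 / INT block B3 (helper1): bounded `ℓ`-denominators of the traces `tr(ψ x^b)`.

For `ψ` good over `ℚ` and `x = J(pτ)`: `tr(ψ x^b)` is `SL(2,ℤ)`-invariant with rational
expansion, hence `= P_b(J)` with `P_b ∈ ℚ[X]`; finitely many rational coefficients have a common
power of `ℓ` clearing the `ℓ`-part of their denominators.
-/
import Mathlib
import Fermat.Agent.M16.H1Sym
import Fermat.Agent.M16.H1Rat
import Fermat.Agent.M16.H1yGood
import Fermat.Agent.M16.IntConst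
import Fermat.Agent.M16.NrmAlg

set_option autoImplicit false
set_option linter.unusedSectionVars false
set_option linter.style.longLine false

noncomputable section

namespace Fermat.Agent.M16

open UpperHalfPlane hiding I
open Filter Function Topology ModularForm Complex ModularCurve
open scoped Manifold MatrixGroups ModularForm Real CongruenceSubgroup
open CongruenceSubgroup Polynomial
open Fermat.Agent.S23 Fermat.Agent.S24 Fermat.Agent.M28

section alg

variable (ℓ : ℕ) [Fact ℓ.Prime]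

theorem m16intbt_ell_mem : (ℓ : ℂ) ∈ m16nrm_O ℓ := natCast_mem _ ℓ

/-- monotonicity in the exponent. -/
theorem m16intbt_mono {x : ℂ} {e e' : ℕ} (h : (ℓ : ℂ) ^ e * x ∈ m16nrm_O ℓ) (hee : e ≤ e') :
    (ℓ : ℂ) ^ e' * x ∈ m16nrm_O ℓ := by
  obtain ⟨d, rfl⟩ := Nat.exists_eq_add_of_le hee
  have : (ℓ : ℂ) ^ (e + d) * x = (ℓ : ℂ) ^ d * ((ℓ : ℂ) ^ e * x) := by ring
  rw [this]
  exact (m16nrm_O ℓ).mul_mem ((m16nrm_O ℓ).pow_mem (m16intbt_ell_mem ℓ) d) h

/-- every rational number has a bounded `ℓ`-denominator. -/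
theorem m16intbt_rat (r : ℚ) : ∃ e : ℕ, (ℓ : ℂ) ^ e * (r : ℂ) ∈ m16nrm_O ℓ := by
  have hℓ : ℓ.Prime := Fact.out
  refine ⟨r.den.factorization ℓ, ordCompl[ℓ] r.den, Nat.not_dvd_ordCompl hℓ r.den_ne_zero, ?_⟩
  have h1 : ordProj[ℓ] r.den * ordCompl[ℓ] r.den = r.den := Nat.ordProj_mul_ordCompl_eq_self _ _
  have h2 : ((ordCompl[ℓ] r.den : ℕ) : ℂ) * ((ℓ : ℂ) ^ (r.den.factorization ℓ) * (r : ℂ))
      = ((r.num : ℤ) : ℂ) := by
    have h3 : ((ordCompl[ℓ] r.den : ℕ) : ℂ) * (ℓ : ℂ) ^ (r.den.factorization ℓ) = (r.den : ℂ) := by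
      rw [mul_comm]
      exact_mod_cast h1
    rw [← mul_assoc, h3]
    have h4 : (r : ℂ) = (r.num : ℂ) / (r.den : ℂ) := by
      conv_lhs => rw [← Rat.num_div_den r]
      push_cast
      rfl
    rw [h4]
    have hd : (r.den : ℂ) ≠ 0 := by exact_mod_cast r.den_ne_zero
    field_simp
  rw [h2]
  exact isIntegral_algebraMap (R := ℤ) (A := ℂ) (x := r.num)

/-- a common exponent for a finite family. -/
theorem m16intbt_finset {ι : Type*} (s : Finset ι) (x : ι → ℂ)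
    (h : ∀ i ∈ s, ∃ e : ℕ, (ℓ : ℂ) ^ e * x i ∈ m16nrm_O ℓ) :
    ∃ e : ℕ, ∀ i ∈ s, (ℓ : ℂ) ^ e * x i ∈ m16nrm_O ℓ := by
  classical
  induction s using Finset.induction_on with
  | empty => exact ⟨0, fun i hi => absurd hi (Finset.notMem_empty i)⟩
  | insert a s ha ih =>
    obtain ⟨e1, h1⟩ := ih (fun i hi => h i (Finset.mem_insert_of_mem hi))
    obtain ⟨e2, h2⟩ := h a (Finset.mem_insert_self a s)
    refine ⟨max e1 e2, fun i hi => ?_⟩
    rcases Finset.mem_insert.mp hi with rfl | hi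
    · exact m16intbt_mono ℓ h2 (le_max_right _ _)
    · exact m16intbt_mono ℓ (h1 i hi) (le_max_left _ _)

/-- a common exponent for the coefficients of a polynomial with rational coefficients. -/
theorem m16intbt_poly (P : ℂ[X]) (hP : ∀ i, P.coeff i ∈ m16h1_Q.toSubring) :
    ∃ e : ℕ, ∀ i, (ℓ : ℂ) ^ e * P.coeff i ∈ m16nrm_O ℓ := by
  obtain ⟨e, he⟩ := m16intbt_finset ℓ (Finset.range (P.natDegree + 1)) (fun i => P.coeff i)
    (fun i _ => by
      obtain ⟨r, hr⟩ := (m16h1_mem_Q_iff _).mp (hP i)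
      rw [hr]
      exact m16intbt_rat ℓ r)
  refine ⟨e, fun i => ?_⟩
  by_cases hi : i ∈ Finset.range (P.natDegree + 1)
  · exact he i hi
  · rw [Finset.mem_range, not_lt] at hi
    rw [Polynomial.coeff_eq_zero_of_natDegree_lt (by omega), mul_zero]
    exact zero_mem _

/-- the coefficients of `P(J(q^d))` are integral combinations of the coefficients of `P`. -/
theorem m16intbt_eval_coeff_mem (R : Subring ℂ) (d : ℕ) [NeZero d] (P : ℂ[X]) (c : ℂ)
    (hP : ∀ i, c * P.coeff i ∈ R) (n : ℤ) :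
    c * (P.eval₂ HahnSeries.C (qExpand ℂ d (jqModC ℂ))).coeff n ∈ R := by
  rw [Polynomial.eval₂_eq_sum_range, HahnSeries.coeff_sum, Finset.mul_sum]
  refine R.sum_mem fun i _ => ?_
  rw [HahnSeries.C_apply, HahnSeries.coeff_single_zero_mul]
  obtain ⟨z, hz⟩ := m16intc_coeff_jd_pow (S := ℂ) d i n
  rw [hz, ← mul_assoc]
  exact R.mul_mem (hP i) (intCast_mem R z)

end alg

variable (p : ℕ) [Fact p.Prime]

/-- the trace `tr(ψ x^b)` is a polynomial in `J` with rational coefficients. -/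
theorem m16intbt_tr_poly (K : Subring ℂ) (ψ : ana_ring p) (hψ : m16h1_Good p K ψ) (b : ℕ) :
    ∃ P : ℂ[X], (∀ i, P.coeff i ∈ K) ∧
      ana_qexp p (m16h1_tr p (ψ * m28pa_x p ^ b))
        = P.eval₂ HahnSeries.C (qExpand ℂ p (jqModC ℂ)) := by
  have hg : m16h1_Good p K (ψ * m28pa_x p ^ b) := hψ.mul p ((m16h1y_good_x p K).pow p b)
  obtain ⟨P, hP, -, hq⟩ := m16h1_level_one_poly p K (m16h1_tr p (ψ * m28pa_x p ^ b))
    (m16h1_tr_inv p _ hg.inv) (m16h1_tr_qexp_mem p hg)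
  exact ⟨P, hP, hq⟩

/-- **(B3)** bounded `ℓ`-denominators of the traces `tr(ψ x^b)`, `b ≤ B`. -/
theorem m16intbt_main (ℓ : ℕ) [Fact ℓ.Prime] (ψ : ana_ring p)
    (hψ : m16h1_Good p m16h1_Q.toSubring ψ) (B : ℕ) :
    ∃ e : ℕ, ∀ b ≤ B, ∀ n : ℤ,
      ((ℓ : ℂ) ^ e * (ana_qexp p (m16h1_tr p (ψ * m28pa_x p ^ b))).coeff n) ∈ m16nrm_O ℓ := by
  choose P hP hq using fun b => m16intbt_tr_poly p m16h1_Q.toSubring ψ hψ b
  choose e he using fun b => m16intbt_poly ℓ (P b) (hP b)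
  refine ⟨(Finset.range (B + 1)).sup e, fun b hb n => ?_⟩
  rw [hq b]
  refine m16intbt_eval_coeff_mem (m16nrm_O ℓ) p (P b) _ (fun i => ?_) n
  exact m16intbt_mono ℓ (he b i) (Finset.le_sup (Finset.mem_range.mpr (Nat.lt_succ_of_le hb)))

end Fermat.Agent.M16

end
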