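/-
M16 (S16 project), package INT, block I3 (UNIT) (helper6).

* `m16intu_inv_p_mem`            : `1 / p ∈ O` for `ℓ ≠ p`  (`O = m16nrm_O ℓ`, the `ℓ`-integral
                                    algebraic numbers);
* `m16intu_zeta_zpow_mem`        : `ζ_p ^ n ∈ O`;
* `m16intu_one_sub_zeta_inv_mem` : `(1 - ζ_p ^ n)⁻¹ ∈ O` for `p ∤ n`, `ℓ ≠ p`;
* `m16intu_zeta_sub_inv_mem`     : `(ζ_p ^ a - ζ_p ^ b)⁻¹ ∈ O` for `p ∤ a - b`, `ℓ ≠ p`;
* `m16intu_inv_mem_LR`           : the inverse of a Laurent series over a subring `R ⊂ ℂ` whose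
                                    lowest coefficient is a unit of `R` is again over `R`;
* `m16intu_mul_low`, `m16intu_prod_low` : the lowest term of a product of Laurent series;
* `m16intu_mul_mem_J`, `m16intu_div_mem_J` : the same modulo `J = ℓ O`.
-/
import Mathlib
import Fermat.Agent.S24.AnaTwist
import Fermat.Agent.M16.NrmAlg
import Fermat.Agent.M16.H1Lvl

set_option autoImplicit false
set_option linter.unusedSectionVars false

noncomputable section

namespace Fermat.Agent.M16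

open ModularCurve
open Fermat.Agent.S23 Fermat.Agent.S24 Fermat.Agent.M28

/-! ## units of `O` -/

section units

variable (ℓ p : ℕ) [Fact ℓ.Prime] [Fact p.Prime]

theorem m16intu_mem_O_of_isIntegral {x : ℂ} (hx : IsIntegral ℤ x) : x ∈ m16nrm_O ℓ :=
  ⟨1, fun h => (Fact.out : ℓ.Prime).one_lt.ne' (Nat.dvd_one.mp h), by simpa using hx⟩

theorem m16intu_inv_p_mem (h : ℓ ≠ p) : ((p : ℂ))⁻¹ ∈ m16nrm_O ℓ := by
  refine ⟨p, fun hd => h ?_, ?_⟩
  · exact (Nat.prime_dvd_prime_iff_eq (Fact.out : ℓ.Prime) (Fact.out : p.Prime)).mp hd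
  · rw [mul_inv_cancel₀ (by exact_mod_cast (Fact.out : p.Prime).ne_zero)]
    exact isIntegral_one

theorem m16intu_zeta_zpow_mem (n : ℤ) : ((atw_zeta p ^ n : ℂˣ) : ℂ) ∈ m16nrm_O ℓ := by
  apply m16intu_mem_O_of_isIntegral
  have hp0 : p ≠ 0 := (Fact.out : p.Prime).ne_zero
  have : NeZero p := ⟨hp0⟩
  refine ⟨Polynomial.X ^ p - Polynomial.C 1, Polynomial.monic_X_pow_sub_C 1 hp0, ?_⟩
  rw [Polynomial.eval₂_sub, Polynomial.eval₂_pow, Polynomial.eval₂_X, Polynomial.eval₂_C,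
    map_one, ← Units.val_pow_eq_pow_val, ← zpow_natCast, ← zpow_mul, mul_comm, zpow_mul,
    zpow_natCast, (atw_zeta_isPrimitiveRoot p).pow_eq_one, one_zpow, Units.val_one, sub_self]

theorem m16intu_zeta_zpow_primitive (n : ℤ) (hn : ¬ (p : ℤ) ∣ n) :
    IsPrimitiveRoot ((atw_zeta p ^ n : ℂˣ) : ℂ) p := by
  have : NeZero p := ⟨(Fact.out : p.Prime).ne_zero⟩
  rw [IsPrimitiveRoot.coe_units_iff]
  apply (atw_zeta_isPrimitiveRoot p).zpow_of_gcd_eq_one
  have hp : Prime (p : ℤ) := Nat.prime_iff_prime_int.mp (Fact.out : p.Prime)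
  have h1 : IsCoprime (p : ℤ) n := (Prime.coprime_iff_not_dvd hp).mpr hn
  have h2 : IsCoprime n (p : ℤ) := h1.symm
  exact Int.isCoprime_iff_gcd_eq_one.mp h2

theorem m16intu_one_sub_zeta_ne (n : ℤ) (hn : ¬ (p : ℤ) ∣ n) :
    1 - ((atw_zeta p ^ n : ℂˣ) : ℂ) ≠ 0 := by
  intro h
  have h1 : ((atw_zeta p ^ n : ℂˣ) : ℂ) = 1 := (sub_eq_zero.mp h).symm
  have hprim := m16intu_zeta_zpow_primitive p n hn
  rw [h1] at hprim
  have : p = 1 := hprim.unique IsPrimitiveRoot.one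
  exact (Fact.out : p.Prime).one_lt.ne' this

theorem m16intu_one_sub_zeta_inv_mem (h : ℓ ≠ p) (n : ℤ) (hn : ¬ (p : ℤ) ∣ n) :
    (1 - ((atw_zeta p ^ n : ℂˣ) : ℂ))⁻¹ ∈ m16nrm_O ℓ := by
  set ξ : ℂ := ((atw_zeta p ^ n : ℂˣ) : ℂ) with hξ
  have hprim : IsPrimitiveRoot ξ p := m16intu_zeta_zpow_primitive p n hn
  obtain ⟨m, hm⟩ : ∃ m, p = m + 1 := ⟨p - 1, by
    have := (Fact.out : p.Prime).one_lt; omega⟩
  have hm1 : 0 < m := by
    have := (Fact.out : p.Prime).one_lt; omega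
  have hprod : ∏ k ∈ Finset.range m, (1 - ξ ^ (k + 1)) = (p : ℂ) := by
    have := IsPrimitiveRoot.prod_one_sub_pow_eq_order (n := m) (μ := ξ) (by rw [← hm]; exact hprim)
    rw [this, hm]; push_cast; ring
  have h0 : (0 : ℕ) ∈ Finset.range m := Finset.mem_range.mpr hm1
  rw [← Finset.mul_prod_erase _ _ h0] at hprod
  simp only [zero_add, pow_one] at hprod
  have hne : 1 - ξ ≠ 0 := m16intu_one_sub_zeta_ne p n hn
  have hp0 : (p : ℂ) ≠ 0 := by exact_mod_cast (Fact.out : p.Prime).ne_zero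
  have hinv : (1 - ξ)⁻¹ = (p : ℂ)⁻¹ * ∏ k ∈ (Finset.range m).erase 0, (1 - ξ ^ (k + 1)) := by
    have h3 : ∏ k ∈ (Finset.range m).erase 0, (1 - ξ ^ (k + 1)) = (1 - ξ)⁻¹ * (p : ℂ) := by
      rw [← hprod, ← mul_assoc, inv_mul_cancel₀ hne, one_mul]
    rw [h3, mul_comm ((1 - ξ)⁻¹) (p : ℂ), ← mul_assoc, inv_mul_cancel₀ hp0, one_mul]
  rw [hinv]
  refine (m16nrm_O ℓ).mul_mem (m16intu_inv_p_mem ℓ p h) ?_
  refine Subring.prod_mem _ fun k _ => ?_
  refine (m16nrm_O ℓ).sub_mem (m16nrm_O ℓ).one_mem ?_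
  exact (m16nrm_O ℓ).pow_mem (m16intu_zeta_zpow_mem ℓ p n) _

theorem m16intu_zeta_sub_eq (a b : ℤ) :
    ((atw_zeta p ^ a : ℂˣ) : ℂ) - ((atw_zeta p ^ b : ℂˣ) : ℂ)
      = ((atw_zeta p ^ a : ℂˣ) : ℂ) * (1 - ((atw_zeta p ^ (b - a) : ℂˣ) : ℂ)) := by
  rw [mul_sub, mul_one, ← Units.val_mul, ← zpow_add, add_sub_cancel]

theorem m16intu_zeta_sub_ne (a b : ℤ) (hab : ¬ (p : ℤ) ∣ a - b) :
    ((atw_zeta p ^ a : ℂˣ) : ℂ) - ((atw_zeta p ^ b : ℂˣ) : ℂ) ≠ 0 := by
  rw [m16intu_zeta_sub_eq]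
  refine mul_ne_zero (Units.ne_zero _) (m16intu_one_sub_zeta_ne p _ ?_)
  intro h
  apply hab
  have : a - b = -(b - a) := by ring
  rw [this]
  exact (dvd_neg).mpr h

theorem m16intu_zeta_sub_inv_mem (h : ℓ ≠ p) (a b : ℤ) (hab : ¬ (p : ℤ) ∣ a - b) :
    (((atw_zeta p ^ a : ℂˣ) : ℂ) - ((atw_zeta p ^ b : ℂˣ) : ℂ))⁻¹ ∈ m16nrm_O ℓ := by
  have hba : ¬ (p : ℤ) ∣ b - a := by
    intro h'
    apply hab
    have : a - b = -(b - a) := by ring
    rw [this]
    exact (dvd_neg).mpr h'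
  rw [m16intu_zeta_sub_eq, mul_inv]
  refine (m16nrm_O ℓ).mul_mem ?_ (m16intu_one_sub_zeta_inv_mem ℓ p h _ hba)
  have : (((atw_zeta p ^ a : ℂˣ) : ℂ))⁻¹ = ((atw_zeta p ^ (-a) : ℂˣ) : ℂ) := by
    rw [zpow_neg, Units.val_inv_eq_inv_val]
  rw [this]
  exact m16intu_zeta_zpow_mem ℓ p _

end units

/-! ## Laurent series over a subring -/

section laurent

/-- the lowest term of a product of two Laurent series -/
theorem m16intu_mul_low {A : Type*} [CommRing A] (x y : LaurentSeries A) (N M : ℤ)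
    (hx : ∀ n < N, x.coeff n = 0) (hy : ∀ n < M, y.coeff n = 0) :
    (∀ n < N + M, (x * y).coeff n = 0) ∧ (x * y).coeff (N + M) = x.coeff N * y.coeff M := by
  have key : ∀ n : ℤ, ∀ ij ∈ Finset.antidiagonal x.isPWO_support y.isPWO_support n,
      N ≤ ij.1 ∧ M ≤ ij.2 ∧ ij.1 + ij.2 = n := by
    intro n ij hij
    rw [Finset.mem_antidiagonal] at hij
    obtain ⟨h1, h2, h3⟩ := hij
    refine ⟨?_, ?_, h3⟩
    · by_contra hlt
      exact h1 (hx _ (not_le.mp hlt))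
    · by_contra hlt
      exact h2 (hy _ (not_le.mp hlt))
  constructor
  · intro n hn
    rw [HahnSeries.coeff_mul]
    apply Finset.sum_eq_zero
    intro ij hij
    obtain ⟨h1, h2, h3⟩ := key n ij hij
    omega
  · rw [HahnSeries.coeff_mul]
    by_cases hmem : (N, M) ∈ Finset.antidiagonal x.isPWO_support y.isPWO_support (N + M)
    · rw [Finset.sum_eq_single_of_mem (N, M) hmem]
      intro ij hij hne
      obtain ⟨h1, h2, h3⟩ := key _ ij hij
      exfalso
      apply hne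
      ext
      · show ij.1 = N
        omega
      · show ij.2 = M
        omega
    · have hempty : ∀ ij ∈ Finset.antidiagonal x.isPWO_support y.isPWO_support (N + M),
          x.coeff ij.1 * y.coeff ij.2 = 0 := by
        intro ij hij
        obtain ⟨h1, h2, h3⟩ := key _ ij hij
        have e1 : ij.1 = N := by omega
        have e2 : ij.2 = M := by omega
        exfalso
        apply hmem
        have : ij = (N, M) := Prod.ext e1 e2
        rw [← this]
        exact hij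
      rw [Finset.sum_eq_zero hempty]
      rw [Finset.mem_antidiagonal] at hmem
      by_contra hne
      apply hmem
      refine ⟨?_, ?_, rfl⟩
      · intro h0
        apply hne
        show 0 = x.coeff N * y.coeff M
        rw [h0, zero_mul]
      · intro h0
        apply hne
        show 0 = x.coeff N * y.coeff M
        rw [h0, mul_zero]

/-- the lowest term of a finite product of Laurent series -/
theorem m16intu_prod_low {A : Type*} [CommRing A] {ι : Type*} (s : Finset ι)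
    (x : ι → LaurentSeries A) (N : ι → ℤ) (hlow : ∀ i ∈ s, ∀ n < N i, (x i).coeff n = 0) :
    (∀ n < ∑ i ∈ s, N i, (∏ i ∈ s, x i).coeff n = 0) ∧
      (∏ i ∈ s, x i).coeff (∑ i ∈ s, N i) = ∏ i ∈ s, (x i).coeff (N i) := by
  classical
  induction s using Finset.induction_on with
  | empty =>
    simp only [Finset.sum_empty, Finset.prod_empty]
    constructor
    · intro n hn
      rw [HahnSeries.coeff_one, if_neg (ne_of_lt hn)]
    · rw [HahnSeries.coeff_one, if_pos rfl]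
  | insert a s ha ih =>
    have ih' := ih (fun i hi => hlow i (Finset.mem_insert_of_mem hi))
    rw [Finset.sum_insert ha, Finset.prod_insert ha, Finset.prod_insert ha]
    have h := m16intu_mul_low (x a) (∏ i ∈ s, x i) (N a) (∑ i ∈ s, N i)
      (hlow a (Finset.mem_insert_self a s)) ih'.1
    exact ⟨h.1, by rw [h.2, ih'.2]⟩

/-- the inverse of a Laurent series over `R` whose lowest coefficient is a unit of `R`. -/
theorem m16intu_inv_mem_LR (R : Subring ℂ) (x : LaurentSeries ℂ) (hx : x ∈ m16h1_LR R) (N : ℤ)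
    (hlow : ∀ n < N, x.coeff n = 0) (hN : x.coeff N ≠ 0) (hu : (x.coeff N)⁻¹ ∈ R) :
    x⁻¹ ∈ m16h1_LR R := by
  obtain ⟨x', rfl⟩ := hx
  have hx'0 : x' ≠ 0 := by
    rintro rfl
    apply hN
    rw [map_zero]
    rfl
  have hord : x'.order = N := by
    apply le_antisymm
    · apply HahnSeries.order_le_of_coeff_ne_zero
      intro h0
      apply hN
      rw [coeffMap_coeff, h0, map_zero]
    · by_contra hlt
      have h1 := hlow _ (not_le.mp hlt)
      rw [coeffMap_coeff] at h1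
      have h2 : x'.coeff x'.order = 0 := Subtype.ext h1
      exact hx'0 (HahnSeries.coeff_order_eq_zero.mp h2)
  have hunit : IsUnit x' := by
    rw [HahnSeries.isUnit_iff, HahnSeries.leadingCoeff_eq, hord]
    refine IsUnit.of_mul_eq_one ⟨((coeffMap R.subtype x').coeff N)⁻¹, hu⟩ ?_
    apply Subtype.ext
    show (x'.coeff N : ℂ) * ((coeffMap R.subtype x').coeff N)⁻¹ = 1
    rw [coeffMap_coeff]
    exact mul_inv_cancel₀ (by rw [coeffMap_coeff] at hN; exact hN)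
  obtain ⟨y', hy'⟩ := hunit.exists_right_inv
  have h1 : coeffMap R.subtype x' * coeffMap R.subtype y' = 1 := by
    rw [← map_mul, hy', map_one]
  rw [inv_eq_of_mul_eq_one_right h1]
  exact ⟨y', rfl⟩

/-- cancelling a factor with unit lowest coefficient. -/
theorem m16intu_div_mem_LR (R : Subring ℂ) (x y z : LaurentSeries ℂ) (hx : x ∈ m16h1_LR R)
    (N : ℤ) (hlow : ∀ n < N, x.coeff n = 0) (hN : x.coeff N ≠ 0) (hu : (x.coeff N)⁻¹ ∈ R)
    (hy : y ∈ m16h1_LR R) (h : z * x = y) : z ∈ m16h1_LR R := by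
  have hx0 : x ≠ 0 := by
    rintro rfl
    exact hN rfl
  have hz : z = y * x⁻¹ := by
    rw [← h, mul_assoc, mul_inv_cancel₀ hx0, mul_one]
  rw [hz]
  exact Subring.mul_mem _ hy (m16intu_inv_mem_LR R x hx N hlow hN hu)

variable (ℓ : ℕ) [Fact ℓ.Prime]

/-- `LR(O) · LR(J) ⊂ LR(J)`. -/
theorem m16intu_mul_mem_J (x y : LaurentSeries ℂ) (hx : x ∈ m16h1_LR (m16nrm_O ℓ))
    (hy : ∀ n, y.coeff n ∈ m16nrm_J ℓ) (n : ℤ) : (x * y).coeff n ∈ m16nrm_J ℓ := by
  rw [HahnSeries.coeff_mul]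
  refine AddSubgroup.sum_mem _ fun ij _ => ?_
  exact m16nrm_mul_J ((m16h1_mem_LR_iff _ _).mp hx _) (hy _)

/-- cancelling a factor with unit lowest coefficient, modulo `J`. -/
theorem m16intu_div_mem_J (x y z : LaurentSeries ℂ) (hx : x ∈ m16h1_LR (m16nrm_O ℓ))
    (N : ℤ) (hlow : ∀ n < N, x.coeff n = 0) (hN : x.coeff N ≠ 0)
    (hu : (x.coeff N)⁻¹ ∈ m16nrm_O ℓ)
    (hy : ∀ n, y.coeff n ∈ m16nrm_J ℓ) (h : z * x = y) (n : ℤ) : z.coeff n ∈ m16nrm_J ℓ := by
  have hx0 : x ≠ 0 := by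
    rintro rfl
    exact hN rfl
  have hz : z = x⁻¹ * y := by
    rw [← h, mul_comm z x, ← mul_assoc, inv_mul_cancel₀ hx0, one_mul]
  rw [hz]
  exact m16intu_mul_mem_J ℓ _ _ (m16intu_inv_mem_LR _ x hx N hlow hN hu) hy n

end laurent

end Fermat.Agent.M16

end
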