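/-
M16 (S16 project), package INT, block I7 (helper4): the concrete UNIT.

`U_c0 = ∏_{c ≠ c0} (X_c0 - X_c)`, `X_c` the expansions of the conjugates of `x = J(pτ)`
(`X_∞ = j(t^(p²))`, `X_k = j(ζ^k t)`), has lowest coefficient `1` for `c0 = ∞` and
`- ∏_{k ≠ 0} (1 - ζ^(-k))` for `c0 = 0`, units of `O` for `ℓ ≠ p`.  Hence `U_c0` can be cancelled
in every additive subgroup `I` of `ℂ` stable under multiplication by `O`
(`m16intbu_cancel_gen`; `I = O`: `m16intbu_cancel`, `I = J = ℓ O`: `m16intbu_cancel_J`).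

Uses helper5's lowest-term calculus (`m16int_LT`, `m16int_unit`, Int5Ser.lean) and helper6's
cyclotomic units (`m16intu_zeta_sub_inv_mem`, IntUnit.lean).
-/
import Mathlib
import Fermat.Agent.M16.IntBd
import Fermat.Agent.M16.IntUnit
import Fermat.Agent.M16.Int5Ser
import Fermat.Agent.M16.IntBdT

set_option autoImplicit false
set_option linter.unusedSectionVars false

noncomputable section

namespace Fermat.Agent.M16

open UpperHalfPlane hiding I
open Filter Function Topology ModularForm Complex ModularCurve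
open scoped Manifold MatrixGroups ModularForm Real CongruenceSubgroup
open CongruenceSubgroup
open Fermat.Agent.S23 Fermat.Agent.S24 Fermat.Agent.M28

variable (p ℓ : ℕ) [Fact p.Prime] [Fact ℓ.Prime]

theorem m16intbu_LT_jq : m16int_LT (jqModC ℂ) (-1) 1 := by
  have h := m16int_LT_J0
  rwa [m16int_J0, m28pa_coeffEmb_jq] at h

theorem m16intbu_Xc_none :
    m16intb_Xc p none = qExpand ℂ p (qExpand ℂ p (jqModC ℂ)) := by
  unfold m16intb_Xc
  rw [m16h1_cj_none, m28pa_E_x]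

theorem m16intbu_qexp_x_S :
    ana_qexp p (ana_comp p ModularGroup.S (m28pa_x p)) = jqModC ℂ := by
  have h : ana_comp p ModularGroup.S (m28pa_x p)
      = m28pa_X p ((ModularGroup.S⁻¹ : SL(2, ℤ)) : s24Q p) := by
    rw [m28pa_X, m28pa_conj_mk p (m28pa_x_inv p), inv_inv]
  rw [h, m28pa_E_X_S]

theorem m16intbu_Xc_some (k : ZMod p) :
    m16intb_Xc p (some k) = cf_twist (atw_zeta p ^ ((k.val : ℕ) : ℤ)) (jqModC ℂ) := by
  unfold m16intb_Xc
  rw [m16h1_cj_some, m16h1_qexp_cjZ, m16intbu_qexp_x_S]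

/-- `X_∞ = t^(-p²) + …` -/
theorem m16intbu_LT_none : m16int_LT (m16intb_Xc p none) ((p : ℤ) * ((p : ℤ) * (-1))) 1 := by
  rw [m16intbu_Xc_none]
  exact m16int_LT_qExpand p (m16int_LT_qExpand p m16intbu_LT_jq)

/-- `X_k = ζ^(-k) t^(-1) + …` -/
theorem m16intbu_LT_some (k : ZMod p) :
    m16int_LT (m16intb_Xc p (some k)) (-1) ((atw_zeta p ^ (-((k.val : ℕ) : ℤ)) : ℂˣ) : ℂ) := by
  rw [m16intbu_Xc_some]
  have h := m16int_LT_twist (atw_zeta p ^ ((k.val : ℕ) : ℤ)) m16intbu_LT_jq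
  rwa [mul_one, ← zpow_mul, mul_neg_one] at h

theorem m16intbu_psq : (p : ℤ) * ((p : ℤ) * (-1)) < -1 := by
  have hp : 2 ≤ p := (Fact.out : p.Prime).two_le
  have h2 : (2 : ℤ) ≤ (p : ℤ) := by exact_mod_cast hp
  nlinarith

/-- the coefficients of `X_k` of index `≤ -p²` vanish -/
theorem m16intbu_some_low (k : ZMod p) (n : ℤ) (hn : n ≤ (p : ℤ) * ((p : ℤ) * (-1))) :
    (m16intb_Xc p (some k)).coeff n = 0 :=
  (m16intbu_LT_some p k).2 n (lt_of_le_of_lt hn (m16intbu_psq p))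

/-- the lowest term of `U_∞` -/
theorem m16intbu_LT_U_none :
    m16int_LT (m16intb_U p none)
      (∑ _c ∈ (Finset.univ.erase (none : Option (ZMod p))), (p : ℤ) * ((p : ℤ) * (-1))) 1 := by
  have h := m16int_LT_prod (Finset.univ.erase (none : Option (ZMod p)))
    (fun c => m16intb_Xc p none - m16intb_Xc p c) (fun _ => (p : ℤ) * ((p : ℤ) * (-1)))
    (fun _ => (1 : ℂ)) (fun c hc => by
      cases c with
      | none => exact absurd rfl (Finset.ne_of_mem_erase hc)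
      | some k =>
        exact m16int_LT_sub_left (m16intbu_LT_none p) (fun n hn => m16intbu_some_low p k n hn))
  rwa [Finset.prod_const_one] at h

/-- the exponents of the lowest terms of the factors of `U_0` -/
def m16intbu_n0 : Option (ZMod p) → ℤ
  | none => (p : ℤ) * ((p : ℤ) * (-1))
  | some _ => -1

/-- the coefficients of the lowest terms of the factors of `U_0` -/
def m16intbu_c0 : Option (ZMod p) → ℂ
  | none => -1
  | some k => ((atw_zeta p ^ (-(((0 : ZMod p).val : ℕ) : ℤ)) : ℂˣ) : ℂ)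
      - ((atw_zeta p ^ (-((k.val : ℕ) : ℤ)) : ℂˣ) : ℂ)

theorem m16intbu_LT_U_zero :
    m16int_LT (m16intb_U p (some 0))
      (∑ c ∈ (Finset.univ.erase (some 0 : Option (ZMod p))), m16intbu_n0 p c)
      (∏ c ∈ (Finset.univ.erase (some 0 : Option (ZMod p))), m16intbu_c0 p c) := by
  refine m16int_LT_prod (Finset.univ.erase (some 0 : Option (ZMod p)))
    (fun c => m16intb_Xc p (some 0) - m16intb_Xc p c) (m16intbu_n0 p) (m16intbu_c0 p)
    (fun c hc => ?_)
  cases c with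
  | none =>
    exact m16int_LT_sub_right (m16intbu_LT_none p) (fun n hn => m16intbu_some_low p 0 n hn)
  | some k => exact m16int_LT_sub_same (m16intbu_LT_some p 0) (m16intbu_LT_some p k)

theorem m16intbu_c0_inv_mem (hℓp : ℓ ≠ p) (c : Option (ZMod p))
    (hc : c ∈ Finset.univ.erase (some 0 : Option (ZMod p))) :
    (m16intbu_c0 p c)⁻¹ ∈ m16nrm_O ℓ := by
  cases c with
  | none =>
    show (-1 : ℂ)⁻¹ ∈ m16nrm_O ℓ
    rw [inv_neg, inv_one]
    exact Subring.neg_mem _ (Subring.one_mem _)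
  | some k =>
    have hk : k ≠ 0 := by
      intro h
      apply Finset.ne_of_mem_erase hc
      rw [h]
    refine m16intu_zeta_sub_inv_mem ℓ p hℓp _ _ ?_
    rw [ZMod.val_zero, Nat.cast_zero, neg_zero, zero_sub, neg_neg]
    intro hd
    have h1 : ((k.val : ℕ) : ZMod p) = 0 := by
      have := (ZMod.intCast_zmod_eq_zero_iff_dvd ((k.val : ℕ) : ℤ) p).mpr hd
      exact_mod_cast this
    rw [ZMod.natCast_zmod_val] at h1
    exact hk h1

/-- **cancellation of `U_c0`**, `c0 = ∞` or `c0 = 0`, in an additive subgroup stable under `O` -/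
theorem m16intbu_cancel_gen (hℓp : ℓ ≠ p) (I : AddSubgroup ℂ)
    (hOI : ∀ b ∈ m16nrm_O ℓ, ∀ x ∈ I, b * x ∈ I) (c0 : Option (ZMod p))
    (hc0 : c0 = none ∨ c0 = some 0) (z y : LaurentSeries ℂ) (h : z * m16intb_U p c0 = y)
    (hy : ∀ n, y.coeff n ∈ I) : ∀ n, z.coeff n ∈ I := by
  have hUO : ∀ c, m16intb_U p c ∈ m16int_ser (m16nrm_O ℓ) := fun c =>
    (m16h1_mem_LR_iff _ _).mp (m16intb_U_mem p ℓ c)
  have hFu : ∀ c, c = c0 → ∀ n, (m16intb_U p c * z).coeff n ∈ I := by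
    rintro c rfl n
    rw [mul_comm, h]
    exact hy n
  rcases hc0 with rfl | rfl
  · exact m16int_unit I (m16nrm_O ℓ) hOI (m16intb_U p none) z _ 1 1 (by norm_num)
      (Subring.one_mem _) (m16intbu_LT_U_none p) (hUO none) (hFu none rfl)
  · have hne : ∀ c ∈ Finset.univ.erase (some 0 : Option (ZMod p)), m16intbu_c0 p c ≠ 0 := by
      intro c hc
      cases c with
      | none =>
        show (-1 : ℂ) ≠ 0
        norm_num
      | some k =>
        have hk : k ≠ 0 := by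
          intro h
          apply Finset.ne_of_mem_erase hc
          rw [h]
        refine m16intu_zeta_sub_ne p _ _ ?_
        rw [ZMod.val_zero, Nat.cast_zero, neg_zero, zero_sub, neg_neg]
        intro hd
        have h1 : ((k.val : ℕ) : ZMod p) = 0 := by
          have := (ZMod.intCast_zmod_eq_zero_iff_dvd ((k.val : ℕ) : ℤ) p).mpr hd
          exact_mod_cast this
        rw [ZMod.natCast_zmod_val] at h1
        exact hk h1
    refine m16int_unit I (m16nrm_O ℓ) hOI (m16intb_U p (some 0)) z _ _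
      (∏ c ∈ (Finset.univ.erase (some 0 : Option (ZMod p))), (m16intbu_c0 p c)⁻¹) ?_ ?_
      (m16intbu_LT_U_zero p) (hUO (some 0)) (hFu (some 0) rfl)
    · rw [← Finset.prod_mul_distrib]
      exact Finset.prod_eq_one fun c hc => inv_mul_cancel₀ (hne c hc)
    · exact Subring.prod_mem _ fun c hc => m16intbu_c0_inv_mem p ℓ hℓp c hc

/-- cancellation of `U_c0` over `O` -/
theorem m16intbu_cancel (hℓp : ℓ ≠ p) (c0 : Option (ZMod p)) (hc0 : c0 = none ∨ c0 = some 0)
    (z y : LaurentSeries ℂ) (h : z * m16intb_U p c0 = y) (hy : y ∈ m16h1_LR (m16nrm_O ℓ)) :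
    z ∈ m16h1_LR (m16nrm_O ℓ) := by
  rw [m16h1_mem_LR_iff] at hy ⊢
  exact m16intbu_cancel_gen p ℓ hℓp (m16nrm_O ℓ).toAddSubgroup
    (fun b hb x hx => (m16nrm_O ℓ).mul_mem hb hx) c0 hc0 z y h hy

/-- cancellation of `U_c0` modulo `J = ℓ O` -/
theorem m16intbu_cancel_J (hℓp : ℓ ≠ p) (c0 : Option (ZMod p)) (hc0 : c0 = none ∨ c0 = some 0)
    (z y : LaurentSeries ℂ) (h : z * m16intb_U p c0 = y) (hy : ∀ n, y.coeff n ∈ m16nrm_J ℓ) :
    ∀ n, z.coeff n ∈ m16nrm_J ℓ :=
  m16intbu_cancel_gen p ℓ hℓp (m16nrm_J ℓ) (fun b hb x hx => m16nrm_mul_J hb hx) c0 hc0 z y h hy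

/-- **(BD) bounded denominators**: for `ψ` good over `ℚ` and `ℓ ≠ p` some `ℓ ^ e ψ` has
`ℓ`-integral expansions at both cusps. -/
theorem m16intb_main (hℓp : ℓ ≠ p) (ψ : ana_ring p) (hψ : m16h1_Good p m16h1_Q.toSubring ψ) :
    ∃ e : ℕ, (∀ n : ℤ, m16lb_IsLInt ℓ ((ℓ : ℂ) ^ e * (ana_qexp p ψ).coeff n)) ∧
      (∀ n : ℤ, m16lb_IsLInt ℓ
        ((ℓ : ℂ) ^ e * (ana_qexp p (ana_comp p ModularGroup.S ψ)).coeff n)) :=
  m16intb_core p ℓ ψ hψ (m16intbu_cancel p ℓ hℓp none (Or.inl rfl))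
    (m16intbu_cancel p ℓ hℓp (some 0) (Or.inr rfl)) (m16intbt_main p ℓ ψ hψ p)

end Fermat.Agent.M16

end
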