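/-
M16 (S16 project), LOWER BOUND side, package INT, block I5 (CONST) (helper3).

If all coefficients of NEGATIVE index of the Laurent series `P(J(Q^d))` lie in an additive subgroup
`I`, then all coefficients `P.coeff i`, `i ≥ 1`, lie in `I`: the polynomial `P` is constant
modulo `I`.  (The powers of `J(Q^d)` have integer coefficients.)
-/
import Fermat.Agent.M28.PfQprin

set_option autoImplicit false

namespace Fermat.Agent.M16

open ModularCurve Polynomial Fermat.Agent.M28

variable {S : Type*} [CommRing S]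

/-- the coefficients of `J(Q^d)^N` are integers. -/
theorem m16intc_coeff_jd_pow (d : ℕ) [NeZero d] (N : ℕ) (k : ℤ) :
    ∃ z : ℤ, ((qExpand S d (jqModC S)) ^ N).coeff k = (z : S) := by
  have h1 : (qExpand S d (jqModC S)) ^ N ∈ m28pf_int (Int.castRingHom S) :=
    Subring.pow_mem _ (m28pf_jd_mem (Int.castRingHom S) d) N
  obtain ⟨z, hz⟩ := m28pf_coeff_mem h1 k
  exact ⟨z, hz.symm⟩

theorem m16intc_const_aux (I : AddSubgroup S) (d : ℕ) [NeZero d] :
    ∀ (n : ℕ) (P : S[X]), P.natDegree ≤ n →
      (∀ k : ℤ, k < 0 → (P.eval₂ HahnSeries.C (qExpand S d (jqModC S))).coeff k ∈ I) →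
      ∀ i : ℕ, 1 ≤ i → P.coeff i ∈ I := by
  intro n
  induction n with
  | zero =>
    intro P hP _ i hi
    rw [Polynomial.coeff_eq_zero_of_natDegree_lt (lt_of_le_of_lt hP hi)]
    exact I.zero_mem
  | succ n ih =>
    intro P hP h i hi
    have hd : 0 < d := Nat.pos_of_ne_zero (NeZero.ne d)
    have hlc : P.coeff (n + 1) ∈ I := by
      rw [← m28pf_coeff_eval₂_jd S d P (n + 1) hP]
      refine h _ ?_
      have : 0 < d * (n + 1) := Nat.mul_pos hd (Nat.succ_pos n)
      omega
    set P' : S[X] := P - Polynomial.C (P.coeff (n + 1)) * Polynomial.X ^ (n + 1) with hP'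
    have hdeg : P'.natDegree ≤ n := by
      rw [Polynomial.natDegree_le_iff_coeff_eq_zero]
      intro m hm
      rw [hP', Polynomial.coeff_sub, Polynomial.coeff_C_mul, Polynomial.coeff_X_pow]
      rcases (Nat.succ_le_of_lt hm).lt_or_eq with h1 | h1
      · rw [if_neg (by omega), mul_zero, sub_zero]
        exact Polynomial.coeff_eq_zero_of_natDegree_lt (lt_of_le_of_lt hP h1)
      · rw [if_pos h1.symm, mul_one, ← h1, sub_self]
    have hev : ∀ k : ℤ, k < 0 →
        (P'.eval₂ HahnSeries.C (qExpand S d (jqModC S))).coeff k ∈ I := by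
      intro k hk
      rw [hP', Polynomial.eval₂_sub, Polynomial.eval₂_mul, Polynomial.eval₂_C,
        Polynomial.eval₂_pow, Polynomial.eval₂_X, HahnSeries.coeff_sub]
      refine I.sub_mem (h k hk) ?_
      rw [HahnSeries.C_apply, HahnSeries.coeff_single_zero_mul]
      obtain ⟨z, hz⟩ := m16intc_coeff_jd_pow (S := S) d (n + 1) k
      rw [hz]
      have : P.coeff (n + 1) * (z : S) = z • P.coeff (n + 1) := by
        rw [zsmul_eq_mul, mul_comm]
      rw [this]
      exact I.zsmul_mem hlc z
    have h2 := ih P' hdeg hev i hi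
    have h3 : P.coeff i = P'.coeff i + if i = n + 1 then P.coeff (n + 1) else 0 := by
      rw [hP', Polynomial.coeff_sub, Polynomial.coeff_C_mul, Polynomial.coeff_X_pow]
      split_ifs <;> ring
    rw [h3]
    refine I.add_mem h2 ?_
    split_ifs
    · exact hlc
    · exact I.zero_mem

/-- **(CONST)**: a polynomial `P` such that the principal part of `P(J(Q^d))` has coefficients in
the additive subgroup `I` is constant modulo `I`. -/
theorem m16intc_const (I : AddSubgroup S) (d : ℕ) [NeZero d] (P : S[X])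
    (h : ∀ n : ℤ, n < 0 → (P.eval₂ HahnSeries.C (qExpand S d (jqModC S))).coeff n ∈ I) :
    ∀ i : ℕ, 1 ≤ i → P.coeff i ∈ I :=
  m16intc_const_aux I d P.natDegree P le_rfl h

/-- consequence: `P(J(Q^d)) - P.coeff 0` has all its coefficients in `I`. -/
theorem m16intc_eval_sub_mem (I : AddSubgroup S) (d : ℕ) [NeZero d] (P : S[X])
    (h : ∀ n : ℤ, n < 0 → (P.eval₂ HahnSeries.C (qExpand S d (jqModC S))).coeff n ∈ I) (k : ℤ) :
    (P.eval₂ HahnSeries.C (qExpand S d (jqModC S)) - HahnSeries.C (P.coeff 0)).coeff k ∈ I := by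
  have hc := m16intc_const I d P h
  rw [Polynomial.eval₂_eq_sum_range, Finset.sum_range_succ', pow_zero, mul_one, add_sub_cancel_right,
    HahnSeries.coeff_sum]
  refine I.sum_mem fun i _ => ?_
  rw [HahnSeries.C_apply, HahnSeries.coeff_single_zero_mul]
  obtain ⟨z, hz⟩ := m16intc_coeff_jd_pow (S := S) d (i + 1) k
  rw [hz]
  have : P.coeff (i + 1) * (z : S) = z • P.coeff (i + 1) := by
    rw [zsmul_eq_mul, mul_comm]
  rw [this]
  exact I.zsmul_mem (hc (i + 1) (Nat.succ_pos i |> Nat.succ_le_of_lt)) z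

end Fermat.Agent.M16
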