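import Fermat.Agent.M16.IntRed
import Fermat.Agent.M16.H1Rat
import Fermat.Agent.M16.H1Conj

/-!
# M16 / INT, entry and exit glue (prefix `m16inte_`)

* `m16inte_coeff_eq_zero` : the `q_p`-expansion of a `T`-invariant function lives on the
  multiples of `p`;
* `m16inte_good_Q` : the hypotheses of `m16lb_INT` make `ψ` good over `ℚ`;
* `m16inte_scale` : multiplication by a constant;
* `m16inte_BD`, `m16inte_ML` : the statements of the two halves of the proof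
  (bounded denominators, and the mod-`ℓ` step);
* `m16inte_main : BD → ML → m16lb_INT` (descending induction on the exponent).
-/

set_option autoImplicit false
set_option linter.unusedSectionVars false
set_option linter.unusedVariables false
set_option linter.style.haveILetI false

noncomputable section

namespace Fermat.Agent.M16

open ModularCurve CongruenceSubgroup
open Fermat.Agent.S24 Fermat.Agent.M28
open scoped MatrixGroups

section general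

variable (p : ℕ) [NeZero p]

/-- the expansion of a `T`-invariant function lives on the multiples of `p`. -/
theorem m16inte_coeff_eq_zero (ψ : ana_ring p)
    (hT : ana_comp p ModularGroup.T ψ = ψ) (n : ℤ) (hn : ¬ (p : ℤ) ∣ n) :
    (ana_qexp p ψ).coeff n = 0 := by
  have h1 := atw_qexp_comp_T (N := p) (-1) ψ
  rw [zpow_neg, zpow_one, inv_inv, hT] at h1
  have h2 := congrArg (fun x : LaurentSeries ℂ => x.coeff n) h1
  simp only [cf_twist_coeff] at h2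
  have h3 : (((((atw_zeta p)⁻¹ ^ (-1 : ℤ)) ^ n : ℂˣ)) : ℂ) ≠ 1 := by
    intro h
    have h4 : ((atw_zeta p)⁻¹ ^ (-1 : ℤ)) ^ n = (1 : ℂˣ) := Units.ext h
    rw [inv_zpow, zpow_neg, inv_inv, zpow_one] at h4
    have h5 := (atw_zeta_isPrimitiveRoot p).zpow_eq_one_iff_dvd n
    exact hn (h5.mp h4)
  by_contra hne
  apply h3
  have h6 : (1 : ℂ) * (ana_qexp p ψ).coeff n
      = ((((atw_zeta p)⁻¹ ^ (-1 : ℤ)) ^ n : ℂˣ) : ℂ) * (ana_qexp p ψ).coeff n := by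
    rw [one_mul]
    exact h2
  exact (mul_right_cancel₀ hne h6).symm

theorem m16inte_T_mem : ModularGroup.T ∈ Gamma0 p := by
  rw [Gamma0_mem]
  simp [ModularGroup.T]

/-- multiplication by a constant. -/
def m16inte_scale (c : ℂ) (ψ : ana_ring p) : ana_ring p := ana_const p c * ψ

theorem m16inte_scale_coeff (c : ℂ) (ψ : ana_ring p) (n : ℤ) :
    (ana_qexp p (m16inte_scale p c ψ)).coeff n = c * (ana_qexp p ψ).coeff n := by
  unfold m16inte_scale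
  rw [map_mul, ana_qexp_const, HahnSeries.C_mul_eq_smul, HahnSeries.coeff_smul, smul_eq_mul]

theorem m16inte_scale_comp (c : ℂ) (ψ : ana_ring p) (g : SL(2, ℤ)) :
    ana_comp p g (m16inte_scale p c ψ) = m16inte_scale p c (ana_comp p g ψ) := by
  unfold m16inte_scale
  rw [map_mul, ana_comp_const]

theorem m16inte_scale_one (ψ : ana_ring p) : m16inte_scale p 1 ψ = ψ := by
  unfold m16inte_scale
  rw [map_one, one_mul]

end general

variable (p ℓ : ℕ) [Fact p.Prime] [Fact ℓ.Prime]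

/-- the hypotheses of `m16lb_INT` make `ψ` good over `ℚ`. -/
theorem m16inte_good_Q :
    haveI : NeZero p := ⟨(Fact.out : p.Prime).ne_zero⟩
    ∀ ψ : ana_ring p, m16lb_IsA p ψ →
      (∀ k : ℤ, ∃ r : ℚ, m16lb_b p ψ k = (r : ℂ)) →
      (∀ k : ℤ, ∃ r : ℚ, m16lb_c p ψ k = (r : ℂ)) →
      m16h1_Good p m16h1_Q.toSubring ψ := by
  haveI : NeZero p := ⟨(Fact.out : p.Prime).ne_zero⟩
  intro ψ hA hb hc
  refine ⟨hA.1, ?_, ?_⟩
  · rw [m16h1_mem_LR_iff]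
    intro n
    by_cases hn : (p : ℤ) ∣ n
    · obtain ⟨k, rfl⟩ := hn
      obtain ⟨r, hr⟩ := hb k
      exact (m16h1_mem_Q_iff _).mpr ⟨r, hr⟩
    · rw [m16inte_coeff_eq_zero p ψ (hA.1 _ (m16inte_T_mem p)) n hn]
      exact zero_mem _
  · rw [m16h1_mem_LR_iff]
    intro n
    obtain ⟨r, hr⟩ := hc n
    exact (m16h1_mem_Q_iff _).mpr ⟨r, hr⟩

/-- **(BD)** bounded denominators. -/
def m16inte_BD : Prop :=
  haveI : NeZero p := ⟨(Fact.out : p.Prime).ne_zero⟩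
  ∀ ψ : ana_ring p, m16h1_Good p m16h1_Q.toSubring ψ →
    ∃ e : ℕ, (∀ n : ℤ, (ℓ : ℂ) ^ e * (ana_qexp p ψ).coeff n ∈ m16intr_Zl ℓ) ∧
      (∀ n : ℤ, (ℓ : ℂ) ^ e * (ana_qexp p (ana_comp p ModularGroup.S ψ)).coeff n
        ∈ m16intr_Zl ℓ)

/-- **(ML)** the mod-`ℓ` step. -/
def m16inte_ML : Prop :=
  haveI : NeZero p := ⟨(Fact.out : p.Prime).ne_zero⟩
  ∀ Y : ana_ring p, m16h1_Good p (m16intr_Zl ℓ) Y →
    (∀ k : ℤ, k < 0 → (ana_qexp p (ana_comp p ModularGroup.S Y)).coeff k = 0) →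
    (∀ n : ℤ, n ≤ 0 → ∃ y ∈ m16intr_Zl ℓ, (ana_qexp p Y).coeff n = (ℓ : ℂ) * y) →
    (∀ n : ℤ, ∃ y ∈ m16intr_Zl ℓ, (ana_qexp p Y).coeff n = (ℓ : ℂ) * y) ∧
      (∀ n : ℤ, ∃ y ∈ m16intr_Zl ℓ,
        (ana_qexp p (ana_comp p ModularGroup.S Y)).coeff n = (ℓ : ℂ) * y)

/-- the descending induction. -/
theorem m16inte_descent (hML : m16inte_ML p ℓ) :
    haveI : NeZero p := ⟨(Fact.out : p.Prime).ne_zero⟩
    ∀ ψ : ana_ring p, m16lb_IsA p ψ →
      (∀ n : ℤ, n ≤ 0 → (ana_qexp p ψ).coeff n ∈ m16intr_Zl ℓ) →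
      ∀ e : ℕ, (∀ n : ℤ, (ℓ : ℂ) ^ e * (ana_qexp p ψ).coeff n ∈ m16intr_Zl ℓ) →
        (∀ n : ℤ, (ℓ : ℂ) ^ e * (ana_qexp p (ana_comp p ModularGroup.S ψ)).coeff n
          ∈ m16intr_Zl ℓ) →
        (∀ n : ℤ, (ana_qexp p ψ).coeff n ∈ m16intr_Zl ℓ) ∧
          (∀ n : ℤ, (ana_qexp p (ana_comp p ModularGroup.S ψ)).coeff n ∈ m16intr_Zl ℓ) := by
  haveI : NeZero p := ⟨(Fact.out : p.Prime).ne_zero⟩
  intro ψ hA hneg e
  have hl : (ℓ : ℂ) ≠ 0 := by exact_mod_cast (Fact.out : ℓ.Prime).ne_zero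
  induction e with
  | zero =>
    intro h1 h2
    simp only [pow_zero, one_mul] at h1 h2
    exact ⟨h1, h2⟩
  | succ e ih =>
    intro h1 h2
    apply ih
    all_goals
      have hY : m16h1_Good p (m16intr_Zl ℓ) (m16inte_scale p ((ℓ : ℂ) ^ (e + 1)) ψ) := by
        refine ⟨fun γ hγ => ?_, ?_, ?_⟩
        · rw [m16inte_scale_comp, hA.1 γ hγ]
        · rw [m16h1_mem_LR_iff]
          intro n
          rw [m16inte_scale_coeff]
          exact h1 n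
        · rw [m16h1_mem_LR_iff]
          intro n
          rw [m16inte_scale_comp, m16inte_scale_coeff]
          exact h2 n
      have hhol : ∀ k : ℤ, k < 0 → (ana_qexp p (ana_comp p ModularGroup.S
          (m16inte_scale p ((ℓ : ℂ) ^ (e + 1)) ψ))).coeff k = 0 := by
        intro k hk
        rw [m16inte_scale_comp, m16inte_scale_coeff, hA.2 k hk, mul_zero]
      have hpp : ∀ n : ℤ, n ≤ 0 → ∃ y ∈ m16intr_Zl ℓ,
          (ana_qexp p (m16inte_scale p ((ℓ : ℂ) ^ (e + 1)) ψ)).coeff n = (ℓ : ℂ) * y := by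
        intro n hn
        refine ⟨(ℓ : ℂ) ^ e * (ana_qexp p ψ).coeff n,
          Subring.mul_mem _ (Subring.pow_mem _ (m16intr_natCast_mem ℓ ℓ) e) (hneg n hn), ?_⟩
        rw [m16inte_scale_coeff]
        ring
      obtain ⟨hc1, hc2⟩ := hML _ hY hhol hpp
    · intro n
      obtain ⟨y, hy, hyn⟩ := hc1 n
      rw [m16inte_scale_coeff] at hyn
      have : (ℓ : ℂ) ^ e * (ana_qexp p ψ).coeff n = y := by
        apply mul_left_cancel₀ hl
        rw [← hyn]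
        ring
      rw [this]
      exact hy
    · intro n
      obtain ⟨y, hy, hyn⟩ := hc2 n
      rw [m16inte_scale_comp, m16inte_scale_coeff] at hyn
      have : (ℓ : ℂ) ^ e * (ana_qexp p (ana_comp p ModularGroup.S ψ)).coeff n = y := by
        apply mul_left_cancel₀ hl
        rw [← hyn]
        ring
      rw [this]
      exact hy

/-- **(INT)** from bounded denominators and the mod-`ℓ` step. -/
theorem m16inte_main
    (hBD : ∀ (p ℓ : ℕ) [Fact p.Prime] [Fact ℓ.Prime], ℓ ≠ p → m16inte_BD p ℓ)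
    (hML : ∀ (p ℓ : ℕ) [Fact p.Prime] [Fact ℓ.Prime], ℓ ≠ p → m16inte_ML p ℓ) :
    m16lb_INT := by
  intro p _ ℓ hℓ hℓp
  haveI : NeZero p := ⟨(Fact.out : p.Prime).ne_zero⟩
  haveI : Fact ℓ.Prime := ⟨hℓ⟩
  intro ψ hA hb hc hb0
  have hQ := m16inte_good_Q p ψ hA hb hc
  obtain ⟨e, h1, h2⟩ := hBD p ℓ hℓp ψ hQ
  have hp0 : (0 : ℤ) < (p : ℤ) := by exact_mod_cast (Fact.out : p.Prime).pos
  have hneg : ∀ n : ℤ, n ≤ 0 → (ana_qexp p ψ).coeff n ∈ m16intr_Zl ℓ := by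
    intro n hn
    by_cases hd : (p : ℤ) ∣ n
    · obtain ⟨k, rfl⟩ := hd
      have hk : k ≤ 0 := by
        by_contra hcon
        have : 0 < (p : ℤ) * k := mul_pos hp0 (by omega)
        omega
      exact (m16intr_mem_Zl_iff ℓ).mpr (hb0 k hk)
    · rw [m16inte_coeff_eq_zero p ψ (hA.1 _ (m16inte_T_mem p)) n hd]
      exact zero_mem _
  obtain ⟨r1, r2⟩ := m16inte_descent p ℓ (hML p ℓ hℓp) ψ hA hneg e h1 h2
  exact ⟨fun k => (m16intr_mem_Zl_iff ℓ).mp (r1 ((p : ℤ) * k)),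
    fun k => (m16intr_mem_Zl_iff ℓ).mp (r2 k)⟩

/-! ## adapters -/

/-- **(ML-A)** the mod-`ℓ` step at the cusp `∞`. -/
def m16inte_MLA : Prop :=
  haveI : NeZero p := ⟨(Fact.out : p.Prime).ne_zero⟩
  ∀ Y : ana_ring p, m16h1_Good p (m16intr_Zl ℓ) Y →
    (∀ k : ℤ, k < 0 → (ana_qexp p (ana_comp p ModularGroup.S Y)).coeff k = 0) →
    (∀ n : ℤ, n ≤ 0 → ∃ y ∈ m16intr_Zl ℓ, (ana_qexp p Y).coeff n = (ℓ : ℂ) * y) →
    ∀ n : ℤ, ∃ y ∈ m16intr_Zl ℓ, (ana_qexp p Y).coeff n = (ℓ : ℂ) * y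

/-- **(ML-B)** the mod-`ℓ` step at the cusp `0`. -/
def m16inte_MLB : Prop :=
  haveI : NeZero p := ⟨(Fact.out : p.Prime).ne_zero⟩
  ∀ Y : ana_ring p, m16h1_Good p (m16intr_Zl ℓ) Y →
    (∀ k : ℤ, k < 0 → (ana_qexp p (ana_comp p ModularGroup.S Y)).coeff k = 0) →
    (∀ n : ℤ, ∃ y ∈ m16intr_Zl ℓ, (ana_qexp p Y).coeff n = (ℓ : ℂ) * y) →
    ∀ n : ℤ, ∃ y ∈ m16intr_Zl ℓ,
      (ana_qexp p (ana_comp p ModularGroup.S Y)).coeff n = (ℓ : ℂ) * y

theorem m16inte_ML_of (hA : m16inte_MLA p ℓ) (hB : m16inte_MLB p ℓ) : m16inte_ML p ℓ := by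
  intro Y hY hhol hpp
  have h1 := hA Y hY hhol hpp
  exact ⟨h1, hB Y hY hhol h1⟩

/-- **(BD)** in the coefficientwise `m16lb_IsLInt` spelling. -/
theorem m16inte_BD_of_IsLInt
    (h : haveI : NeZero p := ⟨(Fact.out : p.Prime).ne_zero⟩
      ∀ ψ : ana_ring p, m16h1_Good p m16h1_Q.toSubring ψ →
      ∃ e : ℕ, (∀ n : ℤ, m16lb_IsLInt ℓ ((ℓ : ℂ) ^ e * (ana_qexp p ψ).coeff n)) ∧
        (∀ n : ℤ, m16lb_IsLInt ℓ
          ((ℓ : ℂ) ^ e * (ana_qexp p (ana_comp p ModularGroup.S ψ)).coeff n))) :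
    m16inte_BD p ℓ := by
  intro ψ hψ
  obtain ⟨e, h1, h2⟩ := h ψ hψ
  exact ⟨e, fun n => (m16intr_mem_Zl_iff ℓ).mpr (h1 n), fun n => (m16intr_mem_Zl_iff ℓ).mpr (h2 n)⟩

/-- **(BD)** in the `m16h1_Good` spelling. -/
theorem m16inte_BD_of_Good
    (h : haveI : NeZero p := ⟨(Fact.out : p.Prime).ne_zero⟩
      ∀ ψ : ana_ring p, m16h1_Good p m16h1_Q.toSubring ψ →
      ∃ e : ℕ, m16h1_Good p (m16intr_Zl ℓ) (ana_const p ((ℓ : ℂ) ^ e) * ψ)) :
    m16inte_BD p ℓ := by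
  haveI : NeZero p := ⟨(Fact.out : p.Prime).ne_zero⟩
  intro ψ hψ
  obtain ⟨e, he⟩ := h ψ hψ
  refine ⟨e, fun n => ?_, fun n => ?_⟩
  · have := (m16h1_mem_LR_iff _ _).mp he.exp_inf n
    rwa [show ana_const p ((ℓ : ℂ) ^ e) * ψ = m16inte_scale p ((ℓ : ℂ) ^ e) ψ from rfl,
      m16inte_scale_coeff] at this
  · have := (m16h1_mem_LR_iff _ _).mp he.exp_zero n
    rwa [show ana_const p ((ℓ : ℂ) ^ e) * ψ = m16inte_scale p ((ℓ : ℂ) ^ e) ψ from rfl,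
      m16inte_scale_comp, m16inte_scale_coeff] at this

/-- **(INT)** from bounded denominators and the two halves of the mod-`ℓ` step. -/
theorem m16inte_main'
    (hBD : ∀ (p ℓ : ℕ) [Fact p.Prime] [Fact ℓ.Prime], ℓ ≠ p → m16inte_BD p ℓ)
    (hMLA : ∀ (p ℓ : ℕ) [Fact p.Prime] [Fact ℓ.Prime], ℓ ≠ p → m16inte_MLA p ℓ)
    (hMLB : ∀ (p ℓ : ℕ) [Fact p.Prime] [Fact ℓ.Prime], ℓ ≠ p → m16inte_MLB p ℓ) :
    m16lb_INT :=
  m16inte_main hBD (fun p ℓ _ _ h => m16inte_ML_of p ℓ (hMLA p ℓ h) (hMLB p ℓ h))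

end Fermat.Agent.M16

end
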