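/-
M16 (S16 project), LOWER BOUND side, package INT, block I4 FORMAL (helper7):
a power series without constant term which is a root of a nonzero polynomial with CONSTANT
coefficients vanishes; the same for Laurent series all of whose coefficients of index `≤ 0`
vanish.
-/
import Mathlib

set_option autoImplicit false

namespace Fermat.Agent.M16

open Polynomial

/-- the constant coefficient of `P(y)` is `P(y(0))` -/
theorem m16intf_constantCoeff_aeval {k : Type*} [CommRing k] (P : Polynomial k)
    (y : PowerSeries k) :
    PowerSeries.constantCoeff (Polynomial.aeval y P)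
      = P.eval (PowerSeries.constantCoeff y) := by
  induction P using Polynomial.induction_on' with
  | add p q hp hq => rw [map_add, map_add, hp, hq, Polynomial.eval_add]
  | monomial n a =>
    rw [Polynomial.aeval_monomial, map_mul, map_pow, Polynomial.eval_monomial]
    congr 1

/-- a power series `y` with `y(0) = 0` killed by a nonzero polynomial with constant coefficients
is zero (coefficients in a domain). -/
theorem m16intf_root_zero' {k : Type*} [CommRing k] [IsDomain k] (P : Polynomial k)
    (hP : P ≠ 0) (y : PowerSeries k) (hy0 : PowerSeries.constantCoeff y = 0)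
    (hroot : Polynomial.aeval y P = 0) : y = 0 := by
  obtain ⟨Q, hPQ, hQ⟩ := Polynomial.exists_eq_pow_rootMultiplicity_mul_and_not_dvd P hP 0
  have hQ0 : Q.eval 0 ≠ 0 := by
    intro h
    apply hQ
    rw [Polynomial.dvd_iff_isRoot]
    exact h
  rw [hPQ, map_mul, map_pow, map_sub, Polynomial.aeval_X, Polynomial.aeval_C, map_zero,
    sub_zero] at hroot
  have hQy : Polynomial.aeval y Q ≠ 0 := by
    intro h
    have := m16intf_constantCoeff_aeval Q y
    rw [h, map_zero, hy0] at this
    exact hQ0 this.symm
  rcases mul_eq_zero.mp hroot with h | h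
  · exact pow_eq_zero_iff (fun h0 => by
      rw [h0, pow_zero] at h
      exact one_ne_zero h) |>.mp h
  · exact absurd h hQy

/-- **I4**: a power series `y` over a field with `y(0) = 0` killed by a monic polynomial with
constant coefficients is zero. -/
theorem m16intf_root_zero {k : Type*} [Field k] (P : Polynomial k) (hP : P.Monic)
    (y : PowerSeries k) (hy0 : PowerSeries.constantCoeff y = 0)
    (hroot : Polynomial.aeval y P = 0) : y = 0 :=
  m16intf_root_zero' P hP.ne_zero y hy0 hroot

/-- a Laurent series without terms of negative index is a power series -/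
theorem m16intf_exists_powerSeries {k : Type*} [CommRing k] (y : LaurentSeries k)
    (hy : ∀ n : ℤ, n < 0 → y.coeff n = 0) :
    ∃ y' : PowerSeries k, HahnSeries.ofPowerSeries ℤ k y' = y ∧
      ∀ n : ℕ, PowerSeries.coeff n y' = y.coeff n := by
  refine ⟨PowerSeries.mk fun n => y.coeff n, ?_, fun n => PowerSeries.coeff_mk _ _⟩
  ext n
  erw [PowerSeries.coeff_coe]
  split_ifs with h
  · exact (hy n h).symm
  · rw [PowerSeries.coeff_mk]
    congr 1
    omega

/-- **I4, Laurent form**: a Laurent series over a domain all of whose coefficients of index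
`≤ 0` vanish and which is a root of a nonzero polynomial with constant coefficients is zero. -/
theorem m16intf_laurent_root_zero {k : Type*} [CommRing k] [IsDomain k] (P : Polynomial k)
    (hP : P ≠ 0) (y : LaurentSeries k) (hy : ∀ n : ℤ, n ≤ 0 → y.coeff n = 0)
    (hroot : P.eval₂ HahnSeries.C y = 0) : y = 0 := by
  obtain ⟨y', hy', hc⟩ := m16intf_exists_powerSeries y (fun n hn => hy n hn.le)
  have h0 : PowerSeries.constantCoeff y' = 0 := by
    rw [← PowerSeries.coeff_zero_eq_constantCoeff_apply, hc 0]
    exact hy 0 le_rfl
  have hcomp : (HahnSeries.ofPowerSeries ℤ k).comp (algebraMap k (PowerSeries k))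
      = (HahnSeries.C : k →+* LaurentSeries k) := by
    ext a : 1
    simp
  have h1 : HahnSeries.ofPowerSeries ℤ k (Polynomial.aeval y' P) = P.eval₂ HahnSeries.C y := by
    rw [Polynomial.aeval_def, Polynomial.hom_eval₂, hcomp, hy']
  have h2 : Polynomial.aeval y' P = 0 := by
    apply HahnSeries.ofPowerSeries_injective (Γ := ℤ) (R := k)
    rw [h1, hroot, map_zero]
  rw [← hy', m16intf_root_zero' P hP y' h0 h2, map_zero]

end Fermat.Agent.M16
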