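/-
M16 (S16 project), LOWER BOUND side, package INT, block I8a (helper3), part (a):
"power series modulo `I`".

For a subring `R` of a commutative ring `S` and an additive subgroup `I` with `I · R ⊆ I`,
`m16inti_W R I hI` is the subring of the Laurent series `x` over `S` with all coefficients in `R`
and all coefficients of negative index in `I`.
-/
import Mathlib

set_option autoImplicit false

noncomputable section

namespace Fermat.Agent.M16

variable {S : Type*} [CommRing S]

/-- the coefficients of negative index of a product -/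
theorem m16inti_mul_neg (R : Subring S) (I : AddSubgroup S) (hI : ∀ x ∈ I, ∀ y ∈ R, x * y ∈ I)
    (x y : LaurentSeries S) (hx : ∀ n, x.coeff n ∈ R) (hy : ∀ n, y.coeff n ∈ R)
    (hx' : ∀ n : ℤ, n < 0 → x.coeff n ∈ I) (hy' : ∀ n : ℤ, n < 0 → y.coeff n ∈ I)
    (n : ℤ) (hn : n < 0) : (x * y).coeff n ∈ I := by
  rw [HahnSeries.coeff_mul]
  refine I.sum_mem fun ij hij => ?_
  rw [Finset.mem_addAntidiagonal] at hij
  obtain ⟨-, -, hsum⟩ := hij
  by_cases h1 : ij.1 < 0
  · exact hI _ (hx' _ h1) _ (hy _)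
  · have h2 : ij.2 < 0 := by omega
    rw [mul_comm]
    exact hI _ (hy' _ h2) _ (hx _)

theorem m16inti_mul_all (R : Subring S) (x y : LaurentSeries S) (hx : ∀ n, x.coeff n ∈ R)
    (hy : ∀ n, y.coeff n ∈ R) (n : ℤ) : (x * y).coeff n ∈ R := by
  rw [HahnSeries.coeff_mul]
  exact R.sum_mem fun ij _ => R.mul_mem (hx _) (hy _)

/-- **power series modulo `I`**: Laurent series over `R` whose principal part has coefficients
in `I`. -/
def m16inti_W (R : Subring S) (I : AddSubgroup S) (hI : ∀ x ∈ I, ∀ y ∈ R, x * y ∈ I) :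
    Subring (LaurentSeries S) where
  carrier := {x | (∀ n, x.coeff n ∈ R) ∧ ∀ n : ℤ, n < 0 → x.coeff n ∈ I}
  mul_mem' := by
    rintro x y ⟨hx, hx'⟩ ⟨hy, hy'⟩
    exact ⟨m16inti_mul_all R x y hx hy, m16inti_mul_neg R I hI x y hx hy hx' hy'⟩
  one_mem' := by
    refine ⟨fun n => ?_, fun n hn => ?_⟩
    · rw [HahnSeries.coeff_one]
      split_ifs
      · exact R.one_mem
      · exact R.zero_mem
    · rw [HahnSeries.coeff_one, if_neg (by omega)]
      exact I.zero_mem
  add_mem' := by
    rintro x y ⟨hx, hx'⟩ ⟨hy, hy'⟩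
    refine ⟨fun n => ?_, fun n hn => ?_⟩
    · rw [HahnSeries.coeff_add]
      exact R.add_mem (hx n) (hy n)
    · rw [HahnSeries.coeff_add]
      exact I.add_mem (hx' n hn) (hy' n hn)
  zero_mem' := by
    refine ⟨fun n => ?_, fun n _ => ?_⟩
    · rw [HahnSeries.coeff_zero]
      exact R.zero_mem
    · rw [HahnSeries.coeff_zero]
      exact I.zero_mem
  neg_mem' := by
    rintro x ⟨hx, hx'⟩
    refine ⟨fun n => ?_, fun n hn => ?_⟩
    · rw [HahnSeries.coeff_neg]
      exact R.neg_mem (hx n)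
    · rw [HahnSeries.coeff_neg]
      exact I.neg_mem (hx' n hn)

theorem m16inti_mem_W {R : Subring S} {I : AddSubgroup S} {hI : ∀ x ∈ I, ∀ y ∈ R, x * y ∈ I}
    {x : LaurentSeries S} :
    x ∈ m16inti_W R I hI ↔ (∀ n, x.coeff n ∈ R) ∧ ∀ n : ℤ, n < 0 → x.coeff n ∈ I := Iff.rfl

/-- the ideal of Laurent series over `R` with ALL coefficients in `I`, as an additive subgroup
stable under multiplication by Laurent series over `R`. -/
theorem m16inti_mul_mem_I (R : Subring S) (I : AddSubgroup S) (hI : ∀ x ∈ I, ∀ y ∈ R, x * y ∈ I)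
    (x y : LaurentSeries S) (hx : ∀ n, x.coeff n ∈ I) (hy : ∀ n, y.coeff n ∈ R) (n : ℤ) :
    (x * y).coeff n ∈ I := by
  rw [HahnSeries.coeff_mul]
  exact I.sum_mem fun ij _ => hI _ (hx _) _ (hy _)

end Fermat.Agent.M16
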