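/-
M16 (S16 project), LOWER BOUND side, package INT, block I8a (helper3), parts (b), (c):

For a `Γ₀(p)`-invariant `Y ∈ ana_ring p`, holomorphic at the cusp `0`, with expansions over
`O = m16nrm_O ℓ` at both cusps and principal part at `∞` in `J = ℓ O`:
* all conjugate expansions lie in `W(O, J)` ("power series modulo `J`"), hence so do the
  expansions of the coefficients of the characteristic polynomial `m16h1_Phi p Y`;
* if these expansions are rational, they are `P_i(J)` with `P_i` over `O ∩ ℚ`, and `P_i` is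
  constant modulo `J`.
-/
import Fermat.Agent.M16.H1Sym
import Fermat.Agent.M16.H1Rat
import Fermat.Agent.M16.NrmAlg
import Fermat.Agent.M16.IntW
import Fermat.Agent.M16.IntConst

set_option autoImplicit false
set_option linter.unusedSectionVars false

noncomputable section

namespace Fermat.Agent.M16

open UpperHalfPlane hiding I
open ModularCurve
open scoped MatrixGroups
open CongruenceSubgroup
open Fermat.Agent.S23 Fermat.Agent.S24 Fermat.Agent.M28

variable (p ℓ : ℕ) [Fact p.Prime] [Fact ℓ.Prime]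

/-- Laurent series over `O` with principal part over `J = ℓ O`. -/
def m16inti_WO : Subring (LaurentSeries ℂ) :=
  m16inti_W (m16nrm_O ℓ) (m16nrm_J ℓ) (fun _ hx _ hy => m16nrm_J_mul hx hy)

theorem m16inti_mem_WO {x : LaurentSeries ℂ} :
    x ∈ m16inti_WO ℓ ↔
      (∀ n, x.coeff n ∈ m16nrm_O ℓ) ∧ ∀ n : ℤ, n < 0 → x.coeff n ∈ m16nrm_J ℓ := Iff.rfl

theorem m16inti_zeta_zpow_mem (n : ℤ) : ((atw_zeta p ^ n : ℂˣ) : ℂ) ∈ m16nrm_O ℓ := by
  have hp0 : 0 < p := (Fact.out : p.Prime).pos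
  haveI : NeZero p := ⟨hp0.ne'⟩
  refine m16nrm_zeta_mem_O hp0 ?_
  rw [← Units.val_pow_eq_pow_val, ← zpow_natCast, ← zpow_mul, mul_comm, zpow_mul,
    zpow_natCast, (atw_zeta_isPrimitiveRoot p).pow_eq_one, one_zpow, Units.val_one]

/-- the expansions of the conjugates lie in `W(O, J)`. -/
theorem m16inti_cj_mem (Y : ana_ring p) (hinf : ana_qexp p Y ∈ m16inti_WO ℓ)
    (h0 : ∀ n, (ana_qexp p (ana_comp p ModularGroup.S Y)).coeff n ∈ m16nrm_O ℓ)
    (h0' : ∀ n : ℤ, n < 0 → (ana_qexp p (ana_comp p ModularGroup.S Y)).coeff n = 0)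
    (c : Option (ZMod p)) : ana_qexp p (m16h1_cj p Y c) ∈ m16inti_WO ℓ := by
  cases c with
  | none => exact hinf
  | some k =>
    rw [m16h1_cj_some, m16h1_qexp_cjZ, m16inti_mem_WO]
    refine ⟨fun n => ?_, fun n hn => ?_⟩
    · rw [cf_twist_coeff, ← zpow_mul]
      exact (m16nrm_O ℓ).mul_mem (m16inti_zeta_zpow_mem p ℓ _) (h0 n)
    · rw [cf_twist_coeff, h0' n hn, mul_zero]
      exact (m16nrm_J ℓ).zero_mem

/-- the expansions of the coefficients of the characteristic polynomial lie in `W(O, J)`. -/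
theorem m16inti_Phi_coeff_mem (Y : ana_ring p) (hinf : ana_qexp p Y ∈ m16inti_WO ℓ)
    (h0 : ∀ n, (ana_qexp p (ana_comp p ModularGroup.S Y)).coeff n ∈ m16nrm_O ℓ)
    (h0' : ∀ n : ℤ, n < 0 → (ana_qexp p (ana_comp p ModularGroup.S Y)).coeff n = 0) (i : ℕ) :
    ana_qexp p ((m16h1_Phi p Y).coeff i) ∈ m16inti_WO ℓ := by
  rw [m16h1_Phi, ← Polynomial.coeff_map, m28pf_Phi_map]
  exact m28pf_Phi_coeff_mem (m16inti_WO ℓ) _ (m16inti_cj_mem p ℓ Y hinf h0 h0') i

/-- the relation `∑ E_i B^i = 0` between the expansion `B` of `Y` at `∞` and the expansions `E_i`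
of the coefficients of the characteristic polynomial. -/
theorem m16inti_relation (Y : ana_ring p) :
    ∑ i ∈ Finset.range (p + 2), ana_qexp p ((m16h1_Phi p Y).coeff i) * ana_qexp p Y ^ i = 0 := by
  have h := m28pf_Phi_eval (m16h1_cj p Y) none
  rw [m16h1_cj_none] at h
  have hdeg : (m28pf_Phi (m16h1_cj p Y)).natDegree < p + 2 := by
    rw [m28pf_Phi_natDegree]
    simp [Fintype.card_option, ZMod.card]
  rw [Polynomial.eval_eq_sum_range' hdeg] at h
  have h2 := congrArg (ana_qexp p) h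
  rw [map_sum, map_zero] at h2
  rw [← h2]
  refine Finset.sum_congr rfl fun i _ => ?_
  rw [map_mul, map_pow]
  rfl

theorem m16inti_Phi_coeff_top (Y : ana_ring p) : (m16h1_Phi p Y).coeff (p + 1) = 1 := by
  have h1 : (m28pf_Phi (m16h1_cj p Y)).natDegree = p + 1 := by
    rw [m28pf_Phi_natDegree]
    simp [Fintype.card_option, ZMod.card]
  have h2 := (m28pf_Phi_monic (m16h1_cj p Y)).coeff_natDegree
  rw [h1] at h2
  exact h2

/-- **constancy modulo `J`**: the coefficients of the characteristic polynomial are `P_i(J)` with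
`P_i` over `O ∩ ℚ`, constant modulo `J`. -/
theorem m16inti_poly (Y : ana_ring p) (hΓ : ∀ γ ∈ Gamma0 p, ana_comp p γ Y = Y)
    (hinf : ana_qexp p Y ∈ m16inti_WO ℓ)
    (h0 : ∀ n, (ana_qexp p (ana_comp p ModularGroup.S Y)).coeff n ∈ m16nrm_O ℓ)
    (h0' : ∀ n : ℤ, n < 0 → (ana_qexp p (ana_comp p ModularGroup.S Y)).coeff n = 0)
    (hrat : ∀ i, ana_qexp p ((m16h1_Phi p Y).coeff i) ∈ m16h1_LR m16h1_Q.toSubring) (i : ℕ) :
    ∃ P : Polynomial ℂ, (∀ n, P.coeff n ∈ m16nrm_O ℓ) ∧ (∀ n, P.coeff n ∈ m16h1_Q) ∧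
      (∀ n, 1 ≤ n → P.coeff n ∈ m16nrm_J ℓ) ∧
      ana_qexp p ((m16h1_Phi p Y).coeff i) = P.eval₂ HahnSeries.C (qExpand ℂ p (jqModC ℂ)) := by
  haveI : NeZero p := ⟨(Fact.out : p.Prime).ne_zero⟩
  have hW := m16inti_Phi_coeff_mem p ℓ Y hinf h0 h0' i
  have hR : ana_qexp p ((m16h1_Phi p Y).coeff i) ∈
      m16h1_LR ((m16nrm_O ℓ) ⊓ m16h1_Q.toSubring) := by
    rw [m16h1_mem_LR_iff]
    intro n
    exact ⟨hW.1 n, (m16h1_mem_LR_iff _ _).mp (hrat i) n⟩
  obtain ⟨P, hP, -, hq⟩ := m16h1_level_one_poly p _ _ (m16h1_Phi_coeff_inv p Y hΓ i) hR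
  refine ⟨P, fun n => (hP n).1, fun n => (hP n).2, ?_, hq⟩
  refine m16intc_const (m16nrm_J ℓ) p P fun n hn => ?_
  rw [← hq]
  exact hW.2 n hn

end Fermat.Agent.M16
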