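/-
S16, package INT, block I9 (helper8): NEWTON for Laurent series.

* `m16intn_esymm_mem`, `m16intn_prod_coeff_mem`, `m16intn_Phi_coeff_mem` : in a commutative ring
  `A` with a subring `S` in which every positive integer is invertible, if all power sums
  `∑ a_c ^ n`, `n ≥ 1`, of a finite family lie in `S`, then the elementary symmetric functions and
  all coefficients of `∏ (X - a_c)` lie in `S`;
* `m16intn_laurent`, `m16intn_laurent_prod` : the case `A = ℂ((q))`, `S` = series with
  coefficients in a subfield `K ⊂ ℂ`;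
* `m16intn_Phi_coeff_qexp` : for `ψ` good over `K`, the coefficients of the characteristic
  polynomial `m16h1_Phi p ψ` have expansions over `K`.
-/
import Mathlib
import Fermat.Agent.M16.H1Sym

set_option autoImplicit false
set_option linter.unusedSectionVars false

noncomputable section

namespace Fermat.Agent.M16

open Polynomial
open Fermat.Agent.S23 Fermat.Agent.S24 Fermat.Agent.M28
open scoped MatrixGroups

/-- **Newton**: power sums in `S` (positive integers invertible in `S`) ⇒ elementary symmetric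
functions in `S`. -/
theorem m16intn_esymm_mem {A : Type*} [CommRing A] {ι : Type*} [Fintype ι] [DecidableEq ι]
    (S : Subring A) (hS : ∀ k : ℕ, 0 < k → ∃ u ∈ S, (k : A) * u = 1) (a : ι → A)
    (ha : ∀ n : ℕ, 1 ≤ n → ∑ c, a c ^ n ∈ S) (k : ℕ) :
    MvPolynomial.aeval a (MvPolynomial.esymm ι A k) ∈ S := by
  induction k using Nat.strong_induction_on with
  | _ k ih =>
    rcases Nat.eq_zero_or_pos k with rfl | hk
    · rw [MvPolynomial.esymm_zero, map_one]
      exact S.one_mem
    · have h := congrArg (MvPolynomial.aeval a) (MvPolynomial.mul_esymm_eq_sum ι A k)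
      rw [map_mul, map_natCast, map_mul, map_pow, map_neg, map_one, map_sum] at h
      have hmem : (k : A) * MvPolynomial.aeval a (MvPolynomial.esymm ι A k) ∈ S := by
        rw [h]
        refine S.mul_mem (S.pow_mem (S.neg_mem S.one_mem) _) (S.sum_mem fun x hx => ?_)
        rw [map_mul, map_mul, map_pow, map_neg, map_one]
        have hx' := Finset.mem_filter.mp hx
        have hx1 : x.1 < k := hx'.2
        have hx0 : x.1 + x.2 = k := Finset.HasAntidiagonal.mem_antidiagonal.mp hx'.1
        refine S.mul_mem (S.mul_mem (S.pow_mem (S.neg_mem S.one_mem) _) (ih x.1 hx1)) ?_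
        rw [MvPolynomial.psum, map_sum]
        simp only [map_pow, MvPolynomial.aeval_X]
        exact ha x.2 (by omega)
      obtain ⟨u, hu, hku⟩ := hS k hk
      have e : MvPolynomial.aeval a (MvPolynomial.esymm ι A k)
          = u * ((k : A) * MvPolynomial.aeval a (MvPolynomial.esymm ι A k)) := by
        rw [← mul_assoc, mul_comm u, hku, one_mul]
      rw [e]
      exact S.mul_mem hu hmem

/-- **Newton**: power sums in `S` ⇒ coefficients of `∏ (X - a c)` in `S`. -/
theorem m16intn_prod_coeff_mem {A : Type*} [CommRing A] {ι : Type*} [Fintype ι] [DecidableEq ι]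
    (S : Subring A) (hS : ∀ k : ℕ, 0 < k → ∃ u ∈ S, (k : A) * u = 1) (a : ι → A)
    (ha : ∀ n : ℕ, 1 ≤ n → ∑ c, a c ^ n ∈ S) (i : ℕ) :
    (∏ c, (X - C (a c))).coeff i ∈ S := by
  have h1 : (∏ c, (X - C (a c)) : A[X])
      = ((Finset.univ.val.map a).map fun t => X - C t).prod := by
    rw [Multiset.map_map]
    rfl
  rw [h1]
  by_cases hi : i ≤ Multiset.card (Finset.univ.val.map a)
  · rw [Multiset.prod_X_sub_C_coeff _ hi,
      ← MvPolynomial.aeval_esymm_eq_multiset_esymm (σ := ι) (R := A) (S := A) _ a]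
    exact S.mul_mem (S.pow_mem (S.neg_mem S.one_mem) _) (m16intn_esymm_mem S hS a ha _)
  · by_cases hnt : Nontrivial A
    · rw [Polynomial.coeff_eq_zero_of_natDegree_lt]
      · exact S.zero_mem
      · have hdeg := Polynomial.natDegree_multiset_prod_X_sub_C_eq_card (Finset.univ.val.map a)
        rw [hdeg]
        omega
    · rw [not_nontrivial_iff_subsingleton] at hnt
      rw [Subsingleton.elim (Polynomial.coeff _ i) 0]
      exact S.zero_mem

/-- the same for `m28pf_Phi a = Lagrange.nodal Finset.univ a`. -/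
theorem m16intn_Phi_coeff_mem {A : Type*} [CommRing A] {ι : Type*} [Fintype ι] [DecidableEq ι]
    (S : Subring A) (hS : ∀ k : ℕ, 0 < k → ∃ u ∈ S, (k : A) * u = 1) (a : ι → A)
    (ha : ∀ n : ℕ, 1 ≤ n → ∑ c, a c ^ n ∈ S) (i : ℕ) :
    (m28pf_Phi a).coeff i ∈ S := by
  have h : m28pf_Phi a = ∏ c, (X - C (a c)) := by
    unfold m28pf_Phi
    rw [Lagrange.nodal_eq]
  rw [h]
  exact m16intn_prod_coeff_mem S hS a ha i

/-- positive integers are invertible in the ring of Laurent series over a subfield. -/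
theorem m16intn_LR_inv (K : Subfield ℂ) (k : ℕ) (hk : 0 < k) :
    ∃ u ∈ m16h1_LR K.toSubring, ((k : ℕ) : LaurentSeries ℂ) * u = 1 := by
  have hk0 : (k : ℂ) ≠ 0 := by exact_mod_cast hk.ne'
  refine ⟨HahnSeries.C ((k : ℂ)⁻¹), ?_, ?_⟩
  · rw [m16h1_mem_LR_iff]
    intro n
    rw [HahnSeries.C_apply, HahnSeries.coeff_single]
    split_ifs
    · exact K.inv_mem (natCast_mem K k)
    · exact K.zero_mem
  · have h1 : ((k : ℕ) : LaurentSeries ℂ) = HahnSeries.C ((k : ℂ)) := by
      rw [map_natCast]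
    rw [h1, ← map_mul, mul_inv_cancel₀ hk0, map_one]

/-- **I9 (NEWTON-LAURENT)**, `m28pf_Phi` form. -/
theorem m16intn_laurent {ι : Type*} [Fintype ι] [DecidableEq ι] (K : Subfield ℂ)
    (a : ι → LaurentSeries ℂ) (ha : ∀ n : ℕ, 1 ≤ n → ∑ c, a c ^ n ∈ m16h1_LR K.toSubring)
    (i : ℕ) : (m28pf_Phi a).coeff i ∈ m16h1_LR K.toSubring :=
  m16intn_Phi_coeff_mem (m16h1_LR K.toSubring) (m16intn_LR_inv K) a ha i

/-- **I9 (NEWTON-LAURENT)**, product form. -/
theorem m16intn_laurent_prod {ι : Type*} [Fintype ι] [DecidableEq ι] (K : Subfield ℂ)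
    (a : ι → LaurentSeries ℂ) (ha : ∀ n : ℕ, 1 ≤ n → ∑ c, a c ^ n ∈ m16h1_LR K.toSubring)
    (i : ℕ) : (∏ c, (X - C (a c))).coeff i ∈ m16h1_LR K.toSubring :=
  m16intn_prod_coeff_mem (m16h1_LR K.toSubring) (m16intn_LR_inv K) a ha i

/-! ### the conjugates of a product -/

variable (p : ℕ) [Fact p.Prime]

theorem m16intn_cj_mul (ψ φ : ana_ring p) (c : Option (ZMod p)) :
    m16h1_cj p (ψ * φ) c = m16h1_cj p ψ c * m16h1_cj p φ c := by
  cases c with
  | none => rfl
  | some k =>
    rw [m16h1_cj_some, m16h1_cj_some, m16h1_cj_some]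
    unfold m16h1_cjZ
    rw [map_mul, map_mul]

theorem m16intn_cj_one (c : Option (ZMod p)) : m16h1_cj p (1 : ana_ring p) c = 1 := by
  cases c with
  | none => rfl
  | some k =>
    rw [m16h1_cj_some]
    unfold m16h1_cjZ
    rw [map_one, map_one]

theorem m16intn_cj_pow (ψ : ana_ring p) (n : ℕ) (c : Option (ZMod p)) :
    m16h1_cj p (ψ ^ n) c = m16h1_cj p ψ c ^ n := by
  induction n with
  | zero => rw [pow_zero, pow_zero, m16intn_cj_one]
  | succ n ih => rw [pow_succ, pow_succ, m16intn_cj_mul, ih]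

/-- the power sums of the conjugates are the traces of the powers. -/
theorem m16intn_sum_cj_pow (ψ : ana_ring p) (n : ℕ) :
    ∑ c, m16h1_cj p ψ c ^ n = m16h1_tr p (ψ ^ n) := by
  unfold m16h1_tr
  exact Finset.sum_congr rfl fun c _ => (m16intn_cj_pow p ψ n c).symm

/-- **the characteristic polynomial of a function good over a subfield `K` has coefficients
with expansions over `K`**. -/
theorem m16intn_Phi_coeff_qexp (K : Subfield ℂ) {ψ : ana_ring p}
    (hψ : m16h1_Good p K.toSubring ψ) (i : ℕ) :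
    ana_qexp p ((m16h1_Phi p ψ).coeff i) ∈ m16h1_LR K.toSubring := by
  rw [m16h1_Phi, ← Polynomial.coeff_map, m28pf_Phi_map]
  refine m16intn_laurent K _ (fun n _ => ?_) i
  have h : ∑ c, (ana_qexp p) (m16h1_cj p ψ c) ^ n = ana_qexp p (m16h1_tr p (ψ ^ n)) := by
    rw [← m16intn_sum_cj_pow, map_sum]
    exact Finset.sum_congr rfl fun c _ => (map_pow _ _ _).symm
  rw [h]
  exact m16h1_tr_qexp_mem p (hψ.pow p n)

end Fermat.Agent.M16

end
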