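import Fermat.Agent.M16.IntRed

/-!
# M16 / INT, block I6 (RED), part 2: reduction of polynomials in `j` (prefix `m16intr_`)

* `m16intr_polyRed ℓ P : (ZMod ℓ)[X]` : the reduction of `P : ℂ[X]` with `ℓ`-integral rational
  coefficients; `m16intr_polyRed_coeff`, `m16intr_polyRed_eq_zero_iff`;
* `m16intr_eval₂_mem`, `m16intr_red_eval₂` : `red (P(y)) = P̄(red y)`;
* `m16intr_red_eval₂_jq` : `red (P(j(q^d))) = P̄(j̄(q^d))`;
* `m16intr_exists_powerSeries` : a Laurent series without coefficients of negative index is a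
  power series.
-/

set_option autoImplicit false
set_option linter.unusedSectionVars false
set_option linter.unusedVariables false
set_option linter.style.haveILetI false

noncomputable section

namespace Fermat.Agent.M16

open ModularCurve Polynomial
open Fermat.Agent.S24 Fermat.Agent.M28
open scoped Classical

variable (ℓ : ℕ) [Fact ℓ.Prime]

theorem m16intr_coeffs_subset {P : ℂ[X]} (hP : ∀ i, P.coeff i ∈ m16intr_Zl ℓ) :
    (↑P.coeffs : Set ℂ) ⊆ ↑(m16intr_Zl ℓ) := by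
  intro c hc
  obtain ⟨n, -, rfl⟩ := Polynomial.mem_coeffs_iff.mp (Finset.mem_coe.mp hc)
  exact hP n

/-- the reduction mod `ℓ` of a polynomial with `ℓ`-integral rational coefficients
(`0` if some coefficient is not `ℓ`-integral). -/
def m16intr_polyRed (P : ℂ[X]) : (ZMod ℓ)[X] :=
  if h : (↑P.coeffs : Set ℂ) ⊆ ↑(m16intr_Zl ℓ) then
    (P.toSubring (m16intr_Zl ℓ) h).map (m16intr_res ℓ)
  else 0

theorem m16intr_polyRed_eq (P : ℂ[X]) (hP : ∀ i, P.coeff i ∈ m16intr_Zl ℓ) :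
    m16intr_polyRed ℓ P
      = (P.toSubring (m16intr_Zl ℓ) (m16intr_coeffs_subset ℓ hP)).map (m16intr_res ℓ) := by
  unfold m16intr_polyRed
  rw [dif_pos (m16intr_coeffs_subset ℓ hP)]

theorem m16intr_polyRed_coeff (P : ℂ[X]) (hP : ∀ i, P.coeff i ∈ m16intr_Zl ℓ) (i : ℕ) :
    (m16intr_polyRed ℓ P).coeff i = m16intr_res ℓ ⟨P.coeff i, hP i⟩ := by
  rw [m16intr_polyRed_eq ℓ P hP, Polynomial.coeff_map]
  congr 1
  apply Subtype.ext
  exact Polynomial.coeff_toSubring _ _ _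

theorem m16intr_polyRed_coeff_eq_zero_iff (P : ℂ[X]) (hP : ∀ i, P.coeff i ∈ m16intr_Zl ℓ)
    (i : ℕ) :
    (m16intr_polyRed ℓ P).coeff i = 0 ↔ ∃ y ∈ m16intr_Zl ℓ, P.coeff i = (ℓ : ℂ) * y := by
  rw [m16intr_polyRed_coeff ℓ P hP, m16intr_res_eq_zero_iff]

theorem m16intr_polyRed_eq_zero_iff (P : ℂ[X]) (hP : ∀ i, P.coeff i ∈ m16intr_Zl ℓ) :
    m16intr_polyRed ℓ P = 0 ↔ ∀ i, ∃ y ∈ m16intr_Zl ℓ, P.coeff i = (ℓ : ℂ) * y := by
  constructor
  · intro h i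
    rw [← m16intr_polyRed_coeff_eq_zero_iff ℓ P hP, h, Polynomial.coeff_zero]
  · intro h
    ext i
    rw [(m16intr_polyRed_coeff_eq_zero_iff ℓ P hP i).mpr (h i), Polynomial.coeff_zero]

theorem m16intr_polyRed_natDegree_le (P : ℂ[X]) (hP : ∀ i, P.coeff i ∈ m16intr_Zl ℓ) :
    (m16intr_polyRed ℓ P).natDegree ≤ P.natDegree := by
  rw [Polynomial.natDegree_le_iff_coeff_eq_zero]
  intro i hi
  rw [m16intr_polyRed_coeff ℓ P hP]
  have h0 : P.coeff i = 0 := Polynomial.coeff_eq_zero_of_natDegree_lt hi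
  have : (⟨P.coeff i, hP i⟩ : ↥(m16intr_Zl ℓ)) = 0 := Subtype.ext h0
  rw [this, map_zero]

/-- the constants, as a ring homomorphism into the integral Laurent series. -/
def m16intr_CZ : ↥(m16intr_Zl ℓ) →+* ↥(m16intr_LZ ℓ) where
  toFun a := ⟨HahnSeries.C (a : ℂ), m16intr_C_mem ℓ a.2⟩
  map_one' := Subtype.ext (map_one _)
  map_mul' a b := Subtype.ext (map_mul HahnSeries.C (a : ℂ) (b : ℂ))
  map_zero' := Subtype.ext (map_zero _)
  map_add' a b := Subtype.ext (map_add HahnSeries.C (a : ℂ) (b : ℂ))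

theorem m16intr_red_comp_CZ :
    (m16intr_red ℓ).comp (m16intr_CZ ℓ)
      = (HahnSeries.C : ZMod ℓ →+* LaurentSeries (ZMod ℓ)).comp (m16intr_res ℓ) := by
  ext a : 1
  exact m16intr_red_C ℓ a

theorem m16intr_subtype_comp_CZ :
    (m16intr_LZ ℓ).subtype.comp (m16intr_CZ ℓ)
      = (HahnSeries.C : ℂ →+* LaurentSeries ℂ).comp (m16intr_Zl ℓ).subtype := by
  ext a : 1
  rfl

theorem m16intr_eval₂_eq (P : ℂ[X]) (hP : ∀ i, P.coeff i ∈ m16intr_Zl ℓ) (y : ↥(m16intr_LZ ℓ)) :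
    (((P.toSubring (m16intr_Zl ℓ) (m16intr_coeffs_subset ℓ hP)).eval₂ (m16intr_CZ ℓ) y :
      ↥(m16intr_LZ ℓ)) : LaurentSeries ℂ) = P.eval₂ HahnSeries.C (y : LaurentSeries ℂ) := by
  have h1 := Polynomial.hom_eval₂ (P.toSubring (m16intr_Zl ℓ) (m16intr_coeffs_subset ℓ hP))
    (m16intr_CZ ℓ) (m16intr_LZ ℓ).subtype y
  have h2 : (m16intr_LZ ℓ).subtype y = (y : LaurentSeries ℂ) := rfl
  rw [m16intr_subtype_comp_CZ, h2, ← Polynomial.eval₂_map, Polynomial.map_toSubring] at h1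
  exact h1

theorem m16intr_eval₂_mem (P : ℂ[X]) (hP : ∀ i, P.coeff i ∈ m16intr_Zl ℓ)
    {y : LaurentSeries ℂ} (hy : y ∈ m16intr_LZ ℓ) :
    P.eval₂ HahnSeries.C y ∈ m16intr_LZ ℓ := by
  rw [← m16intr_eval₂_eq ℓ P hP ⟨y, hy⟩]
  exact Subtype.property _

/-- **`red (P(y)) = P̄ (red y)`.** -/
theorem m16intr_red_eval₂ (P : ℂ[X]) (hP : ∀ i, P.coeff i ∈ m16intr_Zl ℓ)
    (y : ↥(m16intr_LZ ℓ)) :
    m16intr_red ℓ ⟨P.eval₂ HahnSeries.C (y : LaurentSeries ℂ), m16intr_eval₂_mem ℓ P hP y.2⟩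
      = (m16intr_polyRed ℓ P).eval₂ HahnSeries.C (m16intr_red ℓ y) := by
  have h0 : (⟨P.eval₂ HahnSeries.C (y : LaurentSeries ℂ), m16intr_eval₂_mem ℓ P hP y.2⟩ :
      ↥(m16intr_LZ ℓ))
      = (P.toSubring (m16intr_Zl ℓ) (m16intr_coeffs_subset ℓ hP)).eval₂ (m16intr_CZ ℓ) y :=
    Subtype.ext (m16intr_eval₂_eq ℓ P hP y).symm
  rw [h0, Polynomial.hom_eval₂, m16intr_red_comp_CZ, ← Polynomial.eval₂_map,
    ← m16intr_polyRed_eq ℓ P hP]

/-- **`red (P(j(q^d))) = P̄ (j̄(q^d))`.** -/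
theorem m16intr_red_eval₂_jq (P : ℂ[X]) (hP : ∀ i, P.coeff i ∈ m16intr_Zl ℓ) (d : ℕ) [NeZero d] :
    m16intr_red ℓ ⟨P.eval₂ HahnSeries.C (qExpand ℂ d (jqModC ℂ)),
        m16intr_eval₂_mem ℓ P hP (m16intr_jqd_mem ℓ d)⟩
      = (m16intr_polyRed ℓ P).eval₂ HahnSeries.C (qExpand (ZMod ℓ) d (jqModC (ZMod ℓ))) := by
  have h := m16intr_red_eval₂ ℓ P hP ⟨qExpand ℂ d (jqModC ℂ), m16intr_jqd_mem ℓ d⟩
  rw [m16intr_red_jqd] at h
  exact h

/-! ## power series -/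

/-- a Laurent series without coefficients of negative index is a power series. -/
theorem m16intr_exists_powerSeries_gen {k : Type*} [CommRing k] (x : LaurentSeries k)
    (h : ∀ n : ℤ, n < 0 → x.coeff n = 0) :
    ∃ y : PowerSeries k, HahnSeries.ofPowerSeries ℤ k y = x ∧
      ∀ n : ℕ, PowerSeries.coeff n y = x.coeff (n : ℤ) := by
  refine ⟨PowerSeries.mk fun n => x.coeff (n : ℤ), ?_, fun n => PowerSeries.coeff_mk _ _⟩
  ext n
  by_cases hn : 0 ≤ n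
  · lift n to ℕ using hn
    rw [HahnSeries.ofPowerSeries_apply_coeff, PowerSeries.coeff_mk]
  · rw [h n (by omega)]
    rw [HahnSeries.ofPowerSeries_apply]
    apply HahnSeries.embDomain_of_notMem_range
    rintro ⟨m, hm⟩
    apply hn
    rw [← hm]
    simp

/-- a Laurent series over `𝔽_ℓ` without coefficients of negative index is a power series. -/
theorem m16intr_exists_powerSeries (x : LaurentSeries (ZMod ℓ))
    (h : ∀ n : ℤ, n < 0 → x.coeff n = 0) :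
    ∃ y : PowerSeries (ZMod ℓ), HahnSeries.ofPowerSeries ℤ (ZMod ℓ) y = x := by
  obtain ⟨y, hy, -⟩ := m16intr_exists_powerSeries_gen x h
  exact ⟨y, hy⟩

end Fermat.Agent.M16

end
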