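/-
M16 (S16 project), LOWER BOUND side, package INT, block ML-A = (ML)(i)+(ii) (helper3).

`m16inti_main`: let `Y ∈ ana_ring p` be `Γ₀(p)`-invariant with expansions over `ℤ_(ℓ)` at both
cusps, holomorphic at the cusp `0`, such that all coefficients of index `≤ 0` of its expansion at
`∞` lie in `ℓ ℤ_(ℓ)`.  Then ALL coefficients of its expansion at `∞` lie in `ℓ ℤ_(ℓ)`.

Proof: the expansion `B` of `Y` at `∞` is a root of the characteristic polynomial
`∑ E_i X^i` (`m16inti_relation`); the `E_i` have coefficients in `ℤ_(ℓ)` and are constant modulo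
`ℓ` (`m16inti_poly`, from I5 + I9 + the level-one principle); reducing modulo `ℓ` (I6), the
reduction of `B` is a Laurent series without terms of index `≤ 0` killed by a monic polynomial
with constant coefficients, hence zero (I4).
-/
import Fermat.Agent.M16.IntInfA
import Fermat.Agent.M16.IntRedPoly
import Fermat.Agent.M16.IntFormal
import Fermat.Agent.M16.IntNewton

set_option autoImplicit false
set_option linter.unusedSectionVars false

noncomputable section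

namespace Fermat.Agent.M16

open UpperHalfPlane hiding I
open ModularCurve
open scoped MatrixGroups
open CongruenceSubgroup
open Fermat.Agent.S23 Fermat.Agent.S24 Fermat.Agent.M28

variable (p ℓ : ℕ) [Fact p.Prime] [Fact ℓ.Prime]

theorem m16inti_Zl_le_Q : m16intr_Zl ℓ ≤ m16h1_Q.toSubring := by
  intro x hx
  obtain ⟨r, -, hr⟩ := (m16intr_mem_Zl_iff ℓ).mp hx
  exact (m16h1_mem_Q_iff x).mpr ⟨r, hr⟩

theorem m16inti_lZl_mem_J {x : ℂ} (h : ∃ y ∈ m16intr_Zl ℓ, x = (ℓ : ℂ) * y) : x ∈ m16nrm_J ℓ := by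
  obtain ⟨y, hy, rfl⟩ := h
  exact m16nrm_mem_J.mpr ⟨y, m16intr_Zl_le_O ℓ hy, rfl⟩

/-- **(ML)(i)**: the expansions `E_i` of the coefficients of the characteristic polynomial have
coefficients in `ℤ_(ℓ)`, and in `ℓ ℤ_(ℓ)` for every index `≠ 0`. -/
theorem m16inti_E (Y : ana_ring p) (hY : m16h1_Good p (m16intr_Zl ℓ) Y)
    (hhol : ∀ k : ℤ, k < 0 → (ana_qexp p (ana_comp p ModularGroup.S Y)).coeff k = 0)
    (hpp : ∀ n : ℤ, n < 0 → ∃ y ∈ m16intr_Zl ℓ, (ana_qexp p Y).coeff n = (ℓ : ℂ) * y) (i : ℕ) :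
    ana_qexp p ((m16h1_Phi p Y).coeff i) ∈ m16intr_LZ ℓ ∧
      ∀ n : ℤ, n ≠ 0 →
        ∃ y ∈ m16intr_Zl ℓ, (ana_qexp p ((m16h1_Phi p Y).coeff i)).coeff n = (ℓ : ℂ) * y := by
  haveI : NeZero p := ⟨(Fact.out : p.Prime).ne_zero⟩
  have hinf : ana_qexp p Y ∈ m16inti_WO ℓ :=
    ⟨fun n => m16intr_Zl_le_O ℓ ((m16intr_mem_LZ_iff ℓ _).mp hY.exp_inf n),
      fun n hn => m16inti_lZl_mem_J ℓ (hpp n hn)⟩
  have h0 : ∀ n, (ana_qexp p (ana_comp p ModularGroup.S Y)).coeff n ∈ m16nrm_O ℓ :=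
    fun n => m16intr_Zl_le_O ℓ ((m16intr_mem_LZ_iff ℓ _).mp hY.exp_zero n)
  have hrat : ∀ i, ana_qexp p ((m16h1_Phi p Y).coeff i) ∈ m16h1_LR m16h1_Q.toSubring :=
    fun i => m16intn_Phi_coeff_qexp p m16h1_Q (hY.mono p (m16inti_Zl_le_Q ℓ)) i
  obtain ⟨P, hPO, hPQ, hPJ, hq⟩ := m16inti_poly p ℓ Y hY.inv hinf h0 hhol hrat i
  have hW := m16inti_Phi_coeff_mem p ℓ Y hinf h0 hhol i
  have hQ : ∀ n, ∃ r : ℚ, (ana_qexp p ((m16h1_Phi p Y).coeff i)).coeff n = (r : ℂ) :=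
    fun n => (m16h1_mem_Q_iff _).mp ((m16h1_mem_LR_iff _ _).mp (hrat i) n)
  refine ⟨(m16intr_mem_LZ_iff ℓ _).mpr fun n => ?_, fun n hn => ?_⟩
  · obtain ⟨r, hr⟩ := hQ n
    exact m16intr_mem_Zl_of_O ℓ (hW.1 n) r hr
  · obtain ⟨r, hr⟩ := hQ n
    refine m16intr_mem_lZl_of_J ℓ ?_ r hr
    have h1 := m16intc_eval_sub_mem (m16nrm_J ℓ) p P (fun k hk => by
      rw [← hq]; exact hW.2 k hk) n
    rw [← hq, HahnSeries.coeff_sub, HahnSeries.C_apply, HahnSeries.coeff_single_of_ne hn,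
      sub_zero] at h1
    exact h1

/-- **ML-A = (ML)(i)+(ii)**: `Y_∞ ≡ 0 mod ℓ`. -/
theorem m16inti_main (hℓp : ℓ ≠ p) (Y : ana_ring p) (hY : m16h1_Good p (m16intr_Zl ℓ) Y)
    (hhol : ∀ k : ℤ, k < 0 → (ana_qexp p (ana_comp p ModularGroup.S Y)).coeff k = 0)
    (hpp : ∀ n : ℤ, n ≤ 0 → ∃ y ∈ m16intr_Zl ℓ, (ana_qexp p Y).coeff n = (ℓ : ℂ) * y) :
    ∀ n : ℤ, ∃ y ∈ m16intr_Zl ℓ, (ana_qexp p Y).coeff n = (ℓ : ℂ) * y := by
  classical
  have hE := m16inti_E p ℓ Y hY hhol (fun n hn => hpp n hn.le)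
  -- the elements of the subring `LZ`
  set b : ↥(m16intr_LZ ℓ) := ⟨ana_qexp p Y, hY.exp_inf⟩ with hb
  set e : ℕ → ↥(m16intr_LZ ℓ) := fun i => ⟨ana_qexp p ((m16h1_Phi p Y).coeff i), (hE i).1⟩
    with he
  have hrel : ∑ i ∈ Finset.range (p + 2), e i * b ^ i = 0 := by
    apply Subtype.ext
    rw [Subring.coe_zero, ← m16inti_relation p Y]
    simp only [he, hb, AddSubmonoidClass.coe_finset_sum, Subring.coe_mul, Subring.coe_pow]
  have hred := congrArg (m16intr_red ℓ) hrel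
  rw [map_sum, map_zero] at hred
  simp only [map_mul, map_pow] at hred
  -- the reductions of the `e i` are constants
  have hconst : ∀ i, m16intr_red ℓ (e i) = HahnSeries.C ((m16intr_red ℓ (e i)).coeff 0) := by
    intro i
    ext n
    rw [HahnSeries.C_apply]
    by_cases hn : n = 0
    · subst hn
      rw [HahnSeries.coeff_single_same]
    · rw [HahnSeries.coeff_single_of_ne hn]
      exact (m16intr_red_coeff_eq_zero_iff ℓ (e i) n).mpr ((hE i).2 n hn)
  -- the polynomial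
  set P : Polynomial (ZMod ℓ) :=
    ∑ i ∈ Finset.range (p + 2),
      Polynomial.C ((m16intr_red ℓ (e i)).coeff 0) * Polynomial.X ^ i with hP
  have htop : e (p + 1) = 1 := by
    apply Subtype.ext
    show ana_qexp p ((m16h1_Phi p Y).coeff (p + 1)) = 1
    rw [m16inti_Phi_coeff_top, map_one]
  have hPne : P ≠ 0 := by
    intro h0
    have h1 : P.coeff (p + 1) = 1 := by
      rw [hP, Polynomial.finset_sum_coeff, Finset.sum_eq_single (p + 1)]
      · rw [Polynomial.coeff_C_mul, Polynomial.coeff_X_pow, if_pos rfl, mul_one, htop, map_one,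
          HahnSeries.coeff_one, if_pos rfl]
      · intro i _ hi
        rw [Polynomial.coeff_C_mul, Polynomial.coeff_X_pow, if_neg (Ne.symm hi), mul_zero]
      · intro h
        exact absurd (Finset.mem_range.mpr (by omega)) h
    rw [h0, Polynomial.coeff_zero] at h1
    exact zero_ne_one h1
  have hroot : P.eval₂ HahnSeries.C (m16intr_red ℓ b) = 0 := by
    rw [hP, Polynomial.eval₂_finset_sum, ← hred]
    refine Finset.sum_congr rfl fun i _ => ?_
    rw [Polynomial.eval₂_mul, Polynomial.eval₂_C, Polynomial.eval₂_pow, Polynomial.eval₂_X,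
      ← hconst i]
  have hy : ∀ n : ℤ, n ≤ 0 → (m16intr_red ℓ b).coeff n = 0 := fun n hn =>
    (m16intr_red_coeff_eq_zero_iff ℓ b n).mpr (hpp n hn)
  have hzero := m16intf_laurent_root_zero P hPne (m16intr_red ℓ b) hy hroot
  exact (m16intr_red_eq_zero_iff ℓ b).mp hzero

end Fermat.Agent.M16
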