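import Fermat.Agent.M16.IntEnd
import Fermat.Agent.M16.IntBdU
import Fermat.Agent.M16.IntInf

/-!
# M16 / INT, the assembly up to (ML-B) (prefix `m16inte_`)

* `m16inte_BD_holds` : (BD) holds (from `m16intb_main`);
* `m16inte_MLA_holds` : (ML-A) holds (from `m16inti_main`);
* `m16inte_main_of_MLB : (∀ p ℓ, ℓ ≠ p → m16inte_MLB p ℓ) → m16lb_INT`.
-/

set_option autoImplicit false
set_option linter.unusedSectionVars false
set_option linter.unusedVariables false
set_option linter.style.haveILetI false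

noncomputable section

namespace Fermat.Agent.M16

open ModularCurve CongruenceSubgroup
open Fermat.Agent.S24 Fermat.Agent.M28
open scoped MatrixGroups

/-- **(BD)** holds. -/
theorem m16inte_BD_holds (p ℓ : ℕ) [Fact p.Prime] [Fact ℓ.Prime] (hℓp : ℓ ≠ p) :
    m16inte_BD p ℓ :=
  m16inte_BD_of_IsLInt p ℓ (fun ψ hψ => m16intb_main p ℓ hℓp ψ hψ)

/-- **(ML-A)** holds. -/
theorem m16inte_MLA_holds (p ℓ : ℕ) [Fact p.Prime] [Fact ℓ.Prime] (hℓp : ℓ ≠ p) :
    m16inte_MLA p ℓ :=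
  fun Y hY hhol hpp => m16inti_main p ℓ hℓp Y hY hhol hpp

/-- `m16lb_INT` from (ML-B) alone. -/
theorem m16inte_main_of_MLB
    (hMLB : ∀ (p ℓ : ℕ) [Fact p.Prime] [Fact ℓ.Prime], ℓ ≠ p → m16inte_MLB p ℓ) :
    m16lb_INT :=
  m16inte_main' (fun p ℓ _ _ h => m16inte_BD_holds p ℓ h)
    (fun p ℓ _ _ h => m16inte_MLA_holds p ℓ h) hMLB

end Fermat.Agent.M16

end
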