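import Mathlib
import Fermat.Agent.M28.BmRes
import Fermat.Agent.S24.BridgeJ
import Fermat.Agent.M16.H1Lvl
import Fermat.Agent.M16.LbDefs
import Fermat.Agent.M16.NrmAlg

/-!
# M16 / INT, block I6 (RED): coefficientwise reduction mod `ℓ` (prefix `m16intr_`)

* `m16intr_Zl ℓ : Subring ℂ` : the `ℓ`-integral rational numbers;
* `m16intr_res ℓ : ↥(m16intr_Zl ℓ) →+* ZMod ℓ` : the residue map, kernel `ℓ · ℤ_(ℓ)`;
* `m16intr_red ℓ : ↥(m16h1_LR (m16intr_Zl ℓ)) →+* LaurentSeries (ZMod ℓ)` : the coefficientwise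
  reduction of Laurent series, with `m16intr_red_coeff`, `m16intr_red_eq_zero_iff`,
  `m16intr_red_C`, `m16intr_red_qExpand`, `m16intr_red_jq`.
-/

set_option autoImplicit false
set_option linter.unusedSectionVars false
set_option linter.unusedVariables false
set_option linter.style.haveILetI false

noncomputable section

namespace Fermat.Agent.M16

open ModularCurve Polynomial
open Fermat.Agent.S24 Fermat.Agent.M28

variable (ℓ : ℕ) [Fact ℓ.Prime]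

/-! ## the ring `ℤ_(ℓ) ⊆ ℂ` -/

/-- the embedding `ℤ_(ℓ) → ℂ`. -/
def m16intr_emb : ↥(GaloisRep.ratLocalizedAt ℓ) →+* ℂ :=
  (algebraMap ℚ ℂ).comp (GaloisRep.ratLocalizedAt ℓ).subtype

theorem m16intr_emb_apply (a : ↥(GaloisRep.ratLocalizedAt ℓ)) :
    m16intr_emb ℓ a = ((a : ℚ) : ℂ) := rfl

theorem m16intr_emb_injective : Function.Injective (m16intr_emb ℓ) := by
  intro a b h
  apply Subtype.ext
  have : ((a : ℚ) : ℂ) = ((b : ℚ) : ℂ) := h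
  exact_mod_cast this

/-- the `ℓ`-integral rational numbers, as a subring of `ℂ`. -/
def m16intr_Zl : Subring ℂ := (m16intr_emb ℓ).range

theorem m16intr_coprime_iff (n : ℕ) : n.Coprime ℓ ↔ ¬ ℓ ∣ n := by
  rw [Nat.coprime_comm]
  exact (Fact.out : ℓ.Prime).coprime_iff_not_dvd

theorem m16intr_mem_Zl_iff {x : ℂ} : x ∈ m16intr_Zl ℓ ↔ m16lb_IsLInt ℓ x := by
  constructor
  · rintro ⟨a, rfl⟩
    exact ⟨(a : ℚ), (m16intr_coprime_iff ℓ _).mp a.2, rfl⟩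
  · rintro ⟨r, hr, rfl⟩
    exact ⟨⟨r, (m16intr_coprime_iff ℓ _).mpr hr⟩, rfl⟩

theorem m16intr_ratCast_mem {r : ℚ} (hr : ¬ ℓ ∣ r.den) : (r : ℂ) ∈ m16intr_Zl ℓ :=
  (m16intr_mem_Zl_iff ℓ).mpr ⟨r, hr, rfl⟩

theorem m16intr_mem_Zl_iff' {x : ℂ} : x ∈ m16intr_Zl ℓ ↔ m16nrm_IsLInt ℓ x := by
  rw [m16intr_mem_Zl_iff]
  constructor
  · rintro ⟨r, hr, rfl⟩
    refine ⟨r.num, r.den, hr, ?_⟩
    have h : (r : ℂ) = (r.num : ℂ) / (r.den : ℂ) := by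
      conv_lhs => rw [← Rat.num_div_den r]
      push_cast
      rfl
    rw [h]
    have hd : (r.den : ℂ) ≠ 0 := by exact_mod_cast r.den_nz
    field_simp
  · rintro ⟨a, b, hb, h⟩
    have hb0 : b ≠ 0 := fun h0 => hb (h0 ▸ dvd_zero ℓ)
    have hbC : (b : ℂ) ≠ 0 := by exact_mod_cast hb0
    refine ⟨(a : ℚ) / (b : ℚ), ?_, ?_⟩
    · intro hdvd
      have h1 : ((a : ℚ) / (b : ℚ)).den ∣ b := by
        have := Rat.den_dvd a (b : ℤ)
        rw [Rat.divInt_eq_div] at this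
        exact_mod_cast this
      exact hb (hdvd.trans h1)
    · push_cast
      rw [eq_div_iff hbC]
      exact h

/-- `ℤ_(ℓ) ≃ m16intr_Zl ℓ`. -/
def m16intr_equiv : ↥(GaloisRep.ratLocalizedAt ℓ) ≃+* ↥(m16intr_Zl ℓ) :=
  RingEquiv.ofBijective (m16intr_emb ℓ).rangeRestrict
    ⟨fun a b h => m16intr_emb_injective ℓ (congrArg Subtype.val h),
      (m16intr_emb ℓ).rangeRestrict_surjective⟩

theorem m16intr_equiv_coe (a : ↥(GaloisRep.ratLocalizedAt ℓ)) :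
    ((m16intr_equiv ℓ a : ↥(m16intr_Zl ℓ)) : ℂ) = ((a : ℚ) : ℂ) := rfl

/-- **the residue map** `ℤ_(ℓ) → 𝔽_ℓ`. -/
def m16intr_res : ↥(m16intr_Zl ℓ) →+* ZMod ℓ :=
  (m28bm_res ℓ).comp ((m16intr_equiv ℓ).symm : ↥(m16intr_Zl ℓ) →+* ↥(GaloisRep.ratLocalizedAt ℓ))

theorem m16intr_res_equiv (a : ↥(GaloisRep.ratLocalizedAt ℓ)) :
    m16intr_res ℓ (m16intr_equiv ℓ a) = m28bm_res ℓ a := by
  show m28bm_res ℓ ((m16intr_equiv ℓ).symm (m16intr_equiv ℓ a)) = _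
  rw [RingEquiv.symm_apply_apply]

theorem m16intr_res_surjective : Function.Surjective (m16intr_res ℓ) := by
  intro c
  obtain ⟨a, ha⟩ := m28bm_res_surjective ℓ c
  exact ⟨m16intr_equiv ℓ a, by rw [m16intr_res_equiv, ha]⟩

theorem m16intr_res_intCast (a : ℤ) (h : (a : ℂ) ∈ m16intr_Zl ℓ) :
    m16intr_res ℓ ⟨(a : ℂ), h⟩ = (a : ZMod ℓ) := by
  have : (⟨(a : ℂ), h⟩ : ↥(m16intr_Zl ℓ)) = ((a : ℤ) : ↥(m16intr_Zl ℓ)) := Subtype.ext (by simp)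
  rw [this, map_intCast]

theorem m16intr_natCast_mem (n : ℕ) : (n : ℂ) ∈ m16intr_Zl ℓ := natCast_mem _ n

theorem m16intr_intCast_mem (n : ℤ) : (n : ℂ) ∈ m16intr_Zl ℓ := intCast_mem _ n

/-- the kernel of the residue map is `ℓ · ℤ_(ℓ)`. -/
theorem m16intr_res_eq_zero_iff (x : ↥(m16intr_Zl ℓ)) :
    m16intr_res ℓ x = 0 ↔ ∃ y ∈ m16intr_Zl ℓ, (x : ℂ) = (ℓ : ℂ) * y := by
  obtain ⟨a, rfl⟩ := (m16intr_equiv ℓ).surjective x
  rw [m16intr_res_equiv, ← RingHom.mem_ker, m28bm_res_ker, Ideal.mem_span_singleton]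
  constructor
  · rintro ⟨b, hb⟩
    refine ⟨((b : ℚ) : ℂ), ⟨b, rfl⟩, ?_⟩
    rw [m16intr_equiv_coe, hb]
    push_cast
    rfl
  · rintro ⟨y, ⟨b, rfl⟩, hy⟩
    refine ⟨b, ?_⟩
    apply Subtype.ext
    rw [m16intr_equiv_coe, m16intr_emb_apply] at hy
    have : ((a : ℚ) : ℂ) = (((ℓ : ℚ) * (b : ℚ) : ℚ) : ℂ) := by
      rw [hy]; push_cast; rfl
    have h2 : (a : ℚ) = (ℓ : ℚ) * (b : ℚ) := by exact_mod_cast this
    rw [h2]
    push_cast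
    rfl

/-! ## `O ∩ ℚ = ℤ_(ℓ)` -/

theorem m16intr_Zl_le_O : m16intr_Zl ℓ ≤ m16nrm_O ℓ := fun x hx =>
  m16nrm_lint_mem_O ((m16intr_mem_Zl_iff' ℓ).mp hx)

/-- a rational number which is integral over `ℤ` is an integer. -/
theorem m16intr_int_of_isIntegral (r : ℚ) (h : IsIntegral ℤ (r : ℂ)) : ∃ a : ℤ, r = a := by
  have h1 : IsIntegral ℤ r := by
    have hinj : Function.Injective (algebraMap ℚ ℂ) := (algebraMap ℚ ℂ).injective
    exact (isIntegral_algebraMap_iff (A := ℚ) (B := ℂ) hinj).mp (by simpa using h)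
  obtain ⟨a, ha⟩ := IsIntegrallyClosed.isIntegral_iff.mp h1
  exact ⟨a, by rw [← ha]; simp⟩

/-- `O ∩ ℚ = ℤ_(ℓ)`. -/
theorem m16intr_mem_Zl_of_O {x : ℂ} (hx : x ∈ m16nrm_O ℓ) (r : ℚ) (hr : x = (r : ℂ)) :
    x ∈ m16intr_Zl ℓ := by
  obtain ⟨b, hb, hint⟩ := m16nrm_mem_O.mp hx
  rw [hr] at hint
  have h1 : IsIntegral ℤ ((((b : ℚ) * r : ℚ)) : ℂ) := by
    push_cast
    exact hint
  obtain ⟨a, ha⟩ := m16intr_int_of_isIntegral _ h1
  rw [m16intr_mem_Zl_iff']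
  refine ⟨a, b, hb, ?_⟩
  rw [hr]
  have : ((((b : ℚ) * r : ℚ)) : ℂ) = ((a : ℚ) : ℂ) := by rw [ha]
  push_cast at this
  rw [mul_comm]
  exact this

/-- `J ∩ ℚ = ℓ ℤ_(ℓ)`. -/
theorem m16intr_mem_lZl_of_J {x : ℂ} (hx : x ∈ m16nrm_J ℓ) (r : ℚ) (hr : x = (r : ℂ)) :
    ∃ y ∈ m16intr_Zl ℓ, x = (ℓ : ℂ) * y := by
  obtain ⟨y, hy, hxy⟩ := m16nrm_mem_J.mp hx
  have hl : (ℓ : ℂ) ≠ 0 := by exact_mod_cast (Fact.out : ℓ.Prime).ne_zero
  refine ⟨y, m16intr_mem_Zl_of_O ℓ hy (r / (ℓ : ℚ)) ?_, hxy⟩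
  push_cast
  rw [eq_div_iff hl, ← hr, hxy]
  ring

/-! ## reduction of Laurent series -/

/-- the subring of Laurent series with `ℓ`-integral rational coefficients. -/
abbrev m16intr_LZ : Subring (LaurentSeries ℂ) := m16h1_LR (m16intr_Zl ℓ)

theorem m16intr_mem_LZ_iff (x : LaurentSeries ℂ) :
    x ∈ m16intr_LZ ℓ ↔ ∀ n, x.coeff n ∈ m16intr_Zl ℓ := m16h1_mem_LR_iff _ x

theorem m16intr_coeffMap_injective :
    Function.Injective (coeffMap (m16intr_Zl ℓ).subtype) := by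
  intro x y h
  ext n
  have h1 := congrArg (fun z : LaurentSeries ℂ => z.coeff n) h
  simp only [coeffMap_coeff] at h1
  exact h1

/-- `ℤ_(ℓ)((q)) ≃` the Laurent series over `ℂ` with coefficients in `ℤ_(ℓ)`. -/
def m16intr_liftEquiv : LaurentSeries ↥(m16intr_Zl ℓ) ≃+* ↥(m16intr_LZ ℓ) :=
  RingEquiv.ofBijective (coeffMap (m16intr_Zl ℓ).subtype).rangeRestrict
    ⟨fun a b h => m16intr_coeffMap_injective ℓ (congrArg Subtype.val h),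
      (coeffMap (m16intr_Zl ℓ).subtype).rangeRestrict_surjective⟩

theorem m16intr_liftEquiv_coe (s : LaurentSeries ↥(m16intr_Zl ℓ)) :
    ((m16intr_liftEquiv ℓ s : ↥(m16intr_LZ ℓ)) : LaurentSeries ℂ)
      = coeffMap (m16intr_Zl ℓ).subtype s := rfl

/-- **coefficientwise reduction mod `ℓ`.** -/
def m16intr_red : ↥(m16intr_LZ ℓ) →+* LaurentSeries (ZMod ℓ) :=
  (coeffMap (m16intr_res ℓ)).comp
    ((m16intr_liftEquiv ℓ).symm : ↥(m16intr_LZ ℓ) →+* LaurentSeries ↥(m16intr_Zl ℓ))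

theorem m16intr_red_liftEquiv (s : LaurentSeries ↥(m16intr_Zl ℓ)) :
    m16intr_red ℓ (m16intr_liftEquiv ℓ s) = coeffMap (m16intr_res ℓ) s := by
  show coeffMap (m16intr_res ℓ) ((m16intr_liftEquiv ℓ).symm (m16intr_liftEquiv ℓ s)) = _
  rw [RingEquiv.symm_apply_apply]

theorem m16intr_red_spec (x : ↥(m16intr_LZ ℓ)) (s : LaurentSeries ↥(m16intr_Zl ℓ))
    (hs : coeffMap (m16intr_Zl ℓ).subtype s = (x : LaurentSeries ℂ)) :
    m16intr_red ℓ x = coeffMap (m16intr_res ℓ) s := by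
  have : x = m16intr_liftEquiv ℓ s := Subtype.ext hs.symm
  rw [this, m16intr_red_liftEquiv]

theorem m16intr_coeff_mem (x : ↥(m16intr_LZ ℓ)) (n : ℤ) :
    (x : LaurentSeries ℂ).coeff n ∈ m16intr_Zl ℓ := (m16intr_mem_LZ_iff ℓ _).mp x.2 n

theorem m16intr_red_coeff (x : ↥(m16intr_LZ ℓ)) (n : ℤ) :
    (m16intr_red ℓ x).coeff n
      = m16intr_res ℓ ⟨(x : LaurentSeries ℂ).coeff n, m16intr_coeff_mem ℓ x n⟩ := by
  obtain ⟨s, rfl⟩ := (m16intr_liftEquiv ℓ).surjective x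
  rw [m16intr_red_liftEquiv, coeffMap_coeff]
  congr 1

theorem m16intr_red_coeff_eq_zero_iff (x : ↥(m16intr_LZ ℓ)) (n : ℤ) :
    (m16intr_red ℓ x).coeff n = 0
      ↔ ∃ y ∈ m16intr_Zl ℓ, (x : LaurentSeries ℂ).coeff n = (ℓ : ℂ) * y := by
  rw [m16intr_red_coeff, m16intr_res_eq_zero_iff]

theorem m16intr_red_eq_zero_iff (x : ↥(m16intr_LZ ℓ)) :
    m16intr_red ℓ x = 0
      ↔ ∀ n, ∃ y ∈ m16intr_Zl ℓ, (x : LaurentSeries ℂ).coeff n = (ℓ : ℂ) * y := by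
  constructor
  · intro h n
    rw [← m16intr_red_coeff_eq_zero_iff, h]
    rfl
  · intro h
    ext n
    rw [(m16intr_red_coeff_eq_zero_iff ℓ x n).mpr (h n)]
    rfl

/-! ### constants -/

theorem m16intr_C_mem {a : ℂ} (ha : a ∈ m16intr_Zl ℓ) :
    (HahnSeries.C a : LaurentSeries ℂ) ∈ m16intr_LZ ℓ := by
  rw [m16intr_mem_LZ_iff]
  intro n
  rw [HahnSeries.C_apply]
  by_cases hn : n = 0
  · subst hn
    rw [HahnSeries.coeff_single_same]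
    exact ha
  · rw [HahnSeries.coeff_single_of_ne hn]
    exact zero_mem _

theorem m16intr_red_C (a : ↥(m16intr_Zl ℓ)) :
    m16intr_red ℓ ⟨HahnSeries.C (a : ℂ), m16intr_C_mem ℓ a.2⟩
      = HahnSeries.C (m16intr_res ℓ a) := by
  ext n
  rw [m16intr_red_coeff]
  simp only [HahnSeries.C_apply]
  by_cases hn : n = 0
  · subst hn
    simp only [HahnSeries.coeff_single_same]
  · simp only [HahnSeries.coeff_single_of_ne hn]
    exact map_zero _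

/-! ### `qExpand` -/

theorem m16intr_qExpand_mem (d : ℕ) [NeZero d] {x : LaurentSeries ℂ}
    (hx : x ∈ m16intr_LZ ℓ) : qExpand ℂ d x ∈ m16intr_LZ ℓ := by
  obtain ⟨s, rfl⟩ := hx
  exact ⟨qExpand _ d s, br_coeffMap_qExpand _ d s⟩

theorem m16intr_red_qExpand (d : ℕ) [NeZero d] (x : ↥(m16intr_LZ ℓ)) :
    m16intr_red ℓ ⟨qExpand ℂ d (x : LaurentSeries ℂ), m16intr_qExpand_mem ℓ d x.2⟩
      = qExpand (ZMod ℓ) d (m16intr_red ℓ x) := by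
  obtain ⟨s, rfl⟩ := (m16intr_liftEquiv ℓ).surjective x
  rw [m16intr_red_liftEquiv,
    m16intr_red_spec ℓ _ (qExpand _ d s) (by
      rw [br_coeffMap_qExpand]
      rfl),
    br_coeffMap_qExpand]

/-! ### `j` -/

theorem m16intr_jq_mem : jqModC ℂ ∈ m16intr_LZ ℓ :=
  ⟨jqModC _, coeffMap_jqModC _⟩

theorem m16intr_red_jq : m16intr_red ℓ ⟨jqModC ℂ, m16intr_jq_mem ℓ⟩ = jqModC (ZMod ℓ) := by
  rw [m16intr_red_spec ℓ _ (jqModC _) (coeffMap_jqModC _), coeffMap_jqModC]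

theorem m16intr_jqd_mem (d : ℕ) [NeZero d] : qExpand ℂ d (jqModC ℂ) ∈ m16intr_LZ ℓ :=
  m16intr_qExpand_mem ℓ d (m16intr_jq_mem ℓ)

theorem m16intr_red_jqd (d : ℕ) [NeZero d] :
    m16intr_red ℓ ⟨qExpand ℂ d (jqModC ℂ), m16intr_jqd_mem ℓ d⟩
      = qExpand (ZMod ℓ) d (jqModC (ZMod ℓ)) := by
  have h := m16intr_red_qExpand ℓ d ⟨jqModC ℂ, m16intr_jq_mem ℓ⟩
  rw [m16intr_red_jq] at h
  exact h

end Fermat.Agent.M16

end
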