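/-
S16, package INT, SHARED block (G1)/(G2) (helper8): the Lagrange set-up for `ψ` and `x = J(pτ)`.

For a `Γ₀(p)`-invariant `ψ : ana_ring p`, with conjugates `y_c = m16h1_cj p ψ c` and
`x_c = m16h1_cj p (m28pa_x p) c`:

* `m16intg_G p ψ i` : the coefficients `G_i ∈ ana_ring p` of helper1's interpolation polynomial
  `m16intl_G (m16h1_cj p x) (m16h1_cj p ψ)`; they are `SL(2,ℤ)`-invariant (`m16intg_G_inv`);
* (G1) `m16intg_Phi_Zl` : for `ψ` good over `ℤ_(ℓ)`, the coefficients of `m16h1_Phi p ψ` have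
  expansions over `ℤ_(ℓ)` (generic form: `m16intg_Phi_qexp_mem`);
* (G2) `m16intg_G_poly_Zl`, `m16intg_G_poly_Q` : the `G_i` are `g_i(J)`, `g_i ∈ R[X]`
  (`R = ℤ_(ℓ)` resp. `ℚ`);
* `m16intg_lag_none`, `m16intg_lag_zero` : the Lagrange identity at the cusps `∞` and `0`, on
  expansions.
-/
import Mathlib
import Fermat.Agent.M16.IntNewton
import Fermat.Agent.M16.IntLag
import Fermat.Agent.M16.IntRed
import Fermat.Agent.M16.IntBd
import Fermat.Agent.M16.H1yGood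
import Fermat.Agent.M16.H1Rat

set_option autoImplicit false
set_option linter.unusedSectionVars false

noncomputable section

namespace Fermat.Agent.M16

open Polynomial
open ModularCurve
open Fermat.Agent.S23 Fermat.Agent.S24 Fermat.Agent.M28
open scoped MatrixGroups
open CongruenceSubgroup

variable (p : ℕ) [Fact p.Prime]

/-- the coefficients of the interpolation polynomial of `ψ` with respect to `x = J(pτ)`. -/
def m16intg_G (ψ : ana_ring p) (i : ℕ) : ana_ring p :=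
  (m16intl_G (m16h1_cj p (m28pa_x p)) (m16h1_cj p ψ)).coeff i

theorem m16intg_G_def (ψ : ana_ring p) (i : ℕ) :
    m16intg_G p ψ i = (m16intl_G (m16h1_cj p (m28pa_x p)) (m16h1_cj p ψ)).coeff i := rfl

theorem m16intg_x_inv : ∀ γ ∈ Gamma0 p, ana_comp p γ (m28pa_x p) = m28pa_x p :=
  (m16h1y_good_x p ⊤).inv

/-- the `G_i` are `SL(2,ℤ)`-invariant. -/
theorem m16intg_G_inv (ψ : ana_ring p) (hΓ : ∀ γ ∈ Gamma0 p, ana_comp p γ ψ = ψ) (i : ℕ)
    (g : SL(2, ℤ)) : ana_comp p g (m16intg_G p ψ i) = m16intg_G p ψ i :=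
  m16h1_inv_of_ST p _
    (m16intl_G_coeff_fixed (ana_comp p ModularGroup.S) (m16h1_sS p) _ _
      (m16h1_comp_S_cj p _ (m16intg_x_inv p)) (m16h1_comp_S_cj p ψ hΓ) i)
    (m16intl_G_coeff_fixed (ana_comp p ModularGroup.T) (m16h1_sT p) _ _
      (m16h1_comp_T_cj p _ (m16intg_x_inv p)) (m16h1_comp_T_cj p ψ hΓ) i)
    g

/-- the expansions of the conjugates of a function good over `R ≤ O`, `O ∋ ζ_p`. -/
theorem m16intg_qexp_cj_mem (R O : Subring ℂ) (hRO : R ≤ O)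
    (hζ : ∀ n : ℤ, ((atw_zeta p ^ n : ℂˣ) : ℂ) ∈ O) {ψ : ana_ring p}
    (hψ : m16h1_Good p R ψ) (c : Option (ZMod p)) :
    ana_qexp p (m16h1_cj p ψ c) ∈ m16h1_LR O := by
  cases c with
  | none => exact m16h1_LR_mono hRO hψ.exp_inf
  | some k =>
    rw [m16h1_cj_some, m16h1_qexp_cjZ, m16h1_mem_LR_iff]
    intro n
    rw [cf_twist_coeff, ← zpow_mul]
    exact O.mul_mem (hζ _) (hRO ((m16h1_mem_LR_iff _ _).mp hψ.exp_zero n))

/-- **the characteristic polynomial of a function good over `R = O ∩ ℚ` has coefficients with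
expansions over `R`** (generic form). -/
theorem m16intg_Phi_qexp_mem (R O : Subring ℂ) (hRO : R ≤ O)
    (hRQ : R ≤ m16h1_Q.toSubring)
    (hcap : ∀ x ∈ O, ∀ r : ℚ, x = (r : ℂ) → x ∈ R)
    (hζ : ∀ n : ℤ, ((atw_zeta p ^ n : ℂˣ) : ℂ) ∈ O) {ψ : ana_ring p}
    (hψ : m16h1_Good p R ψ) (i : ℕ) :
    ana_qexp p ((m16h1_Phi p ψ).coeff i) ∈ m16h1_LR R := by
  have h1 : ana_qexp p ((m16h1_Phi p ψ).coeff i) ∈ m16h1_LR m16h1_Q.toSubring :=
    m16intn_Phi_coeff_qexp p m16h1_Q (hψ.mono p hRQ) i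
  have h2 : ana_qexp p ((m16h1_Phi p ψ).coeff i) ∈ m16h1_LR O := by
    rw [m16h1_Phi, ← Polynomial.coeff_map, m28pf_Phi_map]
    exact m28pf_Phi_coeff_mem (m16h1_LR O) _ (m16intg_qexp_cj_mem p R O hRO hζ hψ) i
  rw [m16h1_mem_LR_iff] at h1 h2 ⊢
  intro n
  obtain ⟨r, hr⟩ := (m16h1_mem_Q_iff _).mp (h1 n)
  exact hcap _ (h2 n) r hr

theorem m16intg_Zl_le_Q (ℓ : ℕ) [Fact ℓ.Prime] : m16intr_Zl ℓ ≤ m16h1_Q.toSubring := by
  intro x hx
  obtain ⟨r, -, hr⟩ := (m16intr_mem_Zl_iff ℓ).mp hx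
  exact (m16h1_mem_Q_iff x).mpr ⟨r, hr⟩

/-- **(G1)** for `ψ` good over `ℤ_(ℓ)` the coefficients of the characteristic polynomial have
expansions over `ℤ_(ℓ)`. -/
theorem m16intg_Phi_Zl (ℓ : ℕ) [Fact ℓ.Prime] {ψ : ana_ring p}
    (hψ : m16h1_Good p (m16intr_Zl ℓ) ψ) (i : ℕ) :
    ana_qexp p ((m16h1_Phi p ψ).coeff i) ∈ m16h1_LR (m16intr_Zl ℓ) :=
  m16intg_Phi_qexp_mem p (m16intr_Zl ℓ) (m16nrm_O ℓ) (m16intr_Zl_le_O ℓ) (m16intg_Zl_le_Q ℓ)
    (fun _ hx r hr => m16intr_mem_Zl_of_O ℓ hx r hr) (m16intb_zeta_zpow_mem p ℓ) hψ i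

theorem m16intg_Phi_eq (x : Option (ZMod p) → ana_ring p) :
    m16intl_Phi x = m28pf_Phi x := by
  unfold m16intl_Phi m28pf_Phi
  rw [Lagrange.nodal_eq]

/-- the traces `T_b = tr(ψ x^b)`. -/
theorem m16intg_T_eq (ψ : ana_ring p) (b : ℕ) :
    m16intl_T (m16h1_cj p (m28pa_x p)) (m16h1_cj p ψ) b = m16h1_tr p (ψ * m28pa_x p ^ b) := by
  unfold m16intl_T m16h1_tr
  refine Finset.sum_congr rfl fun c _ => ?_
  rw [m16intn_cj_mul, m16intn_cj_pow]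

/-- the `G_i` have expansions over `R`, as soon as the coefficients of `Φ_x` have. -/
theorem m16intg_G_qexp_mem (R : Subring ℂ)
    (hΦ : ∀ m, ana_qexp p ((m16h1_Phi p (m28pa_x p)).coeff m) ∈ m16h1_LR R) {ψ : ana_ring p}
    (hψ : m16h1_Good p R ψ) (i : ℕ) :
    ana_qexp p (m16intg_G p ψ i) ∈ m16h1_LR R := by
  unfold m16intg_G
  rw [m16intl_G_coeff, map_sum]
  refine Subring.sum_mem _ fun m _ => ?_
  split_ifs with h
  · rw [map_mul]
    refine Subring.mul_mem _ ?_ ?_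
    · rw [m16intg_Phi_eq]
      exact hΦ m
    · rw [m16intg_T_eq]
      exact m16h1_tr_qexp_mem p (hψ.mul p ((m16h1y_good_x p R).pow p _))
  · rw [map_zero]
    exact Subring.zero_mem _

/-- the `G_i` are polynomials in `J` with coefficients in `R`. -/
theorem m16intg_G_poly (R : Subring ℂ)
    (hΦ : ∀ m, ana_qexp p ((m16h1_Phi p (m28pa_x p)).coeff m) ∈ m16h1_LR R) {ψ : ana_ring p}
    (hψ : m16h1_Good p R ψ) (i : ℕ) :
    ∃ P : Polynomial ℂ, (∀ j, P.coeff j ∈ R) ∧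
      ana_qexp p ((m16intl_G (m16h1_cj p (m28pa_x p)) (m16h1_cj p ψ)).coeff i)
        = P.eval₂ HahnSeries.C (qExpand ℂ p (jqModC ℂ)) := by
  obtain ⟨g, hg, -, hq⟩ := m16h1_level_one_poly p R (m16intg_G p ψ i)
    (m16intg_G_inv p ψ hψ.inv i) (m16intg_G_qexp_mem p R hΦ hψ i)
  exact ⟨g, hg, hq⟩

/-- **(G2), `ℤ_(ℓ)`-form**: for `ψ` good over `ℤ_(ℓ)`, `G_i = P_i(J)` with `P_i ∈ ℤ_(ℓ)[X]`. -/
theorem m16intg_G_poly_Zl (ℓ : ℕ) [Fact ℓ.Prime] {ψ : ana_ring p}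
    (hψ : m16h1_Good p (m16intr_Zl ℓ) ψ) (i : ℕ) :
    ∃ P : Polynomial ℂ, (∀ j, P.coeff j ∈ m16intr_Zl ℓ) ∧
      ana_qexp p ((m16intl_G (m16h1_cj p (m28pa_x p)) (m16h1_cj p ψ)).coeff i)
        = P.eval₂ HahnSeries.C (qExpand ℂ p (jqModC ℂ)) :=
  m16intg_G_poly p (m16intr_Zl ℓ)
    (fun m => m16intg_Phi_Zl p ℓ (m16h1y_good_x p (m16intr_Zl ℓ)) m) hψ i

/-- **(G2), `ℚ`-form**: for `ψ` good over `ℚ`, `G_i = P_i(J)` with `P_i ∈ ℚ[X]`. -/
theorem m16intg_G_poly_Q {ψ : ana_ring p}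
    (hψ : m16h1_Good p m16h1_Q.toSubring ψ) (i : ℕ) :
    ∃ P : Polynomial ℂ, (∀ j, P.coeff j ∈ m16h1_Q.toSubring) ∧
      ana_qexp p ((m16intl_G (m16h1_cj p (m28pa_x p)) (m16h1_cj p ψ)).coeff i)
        = P.eval₂ HahnSeries.C (qExpand ℂ p (jqModC ℂ)) :=
  m16intg_G_poly p m16h1_Q.toSubring
    (fun m => m16intn_Phi_coeff_qexp p m16h1_Q (m16h1y_good_x p m16h1_Q.toSubring) m) hψ i

/-- the expansions of the `G_i` over `ℤ_(ℓ)`. -/
theorem m16intg_G_qexp_Zl (ℓ : ℕ) [Fact ℓ.Prime] {ψ : ana_ring p}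
    (hψ : m16h1_Good p (m16intr_Zl ℓ) ψ) (i : ℕ) :
    ana_qexp p ((m16intl_G (m16h1_cj p (m28pa_x p)) (m16h1_cj p ψ)).coeff i)
      ∈ m16h1_LR (m16intr_Zl ℓ) :=
  m16intg_G_qexp_mem p (m16intr_Zl ℓ)
    (fun m => m16intg_Phi_Zl p ℓ (m16h1y_good_x p (m16intr_Zl ℓ)) m) hψ i

theorem m16intg_card : Fintype.card (Option (ZMod p)) = p + 1 := by
  rw [Fintype.card_option, ZMod.card]

/-- the expansion of `x` at `∞` is `j(q_p^(p²))`. -/
theorem m16intg_Xc_none : m16intb_Xc p none = qExpand ℂ p (qExpand ℂ p (jqModC ℂ)) := by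
  unfold m16intb_Xc
  rw [m16h1_cj_none, m28pa_E_x]

/-- the expansion of `x ∘ S` is `j(q_p)`. -/
theorem m16intg_Xc_zero : m16intb_Xc p (some 0) = jqModC ℂ := by
  have h : ana_comp p ModularGroup.S (m28pa_x p)
      = m28pa_X p ((ModularGroup.S⁻¹ : SL(2, ℤ)) : s24Q p) := by
    rw [m28pa_X, m28pa_conj_mk p (m28pa_x_inv p), inv_inv]
  unfold m16intb_Xc
  rw [m16h1_cj_zero, h, m28pa_E_X_S]

/-- **Lagrange at the cusp `∞`**, on expansions. -/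
theorem m16intg_lag_none (ψ : ana_ring p) :
    ana_qexp p ψ * m16intb_U p none
      = ∑ i ∈ Finset.range (p + 1),
          ana_qexp p ((m16intl_G (m16h1_cj p (m28pa_x p)) (m16h1_cj p ψ)).coeff i)
            * (qExpand ℂ p (qExpand ℂ p (jqModC ℂ))) ^ i := by
  have h := m16intl_lagrange_map (ana_qexp p) (m16h1_cj p (m28pa_x p)) (m16h1_cj p ψ) none
  rw [m16intg_card] at h
  rw [← m16intg_Xc_none p]
  exact h

/-- **Lagrange at the cusp `0`**, on expansions. -/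
theorem m16intg_lag_zero (ψ : ana_ring p) :
    ana_qexp p (ana_comp p ModularGroup.S ψ) * m16intb_U p (some 0)
      = ∑ i ∈ Finset.range (p + 1),
          ana_qexp p ((m16intl_G (m16h1_cj p (m28pa_x p)) (m16h1_cj p ψ)).coeff i)
            * (jqModC ℂ) ^ i := by
  have h := m16intl_lagrange_map (ana_qexp p) (m16h1_cj p (m28pa_x p)) (m16h1_cj p ψ) (some 0)
  rw [m16intg_card, m16h1_cj_zero] at h
  rw [← m16intg_Xc_zero p]
  exact h

end Fermat.Agent.M16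

end
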