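/-
M16 / INT (helper1): the expansions of the conjugates of `ψ` and of `x = J(pτ)`, and the
mixed power sums `∑_c X_c ^ a * Y_c ^ b = tr(x^a ψ^b) = P(J)`.
-/
import Mathlib
import Fermat.Agent.M16.H1Sym
import Fermat.Agent.M16.H1yGood
import Fermat.Agent.M16.IntNewton

set_option autoImplicit false
set_option linter.unusedSectionVars false
set_option linter.style.longLine false

noncomputable section

namespace Fermat.Agent.M16

open UpperHalfPlane hiding I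
open Filter Function Topology ModularForm Complex ModularCurve
open scoped Manifold MatrixGroups ModularForm Real CongruenceSubgroup
open CongruenceSubgroup Polynomial
open Fermat.Agent.S23 Fermat.Agent.S24 Fermat.Agent.M28

variable (p : ℕ) [Fact p.Prime]

/-! ### expansions of the conjugates -/

theorem m16intt_qexp_cj_none (ψ : ana_ring p) :
    ana_qexp p (m16h1_cj p ψ none) = ana_qexp p ψ := rfl

theorem m16intt_qexp_cj_some (ψ : ana_ring p) (k : ZMod p) :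
    ana_qexp p (m16h1_cj p ψ (some k))
      = cf_twist (atw_zeta p ^ ((k.val : ℕ) : ℤ)) (ana_qexp p (ana_comp p ModularGroup.S ψ)) := by
  rw [m16h1_cj_some, m16h1_qexp_cjZ]

/-- `x ∘ S = J(τ/p)` has expansion `j(t)`. -/
theorem m16intt_qexp_x_S : ana_qexp p (ana_comp p ModularGroup.S (m28pa_x p)) = jqModC ℂ := by
  have h : ana_comp p ModularGroup.S (m28pa_x p)
      = m28pa_X p ((ModularGroup.S⁻¹ : SL(2, ℤ)) : s24Q p) := by
    rw [m28pa_X, m28pa_conj_mk p (m28pa_x_inv p), inv_inv]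
  rw [h, m28pa_E_X_S]

theorem m16intt_qexp_x_none :
    ana_qexp p (m16h1_cj p (m28pa_x p) none) = qExpand ℂ p (qExpand ℂ p (jqModC ℂ)) := by
  rw [m16h1_cj_none, m28pa_E_x]

theorem m16intt_qexp_x_some (k : ZMod p) :
    ana_qexp p (m16h1_cj p (m28pa_x p) (some k))
      = cf_twist (atw_zeta p ^ ((k.val : ℕ) : ℤ)) (jqModC ℂ) := by
  rw [m16intt_qexp_cj_some, m16intt_qexp_x_S]

/-- coefficients of the conjugate at `some k`. -/
theorem m16intt_qexp_cj_some_coeff (ψ : ana_ring p) (k : ZMod p) (n : ℤ) :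
    (ana_qexp p (m16h1_cj p ψ (some k))).coeff n
      = (((atw_zeta p ^ ((k.val : ℕ) : ℤ)) ^ n : ℂˣ) : ℂ)
        * (ana_qexp p (ana_comp p ModularGroup.S ψ)).coeff n := by
  rw [m16intt_qexp_cj_some, cf_twist_coeff]

/-! ### mixed power sums -/

/-- `∑_c x_c ^ a * ψ_c ^ b = tr(x^a ψ^b)`. -/
theorem m16intt_sum_cj (ψ φ : ana_ring p) (a b : ℕ) :
    ∑ c, m16h1_cj p φ c ^ a * m16h1_cj p ψ c ^ b = m16h1_tr p (φ ^ a * ψ ^ b) := by
  unfold m16h1_tr
  exact Finset.sum_congr rfl fun c _ => by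
    rw [m16intn_cj_mul, m16intn_cj_pow, m16intn_cj_pow]

/-- **(TR)** the mixed power sums of the conjugate expansions are polynomials in `J = j(t^p)`,
with coefficients in `R` if `ψ` and `φ` are good over `R`. -/
theorem m16intt_TR (R : Subring ℂ) (ψ φ : ana_ring p) (hψ : m16h1_Good p R ψ)
    (hφ : m16h1_Good p R φ) (a b : ℕ) :
    ∃ P : ℂ[X], (∀ i, P.coeff i ∈ R) ∧
      ∑ c, ana_qexp p (m16h1_cj p φ c) ^ a * ana_qexp p (m16h1_cj p ψ c) ^ b
        = P.eval₂ HahnSeries.C (qExpand ℂ p (jqModC ℂ)) := by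
  have hg : m16h1_Good p R (φ ^ a * ψ ^ b) := (hφ.pow p a).mul p (hψ.pow p b)
  obtain ⟨P, hP, -, hq⟩ := m16h1_level_one_poly p R (m16h1_tr p (φ ^ a * ψ ^ b))
    (m16h1_tr_inv p _ hg.inv) (m16h1_tr_qexp_mem p hg)
  refine ⟨P, hP, ?_⟩
  rw [← hq, ← m16intt_sum_cj, map_sum]
  exact Finset.sum_congr rfl fun c _ => by rw [map_mul, map_pow, map_pow]

/-- **(TR)** for `φ = x = J(pτ)`: only `ψ` has to be good. -/
theorem m16intt_TR_x (R : Subring ℂ) (ψ : ana_ring p) (hψ : m16h1_Good p R ψ) (a b : ℕ) :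
    ∃ P : ℂ[X], (∀ i, P.coeff i ∈ R) ∧
      ∑ c, ana_qexp p (m16h1_cj p (m28pa_x p) c) ^ a * ana_qexp p (m16h1_cj p ψ c) ^ b
        = P.eval₂ HahnSeries.C (qExpand ℂ p (jqModC ℂ)) :=
  m16intt_TR p R ψ (m28pa_x p) hψ (m16h1y_good_x p R) a b

/-- **(TR)** without any integrality: only `Γ₀(p)`-invariance of `ψ` is needed. -/
theorem m16intt_TR_top (ψ : ana_ring p) (hΓ : ∀ γ ∈ Gamma0 p, ana_comp p γ ψ = ψ) (a b : ℕ) :
    ∃ P : ℂ[X],
      ∑ c, ana_qexp p (m16h1_cj p (m28pa_x p) c) ^ a * ana_qexp p (m16h1_cj p ψ c) ^ b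
        = P.eval₂ HahnSeries.C (qExpand ℂ p (jqModC ℂ)) := by
  have hψ : m16h1_Good p ⊤ ψ :=
    ⟨hΓ, (m16h1_mem_LR_iff _ _).mpr fun _ => Subring.mem_top _,
      (m16h1_mem_LR_iff _ _).mpr fun _ => Subring.mem_top _⟩
  obtain ⟨P, -, hP⟩ := m16intt_TR_x p ⊤ ψ hψ a b
  exact ⟨P, hP⟩

end Fermat.Agent.M16

end
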