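/-
M16 (S16 project), LOWER BOUND side, package INT, block ML-B (helper7), prefix `m16intmb_`.

**(ML-B)** the mod-`ℓ` step at the cusp `0`: if `Y` is good over `ℤ_(ℓ)`, holomorphic at the
cusp `0`, and all coefficients of its expansion at `∞` are divisible by `ℓ`, then all
coefficients of its expansion at `0` are divisible by `ℓ`.

Proof.  Lagrange interpolation for the conjugates `X_c`, `Y_c` (`x = J(pτ)`):
`Y_c0 * U_c0 = ∑_i G_i X_c0 ^ i`, `G_i = g_i(j(t^p))` with `g_i` over `ℤ_(ℓ)`.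
At `c0 = ∞` the left side is `≡ 0` modulo `ℓ`, hence (Igusa, `m16int_red_indep`) all `g_i ≡ 0`.
At `c0 = 0` the right side is then `≡ 0`, and `U_0` can be cancelled (its lowest coefficient
is a unit at `ℓ`).
-/
import Mathlib
import Fermat.Agent.M16.IntEnd
import Fermat.Agent.M16.IntBd
import Fermat.Agent.M16.IntTr
import Fermat.Agent.M16.IntUnit
import Fermat.Agent.M16.Int5Ind
import Fermat.Agent.M16.IntLag
import Fermat.Agent.M16.IntBdT
import Fermat.Agent.M16.IntBdU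

set_option autoImplicit false
set_option linter.unusedSectionVars false
set_option linter.unusedVariables false
set_option linter.style.longLine false

noncomputable section

namespace Fermat.Agent.M16

open UpperHalfPlane hiding I
open Filter Function Topology ModularForm Complex ModularCurve
open scoped Manifold MatrixGroups ModularForm Real CongruenceSubgroup
open CongruenceSubgroup Polynomial
open Fermat.Agent.S23 Fermat.Agent.S24 Fermat.Agent.M28

/-! ### polynomials with coefficients in a subring -/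

/-- the polynomials over `ℂ` with coefficients in the subring `R`. -/
def m16intmb_PR (R : Subring ℂ) : Subring ℂ[X] where
  carrier := {P | ∀ i, P.coeff i ∈ R}
  mul_mem' := by
    intro P Q hP hQ i
    rw [Polynomial.coeff_mul]
    exact R.sum_mem fun x _ => R.mul_mem (hP _) (hQ _)
  one_mem' := by
    intro i
    rw [Polynomial.coeff_one]
    split_ifs
    · exact R.one_mem
    · exact R.zero_mem
  add_mem' := by
    intro P Q hP hQ i
    rw [Polynomial.coeff_add]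
    exact R.add_mem (hP _) (hQ _)
  zero_mem' := by
    intro i
    rw [Polynomial.coeff_zero]
    exact R.zero_mem
  neg_mem' := by
    intro P hP i
    rw [Polynomial.coeff_neg]
    exact R.neg_mem (hP _)

theorem m16intmb_mem_PR {R : Subring ℂ} {P : ℂ[X]} :
    P ∈ m16intmb_PR R ↔ ∀ i, P.coeff i ∈ R := Iff.rfl

/-- the Laurent series `P(j(t^d))`, `P` over `R`. -/
def m16intmb_PJ (d : ℕ) [NeZero d] (R : Subring ℂ) : Subring (LaurentSeries ℂ) :=
  (m16intmb_PR R).map (Polynomial.eval₂RingHom HahnSeries.C (qExpand ℂ d (jqModC ℂ)))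

theorem m16intmb_mem_PJ {d : ℕ} [NeZero d] {R : Subring ℂ} {z : LaurentSeries ℂ} :
    z ∈ m16intmb_PJ d R ↔ ∃ P : ℂ[X], (∀ i, P.coeff i ∈ R) ∧
      z = P.eval₂ HahnSeries.C (qExpand ℂ d (jqModC ℂ)) := by
  unfold m16intmb_PJ
  rw [Subring.mem_map]
  constructor
  · rintro ⟨P, hP, rfl⟩
    exact ⟨P, hP, rfl⟩
  · rintro ⟨P, hP, rfl⟩
    exact ⟨P, hP, rfl⟩

/-- coefficients of `P(j(t^d))` for `P` with coefficients in an additive subgroup. -/
theorem m16intmb_eval_coeff_mem (I : AddSubgroup ℂ) (d : ℕ) [NeZero d] (P : ℂ[X])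
    (hP : ∀ i, P.coeff i ∈ I) (n : ℤ) :
    (P.eval₂ HahnSeries.C (qExpand ℂ d (jqModC ℂ))).coeff n ∈ I := by
  rw [Polynomial.eval₂_eq_sum_range, HahnSeries.coeff_sum]
  refine I.sum_mem fun i _ => ?_
  rw [HahnSeries.C_apply, HahnSeries.coeff_single_zero_mul]
  obtain ⟨z, hz⟩ := m16intc_coeff_jd_pow (S := ℂ) d i n
  rw [hz, mul_comm, ← zsmul_eq_mul]
  exact I.zsmul_mem (hP i) z


variable (p ℓ : ℕ) [Fact p.Prime] [Fact ℓ.Prime]

/-! ### the coefficients of `Φ_x` and the traces are polynomials in `j(t^p)` over `ℤ_(ℓ)` -/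

theorem m16intmb_Phi_eq :
    m16intl_Phi (m16intb_Xc p) = (m16h1_Phi p (m28pa_x p)).map (ana_qexp p) := by
  rw [m16h1_Phi, m28pf_Phi_map]
  unfold m16intl_Phi m28pf_Phi m16intb_Xc
  rw [Lagrange.nodal_eq]

/-- **(G1)** the coefficients of `Φ_x = ∏ (X - X_c)` are `P(j(t^p))`, `P` over `ℤ_(ℓ)`. -/
theorem m16intmb_Phi_mem (m : ℕ) :
    (m16intl_Phi (m16intb_Xc p)).coeff m ∈ m16intmb_PJ p (m16intr_Zl ℓ) := by
  rw [m16intmb_Phi_eq, Polynomial.coeff_map]
  have hQ := m16intn_Phi_coeff_qexp p m16h1_Q (m16h1y_good_x p m16h1_Q.toSubring) m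
  have hO : ana_qexp p ((m16h1_Phi p (m28pa_x p)).coeff m) ∈ m16h1_LR (m16nrm_O ℓ) := by
    rw [m16h1_Phi, ← Polynomial.coeff_map, m28pf_Phi_map]
    exact m28pf_Phi_coeff_mem (m16h1_LR (m16nrm_O ℓ)) _ (fun c => m16intb_Xc_mem p ℓ c) m
  have hZ : ana_qexp p ((m16h1_Phi p (m28pa_x p)).coeff m) ∈ m16h1_LR (m16intr_Zl ℓ) := by
    rw [m16h1_mem_LR_iff]
    intro n
    obtain ⟨r, hr⟩ := (m16h1_mem_Q_iff _).mp ((m16h1_mem_LR_iff _ _).mp hQ n)
    exact m16intr_mem_Zl_of_O ℓ ((m16h1_mem_LR_iff _ _).mp hO n) r hr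
  obtain ⟨P, hP, -, hq⟩ := m16h1_level_one_poly p (m16intr_Zl ℓ) _
    (m16h1_Phi_coeff_inv p _ (m16h1y_good_x p (m16intr_Zl ℓ)).inv m) hZ
  exact m16intmb_mem_PJ.mpr ⟨P, hP, hq⟩

/-- the traces `T_b = ∑ Y_c X_c ^ b` are `P(j(t^p))`, `P` over `ℤ_(ℓ)`. -/
theorem m16intmb_T_mem (Y : ana_ring p) (hY : m16h1_Good p (m16intr_Zl ℓ) Y) (b : ℕ) :
    m16intl_T (m16intb_Xc p) (fun c => ana_qexp p (m16h1_cj p Y c)) b
      ∈ m16intmb_PJ p (m16intr_Zl ℓ) := by
  rw [m16intb_T_eq]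
  obtain ⟨P, hP, hq⟩ := m16intbt_tr_poly p (m16intr_Zl ℓ) Y hY b
  exact m16intmb_mem_PJ.mpr ⟨P, hP, hq⟩

/-- **(G2)** the coefficients of the interpolation polynomial `G` are `g(j(t^p))`, `g` over
`ℤ_(ℓ)`. -/
theorem m16intmb_G_mem (Y : ana_ring p) (hY : m16h1_Good p (m16intr_Zl ℓ) Y) (i : ℕ) :
    (m16intl_G (m16intb_Xc p) (fun c => ana_qexp p (m16h1_cj p Y c))).coeff i
      ∈ m16intmb_PJ p (m16intr_Zl ℓ) :=
  m16intl_G_coeff_mem _ _ (m16intmb_PJ p (m16intr_Zl ℓ)) (m16intmb_PJ p (m16intr_Zl ℓ)).toAddSubgroup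
    (fun s hs m hm => Subring.mul_mem _ hs hm)
    (fun m => m16intmb_Phi_mem p ℓ m) (fun b _ => m16intmb_T_mem p ℓ Y hY b) i


/-! ### Lagrange interpolation for the expansions -/

theorem m16intmb_card : Fintype.card (Option (ZMod p)) = p + 1 := by
  rw [Fintype.card_option, ZMod.card]

/-- **Lagrange**: `Y_c0 * U_c0 = ∑_{i ≤ p} G_i X_c0 ^ i`. -/
theorem m16intmb_lagrange (Y : ana_ring p) (c0 : Option (ZMod p)) :
    ana_qexp p (m16h1_cj p Y c0) * m16intb_U p c0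
      = ∑ i ∈ Finset.range (p + 1),
          (m16intl_G (m16intb_Xc p) (fun c => ana_qexp p (m16h1_cj p Y c))).coeff i
            * m16intb_Xc p c0 ^ i := by
  have h := m16intl_eval_G_self (m16intb_Xc p) (fun c => ana_qexp p (m16h1_cj p Y c)) c0
  rw [m16intb_U, ← h, Polynomial.eval_eq_sum_range' (n := p + 1)]
  refine lt_of_le_of_lt (m16intl_G_natDegree_le _ _) ?_
  rw [m16intmb_card]
  omega

theorem m16intmb_lZl_mem_J {x : ℂ} (h : ∃ y ∈ m16intr_Zl ℓ, x = (ℓ : ℂ) * y) :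
    x ∈ m16nrm_J ℓ := by
  obtain ⟨y, hy, rfl⟩ := h
  exact m16nrm_mem_J.mpr ⟨y, m16intr_Zl_le_O ℓ hy, rfl⟩

theorem m16intmb_Zl_eq : m16int_Zl ℓ = m16intr_Zl ℓ := by
  ext x
  rw [m16intr_mem_Zl_iff]
  rfl

theorem m16intmb_J1_eq : m16int_J1 p = qExpand ℂ p (jqModC ℂ) := by
  unfold m16int_J1
  rw [m16int_J0_eq_jqModC]

theorem m16intmb_J2_eq : m16int_J2 p = m16intb_Xc p none := by
  unfold m16int_J2 m16intb_Xc
  rw [m16intt_qexp_x_none, m16intmb_J1_eq]

theorem m16intmb_aeval_eq (P : ℂ[X]) :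
    aeval (m16int_J1 p) P = P.eval₂ HahnSeries.C (qExpand ℂ p (jqModC ℂ)) := by
  rw [Polynomial.aeval_def, m16intmb_J1_eq]
  have h : algebraMap ℂ (LaurentSeries ℂ) = HahnSeries.C := by
    refine RingHom.ext fun c => ?_
    rw [algebraMap_laurentSeries_eq_single, HahnSeries.C_apply]
  rw [h]

/-- **the step at `∞`**: if all coefficients of the expansion of `Y` at `∞` are divisible by
`ℓ`, all the polynomials `g_i` are divisible by `ℓ` (Igusa). -/
theorem m16intmb_g_mem_J (hℓp : ℓ ≠ p) (Y : ana_ring p)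
    (hinf : ∀ n : ℤ, (ana_qexp p Y).coeff n ∈ m16nrm_J ℓ)
    (g : ℕ → ℂ[X]) (hg : ∀ i k, (g i).coeff k ∈ m16intr_Zl ℓ)
    (hG : ∀ i, (m16intl_G (m16intb_Xc p) (fun c => ana_qexp p (m16h1_cj p Y c))).coeff i
      = (g i).eval₂ HahnSeries.C (qExpand ℂ p (jqModC ℂ)))
    (i : ℕ) (hi : i ≤ p) (k : ℕ) : (g i).coeff k ∈ m16nrm_J ℓ := by
  have hl : (ℓ : ℂ) ≠ 0 := by exact_mod_cast (Fact.out : ℓ.Prime).ne_zero
  -- the relation at `∞`
  have hrel := m16intmb_lagrange p Y none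
  rw [m16h1_cj_none] at hrel
  -- helper5's family
  set G5 : ℕ → ℂ[X] := fun j => if j = 0 then 0 else g (p + 1 - j) with hG5def
  have hG5 : ∀ j i, (G5 j).coeff i ∈ m16int_Zl ℓ := by
    intro j i
    rw [m16intmb_Zl_eq, hG5def]
    dsimp only
    split_ifs
    · rw [Polynomial.coeff_zero]
      exact Subring.zero_mem _
    · exact hg _ _
  have hG50 : G5 0 = 0 := by
    rw [hG5def]
    simp
  have hsum : ∑ j ∈ Finset.range (p + 2),
      aeval (m16int_J1 p) (G5 j) * m16int_J2 p ^ (p + 1 - j)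
        = ana_qexp p Y * m16intb_U p none := by
    rw [hrel, Finset.sum_range_succ', hG50, map_zero, zero_mul, add_zero]
    rw [← Finset.sum_range_reflect (fun i =>
      (m16intl_G (m16intb_Xc p) (fun c => ana_qexp p (m16h1_cj p Y c))).coeff i
        * m16intb_Xc p none ^ i) (p + 1)]
    refine Finset.sum_congr rfl fun j hj => ?_
    have hj' := Finset.mem_range.mp hj
    have e1 : G5 (j + 1) = g (p + 1 - 1 - j) := by
      rw [hG5def]
      dsimp only
      rw [if_neg (Nat.succ_ne_zero j)]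
      congr 1
      omega
    have e2 : p + 1 - (j + 1) = p + 1 - 1 - j := by omega
    rw [e1, e2, m16intmb_aeval_eq, hG, m16intmb_J2_eq]
  have hZ : ∀ n : ℤ, (ana_qexp p Y * m16intb_U p none).coeff n ∈ m16intr_Zl ℓ := by
    intro n
    have hmem : ana_qexp p Y * m16intb_U p none ∈ m16h1_LR (m16intr_Zl ℓ) := by
      rw [hrel]
      refine Subring.sum_mem _ fun i _ => ?_
      refine Subring.mul_mem _ ?_ (Subring.pow_mem _ ?_ i)
      · rw [hG, m16h1_mem_LR_iff]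
        intro n
        exact m16intmb_eval_coeff_mem (m16intr_Zl ℓ).toAddSubgroup p (g i) (hg i) n
      · exact (m16h1y_good_x p (m16intr_Zl ℓ)).exp_inf
    exact (m16h1_mem_LR_iff _ _).mp hmem n
  have hJ : ∀ n : ℤ, (ana_qexp p Y * m16intb_U p none).coeff n ∈ m16nrm_J ℓ := by
    intro n
    rw [mul_comm]
    exact m16intu_mul_mem_J ℓ _ _ (m16intb_U_mem p ℓ none) hinf n
  have H : ∀ n, (∑ j ∈ Finset.range (p + 2),
      aeval (m16int_J1 p) (G5 j) * m16int_J2 p ^ (p + 1 - j)).coeff n / ℓ ∈ m16int_Zl ℓ := by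
    intro n
    rw [hsum, m16intmb_Zl_eq]
    obtain ⟨r, -, hr⟩ := (m16intr_mem_Zl_iff ℓ).mp (hZ n)
    obtain ⟨y, hy, hxy⟩ := m16intr_mem_lZl_of_J ℓ (hJ n) r hr
    rw [hxy, mul_div_cancel_left₀ _ hl]
    exact hy
  have hind := m16int_red_indep ℓ p hℓp G5 hG5 hG50 H (p + 1 - i)
    (Finset.mem_range.mpr (by omega)) k
  have e3 : G5 (p + 1 - i) = g i := by
    rw [hG5def]
    dsimp only
    rw [if_neg (by omega)]
    congr 1
    omega
  rw [e3, m16intmb_Zl_eq] at hind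
  refine m16nrm_mem_J.mpr ⟨(g i).coeff k / ℓ, m16intr_Zl_le_O ℓ hind, ?_⟩
  rw [mul_div_cancel₀ _ hl]

/-- **(ML-B)**, conditional on the cancellation of `U_0` modulo `J`. -/
theorem m16intmb_main_of (hℓp : ℓ ≠ p)
    (hU0 : ∀ z y : LaurentSeries ℂ, z * m16intb_U p (some 0) = y →
      (∀ n, y.coeff n ∈ m16nrm_J ℓ) → ∀ n, z.coeff n ∈ m16nrm_J ℓ) :
    m16inte_MLB p ℓ := by
  intro Y hY hhol hinf n
  choose g hg hGg using fun i => m16intmb_mem_PJ.mp (m16intmb_G_mem p ℓ Y hY i)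
  have hgJ := m16intmb_g_mem_J p ℓ hℓp Y (fun n => m16intmb_lZl_mem_J ℓ (hinf n)) g hg hGg
  have hlag := m16intmb_lagrange p Y (some 0)
  have hR : ∀ n, (∑ i ∈ Finset.range (p + 1),
      (m16intl_G (m16intb_Xc p) (fun c => ana_qexp p (m16h1_cj p Y c))).coeff i
        * m16intb_Xc p (some 0) ^ i).coeff n ∈ m16nrm_J ℓ := by
    intro n
    rw [HahnSeries.coeff_sum]
    refine AddSubgroup.sum_mem _ fun i hi => ?_
    rw [mul_comm]
    refine m16intu_mul_mem_J ℓ _ _ (Subring.pow_mem _ (m16intb_Xc_mem p ℓ (some 0)) i) ?_ n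
    intro m
    rw [hGg i]
    exact m16intmb_eval_coeff_mem (m16nrm_J ℓ) p (g i)
      (hgJ i (Nat.lt_succ_iff.mp (Finset.mem_range.mp hi))) m
  have h0 := hU0 _ _ hlag hR n
  rw [m16h1_cj_zero] at h0
  obtain ⟨r, -, hr⟩ := (m16intr_mem_Zl_iff ℓ).mp ((m16h1_mem_LR_iff _ _).mp hY.exp_zero n)
  exact m16intr_mem_lZl_of_J ℓ h0 r hr

/-- **(ML-B)** the mod-`ℓ` step at the cusp `0`. -/
theorem m16intmb_main (hℓp : ℓ ≠ p) : m16inte_MLB p ℓ :=
  m16intmb_main_of p ℓ hℓp fun z y h hy =>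
    m16intbu_cancel_J p ℓ hℓp (some 0) (Or.inr rfl) z y h hy

end Fermat.Agent.M16

end
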