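/-
M16 (S16 project), LOWER BOUND side, package INT: the final statement `m16lb_INT`
(bounded denominators + the mod-`ℓ` step at both cusps + descending induction).
-/
import Fermat.Agent.M16.IntEndB
import Fermat.Agent.M16.IntMlb

set_option autoImplicit false

namespace Fermat.Agent.M16

/-- **(INT)** the integrality statement of the lower bound. -/
theorem m16int_main : m16lb_INT :=
  m16inte_main_of_MLB fun p ℓ _ _ h => m16intmb_main p ℓ h

end Fermat.Agent.M16
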