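/-
M16 (S16 project), package INT, block I3 / B2 (concrete UNIT) (helper6).

`x = J(pτ)` (`m28pa_x p`), `Xc c = ana_qexp p (m16h1_cj p x c)` the expansions of its `p + 1`
conjugates (`c : Option (ZMod p)`), `U c0 = ∏_{c ≠ c0} (Xc c0 - Xc c)`.

* `m16intu_Xc_mem`      : `Xc c ∈ LR(O)`;
* `m16intu_U_mem`       : `U c0 ∈ LR(O)`;
* `m16intu_U_low`       : the lowest coefficient of `U c0` is a unit of `O` (for `ℓ ≠ p`);
* `m16intu_U_inv_mem`   : `(U c0)⁻¹ ∈ LR(O)`;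
* `m16intu_U_cancel`    : `z * U c0 = y`, `y ∈ LR(O)` implies `z ∈ LR(O)`;
* `m16intu_U_cancel_J`  : `z * U c0 = y`, `y ∈ LR(J)` implies `z ∈ LR(J)`.
-/
import Mathlib
import Fermat.Agent.M16.IntUnit
import Fermat.Agent.M16.H1yGood

set_option autoImplicit false
set_option linter.unusedSectionVars false

noncomputable section

namespace Fermat.Agent.M16

open ModularCurve
open scoped MatrixGroups
open Fermat.Agent.S23 Fermat.Agent.S24 Fermat.Agent.M28

/-- a finite product of Laurent series with unit lowest coefficients has a unit lowest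
coefficient. -/
theorem m16intu_prod_unit (R : Subring ℂ) {ι : Type*} (s : Finset ι)
    (x : ι → LaurentSeries ℂ)
    (h : ∀ i ∈ s, ∃ N : ℤ, (∀ n < N, (x i).coeff n = 0) ∧ (x i).coeff N ≠ 0 ∧
      ((x i).coeff N)⁻¹ ∈ R) :
    ∃ N : ℤ, (∀ n < N, (∏ i ∈ s, x i).coeff n = 0) ∧ (∏ i ∈ s, x i).coeff N ≠ 0 ∧
      ((∏ i ∈ s, x i).coeff N)⁻¹ ∈ R := by
  classical
  induction s using Finset.induction_on with
  | empty =>
    refine ⟨0, fun n hn => ?_, ?_, ?_⟩
    · rw [Finset.prod_empty, HahnSeries.coeff_one, if_neg (ne_of_lt hn)]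
    · rw [Finset.prod_empty, HahnSeries.coeff_one, if_pos rfl]
      exact one_ne_zero
    · rw [Finset.prod_empty, HahnSeries.coeff_one, if_pos rfl, inv_one]
      exact R.one_mem
  | insert a s ha ih =>
    obtain ⟨M, hM1, hM2, hM3⟩ := ih (fun i hi => h i (Finset.mem_insert_of_mem hi))
    obtain ⟨N, hN1, hN2, hN3⟩ := h a (Finset.mem_insert_self a s)
    have hmul := m16intu_mul_low (x a) (∏ i ∈ s, x i) N M hN1 hM1
    rw [Finset.prod_insert ha]
    refine ⟨N + M, hmul.1, ?_, ?_⟩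
    · rw [hmul.2]
      exact mul_ne_zero hN2 hM2
    · rw [hmul.2, mul_inv]
      exact R.mul_mem hN3 hM3

variable (p : ℕ) [Fact p.Prime]

/-- the expansions of the conjugates of `x = J(pτ)`. -/
def m16intu_Xc (c : Option (ZMod p)) : LaurentSeries ℂ :=
  ana_qexp p (m16h1_cj p (m28pa_x p) c)

/-- `U c0 = ∏_{c ≠ c0} (Xc c0 - Xc c)`. -/
def m16intu_U (c0 : Option (ZMod p)) : LaurentSeries ℂ :=
  ∏ c ∈ Finset.univ.erase c0, (m16intu_Xc p c0 - m16intu_Xc p c)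

theorem m16intu_U_def (c0 : Option (ZMod p)) :
    m16intu_U p c0 = ∏ c ∈ Finset.univ.erase c0,
      (ana_qexp p (m16h1_cj p (m28pa_x p) c0) - ana_qexp p (m16h1_cj p (m28pa_x p) c)) := rfl

theorem m16intu_pp_pos : (0 : ℤ) < ((p * p : ℕ) : ℤ) := by
  have := (Fact.out : p.Prime).pos
  positivity

theorem m16intu_one_lt_pp : (1 : ℤ) < ((p * p : ℕ) : ℤ) := by
  have h := (Fact.out : p.Prime).two_le
  have : 2 * 2 ≤ p * p := Nat.mul_le_mul h h
  exact_mod_cast (by omega : 1 < p * p)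

theorem m16intu_Xc_none :
    m16intu_Xc p none = qExpand ℂ (p * p) (jqModC ℂ) := by
  rw [m16intu_Xc, m16h1_cj_none, m28pa_E_x, qExpand_qExpand]

theorem m16intu_exp_zero_x :
    ana_qexp p (ana_comp p ModularGroup.S (m28pa_x p)) = jqModC ℂ := by
  have h : ana_comp p ModularGroup.S (m28pa_x p)
      = m28pa_X p ((ModularGroup.S⁻¹ : SL(2, ℤ)) : s24Q p) := by
    rw [m28pa_X, m28pa_conj_mk p (m28pa_x_inv p), inv_inv]
  rw [h, m28pa_E_X_S]

theorem m16intu_Xc_some (k : ZMod p) :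
    m16intu_Xc p (some k) = cf_twist (atw_zeta p ^ ((k.val : ℕ) : ℤ)) (jqModC ℂ) := by
  rw [m16intu_Xc, m16h1_cj_some, m16h1_qexp_cjZ, m16intu_exp_zero_x]

theorem m16intu_Xc_none_low (n : ℤ) (hn : n < -((p * p : ℕ) : ℤ)) :
    (m16intu_Xc p none).coeff n = 0 := by
  rw [m16intu_Xc_none]
  by_cases hd : ((p * p : ℕ) : ℤ) ∣ n
  · obtain ⟨m, rfl⟩ := hd
    rw [qExpand_coeff_mul]
    apply coeff_jqModC_of_lt
    have hpos := m16intu_pp_pos p
    by_contra hm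
    have hm' : -1 ≤ m := not_lt.mp hm
    have : ((p * p : ℕ) : ℤ) * (-1) ≤ ((p * p : ℕ) : ℤ) * m :=
      mul_le_mul_of_nonneg_left hm' hpos.le
    linarith
  · exact qExpand_coeff_of_not_dvd _ _ hd

theorem m16intu_Xc_none_lead :
    (m16intu_Xc p none).coeff (-((p * p : ℕ) : ℤ)) = 1 := by
  rw [m16intu_Xc_none]
  have h : -((p * p : ℕ) : ℤ) = ((p * p : ℕ) : ℤ) * (-1) := by ring
  rw [h, qExpand_coeff_mul, coeff_jqModC_neg_one]

theorem m16intu_Xc_some_low (k : ZMod p) (n : ℤ) (hn : n < -1) :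
    (m16intu_Xc p (some k)).coeff n = 0 := by
  rw [m16intu_Xc_some, cf_twist_coeff, coeff_jqModC_of_lt _ hn, mul_zero]

theorem m16intu_Xc_some_lead (k : ZMod p) :
    (m16intu_Xc p (some k)).coeff (-1)
      = ((atw_zeta p ^ (-((k.val : ℕ) : ℤ)) : ℂˣ) : ℂ) := by
  rw [m16intu_Xc_some, cf_twist_coeff, coeff_jqModC_neg_one, mul_one, ← zpow_mul, mul_neg,
    mul_one]

/-- the expansions of the conjugates of `x` have coefficients in every subring containing
the `p`-th roots of unity. -/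
theorem m16intu_Xc_mem_of (R : Subring ℂ)
    (hζ : ∀ n : ℤ, ((atw_zeta p ^ n : ℂˣ) : ℂ) ∈ R) (c : Option (ZMod p)) :
    m16intu_Xc p c ∈ m16h1_LR R := by
  cases c with
  | none => exact (m16h1y_good_x p R).exp_inf
  | some k =>
    rw [m16intu_Xc_some, m16h1_mem_LR_iff]
    intro n
    rw [cf_twist_coeff, ← zpow_mul]
    refine R.mul_mem (hζ _) ?_
    have h := (m16h1y_good_x p R).exp_zero
    rw [m16intu_exp_zero_x] at h
    exact (m16h1_mem_LR_iff _ _).mp h n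

variable (ℓ : ℕ) [Fact ℓ.Prime]

theorem m16intu_Xc_mem (c : Option (ZMod p)) :
    m16intu_Xc p c ∈ m16h1_LR (m16nrm_O ℓ) :=
  m16intu_Xc_mem_of p _ (fun n => m16intu_zeta_zpow_mem ℓ p n) c

theorem m16intu_U_mem (c0 : Option (ZMod p)) :
    m16intu_U p c0 ∈ m16h1_LR (m16nrm_O ℓ) := by
  unfold m16intu_U
  refine Subring.prod_mem _ fun c _ => ?_
  exact Subring.sub_mem _ (m16intu_Xc_mem p ℓ c0) (m16intu_Xc_mem p ℓ c)

theorem m16intu_val_ne (k k0 : ZMod p) (hk : k ≠ k0) :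
    ¬ (p : ℤ) ∣ -((k0.val : ℕ) : ℤ) - -((k.val : ℕ) : ℤ) := by
  intro h
  apply hk
  have h1 := (ZMod.intCast_zmod_eq_zero_iff_dvd _ p).mpr h
  push_cast at h1
  rw [ZMod.natCast_zmod_val, ZMod.natCast_zmod_val] at h1
  have h2 : k - k0 = 0 := by linear_combination h1
  exact sub_eq_zero.mp h2

/-- every factor of `U c0` has a unit lowest coefficient. -/
theorem m16intu_factor_low (hℓp : ℓ ≠ p) (c0 c : Option (ZMod p)) (hc : c ≠ c0) :
    ∃ N : ℤ, (∀ n < N, (m16intu_Xc p c0 - m16intu_Xc p c).coeff n = 0) ∧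
      (m16intu_Xc p c0 - m16intu_Xc p c).coeff N ≠ 0 ∧
      ((m16intu_Xc p c0 - m16intu_Xc p c).coeff N)⁻¹ ∈ m16nrm_O ℓ := by
  have h1pp := m16intu_one_lt_pp p
  cases c0 with
  | none =>
    cases c with
    | none => exact absurd rfl hc
    | some k =>
      have hlead : (m16intu_Xc p none - m16intu_Xc p (some k)).coeff (-((p * p : ℕ) : ℤ)) = 1 := by
        rw [HahnSeries.coeff_sub, m16intu_Xc_none_lead,
          m16intu_Xc_some_low p k _ (by linarith), sub_zero]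
      refine ⟨-((p * p : ℕ) : ℤ), fun n hn => ?_, ?_, ?_⟩
      · rw [HahnSeries.coeff_sub, m16intu_Xc_none_low p n hn,
          m16intu_Xc_some_low p k n (by linarith), sub_zero]
      · rw [hlead]
        exact one_ne_zero
      · rw [hlead, inv_one]
        exact (m16nrm_O ℓ).one_mem
  | some k0 =>
    cases c with
    | none =>
      have hlead : (m16intu_Xc p (some k0) - m16intu_Xc p none).coeff (-((p * p : ℕ) : ℤ))
          = -1 := by
        rw [HahnSeries.coeff_sub, m16intu_Xc_none_lead,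
          m16intu_Xc_some_low p k0 _ (by linarith), zero_sub]
      refine ⟨-((p * p : ℕ) : ℤ), fun n hn => ?_, ?_, ?_⟩
      · rw [HahnSeries.coeff_sub, m16intu_Xc_none_low p n hn,
          m16intu_Xc_some_low p k0 n (by linarith), sub_zero]
      · rw [hlead]
        exact neg_ne_zero.mpr one_ne_zero
      · rw [hlead, inv_neg, inv_one]
        exact (m16nrm_O ℓ).neg_mem (m16nrm_O ℓ).one_mem
    | some k =>
      have hk : k ≠ k0 := fun h => hc (by rw [h])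
      have hlead : (m16intu_Xc p (some k0) - m16intu_Xc p (some k)).coeff (-1)
          = ((atw_zeta p ^ (-((k0.val : ℕ) : ℤ)) : ℂˣ) : ℂ)
            - ((atw_zeta p ^ (-((k.val : ℕ) : ℤ)) : ℂˣ) : ℂ) := by
        rw [HahnSeries.coeff_sub, m16intu_Xc_some_lead, m16intu_Xc_some_lead]
      refine ⟨-1, fun n hn => ?_, ?_, ?_⟩
      · rw [HahnSeries.coeff_sub, m16intu_Xc_some_low p k0 n hn,
          m16intu_Xc_some_low p k n hn, sub_zero]
      · rw [hlead]
        exact m16intu_zeta_sub_ne p _ _ (m16intu_val_ne p k k0 hk)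
      · rw [hlead]
        exact m16intu_zeta_sub_inv_mem ℓ p hℓp _ _ (m16intu_val_ne p k k0 hk)

/-- the lowest coefficient of `U c0` is a unit of `O`. -/
theorem m16intu_U_low (hℓp : ℓ ≠ p) (c0 : Option (ZMod p)) :
    ∃ N : ℤ, (∀ n < N, (m16intu_U p c0).coeff n = 0) ∧ (m16intu_U p c0).coeff N ≠ 0 ∧
      ((m16intu_U p c0).coeff N)⁻¹ ∈ m16nrm_O ℓ := by
  unfold m16intu_U
  refine m16intu_prod_unit _ _ _ fun c hc => ?_
  exact m16intu_factor_low p ℓ hℓp c0 c (Finset.ne_of_mem_erase hc)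

theorem m16intu_U_ne_zero (hℓp : ℓ ≠ p) (c0 : Option (ZMod p)) : m16intu_U p c0 ≠ 0 := by
  obtain ⟨N, -, hN, -⟩ := m16intu_U_low p ℓ hℓp c0
  intro h
  apply hN
  rw [h]
  rfl

theorem m16intu_U_inv_mem (hℓp : ℓ ≠ p) (c0 : Option (ZMod p)) :
    (m16intu_U p c0)⁻¹ ∈ m16h1_LR (m16nrm_O ℓ) := by
  obtain ⟨N, h1, h2, h3⟩ := m16intu_U_low p ℓ hℓp c0
  exact m16intu_inv_mem_LR _ _ (m16intu_U_mem p ℓ c0) N h1 h2 h3

/-- cancellation of `U c0` in `LR(O)`. -/
theorem m16intu_U_cancel (hℓp : ℓ ≠ p) (c0 : Option (ZMod p)) (z y : LaurentSeries ℂ)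
    (h : z * ∏ c ∈ Finset.univ.erase c0,
      (ana_qexp p (m16h1_cj p (m28pa_x p) c0) - ana_qexp p (m16h1_cj p (m28pa_x p) c)) = y)
    (hy : y ∈ m16h1_LR (m16nrm_O ℓ)) : z ∈ m16h1_LR (m16nrm_O ℓ) := by
  obtain ⟨N, h1, h2, h3⟩ := m16intu_U_low p ℓ hℓp c0
  exact m16intu_div_mem_LR _ (m16intu_U p c0) y z (m16intu_U_mem p ℓ c0) N h1 h2 h3 hy h

/-- cancellation of `U c0` modulo `J`. -/
theorem m16intu_U_cancel_J (hℓp : ℓ ≠ p) (c0 : Option (ZMod p)) (z y : LaurentSeries ℂ)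
    (h : z * ∏ c ∈ Finset.univ.erase c0,
      (ana_qexp p (m16h1_cj p (m28pa_x p) c0) - ana_qexp p (m16h1_cj p (m28pa_x p) c)) = y)
    (hy : ∀ n, y.coeff n ∈ m16nrm_J ℓ) (n : ℤ) : z.coeff n ∈ m16nrm_J ℓ := by
  obtain ⟨N, h1, h2, h3⟩ := m16intu_U_low p ℓ hℓp c0
  exact m16intu_div_mem_J ℓ (m16intu_U p c0) y z (m16intu_U_mem p ℓ c0) N h1 h2 h3 hy h n

end Fermat.Agent.M16

end
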