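/-
M16 (S16 project), LOWER BOUND side: the key statement `m16lb_KEY` from the four packages
`m16lb_PSI`, `m16lb_RES`, `m16lb_INT`, `m16lb_H1` (pure arithmetic).
-/
import Fermat.Agent.M16.LbDefs

set_option autoImplicit false

noncomputable section

namespace Fermat.Agent.M16

open Fermat.Agent.S24
open scoped MatrixGroups

/-- prime power divisibility, the coprimality core. -/
theorem m16lbk_core (P n e a b : ℤ) (ℓ k : ℕ) (hℓ : ℓ.Prime) (h : e * P * b = n * a)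
    (hn : ((ℓ : ℤ) ^ k) ∣ n) (he : ¬ (ℓ : ℤ) ∣ e) (hb : ¬ (ℓ : ℤ) ∣ b) :
    ((ℓ : ℤ) ^ k) ∣ P := by
  have hpr : Prime (ℓ : ℤ) := Nat.prime_iff_prime_int.mp hℓ
  have hce : IsCoprime ((ℓ : ℤ) ^ k) e := ((hpr.coprime_iff_not_dvd).mpr he).pow_left
  have hcb : IsCoprime ((ℓ : ℤ) ^ k) b := ((hpr.coprime_iff_not_dvd).mpr hb).pow_left
  have h1 : ((ℓ : ℤ) ^ k) ∣ e * P * b := h ▸ Dvd.dvd.mul_right hn a
  have h2 : ((ℓ : ℤ) ^ k) ∣ e * P := hcb.dvd_of_dvd_mul_right h1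
  exact hce.dvd_of_dvd_mul_left h2

/-- `n * gcd(p-1,12) = p - 1`, `d * gcd = 12`, `n` and `d` coprime. -/
theorem m16lbk_decomp (p : ℕ) (hp : 1 ≤ p) :
    ∃ g d : ℕ, 0 < g ∧ ModularCurve.eisensteinNumerator p * g = p - 1 ∧ d * g = 12 ∧
      Nat.Coprime (ModularCurve.eisensteinNumerator p) d := by
  by_cases h1 : p = 1
  · subst h1
    exact ⟨12, 1, by norm_num, by simp [ModularCurve.eisensteinNumerator], by norm_num,
      Nat.coprime_one_right _⟩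
  have hN : 0 < p - 1 := by omega
  have hg : 0 < Nat.gcd (p - 1) 12 := Nat.gcd_pos_of_pos_left _ hN
  refine ⟨Nat.gcd (p - 1) 12, 12 / Nat.gcd (p - 1) 12, hg, ?_, ?_, ?_⟩
  · exact Nat.div_mul_cancel (Nat.gcd_dvd_left _ _)
  · exact Nat.div_mul_cancel (Nat.gcd_dvd_right _ _)
  · exact Nat.coprime_div_gcd_div_gcd hg

/-- if `n` is even then `p ≡ 1 mod 4` (in fact mod 8), and `d` is odd. -/
theorem m16lbk_even (p : ℕ) (hp : 1 ≤ p) (h2 : 2 ∣ ModularCurve.eisensteinNumerator p) :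
    p % 4 = 1 := by
  obtain ⟨g, d, hg, hng, hdg, hcop⟩ := m16lbk_decomp p hp
  have hd2 : ¬ 2 ∣ d := fun hd => by
    have := Nat.Coprime.eq_one_of_dvd (hcop.coprime_dvd_left h2) hd
    omega
  have hg12 : g ∣ 12 := ⟨d, by rw [← hdg, mul_comm]⟩
  have hgle : g ≤ 12 := Nat.le_of_dvd (by norm_num) hg12
  have hdle : d ≤ 12 := Nat.le_of_dvd (by norm_num) ⟨g, by rw [← hdg]⟩
  have h4g : 4 ∣ g := by
    interval_cases g <;> first | omega | (exfalso; apply hd2; omega)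
  obtain ⟨n', hn'⟩ := h2
  obtain ⟨g', hg'⟩ := h4g
  rw [hn', hg'] at hng
  have : p - 1 = 8 * (n' * g') := by rw [← hng]; ring
  omega

/-- **arithmetic core of (KEY)**. -/
theorem m16lbk_arith (p : ℕ) (hp : p.Prime) (P : ℤ) (r0 : ℚ)
    (h24 : (24 : ℚ) * (P : ℚ) = ((p : ℚ) - 1) * r0)
    (hint : ∀ ℓ : ℕ, ℓ.Prime → ℓ ∣ ModularCurve.eisensteinNumerator p → ¬ ℓ ∣ r0.den)
    (hH1 : p % 4 = 1 → ∃ r : ℚ, ¬ 2 ∣ r.den ∧ r0 = 2 * r) :
    (ModularCurve.eisensteinNumerator p : ℤ) ∣ P := by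
  have hp1 : 1 ≤ p := hp.one_lt.le
  obtain ⟨g, d, hg, hng, hdg, hcop⟩ := m16lbk_decomp p hp1
  set n := ModularCurve.eisensteinNumerator p with hn_def
  have hgq : (g : ℚ) ≠ 0 := by exact_mod_cast hg.ne'
  have hpq : ((p : ℚ) - 1) = (n : ℚ) * (g : ℚ) := by
    have : ((p - 1 : ℕ) : ℚ) = (p : ℚ) - 1 := by
      rw [Nat.cast_sub hp1]; simp
    rw [← this, ← hng]; push_cast; ring
  have h24q : (24 : ℚ) = 2 * (d : ℚ) * (g : ℚ) := by
    have : ((d * g : ℕ) : ℚ) = 12 := by rw [hdg]; norm_num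
    push_cast at this
    linarith
  -- `2 d P = n r0`
  have hmain : 2 * (d : ℚ) * (P : ℚ) = (n : ℚ) * r0 := by
    have h := h24
    rw [h24q, hpq] at h
    have h' : (g : ℚ) * (2 * (d : ℚ) * (P : ℚ)) = (g : ℚ) * ((n : ℚ) * r0) := by linarith
    exact mul_left_cancel₀ hgq h'
  -- reduce to prime powers
  rw [Int.natCast_dvd, Nat.dvd_iff_prime_pow_dvd_dvd]
  intro ℓ k hℓ hk
  rw [← Int.natCast_dvd]
  push_cast
  by_cases hk0 : k = 0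
  · subst hk0; simp
  have hℓn : ℓ ∣ n := dvd_trans (dvd_pow_self ℓ hk0) hk
  have hkn : ((ℓ : ℤ) ^ k) ∣ (n : ℤ) := by exact_mod_cast hk
  have hℓd : ¬ (ℓ : ℤ) ∣ (d : ℤ) := fun h => by
    have h' : ℓ ∣ d := by exact_mod_cast h
    have := Nat.Coprime.eq_one_of_dvd (hcop.coprime_dvd_left hℓn) h'
    exact hℓ.one_lt.ne' this
  by_cases hℓ2 : ℓ = 2
  · -- the prime 2: use (H1)
    subst hℓ2
    obtain ⟨r, hrden, hr⟩ := hH1 (m16lbk_even p hp1 hℓn)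
    have hmain' : (d : ℚ) * (P : ℚ) = (n : ℚ) * r := by
      rw [hr] at hmain; linarith
    have hZ : (d : ℤ) * P * (r.den : ℤ) = (n : ℤ) * r.num := by
      have h1 : ((d : ℚ) * (P : ℚ)) * (r.den : ℚ) = (n : ℚ) * (r.num : ℚ) := by
        rw [hmain', mul_assoc, Rat.mul_den_eq_num]
      exact_mod_cast h1
    refine m16lbk_core P n d r.num r.den 2 k hℓ hZ (by exact_mod_cast hkn) hℓd ?_
    exact fun h => hrden (by exact_mod_cast h)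
  · have hb : ¬ (ℓ : ℤ) ∣ (r0.den : ℤ) := fun h => hint ℓ hℓ hℓn (by exact_mod_cast h)
    have he : ¬ (ℓ : ℤ) ∣ (2 * (d : ℤ)) := fun h => by
      rcases (Nat.prime_iff_prime_int.mp hℓ).dvd_or_dvd h with h2 | hd
      · have h2' : ℓ ∣ 2 := by exact_mod_cast h2
        exact hℓ2 ((Nat.prime_dvd_prime_iff_eq hℓ Nat.prime_two).mp h2')
      · exact hℓd hd
    have hZ : (2 * (d : ℤ)) * P * (r0.den : ℤ) = (n : ℤ) * r0.num := by
      have h1 : (2 * (d : ℚ) * (P : ℚ)) * (r0.den : ℚ) = (n : ℚ) * (r0.num : ℚ) := by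
        rw [hmain, mul_assoc, Rat.mul_den_eq_num]
      exact_mod_cast h1
    exact m16lbk_core P n (2 * d) r0.num r0.den ℓ k hℓ hZ hkn he hb

/-- the hypothesis `∀ k ≤ 0, IsLInt ℓ (b_k)` of (INT) for a `ψ` with integral principal part and
`b_0 = 0`. -/
theorem m16lbk_pp_int (p : ℕ) [NeZero p] (ℓ : ℕ) (hℓ : ℓ.Prime) (ψ : ana_ring p) (π : ℕ →₀ ℤ)
    (hPP : m16lb_HasPP p ψ π) (hb0 : m16lb_b p ψ 0 = 0) (k : ℤ) (hk : k ≤ 0) :
    m16lb_IsLInt ℓ (m16lb_b p ψ k) := by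
  rcases hk.lt_or_eq with hk | hk
  · obtain ⟨m, hm⟩ : ∃ m : ℕ, k = -(m : ℤ) := ⟨(-k).toNat, by omega⟩
    have hm1 : 1 ≤ m := by omega
    refine ⟨(π m : ℚ), ?_, ?_⟩
    · have h1 : ((π m : ℤ) : ℚ).den = 1 := Rat.den_intCast _
      rw [h1]
      exact fun h => hℓ.one_lt.ne' (Nat.dvd_one.mp h)
    · rw [hm, hPP m hm1]; push_cast; rfl
  · refine ⟨0, ?_, ?_⟩
    · simp only [Rat.den_zero]
      exact fun h => hℓ.one_lt.ne' (Nat.dvd_one.mp h)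
    · rw [hk, hb0]; simp

/-- **(KEY)** from the four packages. -/
theorem m16lbk_main (hPSI : m16lb_PSI) (hRES : m16lb_RES) (hINT : m16lb_INT) (hH1 : m16lb_H1) :
    m16lb_KEY := by
  intro p _ π hO
  have hp : p.Prime := Fact.out
  haveI : NeZero p := ⟨hp.ne_zero⟩
  obtain ⟨ψ, hA, hPP, hb0, hbQ, hcQ⟩ := hPSI p π hO
  have hres := hRES p π ψ hO.1 hA hPP
  obtain ⟨r0, hr0⟩ := hcQ 0
  have h24 : (24 : ℚ) * ((m16lb_pair p π : ℤ) : ℚ) = ((p : ℚ) - 1) * r0 := by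
    have h : (24 : ℂ) * ((m16lb_pair p π : ℤ) : ℂ) = ((p : ℂ) - 1) * (r0 : ℂ) := by
      rw [hres, hb0, hr0]; ring
    exact_mod_cast h
  have hINTℓ : ∀ ℓ : ℕ, ℓ.Prime → ℓ ≠ p →
      (∀ k : ℤ, m16lb_IsLInt ℓ (m16lb_b p ψ k)) ∧ (∀ k : ℤ, m16lb_IsLInt ℓ (m16lb_c p ψ k)) :=
    fun ℓ hℓ hne => hINT p ℓ hℓ hne ψ hA hbQ hcQ (m16lbk_pp_int p ℓ hℓ ψ π hPP hb0)
  refine m16lbk_arith p hp _ r0 h24 ?_ ?_
  · intro ℓ hℓ hℓn
    have hne : ℓ ≠ p := by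
      rintro rfl
      have h1 : ℓ ∣ ℓ - 1 := dvd_trans hℓn (ModularCurve.eisensteinNumerator_dvd ℓ)
      have h2 : ℓ ≤ ℓ - 1 := Nat.le_of_dvd (by have := hℓ.one_lt; omega) h1
      have := hℓ.one_lt
      omega
    obtain ⟨r, hr, hcr⟩ := (hINTℓ ℓ hℓ hne).2 0
    have : r = r0 := by
      have h : (r : ℂ) = (r0 : ℂ) := by rw [← hcr, ← hr0]
      exact_mod_cast h
    rw [← this]; exact hr
  · intro h4
    have hne : (2 : ℕ) ≠ p := by rintro rfl; omega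
    obtain ⟨hb2, hc2⟩ := hINTℓ 2 Nat.prime_two hne
    obtain ⟨r, hr, hcr⟩ := hH1 p h4 ψ hA hb2 hc2
    refine ⟨r, hr, ?_⟩
    have h : (r0 : ℂ) = 2 * (r : ℂ) := by rw [← hr0, ← hcr, hb0, sub_zero]
    exact_mod_cast h

end Fermat.Agent.M16
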