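/-
M16 (S16 project), LOWER BOUND side, package RES (owner: helper3): target statements.

* `m16lb_R1` : the residue theorem for `ψ · f`, `f` a cusp form of weight 2 on `Γ₀(p)`:
               `∑_k b_{-k} a_k(f) = 0`   (the constant term of `ψ f` at `∞` vanishes);
* `m16lb_R2` : the residue theorem for `ψ · E`:
               `∑_k b_{-k} e_k = (p - 1)/24 · c_0`, `e = m16_eisC p`;
* `m16lb_PSIINT` : the combined output of the packages PSI and INT.
-/
import Fermat.Agent.M16.LbDefs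
import Fermat.Agent.M16.UbaDefs

set_option autoImplicit false

noncomputable section

namespace Fermat.Agent.M16

open Fermat.Agent.S24
open scoped MatrixGroups

/-- **(R1)** residue theorem for `ψ · f`. -/
def m16lb_R1 : Prop :=
  ∀ (p : ℕ) [Fact p.Prime],
    haveI : NeZero p := ⟨(Fact.out : p.Prime).ne_zero⟩
    ∀ ψ : ana_ring p, m16lb_IsA p ψ → ∀ f : CuspForm (CongruenceSubgroup.Gamma0 p) 2,
      ∑ᶠ k : ℕ, m16lb_b p ψ (-(k : ℤ)) * ModularFormClass.qCoeff f k = 0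

/-- **(R2)** residue theorem for `ψ · E`. -/
def m16lb_R2 : Prop :=
  ∀ (p : ℕ) [Fact p.Prime],
    haveI : NeZero p := ⟨(Fact.out : p.Prime).ne_zero⟩
    ∀ ψ : ana_ring p, m16lb_IsA p ψ →
      ∑ᶠ k : ℕ, m16lb_b p ψ (-(k : ℤ)) * PowerSeries.coeff k (m16_eisC p) =
        ((p : ℂ) - 1) / 24 * m16lb_c p ψ 0

/-- **(PSI + INT)** combined: an integral principal part orthogonal to all cusp forms is the
principal part of some `ψ ∈ A` with `b_0 = 0` all of whose coefficients at both cusps are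
`ℓ`-integral for every prime `ℓ ≠ p`. -/
def m16lb_PSIINT : Prop :=
  ∀ (p : ℕ) [Fact p.Prime] (π : ℕ →₀ ℤ), m16lb_Orth p π →
    haveI : NeZero p := ⟨(Fact.out : p.Prime).ne_zero⟩
    ∃ ψ : ana_ring p, m16lb_IsA p ψ ∧ m16lb_HasPP p ψ π ∧ m16lb_b p ψ 0 = 0 ∧
      ∀ ℓ : ℕ, ℓ.Prime → ℓ ≠ p →
        (∀ k : ℤ, m16lb_IsLInt ℓ (m16lb_b p ψ k)) ∧ (∀ k : ℤ, m16lb_IsLInt ℓ (m16lb_c p ψ k))

end Fermat.Agent.M16
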