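/-
M16 (S16 project), LOWER BOUND side: variants of the assembly `m16lbk_main`.

* `m16lbk_res_of_R2` : `m16lb_R2 → m16lb_RES`;
* `m16lbk_main2`     : `m16lb_PSIINT → m16lb_RES → m16lb_H1 → m16lb_KEY`.
-/
import Fermat.Agent.M16.LbKey
import Fermat.Agent.M16.ResDefs

set_option autoImplicit false

noncomputable section

namespace Fermat.Agent.M16

open Fermat.Agent.S24
open scoped MatrixGroups

/-- the finite sum `∑_k b_{-k} e_k` of a `ψ` with principal part `π`. -/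
theorem m16lbk_finsum_pp (p : ℕ) [NeZero p] (ψ : ana_ring p) (π : ℕ →₀ ℤ) (hπ0 : π 0 = 0)
    (hPP : m16lb_HasPP p ψ π) :
    ∑ᶠ k : ℕ, m16lb_b p ψ (-(k : ℤ)) * PowerSeries.coeff k (m16_eisC p) =
      m16lb_b p ψ 0 * (((p : ℂ) - 1) / 24) + ((m16lb_pair p π : ℤ) : ℂ) := by
  classical
  have hsupp : (Function.support fun k : ℕ =>
      m16lb_b p ψ (-(k : ℤ)) * PowerSeries.coeff k (m16_eisC p)) ⊆
      ((insert 0 π.support : Finset ℕ) : Set ℕ) := by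
    intro k hk
    simp only [Function.mem_support] at hk
    simp only [Finset.coe_insert, Set.mem_insert_iff, Finset.mem_coe, Finsupp.mem_support_iff]
    by_cases hk0 : k = 0
    · exact Or.inl hk0
    · right
      intro hπk
      apply hk
      rw [hPP k (Nat.one_le_iff_ne_zero.mpr hk0), hπk]
      simp
  rw [finsum_eq_sum_of_support_subset _ hsupp]
  have h0 : (0 : ℕ) ∉ π.support := by simp [hπ0]
  rw [Finset.sum_insert h0]
  congr 1
  · simp [m16_eisC]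
  · unfold m16lb_pair
    rw [Finsupp.sum]
    push_cast
    refine Finset.sum_congr rfl fun k hk => ?_
    have hk0 : k ≠ 0 := fun h => h0 (h ▸ hk)
    rw [hPP k (Nat.one_le_iff_ne_zero.mpr hk0)]
    simp [m16_eisC, hk0]

/-- `(R2) ⟹ (RES)`. -/
theorem m16lbk_res_of_R2 (hR2 : m16lb_R2) : m16lb_RES := by
  intro p _ π
  have hp : p.Prime := Fact.out
  haveI : NeZero p := ⟨hp.ne_zero⟩
  intro ψ hπ0 hA hPP
  have h2 := hR2 p ψ hA
  rw [m16lbk_finsum_pp p ψ π hπ0 hPP] at h2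
  linear_combination h2

/-- **(KEY)** from `PSIINT`, `RES`, `H1`. -/
theorem m16lbk_main2 (hPI : m16lb_PSIINT) (hRES : m16lb_RES) (hH1 : m16lb_H1) :
    m16lb_KEY := by
  intro p _ π hO
  have hp : p.Prime := Fact.out
  haveI : NeZero p := ⟨hp.ne_zero⟩
  obtain ⟨ψ, hA, hPP, hb0, hINTℓ⟩ := hPI p π hO
  have hres := hRES p π ψ hO.1 hA hPP
  -- rationality of `c_0` from integrality at some prime `ℓ ≠ p`
  obtain ⟨ℓ0, hℓ0, hne0⟩ : ∃ ℓ : ℕ, ℓ.Prime ∧ ℓ ≠ p := by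
    by_cases h2 : p = 2
    · exact ⟨3, Nat.prime_three, by omega⟩
    · exact ⟨2, Nat.prime_two, fun h => h2 h.symm⟩
  obtain ⟨r0, -, hr0⟩ := (hINTℓ ℓ0 hℓ0 hne0).2 0
  have h24 : (24 : ℚ) * ((m16lb_pair p π : ℤ) : ℚ) = ((p : ℚ) - 1) * r0 := by
    have h : (24 : ℂ) * ((m16lb_pair p π : ℤ) : ℂ) = ((p : ℂ) - 1) * (r0 : ℂ) := by
      rw [hres, hb0, hr0]; ring
    exact_mod_cast h
  refine m16lbk_arith p hp _ r0 h24 ?_ ?_
  · intro ℓ hℓ hℓn
    have hne : ℓ ≠ p := by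
      rintro rfl
      have h1 : ℓ ∣ ℓ - 1 := dvd_trans hℓn (ModularCurve.eisensteinNumerator_dvd ℓ)
      have h2 : ℓ ≤ ℓ - 1 := Nat.le_of_dvd (by have := hℓ.one_lt; omega) h1
      have := hℓ.one_lt
      omega
    obtain ⟨r, hr, hcr⟩ := (hINTℓ ℓ hℓ hne).2 0
    have : r = r0 := by
      have h : (r : ℂ) = (r0 : ℂ) := by rw [← hcr, ← hr0]
      exact_mod_cast h
    rw [← this]; exact hr
  · intro h4
    have hne : (2 : ℕ) ≠ p := by rintro rfl; omega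
    obtain ⟨hb2, hc2⟩ := hINTℓ 2 Nat.prime_two hne
    obtain ⟨r, hr, hcr⟩ := hH1 p h4 ψ hA hb2 hc2
    refine ⟨r, hr, ?_⟩
    have h : (r0 : ℂ) = 2 * (r : ℂ) := by rw [← hr0, ← hcr, hb0, sub_zero]
    exact_mod_cast h

end Fermat.Agent.M16
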