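/-
M16 (S16 project), LOWER BOUND side, package PSI, leaf CUSP0 (helper7 for helper2):
a Galois-fixed element `x` of the function field `s24F p` (i.e. with rational coefficients at the
cusp `∞`) has a rational expansion at the cusp `0` as well.

`m16psc_main` : for `x : s24F p` fixed by all `coeffMap σ`, `σ ∈ Gal(ℚ̄/ℚ)`, every coefficient of
`ana_qexpM p (ana_rho p [S⁻¹] x)` is rational.

Proof: `E₀ := ana_qexpM ∘ ana_rho [S⁻¹]` maps the constants `c` to `C (ι c)` and the generators
`j`, `j_p` to series with rational coefficients; hence `E₀ = coeffMap ι ∘ Ψ` for a ring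
homomorphism `Ψ : s24F p → ℚ̄((q))`, and `Ψ` commutes with the coefficientwise Galois action
(ring homomorphisms which agree on constants and generators).
-/
import Fermat.Agent.S24
import Fermat.Agent.S23.Descent
import Fermat.Agent.M28.PaX

set_option autoImplicit false

noncomputable section

namespace Fermat.Agent.M16

open Fermat.Agent.S23 Fermat.Agent.S24 Fermat.Agent.M28 ModularCurve
open scoped MatrixGroups

variable (p : ℕ) [NeZero p]

/-- the expansion at the cusp `0` -/
def m16psc_E0 : s24F p →+* LaurentSeries ℂ :=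
  (ana_qexpM p).comp (ana_rho p ((ModularGroup.S⁻¹ : SL(2, ℤ)) : s24Q p))

theorem m16psc_coeffMap_iota_injective :
    Function.Injective (coeffMap ana_iota : LaurentSeries s24K →+* LaurentSeries ℂ) :=
  (coeffMap ana_iota : LaurentSeries s24K →+* LaurentSeries ℂ).injective

theorem m16psc_E0_const (c : s24K) :
    m16psc_E0 p (algebraMap s24K (s24F p) c)
      = coeffMap ana_iota (algebraMap s24K (LaurentSeries s24K) c) := by
  rw [m16psc_E0, RingHom.comp_apply, ana_rho_algebraMap, ana_qexpM_algebraMap, ana_qexp_const,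
    algebraMap_laurentSeries_eq_single, coeffMap_single]
  rfl

theorem m16psc_E0_jd (hp : p.Prime) (d : ℕ) [NeZero d] (hd : d ∣ p) :
    ∃ φ : LaurentSeries ℚ, m16psc_E0 p (eva_jd p d hd) = coeffMap ana_iota (coeffEmb s24K φ) := by
  rcases (Nat.dvd_prime hp).mp hd with h1 | h1
  · subst h1
    refine ⟨qExpand ℚ p jq, ?_⟩
    rw [m16psc_E0, RingHom.comp_apply, eva_jd_one, ana_rho_j, ana_qexpM_algebraMap, ana_qexp_J,
      ana_coeffMap_iota_coeffEmb, coeffEmb, coeffMap_qExpand, ← coeffEmb]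
  · subst h1
    refine ⟨jq, ?_⟩
    rw [m16psc_E0, RingHom.comp_apply, ana_rho_jd, ana_qexpM_algebraMap,
      ana_coeffMap_iota_coeffEmb, m28pa_coeffEmb_jq, ← m28pa_E_X_S d, m28pa_X,
      m28pa_conj_mk d (m28pa_x_inv d)]
    rfl

/-- every value of `E₀` is in the range of `coeffMap ι` -/
theorem m16psc_E0_mem (hp : p.Prime) (x : s24F p) :
    m16psc_E0 p x ∈ (coeffMap ana_iota : LaurentSeries s24K →+* LaurentSeries ℂ).fieldRange := by
  set T : Subfield (LaurentSeries s24K) :=
    (((coeffMap ana_iota : LaurentSeries s24K →+* LaurentSeries ℂ).fieldRange).comap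
      (m16psc_E0 p)).map (algebraMap (s24F p) (LaurentSeries s24K)) with hT
  have hx : (x : LaurentSeries s24K) ∈ T := by
    refine eva_mem_of_generators (K := s24K) p T ?_ ?_ x.2
    · intro c
      refine Subfield.mem_map.mpr ⟨algebraMap s24K (s24F p) c, ?_, rfl⟩
      rw [Subfield.mem_comap, m16psc_E0_const]
      exact ⟨_, rfl⟩
    · intro d hd hne
      obtain ⟨φ, hφ⟩ := m16psc_E0_jd p hp d hd
      refine Subfield.mem_map.mpr ⟨eva_jd p d hd, ?_, rfl⟩
      rw [Subfield.mem_comap, hφ]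
      exact ⟨_, rfl⟩
  obtain ⟨y, hy, hyx⟩ := Subfield.mem_map.mp hx
  have hyx' : y = x := Subtype.ext hyx
  rw [← hyx']
  exact hy

/-- the algebraic avatar `Ψ` of `E₀` -/
theorem m16psc_exists_Psi (hp : p.Prime) :
    ∃ Ψ : s24F p →+* LaurentSeries s24K, ∀ x, coeffMap ana_iota (Ψ x) = m16psc_E0 p x := by
  obtain ⟨ev, hev⟩ := eva_exists_of_subfield
    (coeffMap ana_iota : LaurentSeries s24K →+* LaurentSeries ℂ) (m16psc_E0 p)
    (⊤ : Subfield (s24F p)) (fun x _ => m16psc_E0_mem p hp x)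
  exact ⟨ev.comp ((RingHom.id (s24F p)).codRestrict (⊤ : Subfield (s24F p))
    (fun _ => Subfield.mem_top _)), fun x => hev _⟩

/-- `Ψ` commutes with the coefficientwise Galois action -/
theorem m16psc_Psi_galois (Ψ : s24F p →+* LaurentSeries s24K)
    (hΨ : ∀ x, coeffMap ana_iota (Ψ x) = m16psc_E0 p x) (hp : p.Prime)
    (σ : s24K ≃ₐ[ℚ] s24K) (x : s24F p) :
    Ψ (arithmeticRingAut (modularFunctionFieldFull p) σ x)
      = coeffMap (σ : s24K →+* s24K) (Ψ x) := by
  have hconst : ∀ c : s24K, Ψ (algebraMap s24K (s24F p) c)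
      = algebraMap s24K (LaurentSeries s24K) c := by
    intro c
    apply m16psc_coeffMap_iota_injective
    rw [hΨ, m16psc_E0_const]
  have hgen : ∀ (d : ℕ) [NeZero d] (hd : d ∣ p), ∃ φ : LaurentSeries ℚ,
      Ψ (eva_jd p d hd) = coeffEmb s24K φ := by
    intro d _ hd
    obtain ⟨φ, hφ⟩ := m16psc_E0_jd p hp d hd
    refine ⟨φ, ?_⟩
    apply m16psc_coeffMap_iota_injective
    rw [hΨ, hφ]
  have key : Ψ.comp ((arithmeticRingAut (modularFunctionFieldFull p) σ : s24F p ≃+* s24F p)
        : s24F p →+* s24F p)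
      = (coeffMap (σ : s24K →+* s24K)).comp Ψ := by
    apply ana_ringHom_ext_F
    · intro c
      simp only [RingHom.comp_apply, RingHom.coe_coe]
      rw [arithmeticRingAut_algebraMap, hconst, hconst, coeffMap_algebraMap]
      rfl
    · intro d _ hd
      simp only [RingHom.comp_apply, RingHom.coe_coe]
      obtain ⟨φ, hφ⟩ := hgen d hd
      have h1 : arithmeticRingAut (modularFunctionFieldFull p) σ (eva_jd p d hd)
          = eva_jd p d hd := by
        apply Subtype.ext
        rw [coe_arithmeticRingAut_apply, eva_jd_coe, coeffMap_coeffEmb]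
      rw [h1, hφ, coeffMap_coeffEmb]
  exact congrArg (fun f => f x) key

/-- **CUSP0**: a Galois-fixed element of the function field has rational coefficients at the
cusp `0`. -/
theorem m16psc_main (p : ℕ) [Fact p.Prime] :
    haveI : NeZero p := ⟨(Fact.out : p.Prime).ne_zero⟩
    ∀ (x : s24F p),
      (∀ σ : s24K ≃ₐ[ℚ] s24K,
        coeffMap (σ : s24K →+* s24K) (x : LaurentSeries s24K) = (x : LaurentSeries s24K)) →
      ∀ k : ℤ, ∃ r : ℚ,
        (ana_qexpM p (ana_rho p ((ModularGroup.S⁻¹ : SL(2, ℤ)) : s24Q p) x)).coeff k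
          = (r : ℂ) := by
  have hne : NeZero p := ⟨(Fact.out : p.Prime).ne_zero⟩
  intro x hx k
  have hp : p.Prime := Fact.out
  obtain ⟨Ψ, hΨ⟩ := m16psc_exists_Psi p hp
  have hfix : ∀ σ : s24K ≃ₐ[ℚ] s24K, coeffMap (σ : s24K →+* s24K) (Ψ x) = Ψ x := by
    intro σ
    rw [← m16psc_Psi_galois p Ψ hΨ hp σ x]
    congr 1
    apply Subtype.ext
    rw [coe_arithmeticRingAut_apply]
    exact hx σ
  have hcoef : ∀ τ : s24K ≃+* s24K, τ ((Ψ x).coeff k) = (Ψ x).coeff k := by
    intro τ
    let σ : s24K ≃ₐ[ℚ] s24K := AlgEquiv.ofRingEquiv (f := τ) (fun r => by simp)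
    have h := congrArg (fun y : LaurentSeries s24K => y.coeff k) (hfix σ)
    simp only [coeffMap_coeff] at h
    exact h
  obtain ⟨r, hr⟩ := desc_mem_range_of_fixed ((Ψ x).coeff k) hcoef
  refine ⟨r, ?_⟩
  have h1 : ana_qexpM p (ana_rho p ((ModularGroup.S⁻¹ : SL(2, ℤ)) : s24Q p) x)
      = coeffMap ana_iota (Ψ x) := (hΨ x).symm
  rw [h1, coeffMap_coeff, ← hr]
  simp

end Fermat.Agent.M16

end
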