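import Fermat.Agent.M16.PsiMain
import Fermat.Agent.M16.PscMain

/-!
# M16 / PSI: `m16lb_PSI` from the residue theorem `m16lb_R1` alone (prefix `m16psi_`)
-/

set_option autoImplicit false

namespace Fermat.Agent.M16

/-- the leaf CUSP0 (helper7's `m16psc_main`). -/
theorem m16psi_c0 : m16psi_C0 := fun p _ => m16psc_main p

/-- **(PSI)** from the residue theorem `(R1)`. -/
theorem m16psi_main_of_R1 (hR1 : m16lb_R1) : m16lb_PSI := m16psi_main_of hR1 m16psi_c0

end Fermat.Agent.M16
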