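/-
M16 (S16 project), LOWER BOUND side, package RES (helper3): analytic lemmas.

* `m16res_sc p z = p z` on the upper half plane, `m16nrm_wp p z = S • (p z)`;
* `m16res_qexp_period` : the `q_p`-expansion of a `1`-periodic function is `V_p` of its
  `q`-expansion;
* `m16res_qexp_sc`     : the `q`-expansion of `z ↦ H (p z)` is the `q_p`-expansion of `H`;
* `m16res_nice_of_coeff` : a function meromorphic at `i∞` whose Laurent coefficients of negative
  index vanish is bounded at `i∞`;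
* `m16res_wp_smul`     : the Fricke involution normalises `Γ₀(p)`.
-/
import Fermat.Agent.M16.LbDefs
import Fermat.Agent.M16.UbaDefs
import Fermat.Agent.M16.NrmConj
import Fermat.Agent.S24.AnaMer
import Fermat.Agent.S20.DictFn
import Fermat.Agent.M16.UbaSeries

set_option autoImplicit false

noncomputable section

namespace Fermat.Agent.M16

open UpperHalfPlane hiding I
open Filter Function Topology ModularForm Complex CongruenceSubgroup
open Fermat.Agent.S23 Fermat.Agent.S24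
open scoped Manifold MatrixGroups ModularForm Real

local notation "𝕢" => Periodic.qParam

variable {p : ℕ} [NeZero p]

theorem m16res_p_pos (p : ℕ) [NeZero p] : (0 : ℝ) < p := Nat.cast_pos.mpr (NeZero.pos p)

/-- the point `p z` -/
def m16res_sc (p : ℕ) [NeZero p] (z : ℍ) : ℍ :=
  ⟨(p : ℂ) * (z : ℂ), by
    have h : ((p : ℂ) * (z : ℂ)).im = (p : ℝ) * (z : ℂ).im := by
      rw [Complex.mul_im]; simp
    rw [h]
    exact mul_pos (m16res_p_pos p) z.im_pos⟩

theorem m16res_coe_sc (z : ℍ) : ((m16res_sc p z : ℍ) : ℂ) = (p : ℂ) * (z : ℂ) := rfl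

theorem m16res_im_sc (z : ℍ) : (m16res_sc p z).im = (p : ℝ) * z.im := by
  show ((p : ℂ) * (z : ℂ)).im = _
  rw [Complex.mul_im]; simp

theorem m16res_wp_eq (z : ℍ) : m16nrm_wp p z = ModularGroup.S • m16res_sc p z := by
  apply UpperHalfPlane.ext
  rw [m16nrm_coe_wp, modular_S_smul]
  show _ = ((-(m16res_sc p z : ℂ))⁻¹ : ℂ)
  rw [m16res_coe_sc]
  have hp := m16nrm_p_ne_zero p
  have hz := ne_zero z
  field_simp

theorem m16res_tendsto_sc : Tendsto (m16res_sc p) atImInfty atImInfty := by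
  rw [atImInfty, tendsto_comap_iff]
  have h1 : (UpperHalfPlane.im ∘ m16res_sc p) = fun z : ℍ => (p : ℝ) * z.im := by
    funext z; exact m16res_im_sc z
  rw [h1]
  exact (tendsto_comap (f := UpperHalfPlane.im) (x := atTop)).const_mul_atTop (m16res_p_pos p)

theorem m16res_mdiff_sc {H : ℍ → ℂ} (hH : MDiff H) : MDiff (fun z : ℍ => H (m16res_sc p z)) := by
  rw [UpperHalfPlane.mdifferentiable_iff] at hH ⊢
  have hmaps : Set.MapsTo (fun w : ℂ => (p : ℂ) * w) {z | 0 < z.im} {z | 0 < z.im} := by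
    intro w hw
    simp only [Set.mem_setOf_eq] at hw ⊢
    rw [Complex.mul_im]
    simpa using mul_pos (m16res_p_pos p) hw
  have h2 : DifferentiableOn ℂ ((H ∘ ofComplex) ∘ fun w : ℂ => (p : ℂ) * w) {z | 0 < z.im} :=
    hH.comp (by fun_prop) hmaps
  refine h2.congr fun w hw => ?_
  simp only [Set.mem_setOf_eq] at hw
  have hw' : 0 < ((p : ℂ) * w).im := hmaps hw
  simp only [comp_apply, ofComplex_apply_of_im_pos hw, ofComplex_apply_of_im_pos hw']
  rfl

theorem m16res_sc_vadd (z : ℍ) :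
    m16res_sc p ((1 : ℝ) +ᵥ z) = ((p : ℕ) : ℝ) +ᵥ m16res_sc p z := by
  apply UpperHalfPlane.ext
  rw [m16res_coe_sc, UpperHalfPlane.coe_vadd, UpperHalfPlane.coe_vadd, m16res_coe_sc]
  push_cast
  ring

theorem m16res_q_sc (z : ℍ) : ana_q p (m16res_sc p z) = 𝕢 1 (z : ℂ) := by
  unfold ana_q Function.Periodic.qParam
  rw [m16res_coe_sc]
  congr 1
  have hp := m16nrm_p_ne_zero p
  push_cast
  field_simp

/-- **period change, I**: the `q`-expansion of `z ↦ H (p z)` is the `q_p`-expansion of `H`. -/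
theorem m16res_sc_mem_qr {H : ℍ → ℂ} (hH : ana_IsNice p H) :
    (fun z : ℍ => H (m16res_sc p z)) ∈ qr_ring := by
  refine ⟨m16res_mdiff_sc hH.1, fun τ => ?_, ?_⟩
  · show H (m16res_sc p ((1 : ℝ) +ᵥ τ)) = H (m16res_sc p τ)
    rw [m16res_sc_vadd, hH.2.1]
  · exact hH.2.2.comp_tendsto m16res_tendsto_sc

theorem m16res_qexp_sc {H : ℍ → ℂ} (hH : ana_IsNice p H) :
    qExpansion 1 (fun z : ℍ => H (m16res_sc p z)) = qExpansion (p : ℝ) H := by
  have hmem := m16res_sc_mem_qr hH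
  ext n
  refine (ana_qExpansion_coeff_unique (h := 1) (fun z : ℍ => H (m16res_sc p z))
    (c := fun n => (qExpansion (p : ℝ) H).coeff n) one_pos (qr_IsNice.analyticAt hmem)
    (fun τ => ?_) n).symm
  have h := hasSum_qExpansion (m16res_p_pos p) (ana_periodic_of_vadd hH.2.1) hH.1 hH.2.2
    (m16res_sc p τ)
  have hq : 𝕢 (p : ℝ) ((m16res_sc p τ : ℍ) : ℂ) = 𝕢 1 (τ : ℂ) := m16res_q_sc τ
  rw [hq] at h
  exact h

/-- **period change, II**: the `q_p`-expansion of a `1`-periodic function. -/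
theorem m16res_nice_of_qr {F : ℍ → ℂ} (hF : F ∈ qr_ring) : ana_IsNice p F := by
  refine ⟨hF.1, fun τ => ?_, hF.2.2⟩
  have h : ∀ n : ℕ, ∀ τ : ℍ, F (((n : ℕ) : ℝ) +ᵥ τ) = F τ := by
    intro n
    induction n with
    | zero => intro τ; simp
    | succ k ih =>
      intro τ
      have e : (((k + 1 : ℕ) : ℝ) +ᵥ τ) = (1 : ℝ) +ᵥ (((k : ℕ) : ℝ) +ᵥ τ) := by
        apply UpperHalfPlane.ext
        simp only [UpperHalfPlane.coe_vadd]
        push_cast
        ring
      rw [e, hF.2.1, ih]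
  exact h p τ

theorem m16res_qexp_period {F : ℍ → ℂ} (hF : F ∈ qr_ring) :
    qExpansion (p : ℝ) F = m16_V p (qExpansion 1 F) := by
  have hnice : ana_IsNice p F := m16res_nice_of_qr hF
  ext n
  refine (ana_qExpansion_coeff_unique (h := (p : ℝ)) F
    (c := fun n => (m16_V p (qExpansion 1 F)).coeff n) (m16res_p_pos p) hnice.analyticAt
    (fun τ => ?_) n).symm
  have h := qr_hasSum hF τ
  have hinj : Function.Injective (fun n : ℕ => p * n) := fun a b hab =>
    Nat.eq_of_mul_eq_mul_left (NeZero.pos p) hab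
  rw [← hinj.hasSum_iff]
  · convert h using 2 with n
    simp only [comp_apply]
    rw [m16_V_coeff_mul p (NeZero.pos p), ← amer_q_pow p (NeZero.pos p) τ, ← pow_mul]
    rfl
  · intro n hn
    have hnd : ¬ p ∣ n := fun ⟨k, hk⟩ => hn ⟨k, hk.symm⟩
    rw [m16_V_coeff_of_not_dvd p _ hnd, zero_smul]

/-! ### boundedness from the vanishing of the principal part -/

theorem m16res_tendsto_coeff_zero {G : ℍ → ℂ} (hG : ana_IsNice p G) :
    Tendsto G atImInfty (𝓝 ((qExpansion (p : ℝ) G).coeff 0)) := by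
  have hp := m16res_p_pos p
  have han := hG.analyticAt
  have hper := ana_periodic_of_vadd hG.2.1
  have h0 : (qExpansion (p : ℝ) G).coeff 0 = cuspFunction (p : ℝ) G 0 := by
    rw [qExpansion_coeff_zero hp han hper, cuspFunction_apply_zero hp han hper]
  have hcomp : (cuspFunction (p : ℝ) G ∘ fun τ : ℍ => 𝕢 (p : ℝ) τ) = G := by
    funext τ
    simpa using eq_cuspFunction τ hp.ne' hper
  rw [h0]
  have := han.continuousAt.tendsto.comp (qParam_tendsto_atImInfty hp)
  rwa [hcomp] at this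

theorem m16res_laurent_coeff_neg {H : ℍ → ℂ} (hH : ana_IsMer p H) {m : ℕ}
    (hm : ana_PoleLE p m H) :
    (ana_laurent p H).coeff (-(m : ℤ)) =
      (qExpansion (p : ℝ) (fun τ : ℍ => ana_q p τ ^ m * H τ)).coeff 0 := by
  rw [ana_laurent_eq hH hm]
  unfold ana_laurentAux
  rw [HahnSeries.coeff_single_mul, one_mul, sub_self]
  exact HahnSeries.ofPowerSeries_apply_coeff (Γ := ℤ) _ 0

theorem m16res_laurent_coeff {H : ℍ → ℂ} (hH : ana_IsMer p H) {m : ℕ}
    (hm : ana_PoleLE p m H) (n : ℕ) :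
    (ana_laurent p H).coeff ((n : ℤ) - (m : ℤ)) =
      (qExpansion (p : ℝ) (fun τ : ℍ => ana_q p τ ^ m * H τ)).coeff n := by
  rw [ana_laurent_eq hH hm]
  unfold ana_laurentAux
  rw [HahnSeries.coeff_single_mul, one_mul, sub_neg_eq_add, sub_add_cancel]
  exact HahnSeries.ofPowerSeries_apply_coeff (Γ := ℤ) _ n

theorem m16res_laurent_coeff_lt {H : ℍ → ℂ} (hH : ana_IsMer p H) {m : ℕ}
    (hm : ana_PoleLE p m H) (k : ℤ) (hk : k < -(m : ℤ)) :
    (ana_laurent p H).coeff k = 0 := by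
  rw [ana_laurent_eq hH hm]
  unfold ana_laurentAux
  rw [HahnSeries.coeff_single_mul, one_mul, sub_neg_eq_add, HahnSeries.ofPowerSeries_apply]
  refine HahnSeries.embDomain_of_notMem_range ?_
  rintro ⟨j, hj⟩
  have : (0 : ℤ) ≤ k + m := by rw [← hj]; exact Int.natCast_nonneg j
  omega

theorem m16res_poleLE_pred {H : ℍ → ℂ} (hH : ana_IsMer p H) {m : ℕ}
    (hm : ana_PoleLE p (m + 1) H) (h0 : (ana_laurent p H).coeff (-((m + 1 : ℕ) : ℤ)) = 0) :
    ana_PoleLE p m H := by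
  have hnice := hH.nice hm
  have hz : IsZeroAtImInfty (fun τ : ℍ => ana_q p τ ^ (m + 1) * H τ) := by
    have h1 := m16res_tendsto_coeff_zero hnice
    rw [← m16res_laurent_coeff_neg hH hm, h0] at h1
    exact h1
  have hb := Fermat.Agent.S20.dfn_div_q_bounded p hnice.1 hnice.2.1 hz
  unfold ana_PoleLE
  have e : (fun τ : ℍ => ana_q p τ ^ (m + 1) * H τ / ana_q p τ) =
      fun τ : ℍ => ana_q p τ ^ m * H τ := by
    funext τ
    have hq := ana_q_ne_zero p τ
    rw [pow_succ]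
    field_simp
  rw [e] at hb
  exact hb

/-- a function meromorphic at `i∞` all of whose Laurent coefficients of negative index vanish is
bounded at `i∞`. -/
theorem m16res_nice_of_coeff {H : ℍ → ℂ} (hH : ana_IsMer p H)
    (h0 : ∀ k : ℤ, k < 0 → (ana_laurent p H).coeff k = 0) : ana_IsNice p H := by
  have key : ∀ m : ℕ, ana_PoleLE p m H → ana_PoleLE p 0 H := by
    intro m
    induction m with
    | zero => exact id
    | succ k ih =>
      intro hk
      exact ih (m16res_poleLE_pred hH hk (h0 _ (by push_cast; omega)))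
  obtain ⟨m, hm⟩ := hH.2.2
  have hb := key m hm
  unfold ana_PoleLE at hb
  refine ⟨hH.1, hH.2.1, ?_⟩
  simpa using hb

/-! ### the Fricke involution normalises `Γ₀(p)` -/

theorem m16res_wp_aux (P a b c' d z : ℂ) (hP : P ≠ 0) (hz : z ≠ 0)
    (hD : P * c' * z + d ≠ 0) (hN : a * z + b ≠ 0) :
    -1 / (P * ((a * z + b) / (P * c' * z + d))) =
      (d * (-1 / (P * z)) + -c') / (-(P * b) * (-1 / (P * z)) + a) := by
  have h2 : (-(P * b) * (-1 / (P * z)) + a) = (a * z + b) / z := by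
    field_simp
    ring
  rw [h2]
  field_simp
  ring

theorem m16res_wp_smul (γ : SL(2, ℤ)) (hγ : γ ∈ Gamma0 p) :
    ∃ γ' : SL(2, ℤ), γ' ∈ Gamma0 p ∧ ∀ z : ℍ, m16nrm_wp p (γ • z) = γ' • m16nrm_wp p z := by
  have hc : (p : ℤ) ∣ γ 1 0 := by
    rw [Gamma0_mem] at hγ
    exact (ZMod.intCast_zmod_eq_zero_iff_dvd _ p).mp hγ
  obtain ⟨c', hc'⟩ := hc
  have hdet : γ 0 0 * γ 1 1 - γ 0 1 * γ 1 0 = 1 := by
    have := γ.det_coe
    rw [Matrix.det_fin_two] at this
    exact this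
  let γ' : SL(2, ℤ) := ⟨!![γ 1 1, -c'; -(p * γ 0 1), γ 0 0], by
    rw [Matrix.det_fin_two_of]; rw [hc'] at hdet; linear_combination hdet⟩
  refine ⟨γ', ?_, fun z => ?_⟩
  · rw [Gamma0_mem]
    show ((-(p * γ 0 1) : ℤ) : ZMod p) = 0
    simp
  · have hp := m16nrm_p_ne_zero p
    have hz := ne_zero z
    have hcC : ((γ 1 0 : ℤ) : ℂ) = (p : ℂ) * (c' : ℂ) := by rw [hc']; push_cast; ring
    have hdetC : ((γ 0 0 : ℤ) : ℂ) * ((γ 1 1 : ℤ) : ℂ) - ((γ 0 1 : ℤ) : ℂ) * ((γ 1 0 : ℤ) : ℂ) = 1 := by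
      exact_mod_cast congrArg (Int.cast (R := ℂ)) hdet
    have hγz : ((γ • z : ℍ) : ℂ) =
        (((γ 0 0 : ℤ) : ℂ) * z + ((γ 0 1 : ℤ) : ℂ)) / (((γ 1 0 : ℤ) : ℂ) * z + ((γ 1 1 : ℤ) : ℂ)) := by
      rw [UpperHalfPlane.coe_specialLinearGroup_apply]
      simp
    have hden : (((γ 1 0 : ℤ) : ℂ) * z + ((γ 1 1 : ℤ) : ℂ)) ≠ 0 := by
      have := UpperHalfPlane.denom_ne_zero (γ : GL (Fin 2) ℝ) z
      simpa [UpperHalfPlane.denom] using this
    have hnum : (((γ 0 0 : ℤ) : ℂ) * z + ((γ 0 1 : ℤ) : ℂ)) ≠ 0 := by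
      intro h
      have h1 := ne_zero (γ • z)
      rw [hγz, h, zero_div] at h1
      exact h1 rfl
    apply UpperHalfPlane.ext
    rw [m16nrm_coe_wp, hγz, UpperHalfPlane.coe_specialLinearGroup_apply, m16nrm_coe_wp]
    simp only [γ', algebraMap_int_eq, Int.coe_castRingHom, Matrix.of_apply, Matrix.cons_val',
      Matrix.cons_val_zero, Matrix.cons_val_one, Matrix.cons_val_fin_one]
    push_cast
    rw [hcC] at hden ⊢
    exact m16res_wp_aux (p : ℂ) _ _ _ _ _ hp hz hden hnum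

end Fermat.Agent.M16
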