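import Fermat.Agent.S23.PrimEltInt
import Fermat.Agent.S23.LevelOne

/-!
# S16, package ST (MILLER): the Sturm bound of level one relative to an additive subgroup

For every additive subgroup `J` of `ℂ` and every level-one modular form `F` of weight `k`:
if the `q`-coefficients `a_n(F)` lie in `J` for all `n` with `12 n ≤ k`, then all coefficients
of `F` lie in `J` (`m16st_sturm`).  With `J = m ℤ` (or `m ℤ_(l)`) this is the Sturm bound
modulo `m`; with `J = ℤ` it is the integrality criterion; with `J = 0` the classical Sturm bound.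
-/

set_option autoImplicit false

noncomputable section

namespace Fermat.Agent.M16

open UpperHalfPlane ModularForm ModularFormClass MatrixGroups EisensteinSeries
open Fermat.Agent.S23

/-- The coefficientwise cast of integral power series. -/
abbrev m16st_cast : PowerSeries ℤ →+* PowerSeries ℂ := PowerSeries.map (Int.castRingHom ℂ)

/-- The integral `q`-expansion of `Δ`. -/
def m16st_DeltaInt : PowerSeries ℤ := pe_C + 100 * pe_A ^ 2 + 8000 * pe_A ^ 3 - 147 * pe_B ^ 2

theorem m16st_cast_DeltaInt : m16st_cast m16st_DeltaInt = qExpansion 1 ModularForm.discriminant :=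
  pe_qExpansion_discriminant_int.symm

theorem m16st_cast_injective : Function.Injective m16st_cast := by
  intro a b h
  ext n
  have := congrArg (PowerSeries.coeff n) h
  simpa [m16st_cast] using this

theorem m16st_DeltaInt_coeff_zero : m16st_DeltaInt.coeff 0 = 0 := by
  have h : (qExpansion 1 ModularForm.discriminant).coeff 0 = 0 := by
    simpa using CuspFormClass.qExpansion_coeff_zero CuspForm.discriminant one_pos
      one_mem_strictPeriods_SL
  rw [← m16st_cast_DeltaInt, PowerSeries.coeff_map, eq_intCast] at h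
  exact_mod_cast h

theorem m16st_DeltaInt_coeff_one : m16st_DeltaInt.coeff 1 = 1 := by
  have h := discriminant_qExpansion_coeff_one
  rw [← m16st_cast_DeltaInt, PowerSeries.coeff_map, eq_intCast] at h
  exact_mod_cast h

/-- `Δ / q` as an integral power series. -/
def m16st_U : PowerSeries ℤ := PowerSeries.mk fun n => m16st_DeltaInt.coeff (n + 1)

theorem m16st_DeltaInt_eq : m16st_DeltaInt = PowerSeries.X * m16st_U := by
  ext n
  cases n with
  | zero => simp [m16st_DeltaInt_coeff_zero]
  | succ n => simp [m16st_U, PowerSeries.coeff_succ_X_mul]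

theorem m16st_U_constantCoeff : PowerSeries.constantCoeff m16st_U = 1 := by
  rw [← PowerSeries.coeff_zero_eq_constantCoeff_apply, m16st_U, PowerSeries.coeff_mk]
  exact m16st_DeltaInt_coeff_one

/-- The inverse of `Δ / q` as an integral power series. -/
def m16st_V : PowerSeries ℤ := PowerSeries.invOfUnit m16st_U 1

theorem m16st_U_mul_V : m16st_U * m16st_V = 1 :=
  PowerSeries.mul_invOfUnit m16st_U 1 (by simp [m16st_U_constantCoeff])

/-- A product of an integral power series with a power series whose low coefficients lie in `J`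
has low coefficients in `J`. -/
theorem m16st_coeff_mul_mem (J : AddSubgroup ℂ) (A : PowerSeries ℤ) (B : PowerSeries ℂ) (n : ℕ)
    (h : ∀ j ≤ n, B.coeff j ∈ J) : (m16st_cast A * B).coeff n ∈ J := by
  rw [PowerSeries.coeff_mul]
  refine AddSubgroup.sum_mem _ fun x hx => ?_
  have hx2 : x.2 ≤ n := by
    have h2 := Finset.HasAntidiagonal.mem_antidiagonal.mp hx
    omega
  rw [PowerSeries.coeff_map, eq_intCast, ← zsmul_eq_mul]
  exact AddSubgroup.zsmul_mem _ (h _ hx2) _

/-- Division by `Δ`: if `P = Δ Q` and the coefficients of `P` up to `d + 1` lie in `J`, then the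
coefficients of `Q` up to `d` lie in `J`. -/
theorem m16st_div_Delta_mem (J : AddSubgroup ℂ) (P Q : PowerSeries ℂ)
    (hPQ : P = qExpansion 1 ModularForm.discriminant * Q) (d : ℕ)
    (h : ∀ j ≤ d + 1, P.coeff j ∈ J) : ∀ j ≤ d, Q.coeff j ∈ J := by
  have hP : P = PowerSeries.X * (m16st_cast m16st_U * Q) := by
    rw [hPQ, ← m16st_cast_DeltaInt, m16st_DeltaInt_eq, map_mul, PowerSeries.map_X, mul_assoc]
  have hQ : Q = m16st_cast m16st_V * (m16st_cast m16st_U * Q) := by
    rw [← mul_assoc, ← map_mul, mul_comm m16st_V, m16st_U_mul_V, map_one, one_mul]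
  intro j hj
  rw [hQ]
  refine m16st_coeff_mul_mem J _ _ _ fun i hi => ?_
  have := h (i + 1) (by omega)
  rwa [hP, PowerSeries.coeff_succ_X_mul] at this

/-- Multiplication by `Δ` preserves `J`-valued coefficients. -/
theorem m16st_mul_Delta_mem (J : AddSubgroup ℂ) (Q : PowerSeries ℂ) (n : ℕ)
    (h : ∀ j ≤ n, Q.coeff j ∈ J) :
    (qExpansion 1 ModularForm.discriminant * Q).coeff n ∈ J := by
  rw [← m16st_cast_DeltaInt]
  exact m16st_coeff_mul_mem J _ _ _ h

/-- For every even weight `k ≠ 2` there is a level-one modular form with integral `q`-expansion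
and constant term `1`. -/
theorem m16st_exists_monic_aux : ∀ N : ℕ, ∀ k : ℕ, k < N → Even k → k ≠ 2 →
    ∃ (G : ModularForm 𝒮ℒ (k : ℤ)) (A : PowerSeries ℤ),
      A.coeff 0 = 1 ∧ qExpansion 1 G = m16st_cast A := by
  intro N
  induction N with
  | zero => intro k hk; omega
  | succ N ih =>
    intro k hk hev h2
    rcases lt_or_ge k N with hlt | hge
    · exact ih k hlt hev h2
    have hkN : k = N := by omega
    rcases (show k = 0 ∨ k = 4 ∨ k = 6 ∨ 8 ≤ k by
      obtain ⟨r, hr⟩ := hev
      omega) with h0 | h4 | h6 | h8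
    · subst h0
      refine ⟨ModularForm.mcast (by simp) (1 : ModularForm 𝒮ℒ 0), 1, by simp, ?_⟩
      rw [ModularForm.qExpansion_mcast, ModularForm.qExpansion_one, map_one]
    · subst h4
      refine ⟨ModularForm.mcast (by simp) E₄, 1 + 240 * pe_A, ?_, ?_⟩
      · simp [pe_A]
      · rw [ModularForm.qExpansion_mcast, pe_qExpansion_E4]
    · subst h6
      refine ⟨ModularForm.mcast (by simp) E₆, 1 - 504 * pe_B, ?_, ?_⟩
      · simp [pe_B]
      · rw [ModularForm.qExpansion_mcast, pe_qExpansion_E6]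
    · obtain ⟨G, A, hA, hG⟩ := ih (k - 4) (by omega)
        (by obtain ⟨r, hr⟩ := hev; exact ⟨r - 2, by omega⟩) (by omega)
      refine ⟨ModularForm.mcast (by push_cast [Nat.cast_sub (show 4 ≤ k by omega)]; ring)
        (G.mul E₄), A * (1 + 240 * pe_A), ?_, ?_⟩
      · rw [PowerSeries.coeff_zero_eq_constantCoeff_apply, map_mul,
          ← PowerSeries.coeff_zero_eq_constantCoeff_apply,
          ← PowerSeries.coeff_zero_eq_constantCoeff_apply, hA]
        simp [pe_A]
      · rw [ModularForm.qExpansion_mcast,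
          ModularForm.qExpansion_mul one_pos one_mem_strictPeriods_SL, hG, pe_qExpansion_E4,
          map_mul]

theorem m16st_exists_monic (k : ℕ) (hev : Even k) (h2 : k ≠ 2) :
    ∃ (G : ModularForm 𝒮ℒ (k : ℤ)) (A : PowerSeries ℤ),
      A.coeff 0 = 1 ∧ qExpansion 1 G = m16st_cast A :=
  m16st_exists_monic_aux (k + 1) k (by omega) hev h2

theorem m16st_sturm_of_coe_eq_zero (J : AddSubgroup ℂ) {k : ℤ} (F : ModularForm 𝒮ℒ k)
    (hF : (F : ℍ → ℂ) = 0) (n : ℕ) : (qExpansion 1 F).coeff n ∈ J := by
  rw [hF]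
  simp [qExpansion_zero]

/-- The inductive step. -/
theorem m16st_sturm_step (J : AddSubgroup ℂ) {k : ℕ} (hk : 4 ≤ k) (hk2 : Even k)
    (ih : ∀ H : ModularForm 𝒮ℒ ((k : ℤ) - 12),
      (∀ n : ℕ, 12 * (n : ℤ) ≤ (k : ℤ) - 12 → (qExpansion 1 H).coeff n ∈ J) →
        ∀ n : ℕ, (qExpansion 1 H).coeff n ∈ J)
    (F : ModularForm 𝒮ℒ (k : ℤ))
    (hF : ∀ n : ℕ, 12 * (n : ℤ) ≤ (k : ℤ) → (qExpansion 1 F).coeff n ∈ J) :
    ∀ n : ℕ, (qExpansion 1 F).coeff n ∈ J := by
  obtain ⟨G, A, hA, hG⟩ := m16st_exists_monic k hk2 (by omega)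
  set a₀ : ℂ := (qExpansion 1 F).coeff 0 with ha₀
  have ha₀J : a₀ ∈ J := hF 0 (by positivity)
  have hsub : qExpansion 1 (F - a₀ • G : ModularForm 𝒮ℒ (k : ℤ)) =
      qExpansion 1 F - a₀ • m16st_cast A := by
    rw [FunLike.coe_sub, ModularForm.qExpansion_sub one_pos one_mem_strictPeriods_SL,
      FunLike.coe_smul, ModularForm.qExpansion_smul one_pos one_mem_strictPeriods_SL, hG]
  have hsmul : ∀ n : ℕ, (a₀ • m16st_cast A).coeff n ∈ J := by
    intro n
    rw [PowerSeries.coeff_smul, PowerSeries.coeff_map, eq_intCast, smul_eq_mul, mul_comm,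
      ← zsmul_eq_mul]
    exact AddSubgroup.zsmul_mem _ ha₀J _
  have h0 : (qExpansion 1 (F - a₀ • G : ModularForm 𝒮ℒ (k : ℤ))).coeff 0 = 0 := by
    rw [hsub, map_sub, PowerSeries.coeff_smul, PowerSeries.coeff_map, hA]
    simp [ha₀]
  have hfac := qExpansion_eq_qExpansion_discriminant_mul (F - a₀ • G) h0
  set H := CuspForm.discriminantEquiv (toCuspForm (F - a₀ • G) h0) with hH
  have hF' : ∀ n : ℕ, 12 * (n : ℤ) ≤ (k : ℤ) →
      (qExpansion 1 (F - a₀ • G : ModularForm 𝒮ℒ (k : ℤ))).coeff n ∈ J := by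
    intro n hn
    rw [hsub, map_sub]
    exact AddSubgroup.sub_mem _ (hF n hn) (hsmul n)
  have hHall : ∀ n : ℕ, (qExpansion 1 H).coeff n ∈ J := by
    refine ih H fun n hn => ?_
    refine m16st_div_Delta_mem J _ _ hfac n (fun j hj => hF' j ?_) n le_rfl
    have : (j : ℤ) ≤ n + 1 := by exact_mod_cast hj
    omega
  intro n
  have hFn : qExpansion 1 F = qExpansion 1 (F - a₀ • G : ModularForm 𝒮ℒ (k : ℤ)) +
      a₀ • m16st_cast A := by
    rw [hsub]; ring
  rw [hFn, map_add, hfac]
  exact AddSubgroup.add_mem _ (m16st_mul_Delta_mem J _ n fun j _ => hHall j) (hsmul n)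

theorem m16st_sturm_aux (J : AddSubgroup ℂ) :
    ∀ N : ℕ, ∀ k : ℤ, k < N → ∀ F : ModularForm 𝒮ℒ k,
      (∀ n : ℕ, 12 * (n : ℤ) ≤ k → (qExpansion 1 F).coeff n ∈ J) →
        ∀ n : ℕ, (qExpansion 1 F).coeff n ∈ J := by
  intro N
  induction N with
  | zero =>
    intro k hk F _ n
    exact m16st_sturm_of_coe_eq_zero J F
      (levelOne_neg_weight_eq_zero (by simpa using hk) F) n
  | succ N ih =>
    intro k hk F hF
    rcases lt_or_ge k N with hlt | hge
    · exact ih k hlt F hF
    have hkN : k = N := by push_cast at hk; omega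
    rcases Int.even_or_odd k with hev | hodd
    · rcases (show k = 0 ∨ k = 2 ∨ 4 ≤ k by
        obtain ⟨r, hr⟩ := hev
        omega) with h0 | h2 | h4
      · subst h0
        obtain ⟨c, hc⟩ := levelOne_weight_zero_const F
        have hcoe : (F : ℍ → ℂ) = ((c • (1 : ModularForm 𝒮ℒ 0) : ModularForm 𝒮ℒ 0) : ℍ → ℂ) := by
          rw [hc]
          funext z
          simp
        have hq : qExpansion 1 F = c • (1 : PowerSeries ℂ) := by
          rw [hcoe, FunLike.coe_smul,
            ModularForm.qExpansion_smul one_pos one_mem_strictPeriods_SL,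
            ModularForm.qExpansion_one]
        have hc0 : c ∈ J := by
          have := hF 0 (by simp)
          rw [hq] at this
          simpa using this
        intro n
        rw [hq, PowerSeries.coeff_smul, PowerSeries.coeff_one]
        split_ifs
        · simpa using hc0
        · simp
      · subst h2
        intro n
        refine m16st_sturm_of_coe_eq_zero J F ?_ n
        have := rank_zero_iff_forall_zero.mp levelOne_weight_two_rank_zero F
        rw [this]
        rfl
      · subst hkN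
        refine m16st_sturm_step J (by exact_mod_cast h4) (by exact_mod_cast hev) (fun H hH => ?_)
          F hF
        exact ih _ (by omega) H hH
    · intro n
      refine m16st_sturm_of_coe_eq_zero J F ?_ n
      rw [levelOne_odd_weight_eq_zero hodd F]
      rfl

/-- **Sturm bound of level one relative to an additive subgroup `J ⊆ ℂ`.** If the
`q`-coefficients `a_n(F)` with `12 n ≤ k` of a level-one modular form of weight `k` lie in `J`,
then all its `q`-coefficients lie in `J`. -/
theorem m16st_sturm (J : AddSubgroup ℂ) (k : ℤ) (F : ModularForm 𝒮ℒ k)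
    (hF : ∀ n : ℕ, 12 * (n : ℤ) ≤ k → (qExpansion 1 F).coeff n ∈ J) (n : ℕ) :
    (qExpansion 1 F).coeff n ∈ J :=
  m16st_sturm_aux J (k.toNat + 1) k (by push_cast; omega) F hF n

/-- **Miller bound**, in the form requested by the norm package: weight `k : ℕ`, hypothesis on the
coefficients `a_n` with `n ≤ k / 12` (natural-number division). -/
theorem m16st_miller (k : ℕ) (F : ModularForm 𝒮ℒ (k : ℤ)) (J : AddSubgroup ℂ)
    (h : ∀ n ≤ k / 12, (qExpansion 1 F).coeff n ∈ J) (n : ℕ) :
    (qExpansion 1 F).coeff n ∈ J := by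
  refine m16st_sturm J (k : ℤ) F (fun m hm => h m ?_) n
  have hm' : 12 * m ≤ k := by exact_mod_cast hm
  exact (Nat.le_div_iff_mul_le (by norm_num)).mpr (by omega)

/-- The classical Sturm bound of level one: a form whose coefficients `a_n`, `n ≤ k / 12`,
vanish is zero. -/
theorem m16st_miller_zero (k : ℕ) (F : ModularForm 𝒮ℒ (k : ℤ))
    (h : ∀ n ≤ k / 12, (qExpansion 1 F).coeff n = 0) : F = 0 := by
  rw [← ModularForm.qExpansion_eq_zero_iff one_pos one_mem_strictPeriods_SL]
  ext n
  have := m16st_miller k F ⊥ (fun m hm => by simpa using h m hm) n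
  simpa using this

/-- Integrality version: if the coefficients `a_n`, `n ≤ k / 12`, are integers, then all
coefficients are integers. -/
theorem m16st_miller_int (k : ℕ) (F : ModularForm 𝒮ℒ (k : ℤ))
    (h : ∀ n ≤ k / 12, ∃ a : ℤ, (qExpansion 1 F).coeff n = (a : ℂ)) (n : ℕ) :
    ∃ a : ℤ, (qExpansion 1 F).coeff n = (a : ℂ) := by
  have := m16st_miller k F (Int.castAddHom ℂ).range
    (fun m hm => by obtain ⟨a, ha⟩ := h m hm; exact ⟨a, by simp [ha]⟩) n
  obtain ⟨a, ha⟩ := this
  exact ⟨a, by simpa using ha.symm⟩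

/-- Divisibility version over `ℤ`: if `F` has integral `q`-expansion `A` and `m ∣ a_n` for
`n ≤ k / 12`, then `m ∣ a_n` for all `n`. -/
theorem m16st_miller_dvd (k : ℕ) (F : ModularForm 𝒮ℒ (k : ℤ)) (A : PowerSeries ℤ)
    (hA : qExpansion 1 F = m16st_cast A) (m : ℤ)
    (h : ∀ n ≤ k / 12, m ∣ A.coeff n) (n : ℕ) : m ∣ A.coeff n := by
  have := m16st_miller k F (AddSubgroup.zmultiples (m : ℂ))
    (fun j hj => by
      obtain ⟨c, hc⟩ := h j hj
      rw [hA, PowerSeries.coeff_map, eq_intCast, hc]
      exact ⟨c, by push_cast; simp [mul_comm]⟩) n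
  rw [hA, PowerSeries.coeff_map, eq_intCast] at this
  obtain ⟨c, hc⟩ := this
  refine ⟨c, ?_⟩
  have hc' : ((c * m : ℤ) : ℂ) = ((A.coeff n : ℤ) : ℂ) := by
    simpa using hc
  have := Int.cast_injective hc'
  rw [← this]; ring

end Fermat.Agent.M16

end
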