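/-
M16 (S16 project), package UBA (helper7): the three level-one facts used by the trace arguments.

* `m16uba_L4`  : a level-one form of weight 4 is `a₀ • E₄`;
* `m16uba_L12` : a level-one form of weight 12 with `a₀ = 0` is `a₁ • Δ`;
* `m16uba_L14` : a level-one form of weight 14 with `a₀ = 0` is `0`.
-/
import Mathlib
import Fermat.Agent.S23.QRing
import Fermat.Agent.M16.StMiller

set_option autoImplicit false

noncomputable section

namespace Fermat.Agent.M16

open UpperHalfPlane ModularForm ModularFormClass MatrixGroups EisensteinSeries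
open Fermat.Agent.S23

theorem m16uba_mem_qr {k : ℤ} (T : ModularForm 𝒮ℒ k) : (T : ℍ → ℂ) ∈ qr_ring :=
  qr_mem_of_modularForm one_mem_strictPeriods_SL T

theorem m16uba_qExpansion_sub_smul {k : ℤ} (T G : ModularForm 𝒮ℒ k) (c : ℂ) :
    qExpansion 1 ((T - c • G : ModularForm 𝒮ℒ k) : ℍ → ℂ)
      = qExpansion 1 (T : ℍ → ℂ) - c • qExpansion 1 (G : ℍ → ℂ) := by
  have h1 : ((T - c • G : ModularForm 𝒮ℒ k) : ℍ → ℂ) = (T : ℍ → ℂ) - c • (G : ℍ → ℂ) := rfl
  rw [h1, qr_qExpansion_sub (m16uba_mem_qr T) (qr_smul_mem c (m16uba_mem_qr G)),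
    qr_qExpansion_smul c (m16uba_mem_qr G)]

/-- weight 4: `T = a₀(T) • E₄` -/
theorem m16uba_L4 (T : ModularForm 𝒮ℒ 4) :
    qExpansion 1 (T : ℍ → ℂ)
      = ((qExpansion 1 (T : ℍ → ℂ)).coeff 0) • qExpansion 1 (E₄ : ℍ → ℂ) := by
  set c : ℂ := (qExpansion 1 (T : ℍ → ℂ)).coeff 0 with hc
  have hq := m16uba_qExpansion_sub_smul T E₄ c
  have h0 : (T - c • E₄ : ModularForm 𝒮ℒ 4) = 0 := by
    refine m16st_miller_zero 4 (T - c • E₄) (fun n hn => ?_)
    have hn0 : n = 0 := by omega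
    subst hn0
    rw [hq, map_sub, PowerSeries.coeff_smul, E_qExpansion_coeff_zero _ ⟨2, rfl⟩, ← hc]
    simp
  have h1 : qExpansion 1 ((T - c • E₄ : ModularForm 𝒮ℒ 4) : ℍ → ℂ) = 0 := by
    rw [h0]
    exact qExpansion_zero 1
  rw [hq] at h1
  exact sub_eq_zero.mp h1

/-- `Δ` as a level-one modular form of weight 12 -/
def m16uba_Delta : ModularForm 𝒮ℒ 12 := CuspForm.toModularFormₗ CuspForm.discriminant

theorem m16uba_Delta_coe : (m16uba_Delta : ℍ → ℂ) = ModularForm.discriminant := rfl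

theorem m16uba_Delta_qExpansion :
    qExpansion 1 (m16uba_Delta : ℍ → ℂ) = m16st_cast m16st_DeltaInt := by
  rw [m16uba_Delta_coe, m16st_cast_DeltaInt]

/-- weight 12: a form with `a₀ = 0` is `a₁ • Δ` -/
theorem m16uba_L12 (T : ModularForm 𝒮ℒ 12) (h0 : (qExpansion 1 (T : ℍ → ℂ)).coeff 0 = 0) :
    qExpansion 1 (T : ℍ → ℂ)
      = ((qExpansion 1 (T : ℍ → ℂ)).coeff 1) • m16st_cast m16st_DeltaInt := by
  set c : ℂ := (qExpansion 1 (T : ℍ → ℂ)).coeff 1 with hc
  have hq := m16uba_qExpansion_sub_smul T m16uba_Delta c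
  rw [m16uba_Delta_qExpansion] at hq
  have hz : (T - c • m16uba_Delta : ModularForm 𝒮ℒ 12) = 0 := by
    refine m16st_miller_zero 12 (T - c • m16uba_Delta) (fun n hn => ?_)
    have hn' : n = 0 ∨ n = 1 := by omega
    rcases hn' with rfl | rfl
    · rw [hq, map_sub, PowerSeries.coeff_smul, h0, PowerSeries.coeff_map,
        m16st_DeltaInt_coeff_zero]
      simp
    · rw [hq, map_sub, PowerSeries.coeff_smul, ← hc, PowerSeries.coeff_map,
        m16st_DeltaInt_coeff_one]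
      simp
  have h1 : qExpansion 1 ((T - c • m16uba_Delta : ModularForm 𝒮ℒ 12) : ℍ → ℂ) = 0 := by
    rw [hz]
    exact qExpansion_zero 1
  rw [hq] at h1
  exact sub_eq_zero.mp h1

/-- weight 14: a form with `a₀ = 0` is `0` -/
theorem m16uba_L14 (T : ModularForm 𝒮ℒ 14) (h0 : (qExpansion 1 (T : ℍ → ℂ)).coeff 0 = 0) :
    qExpansion 1 (T : ℍ → ℂ) = 0 := by
  have h := ModularForm.qExpansion_eq_qExpansion_discriminant_mul T h0
  have hw : ((14 : ℤ) - 12) = 2 := by norm_num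
  have hg : ((CuspForm.discriminantEquiv (ModularForm.toCuspForm T h0) :
      ModularForm 𝒮ℒ (14 - 12)) : ℍ → ℂ) = 0 := by
    have h2 : ModularForm.mcast hw (CuspForm.discriminantEquiv (ModularForm.toCuspForm T h0))
        = 0 := rank_zero_iff_forall_zero.mp levelOne_weight_two_rank_zero _
    have h3 := congrArg (fun F : ModularForm 𝒮ℒ 2 => (F : ℍ → ℂ)) h2
    simpa using h3
  rw [h, hg, qExpansion_zero, mul_zero]

end Fermat.Agent.M16

end
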