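/-
M16 (S16 project), LOWER BOUND side, package RES (helper3): the Fricke pair of `Δ^m ψ`.

For `ψ ∈ A` (`Γ₀(p)`-invariant, holomorphic on `ℍ`, holomorphic at the cusp `0`) with pole order
`≤ m` at `∞`, the functions `G = Δ^m ψ` and `G# = (ψ ∘ W) · (Δ^m)#` form a Fricke pair of weight
`12 m` (`m16res_pair`), with `q`-expansions `U^m · B⁺` resp. `C · p^{12 m} V_p(Δ^m)`, where
`B⁺ = ∑ b_{i-m} q^i`, `C = ∑ c_k q^k`, `U = Δ / q`.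
-/
import Fermat.Agent.M16.ResAna
import Fermat.Agent.M16.UbaPair
import Fermat.Agent.M16.UbaLevelOne
import Fermat.Agent.M16.StMiller
import Fermat.Agent.S24.PolyJ

set_option autoImplicit false

noncomputable section

namespace Fermat.Agent.M16

open UpperHalfPlane hiding I
open Filter Function Topology ModularForm Complex CongruenceSubgroup
open Fermat.Agent.S23 Fermat.Agent.S24
open scoped Manifold MatrixGroups ModularForm Real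

local notation "𝕢" => Periodic.qParam
local notation "Δ" => ModularForm.discriminant

variable {p : ℕ} [NeZero p]

/-- `B⁺ = ∑_i b_{i - m} q^i` -/
def m16res_Bp (p : ℕ) [NeZero p] (ψ : ana_ring p) (m : ℕ) : PowerSeries ℂ :=
  PowerSeries.mk fun i => m16lb_b p ψ ((i : ℤ) - (m : ℤ))

/-- `C = ∑_k c_k q^k` -/
def m16res_C (p : ℕ) [NeZero p] (ψ : ana_ring p) : PowerSeries ℂ :=
  PowerSeries.mk fun k => m16lb_c p ψ (k : ℤ)

/-- pointwise invariance under `Γ₀(p)` -/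
theorem m16res_inv (ψ : ana_ring p) (hA : m16lb_IsA p ψ) (γ : SL(2, ℤ)) (hγ : γ ∈ Gamma0 p)
    (z : ℍ) : (ψ : ℍ → ℂ) (γ • z) = (ψ : ℍ → ℂ) z := by
  have h := congrArg (fun f : ana_ring p => (f : ℍ → ℂ) z) (hA.1 γ hγ)
  simpa using h

theorem m16res_periodic (ψ : ana_ring p) (hA : m16lb_IsA p ψ) (z : ℍ) :
    (ψ : ℍ → ℂ) ((1 : ℝ) +ᵥ z) = (ψ : ℍ → ℂ) z := by
  have hT : ModularGroup.T ∈ Gamma0 p := by
    rw [Gamma0_mem]
    simp [ModularGroup.T]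
  have h := m16res_inv ψ hA ModularGroup.T hT z
  rwa [modular_T_smul] at h

/-- `ψ ∘ S` is bounded at `i∞` -/
theorem m16res_nice_S (ψ : ana_ring p) (hA : m16lb_IsA p ψ) :
    ana_IsNice p (ana_comp p ModularGroup.S ψ : ℍ → ℂ) :=
  m16res_nice_of_coeff (ana_isMer_of_mem (ana_comp p ModularGroup.S ψ).2) hA.2

theorem m16res_wp_fun (ψ : ana_ring p) :
    (fun z : ℍ => (ψ : ℍ → ℂ) (m16nrm_wp p z)) =
      fun z : ℍ => (ana_comp p ModularGroup.S ψ : ℍ → ℂ) (m16res_sc p z) := by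
  funext z
  rw [ana_comp_apply, m16res_wp_eq]

/-- `ψ ∘ W` is `Good` of weight `0` -/
theorem m16res_good_wp (ψ : ana_ring p) (hA : m16lb_IsA p ψ) :
    m16nrm_Good p 0 (fun z : ℍ => (ψ : ℍ → ℂ) (m16nrm_wp p z)) := by
  have hmem := m16res_sc_mem_qr (m16res_nice_S ψ hA)
  rw [← m16res_wp_fun] at hmem
  refine ⟨hmem.1, fun γ hγ => ?_, hmem.2.2⟩
  obtain ⟨γ', hγ', h⟩ := m16res_wp_smul γ hγ
  funext z
  rw [ModularForm.SL_slash_apply]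
  simp only [neg_zero, zpow_zero, mul_one]
  rw [h z]
  exact m16res_inv ψ hA γ' hγ' _

theorem m16res_qexp_wp (ψ : ana_ring p) (hA : m16lb_IsA p ψ) :
    qExpansion 1 (fun z : ℍ => (ψ : ℍ → ℂ) (m16nrm_wp p z)) = m16res_C p ψ := by
  have hs := m16res_nice_S ψ hA
  rw [m16res_wp_fun, m16res_qexp_sc hs]
  ext k
  rw [m16res_C, PowerSeries.coeff_mk, m16lb_c, ana_qexp_apply, ana_laurent_of_nice hs]
  exact (HahnSeries.ofPowerSeries_apply_coeff (Γ := ℤ) _ k).symm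

/-- `Δ^m` as a modular form of weight `12 m` -/
theorem m16res_Fm (m : ℕ) :
    ∃ F : ModularForm 𝒮ℒ (12 * (m : ℤ)), ⇑F = fun τ : ℍ => Δ τ ^ m := by
  obtain ⟨F, hF⟩ := pj_exists_modularForm (fun _ => (1 : ℂ)) mdifferentiable_const
    (fun _ _ => rfl) m (by simpa using (pj_disc_pow_mem m).2.2)
  exact ⟨F, by rw [hF]; funext τ; simp⟩

theorem m16res_qexp_disc_pow (m : ℕ) :
    qExpansion 1 (fun τ : ℍ => Δ τ ^ m) = (m16st_cast m16st_DeltaInt) ^ m := by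
  have h := qr_qExpansion_pow (pj_disc_pow_mem 1) m
  have e1 : ((fun τ : ℍ => Δ τ ^ 1) ^ m) = fun τ : ℍ => Δ τ ^ m := by
    funext τ; simp
  have e2 : (fun τ : ℍ => Δ τ ^ 1) = (Δ : ℍ → ℂ) := by
    funext τ; simp
  rw [e1, e2] at h
  rw [h, m16st_cast_DeltaInt]

/-- `G = Δ^m ψ` is `Good` of weight `12 m` -/
theorem m16res_good_G (ψ : ana_ring p) (hA : m16lb_IsA p ψ) (m : ℕ)
    (hm : ana_PoleLE p m (ψ : ℍ → ℂ)) :
    m16nrm_Good p (12 * (m : ℤ)) (fun τ : ℍ => Δ τ ^ m * (ψ : ℍ → ℂ) τ) := by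
  refine ⟨(pj_disc_pow_mem m).1.mul ψ.2.1, fun γ hγ => ?_,
    amer_disc_pow_bounded_of_poleLE p (NeZero.pos p) hm⟩
  rw [cj_slash_eq_iff]
  intro τ
  have hΔ : Δ (γ • τ) = cj_denom γ τ ^ (12 : ℤ) * Δ τ := ord_disc_smul γ τ
  rw [m16res_inv ψ hA γ hγ τ, hΔ, mul_pow, ← zpow_natCast (cj_denom γ τ ^ (12 : ℤ)) m, ← zpow_mul]
  ring

/-- `q^m ψ` lies in `qr_ring` -/
theorem m16res_qpow_mem (ψ : ana_ring p) (hA : m16lb_IsA p ψ) (m : ℕ)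
    (hm : ana_PoleLE p m (ψ : ℍ → ℂ)) :
    (fun τ : ℍ => 𝕢 1 (τ : ℂ) ^ m * (ψ : ℍ → ℂ) τ) ∈ qr_ring := by
  have e : (fun τ : ℍ => 𝕢 1 (τ : ℂ) ^ m * (ψ : ℍ → ℂ) τ) =
      fun τ : ℍ => ana_q p τ ^ (p * m) * (ψ : ℍ → ℂ) τ := by
    funext τ
    rw [pow_mul, amer_q_pow p (NeZero.pos p)]
  refine ⟨?_, fun τ => ?_, ?_⟩
  · rw [e]
    exact ((ana_mdiff_q p).pow (p * m)).mul ψ.2.1
  · show 𝕢 1 (((1 : ℝ) +ᵥ τ : ℍ) : ℂ) ^ m * (ψ : ℍ → ℂ) ((1 : ℝ) +ᵥ τ) = _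
    rw [m16res_periodic ψ hA, lq_q_vadd one_ne_zero]
  · rw [e]
    exact hm.mono (Nat.le_mul_of_pos_left m (NeZero.pos p))

theorem m16res_qexp_qpow (ψ : ana_ring p) (hA : m16lb_IsA p ψ) (m : ℕ)
    (hm : ana_PoleLE p m (ψ : ℍ → ℂ)) :
    qExpansion 1 (fun τ : ℍ => 𝕢 1 (τ : ℂ) ^ m * (ψ : ℍ → ℂ) τ) = m16res_Bp p ψ m := by
  have hmem := m16res_qpow_mem ψ hA m hm
  have e : (fun τ : ℍ => ana_q p τ ^ (p * m) * (ψ : ℍ → ℂ) τ) =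
      fun τ : ℍ => 𝕢 1 (τ : ℂ) ^ m * (ψ : ℍ → ℂ) τ := by
    funext τ
    rw [pow_mul, amer_q_pow p (NeZero.pos p)]
  ext i
  rw [m16res_Bp, PowerSeries.coeff_mk, m16lb_b, ana_qexp_apply]
  have e2 : (p : ℤ) * ((i : ℤ) - (m : ℤ)) = ((p * i : ℕ) : ℤ) - ((p * m : ℕ) : ℤ) := by
    push_cast; ring
  rw [e2, m16res_laurent_coeff (ana_isMer_of_mem ψ.2)
    (hm.mono (Nat.le_mul_of_pos_left m (NeZero.pos p))) (p * i), e,
    m16res_qexp_period hmem, m16_V_coeff_mul p (NeZero.pos p)]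

theorem m16res_qexp_G (ψ : ana_ring p) (hA : m16lb_IsA p ψ) (m : ℕ)
    (hm : ana_PoleLE p m (ψ : ℍ → ℂ)) :
    qExpansion 1 (fun τ : ℍ => Δ τ ^ m * (ψ : ℍ → ℂ) τ) =
      (m16st_cast m16st_U) ^ m * m16res_Bp p ψ m := by
  have hG := m16nrm_good_mem_qr (m16res_good_G ψ hA m hm)
  have hq : (fun τ : ℍ => 𝕢 1 (τ : ℂ) ^ m) ∈ qr_ring := by
    have := lq_isNice_q_pow (h := 1) one_pos m
    exact ⟨this.1, fun τ => by
      show 𝕢 1 (((1 : ℝ) +ᵥ τ : ℍ) : ℂ) ^ m = 𝕢 1 (τ : ℂ) ^ m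
      rw [lq_q_vadd one_ne_zero], this.2.2⟩
  have hq0 : (fun τ : ℍ => 𝕢 1 (τ : ℂ) ^ m) ≠ 0 := by
    intro h
    have := congrFun h UpperHalfPlane.I
    simp only [Pi.zero_apply] at this
    exact pow_ne_zero m (Periodic.qParam_ne_zero _) this
  have hF := m16res_qpow_mem ψ hA m hm
  refine qr_qExpansion_eq_of_mul_eq hG hq hq0
    (A := (fun τ : ℍ => Δ τ ^ m) * fun τ : ℍ => 𝕢 1 (τ : ℂ) ^ m * (ψ : ℍ → ℂ) τ) ?_ ?_
  · funext τ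
    simp only [Pi.mul_apply]
    ring
  · rw [qr_qExpansion_mul (pj_disc_pow_mem m) hF, m16res_qexp_qpow ψ hA m hm,
      m16res_qexp_disc_pow, lq_qExpansion_q_pow one_pos, m16st_DeltaInt_eq, map_mul, mul_pow]
    simp only [PowerSeries.map_X]
    ring

/-- **the Fricke pair of `Δ^m ψ`** -/
theorem m16res_pair (hF : m16_FrkAPI p) (ψ : ana_ring p) (hA : m16lb_IsA p ψ) (m : ℕ)
    (hm : ana_PoleLE p m (ψ : ℍ → ℂ)) :
    m16_Pair p (12 * (m : ℤ)) ((m16st_cast m16st_U) ^ m * m16res_Bp p ψ m)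
      (m16res_C p ψ * (((p : ℂ) ^ (12 * (m : ℤ))) •
        m16_V p ((m16st_cast m16st_DeltaInt) ^ m))) := by
  obtain ⟨Fm, hFm⟩ := m16res_Fm m
  obtain ⟨D, Ds, hD, hDs, hfr, hqD, hqDs⟩ := hF.lev1 (12 * (m : ℤ)) Fm
  have hDeq : D = fun τ : ℍ => Δ τ ^ m := by
    rw [← hFm]
    exact qr_eq_of_qExpansion_eq (m16nrm_good_mem_qr hD) (m16uba_mem_qr Fm) hqD
  have hgw := m16res_good_wp ψ hA
  have hGs : m16nrm_Good p (12 * (m : ℤ))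
      ((fun z : ℍ => (ψ : ℍ → ℂ) (m16nrm_wp p z)) * Ds) := by
    have := m16uba_good_mul hgw hDs
    rwa [zero_add] at this
  refine ⟨fun τ : ℍ => Δ τ ^ m * (ψ : ℍ → ℂ) τ,
    (fun z : ℍ => (ψ : ℍ → ℂ) (m16nrm_wp p z)) * Ds, m16res_good_G ψ hA m hm, hGs, ?_,
    m16res_qexp_G ψ hA m hm, ?_⟩
  · intro z
    simp only [Pi.mul_apply]
    rw [hfr z, hDeq]
    ring
  · rw [qr_qExpansion_mul (m16nrm_good_mem_qr hgw) (m16nrm_good_mem_qr hDs), hqDs,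
      m16res_qexp_wp ψ hA, hFm, m16res_qexp_disc_pow]

end Fermat.Agent.M16
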