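import Fermat.Agent.M16.ZcMain
import Fermat.Agent.M16.StMiller

/-!
# S16, package ZC: the constant term of `T / Δ ^ m` for a level-one form `T` of weight `12 m + 2`

`m16zc_form` : for `T ∈ M_{12 m + 2}(SL(2,ℤ))` the coefficient of `q ^ m` in
`qExpansion T · ((Δ / q)⁻¹) ^ m` vanishes, i.e. the constant term of `T / Δ ^ m` is `0`.
-/

set_option autoImplicit false

noncomputable section

namespace Fermat.Agent.M16

open UpperHalfPlane hiding I
open Filter Function Topology ModularForm Complex Derivative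
open Fermat.Agent.S23 Fermat.Agent.S24
open scoped Manifold MatrixGroups ModularForm Real

local notation "Δ" => ModularForm.discriminant
local notation "𝕢" => Function.Periodic.qParam

/-- `q / Δ` is bounded at `i∞`. -/
theorem m16zc_q_div_disc_bounded : IsBoundedAtImInfty (fun τ : ℍ => 𝕢 1 (τ : ℂ) / Δ τ) := by
  have h : Tendsto (fun τ : ℍ => Δ τ / 𝕢 1 (τ : ℂ)) atImInfty (𝓝 1) := ord_disc_div_q_tendsto
  have h2 : Tendsto (fun τ : ℍ => (Δ τ / 𝕢 1 (τ : ℂ))⁻¹) atImInfty (𝓝 (1 : ℂ)⁻¹) :=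
    h.inv₀ one_ne_zero
  have h3 : (fun τ : ℍ => (Δ τ / 𝕢 1 (τ : ℂ))⁻¹) = fun τ : ℍ => 𝕢 1 (τ : ℂ) / Δ τ := by
    funext τ
    rw [inv_div]
  rw [h3] at h2
  exact h2.isBigO_one ℝ

theorem m16zc_cast_U_mul_V : m16st_cast m16st_U * m16st_cast m16st_V = 1 := by
  rw [← map_mul, m16st_U_mul_V, map_one]

theorem m16zc_qExpansion_disc : qExpansion 1 Δ = PowerSeries.X * m16st_cast m16st_U := by
  rw [← m16st_cast_DeltaInt, m16st_DeltaInt_eq, map_mul, PowerSeries.map_X]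

theorem m16zc_nice_of_mem {F : ℍ → ℂ} (hF : F ∈ qr_ring) : ana_IsNice 1 F :=
  ⟨hF.1, fun τ => by simpa using hF.2.1 τ, hF.2.2⟩

/-- **(Z), form version.** For a level-one modular form `T` of weight `12 m + 2`, the constant
term of `T / Δ ^ m` vanishes: the coefficient of `q ^ m` in `qExpansion T · ((Δ/q)⁻¹) ^ m` is
`0`. -/
theorem m16zc_form (m : ℕ) (k : ℤ) (hk : k = 12 * (m : ℤ) + 2) (T : ModularForm 𝒮ℒ k) :
    PowerSeries.coeff m (qExpansion 1 (T : ℍ → ℂ) * (m16st_cast m16st_V) ^ m) = 0 := by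
  have hTmem : (T : ℍ → ℂ) ∈ qr_ring := qr_mem_of_modularForm one_mem_strictPeriods_SL T
  set K : ℍ → ℂ := fun τ => T τ / Δ τ ^ m with hK
  have hΔm : ∀ τ : ℍ, Δ τ ^ m ≠ 0 := fun τ => pow_ne_zero _ (ord_disc_ne_zero τ)
  have hKmd : MDiff K := by
    have : K = (T : ℍ → ℂ) / (fun τ : ℍ => Δ τ ^ m) := by
      funext τ; rfl
    rw [this]
    exact (ModularFormClass.holo T).div (pj_disc_pow_mem m).1 hΔm
  have hKinv : ∀ γ : SL(2, ℤ), K ∣[(2 : ℤ)] γ = K := by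
    intro γ
    rw [cj_slash_eq_iff]
    intro τ
    have hT : T (γ • τ) = cj_denom γ τ ^ k * T τ :=
      (cj_slash_eq_iff T k γ).mp (cj_slash_eq_of_modularForm T γ) τ
    have hΔ : Δ (γ • τ) = cj_denom γ τ ^ (12 : ℤ) * Δ τ := ord_disc_smul γ τ
    have hd : cj_denom γ τ ≠ 0 := cj_denom_ne_zero γ τ
    have hΔ0 := ord_disc_ne_zero τ
    have hkk : cj_denom γ τ ^ k
        = cj_denom γ τ ^ ((12 : ℤ) * (m : ℤ)) * cj_denom γ τ ^ (2 : ℤ) := by
      rw [← zpow_add₀ hd, hk]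
    show T (γ • τ) / Δ (γ • τ) ^ m = cj_denom γ τ ^ (2 : ℤ) * (T τ / Δ τ ^ m)
    rw [hT, hΔ, hkk, mul_pow, ← zpow_natCast (cj_denom γ τ ^ (12 : ℤ)) m, ← zpow_mul]
    have hne : cj_denom γ τ ^ ((12 : ℤ) * (m : ℤ)) ≠ 0 := zpow_ne_zero _ hd
    generalize cj_denom γ τ ^ ((12 : ℤ) * (m : ℤ)) = a at hne
    generalize cj_denom γ τ ^ (2 : ℤ) = b
    field_simp
  have hpole : ana_PoleLE 1 m K := by
    unfold ana_PoleLE
    have h1 := amer_bounded_pow m16zc_q_div_disc_bounded m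
    have h2 : IsBoundedAtImInfty (T : ℍ → ℂ) := hTmem.2.2
    have h := h1.mul h2
    have heq : (fun τ : ℍ => ana_q 1 τ ^ m * K τ)
        = (fun τ : ℍ => 𝕢 1 (τ : ℂ) / Δ τ) ^ m * (T : ℍ → ℂ) := by
      funext τ
      have hΔ0 := ord_disc_ne_zero τ
      simp only [Pi.mul_apply, Pi.pow_apply, hK, ana_q, Nat.cast_one, div_pow]
      field_simp
    rw [heq]
    exact h
  have hper : ∀ τ : ℍ, K (((1 : ℕ) : ℝ) +ᵥ τ) = K τ := by
    intro τ
    have h := congrFun (hKinv ModularGroup.T) τ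
    have h1 := m16zc_slash_T K 2 τ
    rw [h] at h1
    simpa using h1.symm
  have hKmer : ana_IsMer 1 K := ⟨hKmd, hper, m, hpole⟩
  have hnice : ana_IsNice 1 (fun τ : ℍ => ana_q 1 τ ^ m * K τ) := hKmer.nice hpole
  have hlaur : (ana_laurent 1 K).coeff 0
      = (qExpansion (((1 : ℕ) : ℝ)) (fun τ : ℍ => ana_q 1 τ ^ m * K τ)).coeff m := by
    rw [ana_laurent_eq hKmer hpole, ana_laurentAux]
    have h0 : (0 : ℤ) = (m : ℤ) + (-(m : ℤ)) := by ring
    rw [h0, HahnSeries.coeff_single_mul_add, one_mul, HahnSeries.ofPowerSeries_apply_coeff]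
  have hz := m16zc_main K hKmd hKinv m hpole
  have hfun : (fun τ : ℍ => ana_q 1 τ ^ m * T τ)
      = (fun τ : ℍ => Δ τ ^ m) * (fun τ : ℍ => ana_q 1 τ ^ m * K τ) := by
    funext τ
    have := hΔm τ
    simp only [Pi.mul_apply, hK]
    field_simp
  have h1 := ana_qExpansion_q_pow_mul (m16zc_nice_of_mem hTmem) m
  have h2 := ana_qExpansion_mul (m16zc_nice_of_mem (pj_disc_pow_mem m)) hnice
  rw [← hfun, h1] at h2
  have h3 : qExpansion (((1 : ℕ) : ℝ)) (fun τ : ℍ => Δ τ ^ m)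
      = (PowerSeries.X * m16st_cast m16st_U) ^ m := by
    rw [Nat.cast_one]
    have h := qr_qExpansion_pow pj_disc_mem m
    rw [m16zc_qExpansion_disc] at h
    rw [← h]
    rfl
  rw [h3, mul_pow, mul_assoc] at h2
  have h4 := mul_left_cancel₀ (pow_ne_zero m PowerSeries.X_ne_zero) h2
  have h5 : qExpansion 1 (T : ℍ → ℂ) * (m16st_cast m16st_V) ^ m
      = qExpansion (((1 : ℕ) : ℝ)) (fun τ : ℍ => ana_q 1 τ ^ m * K τ) := by
    have hcast : qExpansion (((1 : ℕ) : ℝ)) (T : ℍ → ℂ) = qExpansion 1 (T : ℍ → ℂ) := by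
      rw [Nat.cast_one]
    rw [← hcast, h4]
    calc m16st_cast m16st_U ^ m * qExpansion (((1 : ℕ) : ℝ)) (fun τ : ℍ => ana_q 1 τ ^ m * K τ)
          * m16st_cast m16st_V ^ m
        = (m16st_cast m16st_U * m16st_cast m16st_V) ^ m
          * qExpansion (((1 : ℕ) : ℝ)) (fun τ : ℍ => ana_q 1 τ ^ m * K τ) := by
          rw [mul_pow]; ring
      _ = qExpansion (((1 : ℕ) : ℝ)) (fun τ : ℍ => ana_q 1 τ ^ m * K τ) := by
          rw [m16zc_cast_U_mul_V, one_pow, one_mul]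
  rw [h5, ← hlaur, hz]

/-- `m16zc_form` with a natural-number cast weight. -/
theorem m16zc_form_nat (m : ℕ) (T : ModularForm 𝒮ℒ ((12 * m + 2 : ℕ) : ℤ)) :
    PowerSeries.coeff m (qExpansion 1 (T : ℍ → ℂ) * (m16st_cast m16st_V) ^ m) = 0 :=
  m16zc_form m _ (by push_cast; ring) T

end Fermat.Agent.M16

end
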