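/-
M16 (S16 project), LOWER BOUND side, package RES (helper3): the residue theorem.

For `ψ ∈ A` with pole order `≤ m` at `∞` and a Fricke pair `(e, -p e')` of weight 2
(`e = e' = E` the Eisenstein series, or `e = f`, `e' = U_p f` for a cusp form `f`), the trace of
`Δ^m ψ e` to level one is a modular form `T` of weight `12 m + 2` with
`T / U^m = B⁺ e - q^m U_p (C e')`; the constant term of `T / Δ^m` vanishes (package ZC), i.e.
`∑_{j ≤ m} b_{-j} e_j = c_0 e'_0`.

* `m16res_R2 : m16lb_R2`,  `m16res_R1 : m16lb_R1`,  `m16res_main : m16lb_RES`.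
-/
import Fermat.Agent.M16.ResBridge
import Fermat.Agent.M16.ResDefs
import Fermat.Agent.M16.LbKey2
import Fermat.Agent.M16.FrkApi
import Fermat.Agent.M16.ZcForm

set_option autoImplicit false

noncomputable section

namespace Fermat.Agent.M16

open UpperHalfPlane hiding I
open Filter Function Topology ModularForm Complex CongruenceSubgroup
open Fermat.Agent.S23 Fermat.Agent.S24
open scoped Manifold MatrixGroups ModularForm Real

/-- `U_p (V_p x · y) = x · U_p y` -/
theorem m16res_U_V_mul {R : Type*} [CommRing R] (p : ℕ) (hp : 0 < p) (x y : PowerSeries R) :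
    m16_U p (m16_V p x * y) = x * m16_U p y := by
  classical
  ext n
  rw [m16_U_coeff, PowerSeries.coeff_mul, PowerSeries.coeff_mul]
  have hinj : Function.Injective (fun q : ℕ × ℕ => (p * q.1, p * q.2)) := by
    intro a b hab
    simp only [Prod.mk.injEq] at hab
    exact Prod.ext (Nat.eq_of_mul_eq_mul_left hp hab.1) (Nat.eq_of_mul_eq_mul_left hp hab.2)
  have h1 : ∑ q ∈ Finset.HasAntidiagonal.antidiagonal n, PowerSeries.coeff q.1 x * PowerSeries.coeff q.2 (m16_U p y)
      = ∑ r ∈ (Finset.HasAntidiagonal.antidiagonal n).map ⟨_, hinj⟩,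
          PowerSeries.coeff r.1 (m16_V p x) * PowerSeries.coeff r.2 y := by
    rw [Finset.sum_map]
    refine Finset.sum_congr rfl fun q _ => ?_
    simp only [Function.Embedding.coeFn_mk]
    rw [m16_V_coeff_mul p hp, m16_U_coeff]
  rw [h1]
  symm
  apply Finset.sum_subset
  · intro r hr
    simp only [Finset.mem_map, Finset.HasAntidiagonal.mem_antidiagonal, Function.Embedding.coeFn_mk] at hr ⊢
    obtain ⟨q, hq, rfl⟩ := hr
    simp only
    rw [← hq]; ring
  · intro r hr hnot
    simp only [Finset.HasAntidiagonal.mem_antidiagonal] at hr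
    by_cases hd : p ∣ r.1
    · exfalso
      apply hnot
      obtain ⟨i, hi⟩ := hd
      have hle : i ≤ n := by
        have : p * i ≤ p * n := by rw [← hi, ← hr]; exact Nat.le_add_right _ _
        exact Nat.le_of_mul_le_mul_left this hp
      simp only [Finset.mem_map, Finset.HasAntidiagonal.mem_antidiagonal, Function.Embedding.coeFn_mk]
      refine ⟨(i, n - i), by simp; omega, ?_⟩
      apply Prod.ext
      · exact hi.symm
      · simp only
        have : r.2 = p * n - p * i := by rw [← hr, hi]; omega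
        rw [this, Nat.mul_sub]
    · rw [m16_V_coeff_of_not_dvd p _ hd, zero_mul]

variable {p : ℕ} [NeZero p]

/-- **core of the residue theorem** -/
theorem m16res_core (hF : m16_FrkAPI p) (ψ : ana_ring p) (hA : m16lb_IsA p ψ) (m : ℕ)
    (hm : ana_PoleLE p m (ψ : ℍ → ℂ)) (e es : PowerSeries ℂ)
    (he : m16_Pair p 2 e ((-(p : ℂ)) • es)) :
    PowerSeries.coeff m (m16res_Bp p ψ m * e) = m16lb_c p ψ 0 * PowerSeries.coeff 0 es := by
  have hp0 : (p : ℂ) ≠ 0 := m16nrm_p_ne_zero p
  have hpos : 0 < p := NeZero.pos p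
  have hpair := m16uba_pair_mul (m16res_pair hF ψ hA m hm) he
  obtain ⟨T, hT⟩ := hF.trace _ _ _ hpair
  have hZ := m16zc_form m (12 * (m : ℤ) + 2) rfl T
  set U := m16st_cast m16st_U with hU
  set V := m16st_cast m16st_V with hV
  have hUV : U * V = 1 := m16zc_cast_U_mul_V
  have hΔ : m16st_cast m16st_DeltaInt = PowerSeries.X * U := by
    rw [m16st_DeltaInt_eq, map_mul]
    simp only [PowerSeries.map_X]
    rfl
  -- the `U_p`-term
  have h1 : m16_U p (m16res_C p ψ * (((p : ℂ) ^ (12 * (m : ℤ))) •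
      m16_V p ((m16st_cast m16st_DeltaInt) ^ m)) * ((-(p : ℂ)) • es)) =
      (((p : ℂ) ^ (12 * (m : ℤ))) * (-(p : ℂ))) •
        ((m16st_cast m16st_DeltaInt) ^ m * m16_U p (m16res_C p ψ * es)) := by
    have e1 : m16res_C p ψ * (((p : ℂ) ^ (12 * (m : ℤ))) •
        m16_V p ((m16st_cast m16st_DeltaInt) ^ m)) * ((-(p : ℂ)) • es) =
        (((p : ℂ) ^ (12 * (m : ℤ))) * (-(p : ℂ))) •
          (m16_V p ((m16st_cast m16st_DeltaInt) ^ m) * (m16res_C p ψ * es)) := by
      simp only [PowerSeries.smul_eq_C_mul, map_mul]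
      ring
    rw [e1, m16_U_smul, m16res_U_V_mul p hpos]
  have hκ : ((p : ℂ) ^ (1 - (12 * (m : ℤ) + 2))) * (((p : ℂ) ^ (12 * (m : ℤ))) * (-(p : ℂ))) = -1 := by
    have e2 : ((p : ℂ) ^ (1 - (12 * (m : ℤ) + 2))) * ((p : ℂ) ^ (12 * (m : ℤ))) * (p : ℂ) = 1 := by
      rw [← zpow_add₀ hp0, ← zpow_add_one₀ hp0]
      have : 1 - (12 * (m : ℤ) + 2) + 12 * (m : ℤ) + 1 = 0 := by ring
      rw [this, zpow_zero]
    linear_combination -e2
  have h2 : qExpansion 1 (T : ℍ → ℂ) * V ^ m =
      m16res_Bp p ψ m * e - PowerSeries.X ^ m * m16_U p (m16res_C p ψ * es) := by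
    rw [hT, h1, smul_smul, hκ, hΔ]
    have hUVm : U ^ m * V ^ m = 1 := by rw [← mul_pow, hUV, one_pow]
    simp only [PowerSeries.smul_eq_C_mul, map_neg, map_one, mul_pow]
    linear_combination (m16res_Bp p ψ m * e - PowerSeries.X ^ m * m16_U p (m16res_C p ψ * es)) * hUVm
  rw [h2, map_sub, sub_eq_zero] at hZ
  rw [hZ]
  have h3 : PowerSeries.coeff m (PowerSeries.X ^ m * m16_U p (m16res_C p ψ * es)) =
      PowerSeries.coeff 0 (m16_U p (m16res_C p ψ * es)) := by
    have := PowerSeries.coeff_X_pow_mul (m16_U p (m16res_C p ψ * es)) m 0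
    simpa using this
  rw [h3, m16_U_coeff, mul_zero, PowerSeries.coeff_mul]
  simp [m16res_C]

/-- the coefficients `b_{-k}`, `k > m`, vanish -/
theorem m16res_b_eq_zero (ψ : ana_ring p) (m : ℕ) (hm : ana_PoleLE p m (ψ : ℍ → ℂ)) (k : ℕ)
    (hk : m < k) : m16lb_b p ψ (-(k : ℤ)) = 0 := by
  unfold m16lb_b
  rw [ana_qexp_apply]
  refine m16res_laurent_coeff_lt (ana_isMer_of_mem ψ.2) hm _ ?_
  have hpos : 0 < p := NeZero.pos p
  have h1 : (k : ℤ) ≤ (p : ℤ) * (k : ℤ) := by
    have : (1 : ℤ) ≤ (p : ℤ) := by exact_mod_cast hpos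
    nlinarith [Int.natCast_nonneg k]
  have h2 : (m : ℤ) < (k : ℤ) := by exact_mod_cast hk
  linarith

/-- the finite sum form -/
theorem m16res_finsum (hF : m16_FrkAPI p) (ψ : ana_ring p) (hA : m16lb_IsA p ψ)
    (e es : PowerSeries ℂ) (he : m16_Pair p 2 e ((-(p : ℂ)) • es)) :
    ∑ᶠ k : ℕ, m16lb_b p ψ (-(k : ℤ)) * PowerSeries.coeff k e =
      m16lb_c p ψ 0 * PowerSeries.coeff 0 es := by
  obtain ⟨m, hm⟩ := amer_exists_poleLE ψ.2
  rw [← m16res_core hF ψ hA m hm e es he]
  have hsupp : (Function.support fun k : ℕ => m16lb_b p ψ (-(k : ℤ)) * PowerSeries.coeff k e) ⊆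
      ((Finset.range (m + 1) : Finset ℕ) : Set ℕ) := by
    intro k hk
    simp only [Function.mem_support] at hk
    simp only [Finset.coe_range, Set.mem_Iio]
    by_contra hlt
    apply hk
    rw [m16res_b_eq_zero ψ m hm k (by omega), zero_mul]
  rw [finsum_eq_sum_of_support_subset _ hsupp, mul_comm (m16res_Bp p ψ m) e,
    PowerSeries.coeff_mul, Finset.Nat.sum_antidiagonal_eq_sum_range_succ_mk]
  refine Finset.sum_congr rfl fun k hk => ?_
  have hk' : k ≤ m := by
    have := Finset.mem_range.mp hk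
    omega
  simp only [m16res_Bp, PowerSeries.coeff_mk]
  rw [mul_comm]
  congr 2
  push_cast [Nat.cast_sub hk']
  ring

end Fermat.Agent.M16

namespace Fermat.Agent.M16

open UpperHalfPlane hiding I
open Fermat.Agent.S23 Fermat.Agent.S24
open scoped MatrixGroups

/-- **(R2)** -/
theorem m16res_R2 : m16lb_R2 := by
  intro p _
  have hp : p.Prime := Fact.out
  haveI : NeZero p := ⟨hp.ne_zero⟩
  intro ψ hA
  have hF := m16frk_api p
  rw [m16res_finsum hF ψ hA (m16_eisC p) (m16_eisC p) hF.eis]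
  simp [m16_eisC]
  ring

/-- **(R1)** -/
theorem m16res_R1 : m16lb_R1 := by
  intro p _
  have hp : p.Prime := Fact.out
  haveI : NeZero p := ⟨hp.ne_zero⟩
  intro ψ hA f
  have hF := m16frk_api p
  have h := m16res_finsum hF ψ hA _ _ (hF.cusp f)
  have h0 : PowerSeries.coeff 0 (qExpansion 1 (f : ℍ → ℂ)) = 0 := by
    have hmem : (f : ℍ → ℂ) ∈ qr_ring :=
      qr_mem_of_cuspForm (CongruenceSubgroup.one_mem_strictPeriods_Gamma0 p) f
    have : Fact (IsCusp OnePoint.infty
        (CongruenceSubgroup.Gamma0 p : Subgroup (GL (Fin 2) ℝ))) :=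
      ⟨Subgroup.isCusp_of_mem_strictPeriods one_pos
        (CongruenceSubgroup.one_mem_strictPeriods_Gamma0 p)⟩
    exact (qr_isZeroAtImInfty_iff hmem).mp (CuspFormClass.zero_at_infty f)
  rw [m16_U_coeff, mul_zero, h0, mul_zero] at h
  exact h

/-- **(RES)** -/
theorem m16res_main : m16lb_RES := m16lbk_res_of_R2 m16res_R2

end Fermat.Agent.M16
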