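/-
M16 (S16 project), LOWER BOUND side: the key statement `m16lb_KEY` modulo the package INT.

`m16lb_key_of_int : m16lb_INT → m16lb_KEY`, from PSI (helper2, with (R1) from RES), RES (helper3),
H1 (helper9).
-/
import Fermat.Agent.M16.LbKey
import Fermat.Agent.M16.ResMain
import Fermat.Agent.M16.PsiFinal
import Fermat.Agent.M16.H1Main

set_option autoImplicit false

namespace Fermat.Agent.M16

/-- **(PSI)** -/
theorem m16lb_psi : m16lb_PSI := m16psi_main_of_R1 m16res_R1

/-- **(KEY)** modulo **(INT)** -/
theorem m16lb_key_of_int (hINT : m16lb_INT) : m16lb_KEY :=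
  m16lbk_main m16lb_psi m16res_main hINT m16h1_main

end Fermat.Agent.M16
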