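/-
M16 (S16 project), LOWER BOUND side: the key statement.

`m16lb_key : m16lb_KEY`: every integral principal part orthogonal to all cusp forms of weight 2 on
`Γ₀(p)` pairs with the Eisenstein `q`-series to a multiple of `n = eisensteinNumerator p`.

Assembly (architect: helper3): `m16lbk_main` (LbKey) applied to
* PSI (helper2; Mittag-Leffler from Riemann-Roch, rationality by Galois descent; with (R1)),
* RES (helper3; residue theorem via the trace to level one, with helper1's (Z) and the Fricke
  API of helper6 / helper8),
* INT (helper4, helper5, helper7, helper2, helper8, helper1, helper6, helper9, helper3;
  integrality at both cusps from Igusa's theorem M28),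
* H1 (helper9, lead, helper1; the extra factor `2`).
-/
import Fermat.Agent.M16.LbPre
import Fermat.Agent.M16.IntMain

set_option autoImplicit false

namespace Fermat.Agent.M16

/-- **(KEY)** -/
theorem m16lb_key : m16lb_KEY := m16lb_key_of_int m16int_main

end Fermat.Agent.M16
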