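/-
M16 (S16 project), package NRM, part 3: the `q`-expansion of the product
`∏ j mod p, Fs ((z + j) / p)` in terms of the `q`-expansion of `Fs`.

Main result `m16nrm_qExpansion_prod`: the `m`-th `q`-coefficient of the product is the
coefficient of `X ^ (p m)` of `∏ j, ∑ n, b_n ζ ^ (j n) X ^ n`, where `b = qExpansion 1 Fs` and
`ζ = exp (2 π i / p)`.
-/
import Fermat.Agent.M16.NrmNorm

set_option autoImplicit false

noncomputable section

namespace Fermat.Agent.M16

open UpperHalfPlane CongruenceSubgroup ModularFormClass Fermat.Agent.S23 Function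
open scoped MatrixGroups ModularForm Manifold Real

/-! ### functions of period `h` -/

theorem m16nrm_periodic_of_vadd {h : ℝ} {F : ℍ → ℂ} (hF : ∀ τ : ℍ, F (h +ᵥ τ) = F τ) :
    Periodic (F ∘ ofComplex) (h : ℂ) := by
  intro w
  by_cases hw : 0 < w.im
  · have hw' : 0 < (w + (h : ℂ)).im := by simpa using hw
    simp only [comp_apply, ofComplex_apply_of_im_pos hw', ofComplex_apply_of_im_pos hw]
    rw [← hF ⟨w, hw⟩]
    congr 1
    ext
    simp [add_comm]
  · have hw0 : w.im ≤ 0 := not_lt.mp hw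
    have hw' : (w + (h : ℂ)).im ≤ 0 := by simpa using hw0
    simp only [comp_apply]
    rw [ofComplex_apply_of_im_nonpos hw', ofComplex_apply_of_im_nonpos hw0]

/-- holomorphic, `h`-periodic, bounded at `i∞` -/
def m16nrm_IsNiceP (h : ℝ) (F : ℍ → ℂ) : Prop :=
  MDiff F ∧ (∀ τ : ℍ, F (h +ᵥ τ) = F τ) ∧ IsBoundedAtImInfty F

theorem m16nrm_IsNiceP.analyticAt {h : ℝ} (hh : 0 < h) {F : ℍ → ℂ} (hF : m16nrm_IsNiceP h F) :
    AnalyticAt ℂ (cuspFunction h F) 0 :=
  analyticAt_cuspFunction_zero hh (m16nrm_periodic_of_vadd hF.2.1) hF.1 hF.2.2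

theorem m16nrm_IsNiceP.mul {h : ℝ} {F G : ℍ → ℂ} (hF : m16nrm_IsNiceP h F)
    (hG : m16nrm_IsNiceP h G) : m16nrm_IsNiceP h (F * G) :=
  ⟨hF.1.mul hG.1, fun τ => by simp only [Pi.mul_apply, hF.2.1 τ, hG.2.1 τ], hF.2.2.mul hG.2.2⟩

theorem m16nrm_IsNiceP.one (h : ℝ) : m16nrm_IsNiceP h (1 : ℍ → ℂ) :=
  ⟨mdifferentiable_const, fun _ => rfl, Filter.const_boundedAtFilter _ (1 : ℂ)⟩

theorem m16nrm_IsNiceP.prod {h : ℝ} {ι : Type*} (s : Finset ι) {F : ι → ℍ → ℂ}
    (hF : ∀ i ∈ s, m16nrm_IsNiceP h (F i)) : m16nrm_IsNiceP h (∏ i ∈ s, F i) := by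
  classical
  induction s using Finset.induction_on with
  | empty => simpa using m16nrm_IsNiceP.one h
  | insert a s ha ih =>
    rw [Finset.prod_insert ha]
    exact (hF a (Finset.mem_insert_self a s)).mul
      (ih fun i hi => hF i (Finset.mem_insert_of_mem hi))

theorem m16nrm_qExpansionP_prod {h : ℝ} (hh : 0 < h) {ι : Type*} (s : Finset ι)
    {F : ι → ℍ → ℂ} (hF : ∀ i ∈ s, m16nrm_IsNiceP h (F i)) :
    qExpansion h (∏ i ∈ s, F i) = ∏ i ∈ s, qExpansion h (F i) := by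
  classical
  induction s using Finset.induction_on with
  | empty => simpa using qExpansion_one h
  | insert a s ha ih =>
    rw [Finset.prod_insert ha, Finset.prod_insert ha,
      qExpansion_mul ((hF a (Finset.mem_insert_self a s)).analyticAt hh)
        ((m16nrm_IsNiceP.prod s fun i hi => hF i (Finset.mem_insert_of_mem hi)).analyticAt hh),
      ih fun i hi => hF i (Finset.mem_insert_of_mem hi)]

end Fermat.Agent.M16

namespace Fermat.Agent.M16

open UpperHalfPlane CongruenceSubgroup ModularFormClass Fermat.Agent.S23 Function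
open scoped MatrixGroups ModularForm Manifold Real

/-- uniqueness of `q`-expansion coefficients, for plain functions -/
theorem m16nrm_coeff_unique {h : ℝ} (hh : 0 < h) {f : ℍ → ℂ} {c : ℕ → ℂ}
    (hfanalytic : AnalyticAt ℂ (cuspFunction h f) 0)
    (hf : ∀ τ : ℍ, HasSum (fun m ↦ c m • Periodic.qParam h τ ^ m) (f τ)) (m : ℕ) :
    c m = (qExpansion h f).coeff m :=
  @UpperHalfPlane.qExpansion_coeff_unique (ℍ → ℂ) ⟨id, fun _ _ h => h⟩ h f c hh hfanalytic hf m

/-- the root of unity `exp (2 π i / p)` -/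
def m16nrm_zeta (p : ℕ) : ℂ := Complex.exp (2 * π * Complex.I / p)

theorem m16nrm_zeta_pow (p : ℕ) [NeZero p] : m16nrm_zeta p ^ p = 1 := by
  rw [m16nrm_zeta, ← Complex.exp_nat_mul, mul_div_cancel₀ _ (m16nrm_p_ne_zero p)]
  exact Complex.exp_two_pi_mul_I

section qexp

variable {p : ℕ} [NeZero p] {k : ℤ} {Fs : ℍ → ℂ}

theorem m16nrm_p_pos (p : ℕ) [NeZero p] : (0 : ℝ) < (p : ℝ) :=
  Nat.cast_pos.mpr (Nat.pos_of_ne_zero (NeZero.ne p))

theorem m16nrm_fac_vadd_p (hFs : m16nrm_Good p k Fs) (j : ℕ) (z : ℍ) :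
    m16nrm_fac p Fs j ((p : ℝ) +ᵥ z) = m16nrm_fac p Fs j z := by
  have hp := m16nrm_p_ne_zero p
  have h : ModularForm.heckeMatrix p j • ((p : ℝ) +ᵥ z) =
      (1 : ℝ) +ᵥ (ModularForm.heckeMatrix p j • z) := by
    apply UpperHalfPlane.ext
    rw [UpperHalfPlane.coe_vadd, ModularForm.coe_heckeMatrix_smul (NeZero.ne p),
      ModularForm.coe_heckeMatrix_smul (NeZero.ne p), UpperHalfPlane.coe_vadd]
    push_cast
    field_simp
    ring
  rw [m16nrm_fac, m16nrm_fac, h, m16nrm_periodic hFs]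

theorem m16nrm_fac_nice (hFs : m16nrm_Good p k Fs) (j : ℕ) :
    m16nrm_IsNiceP (p : ℝ) (m16nrm_fac p Fs j) :=
  ⟨m16nrm_fac_mdiff hFs.mdiff j, m16nrm_fac_vadd_p hFs j, m16nrm_fac_bdd hFs.bdd j⟩

theorem m16nrm_qParam_heckeMatrix (j : ℕ) (z : ℍ) :
    Periodic.qParam 1 ((ModularForm.heckeMatrix p j • z : ℍ) : ℂ) =
      m16nrm_zeta p ^ j * Periodic.qParam (p : ℝ) (z : ℂ) := by
  have hp := m16nrm_p_ne_zero p
  rw [ModularForm.coe_heckeMatrix_smul (NeZero.ne p), m16nrm_zeta, Periodic.qParam,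
    Periodic.qParam, ← Complex.exp_nat_mul, ← Complex.exp_add]
  congr 1
  push_cast
  field_simp
  ring

/-- the period-`p` `q`-expansion of `z ↦ Fs ((z + j) / p)` -/
theorem m16nrm_qExpansion_fac (hFs : m16nrm_Good p k Fs) (j n : ℕ) :
    (qExpansion (p : ℝ) (m16nrm_fac p Fs j)).coeff n =
      (qExpansion 1 Fs).coeff n * m16nrm_zeta p ^ (j * n) := by
  refine (m16nrm_coeff_unique (m16nrm_p_pos p)
    ((m16nrm_fac_nice hFs j).analyticAt (m16nrm_p_pos p))
    (c := fun n => (qExpansion 1 Fs).coeff n * m16nrm_zeta p ^ (j * n)) (fun τ => ?_) n).symm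
  have h := qr_hasSum (m16nrm_good_mem_qr hFs) (ModularForm.heckeMatrix p j • τ)
  rw [m16nrm_qParam_heckeMatrix] at h
  show HasSum _ (Fs (ModularForm.heckeMatrix p j • τ))
  convert h using 2 with m
  rw [smul_eq_mul, smul_eq_mul, mul_pow, ← pow_mul]
  ring

/-- a `1`-periodic function is `n`-periodic -/
theorem m16nrm_vadd_nat {F : ℍ → ℂ} (hF : ∀ τ : ℍ, F ((1 : ℝ) +ᵥ τ) = F τ) (n : ℕ) (τ : ℍ) :
    F ((n : ℝ) +ᵥ τ) = F τ := by
  induction n with
  | zero => simp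
  | succ n ih =>
    have : (((n + 1 : ℕ) : ℝ)) +ᵥ τ = (1 : ℝ) +ᵥ ((n : ℝ) +ᵥ τ) := by
      apply UpperHalfPlane.ext
      simp [UpperHalfPlane.coe_vadd]
      ring
    rw [this, hF, ih]

theorem m16nrm_qParam_one (z : ℂ) :
    Periodic.qParam 1 z = Periodic.qParam (p : ℝ) z ^ p := by
  have hp := m16nrm_p_ne_zero p
  rw [Periodic.qParam, Periodic.qParam, ← Complex.exp_nat_mul]
  congr 1
  push_cast
  field_simp

/-- the period-`p` `q`-expansion of a `1`-periodic function -/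
theorem m16nrm_qExpansionP_of_one {F : ℍ → ℂ} (hF : F ∈ qr_ring) (n : ℕ) :
    (qExpansion (p : ℝ) F).coeff n =
      if p ∣ n then (qExpansion 1 F).coeff (n / p) else 0 := by
  have hnice : m16nrm_IsNiceP (p : ℝ) F := ⟨hF.1, m16nrm_vadd_nat hF.2.1 p, hF.2.2⟩
  refine (m16nrm_coeff_unique (m16nrm_p_pos p) (hnice.analyticAt (m16nrm_p_pos p))
    (c := fun n => if p ∣ n then (qExpansion 1 F).coeff (n / p) else 0) (fun τ => ?_) n).symm
  have h := qr_hasSum hF τ
  rw [m16nrm_qParam_one (p := p)] at h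
  have hinj : Function.Injective (fun m : ℕ => p * m) :=
    fun a b hab => Nat.eq_of_mul_eq_mul_left (Nat.pos_of_ne_zero (NeZero.ne p)) hab
  refine (hinj.hasSum_iff ?_).mp ?_
  · intro x hx
    have : ¬ p ∣ x := fun ⟨m, hm⟩ => hx ⟨m, hm.symm⟩
    simp [this]
  · convert h using 2 with m
    simp only [comp_apply, dvd_mul_right, if_true,
      Nat.mul_div_cancel_left _ (Nat.pos_of_ne_zero (NeZero.ne p)), pow_mul]

/-- **the `q`-expansion of the product of the conjugates** -/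
theorem m16nrm_qExpansion_prod (hFs : m16nrm_Good p k Fs) (m : ℕ) :
    (qExpansion 1 (m16nrm_prod p Fs)).coeff m =
      (∏ j : ZMod p, PowerSeries.mk
        (fun n => (qExpansion 1 Fs).coeff n * m16nrm_zeta p ^ (j.val * n))).coeff (p * m) := by
  have h1 := m16nrm_qExpansionP_of_one (p := p) (m16nrm_prod_mem_qr hFs) (p * m)
  rw [if_pos (dvd_mul_right p m), Nat.mul_div_cancel_left _ (Nat.pos_of_ne_zero (NeZero.ne p))]
    at h1
  rw [← h1, m16nrm_prod_eq,
    m16nrm_qExpansionP_prod (m16nrm_p_pos p) Finset.univ fun j _ => m16nrm_fac_nice hFs j.val]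
  congr 2
  funext j
  ext n
  rw [m16nrm_qExpansion_fac hFs, PowerSeries.coeff_mk]

end qexp

end Fermat.Agent.M16
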