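/-
M16 (S16 project), package NRM, part 5: **NORM + MILLER**.

`m16nrm_main`: there is no Fricke pair `(D, Ds)` of even weight `k ≤ 8` on `Γ₀(p)` with
`ℓ`-integral `q`-expansions (`ℓ ≠ p`) such that `D ≡ unit · q + ...` and
`Ds ≡ unit · q ^ p + ...` modulo `ℓ`.
-/
import Fermat.Agent.M16.NrmQexp
import Fermat.Agent.M16.NrmAlg
import Fermat.Agent.M16.StMiller

set_option autoImplicit false

noncomputable section

namespace Fermat.Agent.M16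

open UpperHalfPlane CongruenceSubgroup ModularFormClass Fermat.Agent.S23 Function PowerSeries
open scoped MatrixGroups ModularForm Manifold Real

/-- a product of two `ℓ`-units of `ℤ_(ℓ)` (given as fractions) is not in `ℓ O` -/
theorem m16nrm_unit_mul_pow_not_mem {ℓ : ℕ} [Fact ℓ.Prime] {x y : ℂ} (n : ℕ)
    (hx : m16nrm_IsLInt ℓ x) (hy : m16nrm_IsLInt ℓ y)
    (hx' : ¬ m16nrm_IsLDiv ℓ 1 x) (hy' : ¬ m16nrm_IsLDiv ℓ 1 y) :
    x * y ^ n ∉ m16nrm_J ℓ := by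
  have hℓ : ℓ.Prime := Fact.out
  have hℓ' : Prime (ℓ : ℤ) := Int.prime_iff_natAbs_prime.mpr (by simpa using hℓ)
  obtain ⟨a, b, hb, hab⟩ := hx
  obtain ⟨a', b', hb', hab'⟩ := hy
  have ha : ¬ (ℓ : ℤ) ∣ a := by
    rintro ⟨t, ht⟩
    exact hx' ⟨t, b, hb, by rw [hab, ht]; push_cast; ring⟩
  have ha' : ¬ (ℓ : ℤ) ∣ a' := by
    rintro ⟨t, ht⟩
    exact hy' ⟨t, b', hb', by rw [hab', ht]; push_cast; ring⟩
  intro hmem
  have h1 : x * y ^ n * ((b * b' ^ n : ℕ) : ℂ) = ((a * a' ^ n : ℤ) : ℂ) := by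
    push_cast
    rw [← hab, ← hab']
    ring
  have h2 := m16nrm_dvd_of_mem_J hmem _ _ h1
  rcases hℓ'.dvd_or_dvd h2 with h | h
  · exact ha h
  · exact ha' (hℓ'.dvd_of_dvd_pow h)

section main

variable {p ℓ : ℕ} [Fact p.Prime] [Fact ℓ.Prime]

/-- **NORM + MILLER** (with `[Fact ℓ.Prime]`) -/
theorem m16nrm_main' (k : ℕ) (hk2 : Even k) (hk : k ≤ 8)
    (D Ds : ℍ → ℂ) (hD : m16nrm_Good p k D) (hDs : m16nrm_Good p k Ds)
    (c : ℂ) (hc : c ≠ 0) (hF : m16nrm_IsFricke p k c D Ds)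
    (hDi : ∀ n, m16nrm_IsLInt ℓ ((qExpansion 1 D).coeff n))
    (hDsi : ∀ n, m16nrm_IsLInt ℓ ((qExpansion 1 Ds).coeff n))
    (hD0 : m16nrm_IsLDiv ℓ 1 ((qExpansion 1 D).coeff 0))
    (hD1 : ¬ m16nrm_IsLDiv ℓ 1 ((qExpansion 1 D).coeff 1))
    (hDs0 : ∀ n < p, m16nrm_IsLDiv ℓ 1 ((qExpansion 1 Ds).coeff n))
    (hDsp : ¬ m16nrm_IsLDiv ℓ 1 ((qExpansion 1 Ds).coeff p)) : False := by
  have hp : p.Prime := Fact.out
  have hJ : ∀ x ∈ m16nrm_J ℓ, ∀ y ∈ m16nrm_O ℓ, x * y ∈ m16nrm_J ℓ :=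
    fun x hx y hy => m16nrm_J_mul hx hy
  have hζ : m16nrm_zeta p ∈ m16nrm_O ℓ := m16nrm_zeta_mem_O hp.pos (m16nrm_zeta_pow p)
  -- the twisted series
  set φ : ZMod p → PowerSeries ℂ := fun j => PowerSeries.mk
    (fun n => (qExpansion 1 Ds).coeff n * m16nrm_zeta p ^ (j.val * n)) with hφ
  have hφO : ∀ j ∈ (Finset.univ : Finset (ZMod p)), ∀ n, coeff n (φ j) ∈ m16nrm_O ℓ := by
    intro j _ n
    rw [hφ, coeff_mk]
    exact (m16nrm_O ℓ).mul_mem (m16nrm_lint_mem_O (hDsi n)) ((m16nrm_O ℓ).pow_mem hζ _)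
  have hφl : ∀ j ∈ (Finset.univ : Finset (ZMod p)), ∀ n < p, coeff n (φ j) ∈ m16nrm_J ℓ := by
    intro j _ n hn
    rw [hφ, coeff_mk]
    exact m16nrm_J_mul (m16nrm_ldiv_mem_J (hDs0 n hn)) ((m16nrm_O ℓ).pow_mem hζ _)
  obtain ⟨P1, P2, P3⟩ := m16nrm_prod_low (m16nrm_O ℓ) (m16nrm_J ℓ) hJ Finset.univ φ
    (fun _ => p) hφO hφl
  have hsum : ∑ _j : ZMod p, p = p * p := by
    rw [Finset.sum_const, Finset.card_univ, ZMod.card, smul_eq_mul]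
  have hlead : ∏ j : ZMod p, coeff p (φ j) = (qExpansion 1 Ds).coeff p ^ p := by
    have : ∀ j : ZMod p, coeff p (φ j) = (qExpansion 1 Ds).coeff p := by
      intro j
      rw [hφ, coeff_mk, mul_comm j.val p, pow_mul, m16nrm_zeta_pow, one_pow, mul_one]
    rw [Finset.prod_congr rfl fun j _ => this j, Finset.prod_const, Finset.card_univ, ZMod.card]
  rw [hsum] at P2 P3
  rw [hlead] at P3
  -- the product of the conjugates
  set c' : PowerSeries ℂ := qExpansion 1 (m16nrm_prod p Ds) with hc'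
  have hc'coeff : ∀ m, coeff m c' = coeff (p * m) (∏ j : ZMod p, φ j) :=
    fun m => m16nrm_qExpansion_prod hDs m
  have hc'O : ∀ n, coeff n c' ∈ m16nrm_O ℓ := fun n => by rw [hc'coeff]; exact P1 _
  have hc'l : ∀ n < p, coeff n c' ∈ m16nrm_J ℓ := fun n hn => by
    rw [hc'coeff]
    exact P2 _ (Nat.mul_lt_mul_of_pos_left hn hp.pos)
  have hc'p : coeff p c' - (qExpansion 1 Ds).coeff p ^ p ∈ m16nrm_J ℓ := by
    rw [hc'coeff]; exact P3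
  -- the norm
  obtain ⟨N, hN⟩ := m16nrm_exists_form (p := p) (k := (k : ℤ)) (by exact_mod_cast hk2) hc hD hDs hF
  have hNq : qExpansion 1 (N : ℍ → ℂ) = qExpansion 1 D * c' := by
    rw [hN, m16nrm_norm_eq]
    exact qr_qExpansion_mul (m16nrm_good_mem_qr hD) (m16nrm_prod_mem_qr hDs)
  obtain ⟨Q1, Q2⟩ := m16nrm_mul_low (m16nrm_O ℓ) (m16nrm_J ℓ) hJ (qExpansion 1 D) c' 1 p
    (fun n => m16nrm_lint_mem_O (hDi n)) hc'O
    (fun n hn => by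
      have : n = 0 := by omega
      rw [this]; exact m16nrm_ldiv_mem_J hD0) hc'l
  -- Sturm bound
  have hall : ∀ n, coeff n (qExpansion 1 (N : ℍ → ℂ)) ∈ m16nrm_J ℓ := by
    refine m16st_sturm (m16nrm_J ℓ) _ N fun n hn => ?_
    rw [hNq]
    refine Q1 n ?_
    have h1 : 12 * (n : ℤ) ≤ 8 * ((p : ℤ) + 1) := by
      have hk' : (k : ℤ) ≤ 8 := by exact_mod_cast hk
      have hp0 : (0 : ℤ) ≤ (p : ℤ) + 1 := by positivity
      nlinarith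
    have hp2 : (2 : ℤ) ≤ p := by exact_mod_cast hp.two_le
    have : (n : ℤ) < 1 + p := by omega
    exact_mod_cast this
  have h1 := hall (1 + p)
  rw [hNq] at h1
  have h2 : coeff 1 (qExpansion 1 D) * coeff p c' ∈ m16nrm_J ℓ := by
    have := (m16nrm_J ℓ).sub_mem h1 Q2
    simpa using this
  have h3 : coeff 1 (qExpansion 1 D) * (qExpansion 1 Ds).coeff p ^ p ∈ m16nrm_J ℓ := by
    have h4 := m16nrm_mul_J (m16nrm_lint_mem_O (hDi 1)) hc'p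
    have := (m16nrm_J ℓ).sub_mem h2 h4
    convert this using 1
    ring
  exact m16nrm_unit_mul_pow_not_mem p (hDi 1) (hDsi p) hD1 hDsp h3

end main

/-- **NORM + MILLER**: no `D` of even weight `k ≤ 8` on `Γ₀(p)`, `ℓ`-integral at both cusps
(`ℓ ≠ p` is not even needed), with `D ≡ unit · q` at `∞` and `D* ≡ unit · q ^ p` at `0`. -/
theorem m16nrm_main (p ℓ : ℕ) [Fact p.Prime] (hℓ : ℓ.Prime) (k : ℕ) (hk2 : Even k)
    (hk : k ≤ 8) (D Ds : ℍ → ℂ) (hD : m16nrm_Good p k D) (hDs : m16nrm_Good p k Ds)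
    (c : ℂ) (hc : c ≠ 0) (hF : m16nrm_IsFricke p k c D Ds)
    (hDi : ∀ n, m16nrm_IsLInt ℓ ((qExpansion 1 D).coeff n))
    (hDsi : ∀ n, m16nrm_IsLInt ℓ ((qExpansion 1 Ds).coeff n))
    (hD0 : m16nrm_IsLDiv ℓ 1 ((qExpansion 1 D).coeff 0))
    (hD1 : ¬ m16nrm_IsLDiv ℓ 1 ((qExpansion 1 D).coeff 1))
    (hDs0 : ∀ n < p, m16nrm_IsLDiv ℓ 1 ((qExpansion 1 Ds).coeff n))
    (hDsp : ¬ m16nrm_IsLDiv ℓ 1 ((qExpansion 1 Ds).coeff p)) : False := by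
  have : Fact ℓ.Prime := ⟨hℓ⟩
  exact m16nrm_main' k hk2 hk D Ds hD hDs c hc hF hDi hDsi hD0 hD1 hDs0 hDsp

end Fermat.Agent.M16
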