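/-
M16 (S16 project), package NRM, part 6: NORM + MILLER in the form used by the leaves UB2, UB3,
UBL: for a pair `m16_Pair p k a b` (helper7's `UbaDefs`) whose `q`-expansions have coefficients
in the ring `O = m16nrm_O ℓ` of `ℓ`-integral algebraic numbers.

`m16nrm_pairO`: if `a_0 ∈ ℓ O`, `b_n ∈ ℓ O` for `n < p`, then `a_1 * b_p ^ p ∈ ℓ O`.
-/
import Fermat.Agent.M16.NrmMain
import Fermat.Agent.M16.UbaDefs

set_option autoImplicit false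

noncomputable section

namespace Fermat.Agent.M16

open UpperHalfPlane CongruenceSubgroup ModularFormClass Fermat.Agent.S23 Function PowerSeries
open scoped MatrixGroups ModularForm Manifold Real

section main

variable {p ℓ : ℕ} [Fact p.Prime] [Fact ℓ.Prime]

/-- **NORM + MILLER**, function level, coefficients in `O` -/
theorem m16nrm_mainO (k : ℕ) (hk2 : Even k) (hk : k ≤ 8)
    (D Ds : ℍ → ℂ) (hD : m16nrm_Good p k D) (hDs : m16nrm_Good p k Ds)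
    (c : ℂ) (hc : c ≠ 0) (hF : m16nrm_IsFricke p k c D Ds)
    (hDi : ∀ n, (qExpansion 1 D).coeff n ∈ m16nrm_O ℓ)
    (hDsi : ∀ n, (qExpansion 1 Ds).coeff n ∈ m16nrm_O ℓ)
    (hD0 : (qExpansion 1 D).coeff 0 ∈ m16nrm_J ℓ)
    (hDs0 : ∀ n < p, (qExpansion 1 Ds).coeff n ∈ m16nrm_J ℓ) :
    (qExpansion 1 D).coeff 1 * (qExpansion 1 Ds).coeff p ^ p ∈ m16nrm_J ℓ := by
  have hp : p.Prime := Fact.out
  have hJ : ∀ x ∈ m16nrm_J ℓ, ∀ y ∈ m16nrm_O ℓ, x * y ∈ m16nrm_J ℓ :=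
    fun x hx y hy => m16nrm_J_mul hx hy
  have hζ : m16nrm_zeta p ∈ m16nrm_O ℓ := m16nrm_zeta_mem_O hp.pos (m16nrm_zeta_pow p)
  set φ : ZMod p → PowerSeries ℂ := fun j => PowerSeries.mk
    (fun n => (qExpansion 1 Ds).coeff n * m16nrm_zeta p ^ (j.val * n)) with hφ
  have hφO : ∀ j ∈ (Finset.univ : Finset (ZMod p)), ∀ n, coeff n (φ j) ∈ m16nrm_O ℓ := by
    intro j _ n
    rw [hφ, coeff_mk]
    exact (m16nrm_O ℓ).mul_mem (hDsi n) ((m16nrm_O ℓ).pow_mem hζ _)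
  have hφl : ∀ j ∈ (Finset.univ : Finset (ZMod p)), ∀ n < p, coeff n (φ j) ∈ m16nrm_J ℓ := by
    intro j _ n hn
    rw [hφ, coeff_mk]
    exact m16nrm_J_mul (hDs0 n hn) ((m16nrm_O ℓ).pow_mem hζ _)
  obtain ⟨P1, P2, P3⟩ := m16nrm_prod_low (m16nrm_O ℓ) (m16nrm_J ℓ) hJ Finset.univ φ
    (fun _ => p) hφO hφl
  have hsum : ∑ _j : ZMod p, p = p * p := by
    rw [Finset.sum_const, Finset.card_univ, ZMod.card, smul_eq_mul]
  have hlead : ∏ j : ZMod p, coeff p (φ j) = (qExpansion 1 Ds).coeff p ^ p := by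
    have : ∀ j : ZMod p, coeff p (φ j) = (qExpansion 1 Ds).coeff p := by
      intro j
      rw [hφ, coeff_mk, mul_comm j.val p, pow_mul, m16nrm_zeta_pow, one_pow, mul_one]
    rw [Finset.prod_congr rfl fun j _ => this j, Finset.prod_const, Finset.card_univ, ZMod.card]
  rw [hsum] at P2 P3
  rw [hlead] at P3
  set c' : PowerSeries ℂ := qExpansion 1 (m16nrm_prod p Ds) with hc'
  have hc'coeff : ∀ m, coeff m c' = coeff (p * m) (∏ j : ZMod p, φ j) :=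
    fun m => m16nrm_qExpansion_prod hDs m
  have hc'O : ∀ n, coeff n c' ∈ m16nrm_O ℓ := fun n => by rw [hc'coeff]; exact P1 _
  have hc'l : ∀ n < p, coeff n c' ∈ m16nrm_J ℓ := fun n hn => by
    rw [hc'coeff]
    exact P2 _ (Nat.mul_lt_mul_of_pos_left hn hp.pos)
  have hc'p : coeff p c' - (qExpansion 1 Ds).coeff p ^ p ∈ m16nrm_J ℓ := by
    rw [hc'coeff]; exact P3
  obtain ⟨N, hN⟩ := m16nrm_exists_form (p := p) (k := (k : ℤ)) (by exact_mod_cast hk2) hc hD hDs hF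
  have hNq : qExpansion 1 (N : ℍ → ℂ) = qExpansion 1 D * c' := by
    rw [hN, m16nrm_norm_eq]
    exact qr_qExpansion_mul (m16nrm_good_mem_qr hD) (m16nrm_prod_mem_qr hDs)
  obtain ⟨Q1, Q2⟩ := m16nrm_mul_low (m16nrm_O ℓ) (m16nrm_J ℓ) hJ (qExpansion 1 D) c' 1 p
    hDi hc'O
    (fun n hn => by
      have : n = 0 := by omega
      rw [this]; exact hD0) hc'l
  have hall : ∀ n, coeff n (qExpansion 1 (N : ℍ → ℂ)) ∈ m16nrm_J ℓ := by
    refine m16st_sturm (m16nrm_J ℓ) _ N fun n hn => ?_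
    rw [hNq]
    refine Q1 n ?_
    have h1 : 12 * (n : ℤ) ≤ 8 * ((p : ℤ) + 1) := by
      have hk' : (k : ℤ) ≤ 8 := by exact_mod_cast hk
      have hp0 : (0 : ℤ) ≤ (p : ℤ) + 1 := by positivity
      nlinarith
    have hp2 : (2 : ℤ) ≤ p := by exact_mod_cast hp.two_le
    have : (n : ℤ) < 1 + p := by omega
    exact_mod_cast this
  have h1 := hall (1 + p)
  rw [hNq] at h1
  have h2 : coeff 1 (qExpansion 1 D) * coeff p c' ∈ m16nrm_J ℓ := by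
    have := (m16nrm_J ℓ).sub_mem h1 Q2
    simpa using this
  have h4 := m16nrm_mul_J (hDi 1) hc'p
  have := (m16nrm_J ℓ).sub_mem h2 h4
  convert this using 1
  ring

/-- **NORM + MILLER** for pairs, coefficients in `O` -/
theorem m16nrm_pairO (k : ℕ) (hk2 : Even k) (hk : k ≤ 8) (a b : PowerSeries ℂ)
    (h : m16_Pair p (k : ℤ) a b)
    (ha : ∀ n, coeff n a ∈ m16nrm_O ℓ) (hb : ∀ n, coeff n b ∈ m16nrm_O ℓ)
    (ha0 : coeff 0 a ∈ m16nrm_J ℓ) (hb0 : ∀ n < p, coeff n b ∈ m16nrm_J ℓ) :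
    coeff 1 a * coeff p b ^ p ∈ m16nrm_J ℓ := by
  obtain ⟨G, Gs, hG, hGs, hfr, rfl, rfl⟩ := h
  exact m16nrm_mainO k hk2 hk G Gs hG hGs 1 one_ne_zero hfr ha hb ha0 hb0

end main

/-- an integer prime to `ℓ` is not in `ℓ O` -/
theorem m16nrm_int_not_mem_J {ℓ : ℕ} [Fact ℓ.Prime] (a : ℤ) (ha : ¬ (ℓ : ℤ) ∣ a) :
    (a : ℂ) ∉ m16nrm_J ℓ := by
  intro h
  exact ha (m16nrm_dvd_of_mem_J h a 1 (by simp))

/-- congruences modulo `J` -/
theorem m16nrm_cong_mul {ℓ : ℕ} [Fact ℓ.Prime] {x x' y y' : ℂ} (hx : x - x' ∈ m16nrm_J ℓ)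
    (hy : y - y' ∈ m16nrm_J ℓ) (hx' : x' ∈ m16nrm_O ℓ) (hy0 : y ∈ m16nrm_O ℓ) :
    x * y - x' * y' ∈ m16nrm_J ℓ := by
  have h1 := m16nrm_J_mul hx hy0
  have h2 := m16nrm_mul_J hx' hy
  have := (m16nrm_J ℓ).add_mem h1 h2
  convert this using 1
  ring

theorem m16nrm_J_le_O {ℓ : ℕ} [Fact ℓ.Prime] {x : ℂ} (hx : x ∈ m16nrm_J ℓ) : x ∈ m16nrm_O ℓ := by
  obtain ⟨y, hy, rfl⟩ := hx
  exact (m16nrm_O ℓ).mul_mem (natCast_mem (m16nrm_O ℓ) ℓ) hy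

end Fermat.Agent.M16
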