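/-
M16 (S16 project), package NRM, part 7: common tools of the leaves UB2, UB3, UBL.

* `m16nrm_PO ℓ` : the subring of `ℂ⟦q⟧` of power series with coefficients in `O = m16nrm_O ℓ`;
* `m16nrm_V_eq_expand` : `V_p` is Mathlib's `PowerSeries.expand` (hence a ring homomorphism);
* `m16nrm_leaf_input` : a coefficientwise congruence modulo `ℓ ^ e ℤ_(ℓ)` as a power series
  identity `a = a₀ + ℓ ^ e x` with `x ∈ PO`;
* `m16nrm_leaf_pair` : the pair of the input of a leaf;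
* `m16nrm_leaf_false` : the contradiction at the end of each leaf.
-/
import Mathlib
import Fermat.Agent.M16.NrmMainO
import Fermat.Agent.M16.UbaPair
import Fermat.Agent.M16.UbaSeries
import Fermat.Agent.S23.PrimEltInt

set_option autoImplicit false

noncomputable section

namespace Fermat.Agent.M16

open UpperHalfPlane CongruenceSubgroup ModularFormClass Fermat.Agent.S23 Function PowerSeries
open scoped MatrixGroups ModularForm Manifold Real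

/-! ### `V_p` is a ring homomorphism -/

theorem m16nrm_V_eq_expand {R : Type*} [CommRing R] (p : ℕ) (hp : p ≠ 0) (a : PowerSeries R) :
    m16_V p a = PowerSeries.expand p hp a := by
  ext n
  rw [m16_V_coeff, PowerSeries.coeff_expand]

theorem m16nrm_V_add {R : Type*} [CommRing R] (p : ℕ) (hp : p ≠ 0) (a b : PowerSeries R) :
    m16_V p (a + b) = m16_V p a + m16_V p b := by
  simp only [m16nrm_V_eq_expand p hp, map_add]

theorem m16nrm_V_sub {R : Type*} [CommRing R] (p : ℕ) (hp : p ≠ 0) (a b : PowerSeries R) :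
    m16_V p (a - b) = m16_V p a - m16_V p b := by
  simp only [m16nrm_V_eq_expand p hp, map_sub]

theorem m16nrm_V_neg {R : Type*} [CommRing R] (p : ℕ) (hp : p ≠ 0) (a : PowerSeries R) :
    m16_V p (-a) = -m16_V p a := by
  simp only [m16nrm_V_eq_expand p hp, map_neg]

theorem m16nrm_V_mul {R : Type*} [CommRing R] (p : ℕ) (hp : p ≠ 0) (a b : PowerSeries R) :
    m16_V p (a * b) = m16_V p a * m16_V p b := by
  simp only [m16nrm_V_eq_expand p hp, map_mul]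

theorem m16nrm_V_pow {R : Type*} [CommRing R] (p : ℕ) (hp : p ≠ 0) (a : PowerSeries R) (n : ℕ) :
    m16_V p (a ^ n) = m16_V p a ^ n := by
  simp only [m16nrm_V_eq_expand p hp, map_pow]

theorem m16nrm_V_one {R : Type*} [CommRing R] (p : ℕ) (hp : p ≠ 0) :
    m16_V p (1 : PowerSeries R) = 1 := by
  simp only [m16nrm_V_eq_expand p hp, map_one]

theorem m16nrm_V_C {R : Type*} [CommRing R] (p : ℕ) (hp : p ≠ 0) (c : R) :
    m16_V p (C c : PowerSeries R) = C c := by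
  rw [m16nrm_V_eq_expand p hp, PowerSeries.expand_C]

theorem m16nrm_V_ofNat {R : Type*} [CommRing R] (p : ℕ) (hp : p ≠ 0) (n : ℕ) [n.AtLeastTwo] :
    m16_V p (OfNat.ofNat n : PowerSeries R) = OfNat.ofNat n := by
  rw [m16nrm_V_eq_expand p hp, map_ofNat]

/-! ### numerals in `ℂ⟦q⟧` -/

theorem m16nrm_ofNat_eq_C (n : ℕ) [n.AtLeastTwo] :
    (OfNat.ofNat n : PowerSeries ℂ) = C (OfNat.ofNat n : ℂ) :=
  (map_ofNat (C (R := ℂ)) n).symm

theorem m16nrm_coeff_ofNat_mul (n : ℕ) [n.AtLeastTwo] (m : ℕ) (φ : PowerSeries ℂ) :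
    coeff m ((OfNat.ofNat n : PowerSeries ℂ) * φ) = (OfNat.ofNat n : ℂ) * coeff m φ := by
  rw [m16nrm_ofNat_eq_C, coeff_C_mul]

theorem m16nrm_natCast_eq_C (n : ℕ) : ((n : ℕ) : PowerSeries ℂ) = C (n : ℂ) :=
  (map_natCast (C (R := ℂ)) n).symm

theorem m16nrm_coeff_natCast_mul (n m : ℕ) (φ : PowerSeries ℂ) :
    coeff m (((n : ℕ) : PowerSeries ℂ) * φ) = (n : ℂ) * coeff m φ := by
  rw [m16nrm_natCast_eq_C, coeff_C_mul]

theorem m16nrm_coeff_natCast (n m : ℕ) :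
    coeff m ((n : ℕ) : PowerSeries ℂ) = if m = 0 then (n : ℂ) else 0 := by
  rw [m16nrm_natCast_eq_C, coeff_C]

/-! ### power series with coefficients in `O` -/

/-- the subring of power series with coefficients in `O` -/
def m16nrm_PO (ℓ : ℕ) [Fact ℓ.Prime] : Subring (PowerSeries ℂ) where
  carrier := {φ | ∀ n, coeff n φ ∈ m16nrm_O ℓ}
  mul_mem' := fun {φ ψ} hφ hψ n => m16nrm_mul_mem_O (m16nrm_O ℓ) φ ψ hφ hψ n
  one_mem' := fun n => by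
    rw [coeff_one]
    split_ifs
    · exact (m16nrm_O ℓ).one_mem
    · exact (m16nrm_O ℓ).zero_mem
  add_mem' := fun {φ ψ} hφ hψ n => by
    rw [map_add]
    exact (m16nrm_O ℓ).add_mem (hφ n) (hψ n)
  zero_mem' := fun n => by
    rw [map_zero]
    exact (m16nrm_O ℓ).zero_mem
  neg_mem' := fun {φ} hφ n => by
    rw [map_neg]
    exact (m16nrm_O ℓ).neg_mem (hφ n)

variable {ℓ : ℕ} [Fact ℓ.Prime]

theorem m16nrm_mem_PO {φ : PowerSeries ℂ} :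
    φ ∈ m16nrm_PO ℓ ↔ ∀ n, coeff n φ ∈ m16nrm_O ℓ := Iff.rfl

theorem m16nrm_intCast_mem_PO (A : PowerSeries ℤ) :
    PowerSeries.map (Int.castRingHom ℂ) A ∈ m16nrm_PO ℓ := by
  intro n
  rw [coeff_map]
  exact intCast_mem (m16nrm_O ℓ) _

theorem m16nrm_V_mem_PO (p : ℕ) {φ : PowerSeries ℂ} (h : φ ∈ m16nrm_PO ℓ) :
    m16_V p φ ∈ m16nrm_PO ℓ := by
  intro n
  rw [m16_V_coeff]
  split_ifs
  · exact h _
  · exact (m16nrm_O ℓ).zero_mem

theorem m16nrm_C_mem_PO {c : ℂ} (h : c ∈ m16nrm_O ℓ) : C c ∈ m16nrm_PO ℓ := by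
  intro n
  rw [coeff_C]
  split_ifs
  · exact h
  · exact (m16nrm_O ℓ).zero_mem

/-- coefficients of `ℓ * ψ`, `ψ ∈ PO`, are in `J` -/
theorem m16nrm_coeff_l_mul_mem_J {ψ : PowerSeries ℂ} (h : ψ ∈ m16nrm_PO ℓ) (n : ℕ) :
    coeff n (((ℓ : ℕ) : PowerSeries ℂ) * ψ) ∈ m16nrm_J ℓ := by
  rw [m16nrm_coeff_natCast_mul]
  exact ⟨_, h n, rfl⟩

theorem m16nrm_natCast_mem_J (a : ℂ) (h : a ∈ m16nrm_O ℓ) : (ℓ : ℂ) * a ∈ m16nrm_J ℓ :=
  ⟨a, h, rfl⟩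

/-- division by a natural number through a scalar -/
theorem m16nrm_inv_smul (n : ℕ) (hn : n ≠ 0) (φ : PowerSeries ℂ) :
    ((n : ℂ)⁻¹) • (((n : ℕ) : PowerSeries ℂ) * φ) = φ := by
  have hn' : (n : ℂ) ≠ 0 := by exact_mod_cast hn
  rw [smul_eq_C_mul, m16nrm_natCast_eq_C, ← mul_assoc, ← map_mul, inv_mul_cancel₀ hn', map_one,
    one_mul]

/-- a main term plus `ℓ * ψ`: the coefficients modulo `J` -/
theorem m16nrm_coeff_main_sub_mem_J {M ψ : PowerSeries ℂ} (h : ψ ∈ m16nrm_PO ℓ) (n : ℕ) :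
    coeff n (M + ((ℓ : ℕ) : PowerSeries ℂ) * ψ) - coeff n M ∈ m16nrm_J ℓ := by
  rw [map_add, add_sub_cancel_left]
  exact m16nrm_coeff_l_mul_mem_J h n

theorem m16nrm_coeff_main_mem_J {M ψ : PowerSeries ℂ} (h : ψ ∈ m16nrm_PO ℓ) (n : ℕ)
    (hM : coeff n M = 0) :
    coeff n (M + ((ℓ : ℕ) : PowerSeries ℂ) * ψ) ∈ m16nrm_J ℓ := by
  have := m16nrm_coeff_main_sub_mem_J (M := M) h n
  rwa [hM, sub_zero] at this

/-! ### the input of a leaf -/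

/-- a coefficientwise congruence modulo `ℓ ^ e ℤ_(ℓ)` as an identity of power series -/
theorem m16nrm_leaf_input (e : ℕ) (a a₀ : PowerSeries ℂ)
    (h : ∀ n, m16nrm_IsLDiv ℓ e (coeff n a - coeff n a₀)) :
    ∃ x ∈ m16nrm_PO ℓ, a = a₀ + ((ℓ : ℕ) : PowerSeries ℂ) ^ e * x := by
  have hℓ : ℓ.Prime := Fact.out
  have hℓ0 : ((ℓ : ℂ) ^ e) ≠ 0 := pow_ne_zero _ (by exact_mod_cast hℓ.ne_zero)
  refine ⟨PowerSeries.mk fun n => (coeff n a - coeff n a₀) / (ℓ : ℂ) ^ e, ?_, ?_⟩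
  · intro n
    rw [coeff_mk]
    obtain ⟨u, b, hb, hu⟩ := h n
    refine m16nrm_lint_mem_O ⟨u, b, hb, ?_⟩
    field_simp
    rw [hu]
  · ext n
    have : ((ℓ : ℕ) : PowerSeries ℂ) ^ e = C ((ℓ : ℂ) ^ e) := by
      rw [m16nrm_natCast_eq_C, map_pow]
    rw [map_add, this, coeff_C_mul, coeff_mk]
    field_simp
    ring

theorem m16nrm_leaf_input_one (e : ℕ) (a : PowerSeries ℂ)
    (h : ∀ n : ℕ, m16nrm_IsLDiv ℓ e (coeff n a - if n = 0 then 1 else 0)) :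
    ∃ x ∈ m16nrm_PO ℓ, a = 1 + ((ℓ : ℕ) : PowerSeries ℂ) ^ e * x := by
  refine m16nrm_leaf_input e a 1 fun n => ?_
  rw [coeff_one]
  exact h n

theorem m16nrm_leaf_input_neg_one (e : ℕ) (a : PowerSeries ℂ)
    (h : ∀ n : ℕ, m16nrm_IsLDiv ℓ e (coeff n a + if n = 0 then 1 else 0)) :
    ∃ x ∈ m16nrm_PO ℓ, a = -1 + ((ℓ : ℕ) : PowerSeries ℂ) ^ e * x := by
  refine m16nrm_leaf_input e a (-1) fun n => ?_
  rw [map_neg, coeff_one, sub_neg_eq_add]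
  exact h n

/-- the pair of the input of a leaf: `G# = p • Gs` -/
theorem m16nrm_leaf_pair (p : ℕ) [NeZero p] (G Gs : ℍ → ℂ) (hG : m16nrm_Good p 2 G)
    (hGs : m16nrm_Good p 2 Gs) (hF : m16nrm_IsFricke p 2 ((p : ℂ)⁻¹) G Gs) :
    m16_Pair p 2 (qExpansion 1 G) (((p : ℕ) : PowerSeries ℂ) * qExpansion 1 Gs) := by
  have hp0 : (p : ℂ) ≠ 0 := by exact_mod_cast NeZero.ne p
  refine ⟨G, (p : ℂ) • Gs, hG, m16uba_good_smul _ hGs, ?_, rfl, ?_⟩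
  · intro z
    simp only [Pi.smul_apply, smul_eq_mul, hF z]
    field_simp
  · rw [qr_qExpansion_smul _ (m16nrm_good_mem_qr hGs), smul_eq_C_mul, m16nrm_natCast_eq_C]

/-! ### the end of a leaf -/

theorem m16nrm_cong_pow {x x' : ℂ} (h : x - x' ∈ m16nrm_J ℓ) (hx : x ∈ m16nrm_O ℓ)
    (hx' : x' ∈ m16nrm_O ℓ) (n : ℕ) : x ^ n - x' ^ n ∈ m16nrm_J ℓ := by
  induction n with
  | zero => simp [(m16nrm_J ℓ).zero_mem]
  | succ n ih =>
    rw [pow_succ, pow_succ]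
    exact m16nrm_cong_mul ih h ((m16nrm_O ℓ).pow_mem hx' n) hx

/-- the end of each leaf: NORM + MILLER contradicts `a ≡ u q + …`, `b ≡ v q ^ p + …` with
`u`, `v` integers prime to `ℓ`. -/
theorem m16nrm_leaf_false {p : ℕ} [Fact p.Prime] (k : ℕ) (hk2 : Even k) (hk : k ≤ 8)
    (a b : PowerSeries ℂ) (h : m16_Pair p (k : ℤ) a b)
    (ha : a ∈ m16nrm_PO ℓ) (hb : b ∈ m16nrm_PO ℓ)
    (ha0 : coeff 0 a ∈ m16nrm_J ℓ) (hb0 : ∀ n < p, coeff n b ∈ m16nrm_J ℓ)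
    (u v : ℤ) (hu : ¬ (ℓ : ℤ) ∣ u) (hv : ¬ (ℓ : ℤ) ∣ v)
    (ha1 : coeff 1 a - (u : ℂ) ∈ m16nrm_J ℓ) (hbp : coeff p b - (v : ℂ) ∈ m16nrm_J ℓ) :
    False := by
  have hℓ : ℓ.Prime := Fact.out
  have h1 := m16nrm_pairO k hk2 hk a b h ha hb ha0 hb0
  have hvO : (v : ℂ) ∈ m16nrm_O ℓ := intCast_mem (m16nrm_O ℓ) v
  have huO : (u : ℂ) ∈ m16nrm_O ℓ := intCast_mem (m16nrm_O ℓ) u
  have h2 : coeff p b ^ p - (v : ℂ) ^ p ∈ m16nrm_J ℓ := m16nrm_cong_pow hbp (hb p) hvO p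
  have h3 : coeff 1 a * coeff p b ^ p - (u : ℂ) * (v : ℂ) ^ p ∈ m16nrm_J ℓ :=
    m16nrm_cong_mul ha1 h2 huO ((m16nrm_O ℓ).pow_mem (hb p) p)
  have h4 : (u : ℂ) * (v : ℂ) ^ p ∈ m16nrm_J ℓ := by
    have := (m16nrm_J ℓ).sub_mem h1 h3
    simpa using this
  have h5 : ((u * v ^ p : ℤ) : ℂ) ∈ m16nrm_J ℓ := by
    push_cast
    exact h4
  refine m16nrm_int_not_mem_J (ℓ := ℓ) (u * v ^ p) ?_ h5
  intro hd
  have hℓ' : Prime (ℓ : ℤ) := Nat.prime_iff_prime_int.mp hℓ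
  rcases hℓ'.dvd_or_dvd hd with h | h
  · exact hu h
  · exact hv (hℓ'.dvd_of_dvd_pow h)

end Fermat.Agent.M16

end
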