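/-
M16 (S16 project), package NRM, part 8: the level-one series used by the leaves UB2, UB3, UBL.

`A = ∑ σ₃(n) qⁿ`, `B = ∑ σ₅(n) qⁿ`, `Δ`, with `E₄ = 1 + 240 A`, `E₆ = 1 - 504 B`,
`1728 Δ = E₄³ - E₆²`, their lowest coefficients and the lowest coefficients of `V_p`.
-/
import Mathlib
import Fermat.Agent.M16.NrmLeaf
import Fermat.Agent.M16.StMiller

set_option autoImplicit false

noncomputable section

namespace Fermat.Agent.M16

open UpperHalfPlane CongruenceSubgroup ModularFormClass Fermat.Agent.S23 Function PowerSeries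
open scoped MatrixGroups ModularForm Manifold Real
open EisensteinSeries ModularForm

/-- `∑ σ₃(n) qⁿ` over `ℂ` -/
def m16nrm_A : PowerSeries ℂ := PowerSeries.map (Int.castRingHom ℂ) pe_A

/-- `∑ σ₅(n) qⁿ` over `ℂ` -/
def m16nrm_B : PowerSeries ℂ := PowerSeries.map (Int.castRingHom ℂ) pe_B

/-- the `q`-expansion of `Δ` over `ℂ` -/
def m16nrm_Dl : PowerSeries ℂ := PowerSeries.map (Int.castRingHom ℂ) m16st_DeltaInt

theorem m16nrm_e4_eq : qExpansion 1 E₄ = 1 + 240 * m16nrm_A := by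
  rw [pe_qExpansion_E4, map_add, map_one, map_mul, map_ofNat, m16nrm_A]

theorem m16nrm_e6_eq : qExpansion 1 E₆ = 1 - 504 * m16nrm_B := by
  rw [pe_qExpansion_E6, map_sub, map_one, map_mul, map_ofNat, m16nrm_B]

theorem m16nrm_delta_eq :
    1728 * m16nrm_Dl = (1 + 240 * m16nrm_A) ^ 3 - (1 - 504 * m16nrm_B) ^ 2 := by
  have h2 : (1 + 240 * pe_A) ^ 3 - (1 - 504 * pe_B) ^ 2 = 1728 * m16st_DeltaInt := by
    unfold m16st_DeltaInt
    linear_combination (-144 : PowerSeries ℤ) * pe_C_spec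
  have h3 := congrArg (PowerSeries.map (Int.castRingHom ℂ)) h2
  simp only [map_sub, map_pow, map_add, map_one, map_mul, map_ofNat] at h3
  rw [m16nrm_A, m16nrm_B, m16nrm_Dl, h3]

theorem m16nrm_A_coeff_zero : coeff 0 m16nrm_A = 0 := by
  simp [m16nrm_A, pe_A]

theorem m16nrm_A_coeff_one : coeff 1 m16nrm_A = 1 := by
  simp [m16nrm_A, pe_A]

theorem m16nrm_B_coeff_zero : coeff 0 m16nrm_B = 0 := by
  simp [m16nrm_B, pe_B]

theorem m16nrm_B_coeff_one : coeff 1 m16nrm_B = 1 := by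
  simp [m16nrm_B, pe_B]

theorem m16nrm_Dl_coeff_zero : coeff 0 m16nrm_Dl = 0 := by
  rw [m16nrm_Dl, coeff_map, m16st_DeltaInt_coeff_zero]
  simp

theorem m16nrm_Dl_coeff_one : coeff 1 m16nrm_Dl = 1 := by
  rw [m16nrm_Dl, coeff_map, m16st_DeltaInt_coeff_one]
  simp

theorem m16nrm_A_mem (ℓ : ℕ) [Fact ℓ.Prime] : m16nrm_A ∈ m16nrm_PO ℓ :=
  m16nrm_intCast_mem_PO _

theorem m16nrm_B_mem (ℓ : ℕ) [Fact ℓ.Prime] : m16nrm_B ∈ m16nrm_PO ℓ :=
  m16nrm_intCast_mem_PO _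

theorem m16nrm_Dl_mem (ℓ : ℕ) [Fact ℓ.Prime] : m16nrm_Dl ∈ m16nrm_PO ℓ :=
  m16nrm_intCast_mem_PO _

/-- the coefficients of `V_p φ` below `p` vanish when `φ` has no constant term -/
theorem m16nrm_V_coeff_lt {R : Type*} [CommRing R] {p : ℕ} (φ : PowerSeries R)
    (h0 : coeff 0 φ = 0) {n : ℕ} (hn : n < p) : coeff n (m16_V p φ) = 0 := by
  rw [m16_V_coeff]
  split_ifs with h
  · obtain ⟨c, rfl⟩ := h
    rcases Nat.eq_zero_or_pos c with rfl | hc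
    · simpa using h0
    · exfalso
      have : p * 1 ≤ p * c := Nat.mul_le_mul_left p hc
      omega
  · rfl

theorem m16nrm_V_coeff_self {R : Type*} [CommRing R] {p : ℕ} (hp : 0 < p) (φ : PowerSeries R) :
    coeff p (m16_V p φ) = coeff 1 φ := by
  have := m16_V_coeff_mul p hp φ 1
  rwa [mul_one] at this

/-- the Fricke pair of `E₄` in normalised form -/
theorem m16nrm_pair_E4 (p : ℕ) [NeZero p]
    (hlev : m16_Pair p 4 (qExpansion 1 E₄) (((p : ℂ) ^ (4 : ℤ)) • m16_V p (qExpansion 1 E₄))) :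
    m16_Pair p 4 (1 + 240 * m16nrm_A)
      (((p : ℕ) : PowerSeries ℂ) ^ 4 * (1 + 240 * m16_V p m16nrm_A)) := by
  have hp : p ≠ 0 := NeZero.ne p
  rw [m16nrm_e4_eq] at hlev
  have h : ((p : ℂ) ^ (4 : ℤ)) • m16_V p (1 + 240 * m16nrm_A)
      = ((p : ℕ) : PowerSeries ℂ) ^ 4 * (1 + 240 * m16_V p m16nrm_A) := by
    rw [smul_eq_C_mul, m16nrm_natCast_eq_C, ← map_pow, m16nrm_V_add p hp, m16nrm_V_one p hp,
      m16nrm_V_mul p hp, m16nrm_V_ofNat p hp]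
    norm_cast
  rwa [h] at hlev

/-- the Fricke pair of `E₆` in normalised form -/
theorem m16nrm_pair_E6 (p : ℕ) [NeZero p]
    (hlev : m16_Pair p 6 (qExpansion 1 E₆) (((p : ℂ) ^ (6 : ℤ)) • m16_V p (qExpansion 1 E₆))) :
    m16_Pair p 6 (1 - 504 * m16nrm_B)
      (((p : ℕ) : PowerSeries ℂ) ^ 6 * (1 - 504 * m16_V p m16nrm_B)) := by
  have hp : p ≠ 0 := NeZero.ne p
  rw [m16nrm_e6_eq] at hlev
  have h : ((p : ℂ) ^ (6 : ℤ)) • m16_V p (1 - 504 * m16nrm_B)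
      = ((p : ℕ) : PowerSeries ℂ) ^ 6 * (1 - 504 * m16_V p m16nrm_B) := by
    rw [smul_eq_C_mul, m16nrm_natCast_eq_C, ← map_pow, m16nrm_V_sub p hp, m16nrm_V_one p hp,
      m16nrm_V_mul p hp, m16nrm_V_ofNat p hp]
    norm_cast
  rwa [h] at hlev

end Fermat.Agent.M16

end
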