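import Fermat.Agent.M16.PsiDict
import Fermat.Agent.S23

/-!
# M16 / PSI, part (c): the count (prefix `m16psi_`)

* `m16psi_linalg` : linear algebra (a subspace of the kernel of a matrix of full row rank which
  is big enough is the kernel).
* `m16psi_PP` : the principal part map `L(K · ∞) → ℚ̄^K`; its kernel are the constants.
* `m16psi_exists_basis` : a basis of `S₂(Γ₀(N))` of forms with integral `q`-expansion (S23).
* `m16psi_exists_x` : **Mittag-Leffler**: every principal part of length `K ≥ Sturm bound`,
  orthogonal to the cusp forms, is the principal part of some `x ∈ L(K · ∞)` (given the residue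
  theorem `m16psi_R1alg`).
-/

set_option autoImplicit false
set_option linter.unusedSectionVars false
set_option linter.unusedVariables false
set_option linter.style.haveILetI false

noncomputable section

namespace Fermat.Agent.M16

open UpperHalfPlane hiding I
open AlgebraicCurve IntermediateField Module ModularCurve WithZero
open Fermat.Agent.S20 Fermat.Agent.S23 Fermat.Agent.S24
open CongruenceSubgroup ModularFormClass
open scoped MatrixGroups

section linalg

variable {k : Type*} [Field k] {ι : Type*} [Fintype ι] {n : ℕ}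

/-- a subspace `R` of the kernel of a matrix `M` with independent rows, of dimension at least
`n - #rows`, is the kernel. -/
theorem m16psi_linalg (M : Matrix ι (Fin n) k)
    (hM : ∀ c : ι → k, Matrix.vecMul c M = 0 → c = 0)
    (R : Submodule k (Fin n → k)) (hR : ∀ v ∈ R, M.mulVec v = 0)
    (hdim : n ≤ Module.finrank k R + Fintype.card ι)
    (π : Fin n → k) (hπ : M.mulVec π = 0) : π ∈ R := by
  classical
  have hinj : Function.Injective M.transpose.mulVecLin := by
    rw [← LinearMap.ker_eq_bot, LinearMap.ker_eq_bot']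
    intro c hc
    apply hM
    rw [← Matrix.mulVec_transpose]
    exact hc
  have h1 : M.transpose.rank = Fintype.card ι := by
    rw [Matrix.rank, LinearMap.finrank_range_of_inj hinj, Module.finrank_fintype_fun_eq_card]
  have h2 : Module.finrank k (LinearMap.range M.mulVecLin) = Fintype.card ι := by
    rw [← h1, Matrix.rank_transpose]
    rfl
  have h3 := LinearMap.finrank_range_add_finrank_ker M.mulVecLin
  rw [Module.finrank_fintype_fun_eq_card, Fintype.card_fin] at h3
  have hle : R ≤ LinearMap.ker M.mulVecLin := fun v hv => by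
    rw [LinearMap.mem_ker]
    exact hR v hv
  have heq : R = LinearMap.ker M.mulVecLin :=
    Submodule.eq_of_le_of_finrank_le hle (by omega)
  rw [heq, LinearMap.mem_ker]
  exact hπ

end linalg

variable (N : ℕ) [NeZero N] (K : ℕ)

/-- `L(K · ∞)`. -/
abbrev m16psi_L : Submodule s24K (s24F N) :=
  riemannRochSpace (Finsupp.single (m16psi_vInf N) (K : ℤ))

theorem m16psi_coe_algebraMap (a : s24K) :
    ((algebraMap s24K (s24F N) a : s24F N) : LaurentSeries s24K) = HahnSeries.C a := by
  show algebraMap s24K (LaurentSeries s24K) a = _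
  rw [algebraMap_laurentSeries_eq_single]
  rfl

/-- the principal part map. -/
def m16psi_PP : m16psi_L N K →ₗ[s24K] (Fin K → s24K) where
  toFun x i := ((x : s24F N) : LaurentSeries s24K).coeff (-((i : ℕ) + 1 : ℤ))
  map_add' x y := by
    funext i
    rfl
  map_smul' c x := by
    funext i
    show ((c • (x : s24F N) : s24F N) : LaurentSeries s24K).coeff _ = _
    rw [Algebra.smul_def, IntermediateField.coe_mul, m16psi_coe_algebraMap, HahnSeries.C_mul_eq_smul,
      HahnSeries.coeff_smul]
    rfl

theorem m16psi_PP_apply (x : m16psi_L N K) (i : Fin K) :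
    m16psi_PP N K x i = ((x : s24F N) : LaurentSeries s24K).coeff (-((i : ℕ) + 1 : ℤ)) := rfl

/-- constants belong to `L(K · ∞)`. -/
theorem m16psi_const_mem (a : s24K) : algebraMap s24K (s24F N) a ∈ m16psi_L N K := by
  rw [mem_riemannRochSpace_iff]
  intro v
  right
  rw [alga_ord_algebraMap]
  by_cases hv : v = m16psi_vInf N
  · rw [hv, Finsupp.single_eq_same]
    omega
  · rw [Finsupp.single_eq_of_ne hv]
    simp

/-- the kernel of the principal part map consists of constants. -/
theorem m16psi_PP_ker (x : m16psi_L N K) (hx : m16psi_PP N K x = 0) :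
    algebraMap s24K (s24F N) (((x : s24F N) : LaurentSeries s24K).coeff 0) = (x : s24F N) := by
  haveI hfin : FiniteDimensional (IntermediateField.adjoin s24K {s24j N}) (s24F N) :=
    deg_finiteDimensional N
  have hcoeff : ∀ n : ℤ, n < 0 → ((x : s24F N) : LaurentSeries s24K).coeff n = 0 := by
    intro n hn
    by_cases h1 : n < -(K : ℤ)
    · exact m16psi_coeff_eq_zero x.2 h1
    · have h2 : (-n - 1).toNat < K := by omega
      have h3 := congrFun hx ⟨(-n - 1).toNat, h2⟩
      rw [m16psi_PP_apply] at h3
      have h4 : (-(((⟨(-n - 1).toNat, h2⟩ : Fin K) : ℕ) + 1 : ℤ)) = n := by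
        show -(((-n - 1).toNat : ℤ) + 1) = n
        omega
      rw [h4] at h3
      exact h3
  have hmem : (x : s24F N) ∈ riemannRochSpace (0 : Divisor s24K (s24F N)) := by
    rw [mem_riemannRochSpace_iff]
    intro v
    by_cases hx0 : (x : s24F N) = 0
    · exact Or.inl hx0
    right
    by_cases hv : v = m16psi_vInf N
    · rw [hv, m16psi_vInf_ord N _ hx0]
      have hx0' : ((x : s24F N) : LaurentSeries s24K) ≠ 0 := fun h => hx0 (Subtype.ext h)
      by_contra hcon
      have h5 : ((x : s24F N) : LaurentSeries s24K).order < 0 := by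
        simpa using hcon
      exact hx0' (HahnSeries.coeff_order_eq_zero.mp (hcoeff _ h5))
    · simpa using m16psi_ord_nonneg x.2 hx0 hv
  obtain ⟨a, ha⟩ := (rrz_mem_iff (s24j N) (ana_transcendental N) (x : s24F N)).1 hmem
  rw [← ha, m16psi_coe_algebraMap]
  simp

/-- `ℓ(K · ∞) ≥ K + 1 - g`. -/
theorem m16psi_ell_ge :
    (K : ℤ) + 1 - (finrank ℂ (CuspForm (Gamma0 N) 2) : ℤ)
      ≤ (finrank s24K (m16psi_L N K) : ℤ) := by
  haveI hfin : FiniteDimensional (IntermediateField.adjoin s24K {s24j N}) (s24F N) :=
    deg_finiteDimensional N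
  have h := m16psi_riemann_X0 N (Finsupp.single (m16psi_vInf N) (K : ℤ))
  rw [Divisor.degree_single, alg_deg_eq_one (s24j N) (ana_transcendental N)] at h
  simpa using h

/-- the rank of the principal part map is at least `K - g`. -/
theorem m16psi_rank_PP :
    K ≤ finrank s24K (LinearMap.range (m16psi_PP N K))
      + finrank ℂ (CuspForm (Gamma0 N) 2) := by
  haveI := m16psi_finite_X0 N (Finsupp.single (m16psi_vInf N) (K : ℤ))
  have h1 := LinearMap.finrank_range_add_finrank_ker (m16psi_PP N K)
  have h2 := m16psi_ell_ge N K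
  have h3 : finrank s24K (LinearMap.ker (m16psi_PP N K)) ≤ 1 := by
    have hone : (1 : s24F N) ∈ m16psi_L N K := by
      have := m16psi_const_mem N K 1
      rwa [map_one] at this
    have hker : (⟨1, hone⟩ : m16psi_L N K) ∈ LinearMap.ker (m16psi_PP N K) := by
      rw [LinearMap.mem_ker]
      funext i
      rw [m16psi_PP_apply]
      show ((1 : s24F N) : LaurentSeries s24K).coeff _ = 0
      have : ((1 : s24F N) : LaurentSeries s24K) = 1 := rfl
      rw [this, HahnSeries.coeff_one, if_neg]
      omega
    refine finrank_le_one (⟨⟨1, hone⟩, hker⟩ : LinearMap.ker (m16psi_PP N K)) ?_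
    rintro ⟨w, hw⟩
    refine ⟨((w : s24F N) : LaurentSeries s24K).coeff 0, ?_⟩
    apply Subtype.ext
    apply Subtype.ext
    show (((w : s24F N) : LaurentSeries s24K).coeff 0) • (1 : s24F N) = (w : s24F N)
    rw [Algebra.smul_def, mul_one]
    exact m16psi_PP_ker N K w (LinearMap.mem_ker.mp hw)
  omega

/-- `S₂(Γ₀(N))` is finite dimensional. -/
theorem m16psi_finite_S2 : Module.Finite ℂ (CuspForm (Gamma0 N) 2) :=
  Module.Finite.of_injective (descTrunc N 2) (descTrunc_injective N 2)

/-- a basis of `S₂(Γ₀(N))` consisting of forms with integral `q`-expansion. -/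
theorem m16psi_exists_basis : ∃ b : Set (CuspForm (Gamma0 N) 2),
    (∀ f ∈ b, ∀ n : ℕ, ∃ m : ℤ, qCoeff (⇑f) n = (m : ℂ)) ∧
    LinearIndependent ℂ (Subtype.val : b → CuspForm (Gamma0 N) 2) ∧
      Submodule.span ℂ b = ⊤ := by
  have h := Fermat.Agent.S23.result N
  unfold CuspForm.HasIntegralStructure CuspForm.intLattice at h
  rw [Submodule.span_span_of_tower] at h
  obtain ⟨b, hb, hspan, hli⟩ := exists_linearIndependent ℂ
    {f : CuspForm (Gamma0 N) 2 | ∀ n : ℕ, ∃ m : ℤ, qCoeff (⇑f) n = (m : ℂ)}
  exact ⟨b, fun f hf => hb hf, hli, hspan.trans h⟩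

/-- the residue theorem `(R1)`, in algebraic form: the principal part of `x ∈ L(K · ∞)` is
orthogonal to the cusp forms. -/
def m16psi_R1alg : Prop :=
  ∀ (K : ℕ) (x : m16psi_L N K) (f : CuspForm (Gamma0 N) 2),
    ∑ i : Fin K, ana_iota (m16psi_PP N K x i) * qCoeff (⇑f) ((i : ℕ) + 1) = 0

/-- **Mittag-Leffler.** -/
theorem m16psi_exists_x (hR1 : m16psi_R1alg N) (hK : descSturm N 2 ≤ K) (π : Fin K → s24K)
    (hπ : ∀ f : CuspForm (Gamma0 N) 2,
      ∑ i : Fin K, ana_iota (π i) * qCoeff (⇑f) ((i : ℕ) + 1) = 0) :
    ∃ x : m16psi_L N K, m16psi_PP N K x = π := by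
  classical
  obtain ⟨b, hb, hli, hspan⟩ := m16psi_exists_basis N
  haveI := m16psi_finite_S2 N
  haveI : Finite b := hli.finite
  letI : Fintype b := Fintype.ofFinite b
  let B : Basis b ℂ (CuspForm (Gamma0 N) 2) :=
    Basis.mk hli (by rw [Subtype.range_coe]; exact hspan.ge)
  have hcard : finrank ℂ (CuspForm (Gamma0 N) 2) = Fintype.card b := finrank_eq_card_basis B
  choose m hm using (fun (f : b) (n : ℕ) => hb f.1 f.2 n)
  let M : Matrix b (Fin K) s24K := fun f i => ((m f ((i : ℕ) + 1) : ℤ) : s24K)
  have key : ∀ (v : Fin K → s24K) (f : b),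
      ana_iota (M.mulVec v f) = ∑ i : Fin K, ana_iota (v i) * qCoeff (⇑(f : CuspForm (Gamma0 N) 2))
        ((i : ℕ) + 1) := by
    intro v f
    rw [Matrix.mulVec, dotProduct, map_sum]
    refine Finset.sum_congr rfl fun i _ => ?_
    rw [map_mul, hm f, mul_comm]
    congr 1
    exact map_intCast ana_iota _
  have hM : ∀ c : b → s24K, Matrix.vecMul c M = 0 → c = 0 := by
    intro c hc
    have hF : descTrunc N 2 (∑ f : b, ana_iota (c f) • (f : CuspForm (Gamma0 N) 2)) = 0 := by
      funext j
      rw [map_sum, Finset.sum_apply]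
      simp only [map_smul, Pi.smul_apply, smul_eq_mul, Pi.zero_apply]
      show ∑ f : b, ana_iota (c f) * qCoeff (⇑(f : CuspForm (Gamma0 N) 2)) (j : ℕ) = 0
      rcases Nat.eq_zero_or_pos (j : ℕ) with hj | hj
      · rw [hj]
        refine Finset.sum_eq_zero fun f _ => ?_
        rw [den_qCoeff_zero_index, mul_zero]
      · have hjK : (j : ℕ) - 1 < K := by
          have := j.2
          omega
        have h1 := congrFun hc ⟨(j : ℕ) - 1, hjK⟩
        rw [Matrix.vecMul, dotProduct] at h1
        have h2 := congrArg ana_iota h1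
        rw [map_sum, Pi.zero_apply, map_zero] at h2
        rw [← h2]
        refine Finset.sum_congr rfl fun f _ => ?_
        rw [map_mul, hm f]
        congr 1
        have h3 : (((⟨(j : ℕ) - 1, hjK⟩ : Fin K) : ℕ) + 1) = (j : ℕ) := by
          show (j : ℕ) - 1 + 1 = (j : ℕ)
          omega
        show ((m f (j : ℕ) : ℤ) : ℂ) = ana_iota ((m f (((⟨(j : ℕ) - 1, hjK⟩ : Fin K) : ℕ) + 1) : ℤ) : s24K)
        rw [h3]
        exact (map_intCast ana_iota _).symm
    have hF0 := descTrunc_injective N 2 (hF.trans (map_zero _).symm)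
    have h4 := (Fintype.linearIndependent_iff.mp hli) (fun f => ana_iota (c f)) hF0
    funext f
    exact ana_iota_injective ((h4 f).trans (map_zero _).symm)
  have hR : ∀ v ∈ LinearMap.range (m16psi_PP N K), M.mulVec v = 0 := by
    rintro v ⟨x, rfl⟩
    funext f
    apply ana_iota_injective
    rw [key, Pi.zero_apply, map_zero]
    exact hR1 K x f
  have hπ' : M.mulVec π = 0 := by
    funext f
    apply ana_iota_injective
    rw [key, Pi.zero_apply, map_zero]
    exact hπ f
  have hdim : K ≤ finrank s24K (LinearMap.range (m16psi_PP N K)) + Fintype.card b := by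
    rw [← hcard]
    exact m16psi_rank_PP N K
  exact m16psi_linalg M hM _ hR hdim π hπ'

end Fermat.Agent.M16

end
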