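import Mathlib
import Fermat.Agent.S20.Lift

/-!
# M16 / PSI, part (b1): a meromorphic modular function without poles on `ℍ` is in `ana_ring N`

`m16psi_mem_range` : an element `y` of `ana_M N = Frac (ana_ring N)` whose image in the field of
meromorphic functions on `ℍ` has nonnegative order at every point is the image of an element of
`ana_ring N` (holomorphic, all translates `N`-periodic and meromorphic at `i∞`).
-/

set_option autoImplicit false
set_option linter.unusedSectionVars false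
set_option linter.unusedVariables false
set_option linter.style.haveILetI false

noncomputable section

namespace Fermat.Agent.M16

open UpperHalfPlane hiding I
open Filter Function Topology ModularForm Complex CongruenceSubgroup
open Fermat.Agent.S20 Fermat.Agent.S23 Fermat.Agent.S24
open scoped MatrixGroups Manifold

/-- pole bound for a quotient `G = A / B` at `i∞`. -/
theorem m16psi_poleLE_of_quot (N : ℕ) [NeZero N] (A B G : ℍ → ℂ) (hA : ana_IsMer N A)
    (hB : ana_IsMer N B) (hB0 : B ≠ 0) (hGB : ∀ τ, G τ * B τ = A τ) :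
    ∃ m : ℕ, ana_PoleLE N m G := by
  set ob : ℤ := (ana_laurent N B).order with hob
  have hb0 : ana_laurent N B ≠ 0 := fun h => hB0 ((ana_laurent_eq_zero_iff hB).mp h)
  have hβ : (ana_laurent N B).coeff ob ≠ 0 := fun h => hb0 (HahnSeries.coeff_order_eq_zero.mp h)
  have hBlim := lift_tendsto_leading hB ob
    (fun n hn => HahnSeries.coeff_eq_zero_of_lt_order hn)
  obtain ⟨mA, hmA⟩ := hA.2.2
  have hBne : ∀ᶠ τ in atImInfty, ana_q N τ ^ (-ob) * B τ ≠ 0 := hBlim.eventually_ne hβ
  have hinv : Tendsto (fun τ : ℍ => (ana_q N τ ^ (-ob) * B τ)⁻¹) atImInfty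
      (𝓝 ((ana_laurent N B).coeff ob)⁻¹) := hBlim.inv₀ hβ
  have hinvO : (fun τ : ℍ => (ana_q N τ ^ (-ob) * B τ)⁻¹) =O[atImInfty] (fun _ : ℍ => (1 : ℂ)) :=
    hinv.isBigO_one ℂ
  -- the exponent
  set e : ℕ := (-ob).toNat with he
  set m : ℕ := mA + ob.toNat with hm
  refine ⟨m, ?_⟩
  unfold ana_PoleLE IsBoundedAtImInfty BoundedAtFilter at hmA ⊢
  have hmA' : (fun τ : ℍ => ana_q N τ ^ mA * A τ) =O[atImInfty] (fun _ : ℍ => (1 : ℂ)) := by
    refine hmA.trans ?_
    exact Asymptotics.isBigO_of_le _ (fun _ => by simp)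
  have hqe : (fun τ : ℍ => ana_q N τ ^ e) =O[atImInfty] (fun _ : ℍ => (1 : ℂ)) := by
    have := ana_q_pow_bounded N e
    unfold IsBoundedAtImInfty BoundedAtFilter at this
    refine this.trans ?_
    exact Asymptotics.isBigO_of_le _ (fun _ => by simp)
  have hprod := (hmA'.mul hqe).mul hinvO
  simp only [mul_one] at hprod
  have hfin : (fun τ : ℍ => ana_q N τ ^ m * G τ) =O[atImInfty] (fun _ : ℍ => (1 : ℂ)) := by
    refine hprod.congr' ?_ EventuallyEq.rfl
    filter_upwards [hBne] with τ hτ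
    have hq := ana_q_ne_zero N τ
    have hBτ : B τ ≠ 0 := right_ne_zero_of_mul hτ
    have hG : G τ = A τ / B τ := by
      rw [eq_div_iff hBτ]
      exact hGB τ
    rw [hG]
    have e1 : ana_q N τ ^ (-ob) = ana_q N τ ^ (e : ℤ) * (ana_q N τ ^ (ob.toNat : ℤ))⁻¹ := by
      rw [← zpow_neg, ← zpow_add₀ hq]
      congr 1
      rw [he, Int.toNat_eq_max, Int.toNat_eq_max]
      rcases le_total 0 ob with h | h
      · rw [max_eq_right (by omega), max_eq_left h]; ring
      · rw [max_eq_left (by omega), max_eq_right h]; ring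
    rw [e1, hm, pow_add]
    simp only [zpow_natCast]
    have h1 : ana_q N τ ^ e ≠ 0 := pow_ne_zero _ hq
    have h2 : ana_q N τ ^ ob.toNat ≠ 0 := pow_ne_zero _ hq
    field_simp
  refine hfin.trans ?_
  exact Asymptotics.isBigO_of_le _ (fun _ => by simp)

/-- **Holomorphic elements of `ana_M N` lie in `ana_ring N`.** -/
theorem m16psi_mem_range (N : ℕ) [NeZero N] (y : ana_M N)
    (h : ∀ τ : ℍ, hol_val τ (ana_toMer N y) ≤ 1) :
    ∃ ψ : ana_ring N, algebraMap (ana_ring N) (ana_M N) ψ = y := by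
  obtain ⟨A, B, hBmem, rfl⟩ := IsFractionRing.div_surjective (A := ana_ring N) y
  have hB : B ≠ 0 := nonZeroDivisors.ne_zero hBmem
  have hBM : algebraMap (ana_ring N) (ana_M N) B ≠ 0 := fun h =>
    hB ((IsFractionRing.injective (ana_ring N) (ana_M N)) (by rw [h, map_zero]))
  obtain ⟨G, hG⟩ := lift_hol_mem_range _ h
  have hBh : algebraMap hol_ring hol_Mer (ana_incl N B) ≠ 0 := by
    intro h
    have h1 := (IsFractionRing.injective hol_ring hol_Mer) (h.trans (map_zero _).symm)
    exact hB (ana_incl_injective N (h1.trans (map_zero _).symm))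
  have hrel : G * ana_incl N B = ana_incl N A := by
    apply IsFractionRing.injective hol_ring hol_Mer
    rw [map_mul, hG, map_div₀, ana_toMer_algebraMap, ana_toMer_algebraMap]
    field_simp
  have hGB : ∀ τ, (G : ℍ → ℂ) τ * (B : ℍ → ℂ) τ = (A : ℍ → ℂ) τ := fun τ =>
    congrArg (fun h : hol_ring => (h : ℍ → ℂ) τ) hrel
  have hB0 : ∀ g : SL(2, ℤ), (ana_comp N g B : ℍ → ℂ) ≠ 0 := by
    intro g h
    apply hB
    apply ana_comp_injective N g
    rw [map_zero]
    exact Subtype.ext h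
  have hB0' : ∀ g : SL(2, ℤ), ∃ τ, (ana_comp N g B : ℍ → ℂ) τ ≠ 0 := by
    intro g
    by_contra hcon
    exact hB0 g (funext fun τ => by_contra fun h => hcon ⟨τ, h⟩)
  have hmem : (G : ℍ → ℂ) ∈ ana_ring N := by
    refine ⟨G.2, fun g => ⟨?_, ?_⟩⟩
    · -- periodicity
      have hcont : Continuous fun τ : ℍ =>
          (G : ℍ → ℂ) (g • ((N : ℝ) +ᵥ τ)) - (G : ℍ → ℂ) (g • τ) := by
        have h1 : Continuous fun τ : ℍ => (G : ℍ → ℂ) (g • τ) :=
          (ana_mdiff_comp G.2 g).continuous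
        have h2 : Continuous fun τ : ℍ => ((N : ℝ) +ᵥ τ : ℍ) := by
          have : Continuous fun τ : ℍ => ((N : ℝ) : ℂ) + (τ : ℂ) :=
            continuous_const.add UpperHalfPlane.continuous_coe
          refine (UpperHalfPlane.isEmbedding_coe.continuous_iff).mpr ?_
          refine this.congr fun τ => ?_
          simp [UpperHalfPlane.coe_vadd]
        exact (h1.comp h2).sub h1
      have := rc_eq_zero_of_forall_ne _ (ana_comp N g B : ℍ → ℂ) hcont (ana_comp N g B).2.1
        (hB0' g) (fun τ hτ => by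
          have h1 := hGB (g • ((N : ℝ) +ᵥ τ))
          have h2 := hGB (g • τ)
          have h3 : (B : ℍ → ℂ) (g • ((N : ℝ) +ᵥ τ)) = (B : ℍ → ℂ) (g • τ) := (B.2.2 g).1 τ
          have h4 : (A : ℍ → ℂ) (g • ((N : ℝ) +ᵥ τ)) = (A : ℍ → ℂ) (g • τ) := (A.2.2 g).1 τ
          rw [h3, h4] at h1
          have hτ' : (B : ℍ → ℂ) (g • τ) ≠ 0 := hτ
          have h5 : ((G : ℍ → ℂ) (g • ((N : ℝ) +ᵥ τ)) - (G : ℍ → ℂ) (g • τ))
              * (B : ℍ → ℂ) (g • τ) = 0 := by
            rw [sub_mul, h1, h2, sub_self]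
          rcases mul_eq_zero.mp h5 with h6 | h6
          · exact h6
          · exact absurd h6 hτ')
      intro τ
      exact sub_eq_zero.mp (this τ)
    · -- pole bound
      exact m16psi_poleLE_of_quot N (ana_comp N g A : ℍ → ℂ) (ana_comp N g B : ℍ → ℂ)
        (fun τ => (G : ℍ → ℂ) (g • τ))
        (ana_isMer_of_mem (ana_comp N g A).2) (ana_isMer_of_mem (ana_comp N g B).2) (hB0 g)
        (fun τ => hGB (g • τ))
  refine ⟨⟨(G : ℍ → ℂ), hmem⟩, ?_⟩
  apply ana_toMer_injective N
  rw [ana_toMer_algebraMap, ← hG]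
  rfl

end Fermat.Agent.M16

end
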