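import Fermat.Agent.M16.PsiInf
import Fermat.Agent.M16.PsiHol

/-!
# M16 / PSI, part (b): the dictionary `L(K · ∞) → A` (prefix `m16psi_`)

For `x ∈ L(K · v_∞)` (a function on `X₀(N)` over `ℚ̄` with poles only at the cusp `∞`):

* `m16psi_fin_le` : all conjugates of `x` are holomorphic on `ℍ`;
* `m16psi_cusp_le` : the conjugates `ρ_q x`, `q ≠ [1]`, are holomorphic at `i∞`;
* `m16psi_order_ge` : the Laurent series of `x` has order `≥ -K`;
* `m16psi_exists_psi` : there is `ψ : ana_ring N` with `ψ = ana_ev N x`;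
* `m16psi_psi_invariant`, `m16psi_psi_cusp`, `m16psi_psi_qexp`.
-/

set_option autoImplicit false
set_option linter.unusedSectionVars false
set_option linter.unusedVariables false
set_option linter.style.haveILetI false

noncomputable section

namespace Fermat.Agent.M16

open UpperHalfPlane hiding I
open AlgebraicCurve IntermediateField Module ModularCurve WithZero
open Fermat.Agent.S20 Fermat.Agent.S24
open scoped MatrixGroups

variable (N : ℕ) [NeZero N]

/-- `ord_∞ j = -1`. -/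
theorem m16psi_vInf_ord_j : (m16psi_vInf N).ord (s24j N) = -1 := by
  have h := m16psi_uInf_eq N (s24j N) (m16psi_j_ne_zero N)
  rw [m16psi_uInf_j, exp_inj] at h
  omega

variable {N}

/-- elements of `L(K · ∞)` are regular at the places `≠ ∞`. -/
theorem m16psi_ord_nonneg {K : ℤ} {x : s24F N}
    (hx : x ∈ riemannRochSpace (Finsupp.single (m16psi_vInf N) K)) (hx0 : x ≠ 0)
    {v : Place s24K (s24F N)} (hv : v ≠ m16psi_vInf N) : 0 ≤ v.ord x := by
  have h := (mem_riemannRochSpace_iff.mp hx v).resolve_left hx0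
  rw [Finsupp.single_eq_of_ne hv] at h
  simpa using h

/-- **(b1)** all conjugates of `x ∈ L(K · ∞)` are holomorphic on `ℍ`. -/
theorem m16psi_fin_le {K : ℤ} {x : s24F N}
    (hx : x ∈ riemannRochSpace (Finsupp.single (m16psi_vInf N) K)) (τ : ℍ) (q : s24Q N) :
    hol_val τ (ana_toMer N (ana_rho N q x)) ≤ 1 := by
  by_cases hx0 : x = 0
  · rw [hx0, map_zero, map_zero, map_zero]
    exact zero_le_one
  let u : Valuation (s24F N) (WithZero (Multiplicative ℤ)) :=
    (hol_val τ).comap ((ana_toMer N).comp (ana_rho N q))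
  have hu : ∀ f, u f = hol_val τ (ana_toMer N (ana_rho N q f)) := fun f => rfl
  have hK : ∀ a : s24K, a ≠ 0 → u (algebraMap s24K (s24F N) a) = 1 := by
    intro a ha
    rw [hu, ana_toMer_rho_algebraMap, hol_val_constMer τ _ ((map_ne_zero ana_iota).mpr ha)]
  have hj : u (s24j N) ≤ 1 := by
    rw [hu, ana_toMer_rho_j]
    exact dfn_hol_val_le_one τ _
  by_cases hnt : ∃ f : s24F N, f ≠ 0 ∧ u f ≠ 1
  · obtain ⟨v, m, hm, huv⟩ := pl_exists_place u hK hnt
    have hv : v ≠ m16psi_vInf N := by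
      rintro rfl
      have h1 := huv (s24j N) (m16psi_j_ne_zero N)
      rw [m16psi_vInf_ord_j] at h1
      rw [h1, ← exp_zero, exp_le_exp] at hj
      omega
    have h0 := m16psi_ord_nonneg hx hx0 hv
    show u x ≤ 1
    rw [huv x hx0, ← exp_zero, exp_le_exp]
    have := mul_nonneg hm.le h0
    omega
  · have h1 : u x = 1 := by
      by_contra hcon
      exact hnt ⟨x, hx0, hcon⟩
    exact h1.le

/-- **(b2)** the conjugates `ρ_q x`, `q ≠ [1]`, of `x ∈ L(K · ∞)` are holomorphic at `i∞`. -/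
theorem m16psi_cusp_le {K : ℤ} {x : s24F N}
    (hx : x ∈ riemannRochSpace (Finsupp.single (m16psi_vInf N) K)) {q : s24Q N}
    (hq : q ≠ ((1 : SL(2, ℤ)) : s24Q N)) :
    atw_valInfty N (ana_rho N q x) ≤ 1 := by
  by_cases hx0 : x = 0
  · rw [hx0, map_zero, map_zero]
    exact zero_le_one
  obtain ⟨m, hm, hu⟩ := ct_exists_scale (ct_vq (m16psi_dInf N) q) (ct_u (m16psi_dInf N) q)
    (ct_vq_isEquiv (m16psi_dInf N) q)
  have h0 := m16psi_ord_nonneg hx hx0 (m16psi_vq_ne N hq)
  rw [← m16psi_dInf_u, hu x hx0, ← exp_zero, exp_le_exp]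
  have := mul_nonneg hm.le h0
  omega

/-- **(b3)** the Laurent series of `x ∈ L(K · ∞)` has order `≥ -K`. -/
theorem m16psi_order_ge {K : ℤ} {x : s24F N}
    (hx : x ∈ riemannRochSpace (Finsupp.single (m16psi_vInf N) K)) (hx0 : x ≠ 0) :
    -K ≤ (x : LaurentSeries s24K).order := by
  have h := (mem_riemannRochSpace_iff.mp hx (m16psi_vInf N)).resolve_left hx0
  rwa [Finsupp.single_eq_same, m16psi_vInf_ord N x hx0] at h

theorem m16psi_coeff_eq_zero {K : ℤ} {x : s24F N}
    (hx : x ∈ riemannRochSpace (Finsupp.single (m16psi_vInf N) K)) {n : ℤ} (hn : n < -K) :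
    (x : LaurentSeries s24K).coeff n = 0 := by
  by_cases hx0 : x = 0
  · rw [hx0]; rfl
  exact HahnSeries.coeff_eq_zero_of_lt_order (lt_of_lt_of_le hn (m16psi_order_ge hx hx0))

/-- **the modular function attached to `x ∈ L(K · ∞)`.** -/
theorem m16psi_exists_psi {K : ℤ} {x : s24F N}
    (hx : x ∈ riemannRochSpace (Finsupp.single (m16psi_vInf N) K)) :
    ∃ ψ : ana_ring N, algebraMap (ana_ring N) (ana_M N) ψ = ana_ev N x := by
  apply m16psi_mem_range
  intro τ
  have h := m16psi_fin_le hx τ ((1 : SL(2, ℤ)) : s24Q N)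
  rwa [ana_rho_mk, RingHom.comp_apply, ana_act_one, RingHom.id_apply] at h

/-- `Γ₀(N)`-invariance. -/
theorem m16psi_psi_invariant {x : s24F N} {ψ : ana_ring N}
    (hψ : algebraMap (ana_ring N) (ana_M N) ψ = ana_ev N x) (γ : SL(2, ℤ))
    (hγ : γ ∈ CongruenceSubgroup.Gamma0 N) : ana_comp N γ ψ = ψ := by
  apply IsFractionRing.injective (ana_ring N) (ana_M N)
  have h1 := ana_act_ev_of_mem N γ⁻¹ (inv_mem hγ)
  have h2 := congrArg (fun φ : s24F N →+* ana_M N => φ x) h1
  simp only [RingHom.comp_apply] at h2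
  rw [← hψ, ana_act_algebraMap, inv_inv] at h2
  exact h2

/-- the conjugate of `ψ` by `g`. -/
theorem m16psi_psi_rho {x : s24F N} {ψ : ana_ring N}
    (hψ : algebraMap (ana_ring N) (ana_M N) ψ = ana_ev N x) (g : SL(2, ℤ)) :
    ana_rho N ((g⁻¹ : SL(2, ℤ)) : s24Q N) x
      = algebraMap (ana_ring N) (ana_M N) (ana_comp N g ψ) := by
  rw [ana_rho_mk, RingHom.comp_apply, ← hψ, ana_act_algebraMap, inv_inv]

/-- regularity at the cusps `≠ ∞`. -/
theorem m16psi_psi_cusp {K : ℤ} {x : s24F N}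
    (hx : x ∈ riemannRochSpace (Finsupp.single (m16psi_vInf N) K)) {ψ : ana_ring N}
    (hψ : algebraMap (ana_ring N) (ana_M N) ψ = ana_ev N x) (g : SL(2, ℤ))
    (hg : g ∉ CongruenceSubgroup.Gamma0 N) (k : ℤ) (hk : k < 0) :
    (ana_qexp N (ana_comp N g ψ)).coeff k = 0 := by
  have hq : ((g⁻¹ : SL(2, ℤ)) : s24Q N) ≠ ((1 : SL(2, ℤ)) : s24Q N) := by
    intro h
    rw [QuotientGroup.eq, inv_inv, mul_one] at h
    exact hg h
  have h1 := m16psi_cusp_le hx hq
  rw [m16psi_psi_rho hψ, atw_valInfty_apply, ana_qexpM_algebraMap] at h1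
  have h2 : cf_val (ana_qexp N (ana_comp N g ψ)) ≤ exp (-(0 : ℤ)) := by
    rw [neg_zero, exp_zero]; exact h1
  exact cf_val_le_iff.mp h2 k hk

/-- the `q`-expansion of `ψ`. -/
theorem m16psi_psi_qexp {x : s24F N} {ψ : ana_ring N}
    (hψ : algebraMap (ana_ring N) (ana_M N) ψ = ana_ev N x) :
    ana_qexp N ψ = qExpand ℂ N (coeffMap ana_iota (x : LaurentSeries s24K)) := by
  rw [← ana_ev_spec, ← hψ, ana_qexpM_algebraMap]

end Fermat.Agent.M16

end
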