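import Fermat.Agent.M16.PsiFinal
import Fermat.Agent.M16.ResMain

/-!
# M16 / PSI: the final theorem `m16psi_main : m16lb_PSI`
-/

set_option autoImplicit false

namespace Fermat.Agent.M16

/-- **(PSI)** Mittag-Leffler: an integral principal part orthogonal to all cusp forms of weight
`2` on `Γ₀(p)` is the principal part of some `ψ ∈ A` with rational `q`-expansions at both cusps
and `b_0 = 0`. -/
theorem m16psi_main : m16lb_PSI := m16psi_main_of_R1 m16res_R1

end Fermat.Agent.M16
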