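import Fermat.Agent.M16.PsiCount
import Fermat.Prelude.Def_ModularCurve_ArithmeticGalois

/-!
# M16 / PSI, part (d): Galois descent (prefix `m16psi_`)

* `m16psi_gal N σ` : the action of `σ ∈ Gal(ℚ̄/ℚ)` on the function field (coefficientwise);
* `m16psi_gal_vInf` : it fixes the place `∞`;
* `m16psi_gal_mem` : it preserves `L(K · ∞)`;
* `m16psi_unique` : an element of `L(K · ∞)` is determined by its principal part and its constant
  term;
* `m16psi_exists_fixed` : **Mittag-Leffler with rational coefficients**.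
-/

set_option autoImplicit false
set_option linter.unusedSectionVars false
set_option linter.unusedVariables false
set_option linter.style.haveILetI false

noncomputable section

namespace Fermat.Agent.M16

open UpperHalfPlane hiding I
open AlgebraicCurve IntermediateField Module ModularCurve WithZero
open Fermat.Agent.S20 Fermat.Agent.S23 Fermat.Agent.S24
open CongruenceSubgroup ModularFormClass
open scoped MatrixGroups Pointwise

variable (N : ℕ) [NeZero N]

/-- the action of `Gal(ℚ̄/ℚ)` on the function field. -/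
def m16psi_gal (σ : s24K ≃ₐ[ℚ] s24K) : SemilinearAut s24K (s24F N) :=
  arithmeticGalois (modularFunctionFieldFull N) σ

theorem m16psi_gal_coe (σ : s24K ≃ₐ[ℚ] s24K) (x : s24F N) :
    ((m16psi_gal N σ • x : s24F N) : LaurentSeries s24K)
      = coeffMap (σ : s24K →+* s24K) (x : LaurentSeries s24K) := rfl

theorem m16psi_gal_inv (σ : s24K ≃ₐ[ℚ] s24K) : (m16psi_gal N σ)⁻¹ = m16psi_gal N σ⁻¹ :=
  (map_inv (arithmeticGalois (modularFunctionFieldFull N)) σ).symm

theorem m16psi_mem_vInf_iff (f : s24F N) :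
    f ∈ (m16psi_vInf N).toValuationSubring ↔ cf_val (f : LaurentSeries s24K) ≤ 1 := Iff.rfl

/-- the Galois action fixes the place `∞`. -/
theorem m16psi_gal_vInf (σ : s24K ≃ₐ[ℚ] s24K) : m16psi_gal N σ • m16psi_vInf N = m16psi_vInf N := by
  apply Place.ext
  rw [SemilinearAut.smul_toValuationSubring]
  ext f
  rw [ValuationSubring.mem_pointwise_smul_iff_inv_smul_mem, m16psi_gal_inv, m16psi_mem_vInf_iff,
    m16psi_mem_vInf_iff, m16psi_gal_coe, cf_val_coeffMap]

/-- the Galois action preserves `L(K · ∞)`. -/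
theorem m16psi_gal_mem (σ : s24K ≃ₐ[ℚ] s24K) {K : ℤ} {x : s24F N}
    (hx : x ∈ riemannRochSpace (Finsupp.single (m16psi_vInf N) K)) :
    m16psi_gal N σ • x ∈ riemannRochSpace (Finsupp.single (m16psi_vInf N) K) := by
  rw [mem_riemannRochSpace_iff] at hx ⊢
  intro v
  have hv : v = m16psi_gal N σ • ((m16psi_gal N σ)⁻¹ • v) := (smul_inv_smul _ _).symm
  rcases hx ((m16psi_gal N σ)⁻¹ • v) with h | h
  · left
    rw [h, smul_zero]
  · right
    have h1 : (m16psi_gal N σ • ((m16psi_gal N σ)⁻¹ • v)).ord (m16psi_gal N σ • x)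
        = ((m16psi_gal N σ)⁻¹ • v).ord x := SemilinearAut.ord_smul _ _ _
    rw [← hv] at h1
    rw [h1]
    have h2 : (Finsupp.single (m16psi_vInf N) K) v
        = (Finsupp.single (m16psi_vInf N) K) ((m16psi_gal N σ)⁻¹ • v) := by
      by_cases hvi : v = m16psi_vInf N
      · have h3 : (m16psi_gal N σ)⁻¹ • v = m16psi_vInf N := by
          rw [hvi, m16psi_gal_inv, m16psi_gal_vInf]
        rw [h3, hvi]
      · have h3 : (m16psi_gal N σ)⁻¹ • v ≠ m16psi_vInf N := by
          intro h4
          apply hvi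
          rw [hv, h4, m16psi_gal_vInf]
        rw [Finsupp.single_eq_of_ne hvi, Finsupp.single_eq_of_ne h3]
    rw [h2]
    exact h

/-- the Galois action on `L(K · ∞)`. -/
def m16psi_galL (K : ℕ) (σ : s24K ≃ₐ[ℚ] s24K) (x : m16psi_L N K) : m16psi_L N K :=
  ⟨m16psi_gal N σ • (x : s24F N), m16psi_gal_mem N σ x.2⟩

theorem m16psi_galL_coeff (K : ℕ) (σ : s24K ≃ₐ[ℚ] s24K) (x : m16psi_L N K) (n : ℤ) :
    ((m16psi_galL N K σ x : s24F N) : LaurentSeries s24K).coeff n
      = σ (((x : s24F N) : LaurentSeries s24K).coeff n) := rfl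

/-- **uniqueness**: an element of `L(K · ∞)` is determined by its principal part and its
constant term. -/
theorem m16psi_unique (K : ℕ) (x y : m16psi_L N K) (hPP : m16psi_PP N K x = m16psi_PP N K y)
    (h0 : ((x : s24F N) : LaurentSeries s24K).coeff 0
      = ((y : s24F N) : LaurentSeries s24K).coeff 0) : x = y := by
  have h1 : m16psi_PP N K (x - y) = 0 := by rw [map_sub, hPP, sub_self]
  have h2 := m16psi_PP_ker N K (x - y) h1
  have h3 : (((x - y : m16psi_L N K) : s24F N) : LaurentSeries s24K).coeff 0 = 0 := by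
    show (((x : s24F N) : LaurentSeries s24K) - ((y : s24F N) : LaurentSeries s24K)).coeff 0 = 0
    rw [HahnSeries.coeff_sub, h0, sub_self]
  rw [h3, map_zero] at h2
  have h4 : ((x - y : m16psi_L N K) : s24F N) = 0 := h2.symm
  have h5 : x - y = 0 := Subtype.ext h4
  exact sub_eq_zero.mp h5

/-- an element of `ℚ̄` fixed by `Gal(ℚ̄/ℚ)` is rational. -/
theorem m16psi_rat_of_fixed (z : s24K) (h : ∀ σ : s24K ≃ₐ[ℚ] s24K, σ z = z) :
    ∃ r : ℚ, algebraMap ℚ s24K r = z := by
  obtain ⟨r, hr⟩ := desc_mem_range_of_fixed z (fun σ => by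
    have := h (AlgEquiv.ofRingEquiv (f := σ) (fun r => by
      rw [eq_ratCast]
      exact map_ratCast σ r))
    exact this)
  exact ⟨r, by rw [eq_ratCast]; exact hr⟩

/-- **Mittag-Leffler with rational coefficients.** -/
theorem m16psi_exists_fixed (hR1 : m16psi_R1alg N) (K : ℕ) (hK : descSturm N 2 ≤ K)
    (π : Fin K → ℤ)
    (hπ : ∀ f : CuspForm (Gamma0 N) 2,
      ∑ i : Fin K, (π i : ℂ) * qCoeff (⇑f) ((i : ℕ) + 1) = 0) :
    ∃ x : m16psi_L N K, (∀ i : Fin K, m16psi_PP N K x i = (π i : s24K)) ∧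
      ((x : s24F N) : LaurentSeries s24K).coeff 0 = 0 ∧
      (∀ σ : s24K ≃ₐ[ℚ] s24K, coeffMap (σ : s24K →+* s24K) ((x : s24F N) : LaurentSeries s24K)
        = ((x : s24F N) : LaurentSeries s24K)) ∧
      ∀ n : ℤ, ∃ r : ℚ, ((x : s24F N) : LaurentSeries s24K).coeff n = algebraMap ℚ s24K r := by
  obtain ⟨x₀, hx₀⟩ := m16psi_exists_x N K hR1 hK (fun i => (π i : s24K)) (fun f => by
    rw [← hπ f]
    refine Finset.sum_congr rfl fun i _ => ?_
    congr 1
    exact map_intCast ana_iota _)
  let c : m16psi_L N K :=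
    ⟨algebraMap s24K (s24F N) (((x₀ : s24F N) : LaurentSeries s24K).coeff 0),
      m16psi_const_mem N K _⟩
  have hcPP : m16psi_PP N K c = 0 := by
    funext i
    rw [m16psi_PP_apply]
    show ((algebraMap s24K (s24F N) (((x₀ : s24F N) : LaurentSeries s24K).coeff 0) : s24F N) :
      LaurentSeries s24K).coeff _ = 0
    rw [m16psi_coe_algebraMap, HahnSeries.C_apply, HahnSeries.coeff_single_of_ne]
    omega
  have hc0 : ((c : s24F N) : LaurentSeries s24K).coeff 0
      = ((x₀ : s24F N) : LaurentSeries s24K).coeff 0 := by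
    show ((algebraMap s24K (s24F N) (((x₀ : s24F N) : LaurentSeries s24K).coeff 0) : s24F N) :
      LaurentSeries s24K).coeff 0 = _
    rw [m16psi_coe_algebraMap, HahnSeries.C_apply, HahnSeries.coeff_single_same]
  have hxPP : m16psi_PP N K (x₀ - c) = fun i => (π i : s24K) := by
    rw [map_sub, hcPP, sub_zero, hx₀]
  have hx0 : (((x₀ - c : m16psi_L N K) : s24F N) : LaurentSeries s24K).coeff 0 = 0 := by
    show (((x₀ : s24F N) : LaurentSeries s24K) - ((c : s24F N) : LaurentSeries s24K)).coeff 0 = 0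
    rw [HahnSeries.coeff_sub, hc0, sub_self]
  have hfix : ∀ σ : s24K ≃ₐ[ℚ] s24K, m16psi_galL N K σ (x₀ - c) = x₀ - c := by
    intro σ
    apply m16psi_unique
    · funext i
      rw [m16psi_PP_apply, m16psi_galL_coeff, ← m16psi_PP_apply, hxPP]
      exact map_intCast σ _
    · rw [m16psi_galL_coeff, hx0, map_zero]
  have hfix' : ∀ σ : s24K ≃ₐ[ℚ] s24K,
      coeffMap (σ : s24K →+* s24K) (((x₀ - c : m16psi_L N K) : s24F N) : LaurentSeries s24K)
        = (((x₀ - c : m16psi_L N K) : s24F N) : LaurentSeries s24K) := by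
    intro σ
    have := congrArg (fun y : m16psi_L N K => ((y : s24F N) : LaurentSeries s24K)) (hfix σ)
    exact this
  refine ⟨x₀ - c, fun i => congrFun hxPP i, hx0, hfix', fun n => ?_⟩
  obtain ⟨r, hr⟩ := m16psi_rat_of_fixed
    ((((x₀ - c : m16psi_L N K) : s24F N) : LaurentSeries s24K).coeff n) (fun σ => by
      have := congrArg (fun y : LaurentSeries s24K => y.coeff n) (hfix' σ)
      exact this)
  exact ⟨r, hr.symm⟩

end Fermat.Agent.M16

end
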