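import Fermat.Agent.M16.PsiRR

/-!
# M16 / PSI, part (b0): the place `∞` of `X₀(N)` over `ℚ̄` (prefix `m16psi_`)

* `m16psi_uInf N` : the `q`-adic valuation on `s24F N ⊆ LaurentSeries s24K`;
* `m16psi_vInf N : Place s24K (s24F N)` : its place, with
  `m16psi_vInf_ord : v_∞.ord f = order of the Laurent series f`;
* `m16psi_vq_one` : `v_∞` is the place attached to the coset of `1` by the counting data at `∞`;
* `m16psi_vq_ne` : the places attached to the other cosets are different from `v_∞`.
-/

set_option autoImplicit false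
set_option linter.unusedSectionVars false
set_option linter.unusedVariables false
set_option linter.style.haveILetI false

noncomputable section

namespace Fermat.Agent.M16

open AlgebraicCurve IntermediateField Module ModularCurve WithZero
open Fermat.Agent.S20 Fermat.Agent.S24
open scoped MatrixGroups

variable (N : ℕ) [NeZero N]

/-- the inclusion of the function field into the Laurent series. -/
def m16psi_coe : s24F N →+* LaurentSeries s24K := (modularFunctionFieldBar N).val.toRingHom

@[simp] theorem m16psi_coe_apply (f : s24F N) : m16psi_coe N f = (f : LaurentSeries s24K) := rfl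

/-- the `q`-adic valuation on the function field. -/
def m16psi_uInf : Valuation (s24F N) (WithZero (Multiplicative ℤ)) :=
  (cf_val (k := s24K)).comap (m16psi_coe N)

theorem m16psi_uInf_apply (f : s24F N) :
    m16psi_uInf N f = cf_val (f : LaurentSeries s24K) := rfl

theorem m16psi_uInf_K (a : s24K) (ha : a ≠ 0) :
    m16psi_uInf N (algebraMap s24K (s24F N) a) = 1 := by
  rw [m16psi_uInf_apply]
  exact cf_val_algebraMap ha

theorem m16psi_uInf_j : m16psi_uInf N (s24j N) = exp (1 : ℤ) := by
  rw [m16psi_uInf_apply]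
  show cf_val (coeffEmb s24K jq) = _
  rw [coeffEmb, cf_val_coeffMap, cf_val_jq]

theorem m16psi_j_ne_zero : s24j N ≠ 0 := by
  intro h
  have := m16psi_uInf_j N
  rw [h, map_zero] at this
  exact exp_ne_zero this.symm

theorem m16psi_uInf_nt : ∃ f : s24F N, f ≠ 0 ∧ m16psi_uInf N f ≠ 1 := by
  refine ⟨s24j N, m16psi_j_ne_zero N, ?_⟩
  rw [m16psi_uInf_j, ← exp_zero, Ne, exp_inj]
  norm_num

/-- **the place `∞`.** -/
def m16psi_vInf : Place s24K (s24F N) :=
  ct_placeOf (m16psi_uInf N) (m16psi_uInf_K N) (m16psi_uInf_nt N)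

theorem m16psi_vInf_isEquiv : (m16psi_vInf N).adicValuation.IsEquiv (m16psi_uInf N) :=
  ct_placeOf_isEquiv _ _ _

/-- the valuation at `∞` is `exp (- ord)`. -/
theorem m16psi_uInf_eq (f : s24F N) (hf : f ≠ 0) :
    m16psi_uInf N f = exp (-((m16psi_vInf N).ord f)) := by
  obtain ⟨m, hm, hu⟩ := ct_exists_scale (m16psi_vInf N) (m16psi_uInf N) (m16psi_vInf_isEquiv N)
  have h1 := hu (s24j N) (m16psi_j_ne_zero N)
  rw [m16psi_uInf_j, exp_inj] at h1
  have hm1 : m = 1 := by
    have h2 : m ∣ 1 := ⟨-(m16psi_vInf N).ord (s24j N), by rw [h1]; ring⟩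
    exact Int.eq_one_of_dvd_one hm.le h2
  rw [hu f hf, hm1, one_mul]

/-- **`v_∞.ord` is the order of the Laurent series.** -/
theorem m16psi_vInf_ord (f : s24F N) (hf : f ≠ 0) :
    (m16psi_vInf N).ord f = (f : LaurentSeries s24K).order := by
  have h1 := m16psi_uInf_eq N f hf
  have hf' : (f : LaurentSeries s24K) ≠ 0 := fun h => hf (Subtype.ext h)
  rw [m16psi_uInf_apply, cf_val_eq hf', exp_inj] at h1
  omega

/-! ## the counting data at `∞` -/

/-- the counting data at `∞`. -/
def m16psi_dInf : CountingData s24K (s24F N) (s24j N) (s24j N)⁻¹ (s24Q N)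
    (s24Orb N ModularGroup.T) N :=
  adg_data_infty (m16psi_pkgG N)

theorem m16psi_dInf_u (q : s24Q N) (f : s24F N) :
    ct_u (m16psi_dInf N) q f = atw_valInfty N (ana_rho N q f) := rfl

/-- the valuation attached to the coset of `1` is the `N`-th power of the `q`-adic valuation. -/
theorem m16psi_u_one (f : s24F N) :
    atw_valInfty N (ana_rho N ((1 : SL(2, ℤ)) : s24Q N) f) = m16psi_uInf N f ^ N := by
  rw [ana_rho_mk, RingHom.comp_apply, ana_act_one, RingHom.id_apply, atw_valInfty_apply,
    ana_ev_spec, cf_val_qExpand, cf_val_coeffMap, m16psi_uInf_apply]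

theorem m16psi_pow_le_pow_iff (a b : WithZero (Multiplicative ℤ)) :
    a ^ N ≤ b ^ N ↔ a ≤ b :=
  pow_le_pow_iff_left₀ zero_le zero_le (NeZero.ne N)

/-- `v_∞` is the place attached to the coset of `1`. -/
theorem m16psi_vq_one :
    ct_vq (m16psi_dInf N) ((1 : SL(2, ℤ)) : s24Q N) = m16psi_vInf N := by
  apply ct_place_eq_of_isEquiv
  refine (ct_vq_isEquiv (m16psi_dInf N) _).trans ?_
  refine Valuation.IsEquiv.trans ?_ (m16psi_vInf_isEquiv N).symm
  intro r s
  rw [m16psi_dInf_u, m16psi_dInf_u, m16psi_u_one, m16psi_u_one, m16psi_pow_le_pow_iff]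

/-- different `T`-orbits of cosets give different places over `∞`. -/
theorem m16psi_vq_injective {q q' : s24Q N}
    (h : ct_vq (m16psi_dInf N) q = ct_vq (m16psi_dInf N) q') :
    (s24Orb N ModularGroup.T).r q q' := by
  classical
  haveI hfin : FiniteDimensional (IntermediateField.adjoin s24K {s24j N}) (s24F N) :=
    deg_finiteDimensional N
  haveI : Infinite s24K := IsAlgClosed.instInfinite
  have hx := ana_transcendental N
  obtain ⟨-, e, -⟩ := fin_counting (s24j N) hx (s24j N)⁻¹ (Or.inr rfl)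
    (s24Orb N ModularGroup.T) N (m16psi_dInf N)
  let Φ : Quotient (s24Orb N ModularGroup.T) →
      {v : Place s24K (s24F N) // 0 < v.ord (s24j N)⁻¹} :=
    Quotient.lift (fun q => (⟨ct_vq (m16psi_dInf N) q, (ct_vq_ord_y (m16psi_dInf N) q).1⟩ :
        {v : Place s24K (s24F N) // 0 < v.ord (s24j N)⁻¹}))
      (fun q q' h => Subtype.ext (ct_vq_eq_of_rel (m16psi_dInf N) h))
  have hΦ : Function.Surjective Φ := by
    rintro ⟨v, hv⟩
    obtain ⟨q, hq⟩ := ct_exists_vq_eq (m16psi_dInf N) (Or.inr rfl) v hv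
    exact ⟨Quotient.mk _ q, Subtype.ext hq⟩
  haveI : Finite (Quotient (s24Orb N ModularGroup.T)) := Quotient.finite _
  have hinj : Function.Injective Φ :=
    (Finite.injective_iff_surjective_of_equiv e.symm).mpr hΦ
  have h1 : Φ (Quotient.mk _ q) = Φ (Quotient.mk _ q') := Subtype.ext h
  exact Quotient.exact (hinj h1)

/-- the `T`-orbit of the coset of `1` is a point. -/
theorem m16psi_orbit_one {q : s24Q N}
    (h : (s24Orb N ModularGroup.T).r q ((1 : SL(2, ℤ)) : s24Q N)) :
    q = ((1 : SL(2, ℤ)) : s24Q N) := by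
  induction q using QuotientGroup.induction_on with
  | _ g =>
    obtain ⟨k, hk⟩ := (mgt_orbit_iff N g 1).mp h
    have h1 : ((1 : SL(2, ℤ)) 0 0 : ℤ) = 1 := by simp
    have h2 : ((1 : SL(2, ℤ)) 1 0 : ℤ) = 0 := by simp
    rw [h1, h2] at hk
    simp only [mul_zero, add_zero, one_mul, zero_mul, sub_zero] at hk
    rw [QuotientGroup.eq]
    rw [CongruenceSubgroup.Gamma0_mem]
    have h3 : ((g⁻¹ * 1 : SL(2, ℤ)) 1 0 : ℤ) = -(g 1 0) := by
      rw [mul_one, Matrix.SpecialLinearGroup.coe_inv, Matrix.adjugate_fin_two]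
      simp
    rw [h3]
    have : ((-(g 1 0) : ℤ) : ZMod N) = 0 := by
      rw [Int.cast_neg, neg_eq_zero, ZMod.intCast_zmod_eq_zero_iff_dvd]
      exact hk
    exact this

/-- **the places attached to the cosets `≠ 1` are different from `v_∞`.** -/
theorem m16psi_vq_ne {q : s24Q N} (hq : q ≠ ((1 : SL(2, ℤ)) : s24Q N)) :
    ct_vq (m16psi_dInf N) q ≠ m16psi_vInf N := by
  intro h
  rw [← m16psi_vq_one] at h
  exact hq (m16psi_orbit_one N (m16psi_vq_injective N h))

end Fermat.Agent.M16

end
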