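import Fermat.Agent.M16.PsiGal
import Fermat.Agent.M16.ResDefs

/-!
# M16 / PSI, part (f): assembly (prefix `m16psi_`)

* `m16psi_C0` : the statement of the leaf CUSP0 (rationality of the expansion at the cusp `0`);
* `m16psi_R1alg_of` : the residue theorem `m16lb_R1` gives its algebraic form `m16psi_R1alg`;
* `m16psi_main_of : m16lb_R1 → m16psi_C0 → m16lb_PSI`.
-/

set_option autoImplicit false
set_option linter.unusedSectionVars false
set_option linter.unusedVariables false
set_option linter.style.haveILetI false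

noncomputable section

namespace Fermat.Agent.M16

open UpperHalfPlane hiding I
open AlgebraicCurve IntermediateField Module ModularCurve WithZero
open Fermat.Agent.S20 Fermat.Agent.S23 Fermat.Agent.S24
open CongruenceSubgroup ModularFormClass
open scoped MatrixGroups

/-- the statement of the leaf CUSP0: the expansion at the cusp `0` of a Galois-fixed element of
the function field has rational coefficients. -/
def m16psi_C0 : Prop :=
  ∀ (p : ℕ) [Fact p.Prime],
    haveI : NeZero p := ⟨(Fact.out : p.Prime).ne_zero⟩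
    ∀ (x : s24F p),
      (∀ σ : s24K ≃ₐ[ℚ] s24K,
        coeffMap (σ : s24K →+* s24K) (x : LaurentSeries s24K) = (x : LaurentSeries s24K)) →
      ∀ k : ℤ, ∃ r : ℚ,
        (ana_qexpM p (ana_rho p ((ModularGroup.S⁻¹ : SL(2, ℤ)) : s24Q p) x)).coeff k = (r : ℂ)

section

variable (N : ℕ) [NeZero N]

/-- `S ∉ Γ₀(N)` for `N ≠ 1`. -/
theorem m16psi_S_not_mem (hN : N ≠ 1) : ModularGroup.S ∉ Gamma0 N := by
  intro h
  rw [Gamma0_mem] at h
  have h1 : ((ModularGroup.S : SL(2, ℤ)) 1 0 : ℤ) = 1 := by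
    simp [ModularGroup.S]
  rw [h1] at h
  have h2 : ((1 : ℤ) : ZMod N) = 1 := by simp
  rw [h2] at h
  haveI : Fact (1 < N) := ⟨by
    have := NeZero.pos N
    omega⟩
  exact one_ne_zero h

variable {N}

/-- the coefficients `b_k` of `ψ`. -/
theorem m16psi_b_eq {x : s24F N} {ψ : ana_ring N}
    (hψ : algebraMap (ana_ring N) (ana_M N) ψ = ana_ev N x) (k : ℤ) :
    m16lb_b N ψ k = ana_iota ((x : LaurentSeries s24K).coeff k) := by
  unfold m16lb_b
  rw [m16psi_psi_qexp hψ, qExpand_coeff_mul, coeffMap_coeff]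

/-- `ψ ∈ A`. -/
theorem m16psi_isA (hN : N ≠ 1) {K : ℤ} {x : s24F N}
    (hx : x ∈ riemannRochSpace (Finsupp.single (m16psi_vInf N) K)) {ψ : ana_ring N}
    (hψ : algebraMap (ana_ring N) (ana_M N) ψ = ana_ev N x) : m16lb_IsA N ψ :=
  ⟨fun γ hγ => m16psi_psi_invariant hψ γ hγ,
    fun k hk => m16psi_psi_cusp hx hψ ModularGroup.S (m16psi_S_not_mem N hN) k hk⟩

/-- shifting a sum over `Fin K`. -/
theorem m16psi_sum_shift (K : ℕ) (F : ℕ → ℂ) (h0 : F 0 = 0) :
    ∑ i : Fin K, F ((i : ℕ) + 1) = ∑ k ∈ Finset.range (K + 1), F k := by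
  rw [Finset.sum_range_succ', h0, add_zero]
  exact Fin.sum_univ_eq_sum_range (fun i => F (i + 1)) K

end

/-- the residue theorem in algebraic form. -/
theorem m16psi_R1alg_of (hR1 : m16lb_R1) (p : ℕ) [Fact p.Prime] :
    haveI : NeZero p := ⟨(Fact.out : p.Prime).ne_zero⟩
    m16psi_R1alg p := by
  haveI : NeZero p := ⟨(Fact.out : p.Prime).ne_zero⟩
  intro K x f
  obtain ⟨ψ, hψ⟩ := m16psi_exists_psi x.2
  have hA := m16psi_isA (Fact.out : p.Prime).one_lt.ne' x.2 hψ
  have h1 := hR1 p ψ hA f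
  have hsupp : Function.support (fun k : ℕ => m16lb_b p ψ (-(k : ℤ)) * qCoeff (⇑f) k)
      ⊆ ↑(Finset.range (K + 1)) := by
    intro k hk
    rw [Function.mem_support] at hk
    rw [Finset.coe_range, Set.mem_Iio]
    by_contra hcon
    apply hk
    rw [m16psi_b_eq hψ, m16psi_coeff_eq_zero x.2 (by omega), map_zero, zero_mul]
  rw [finsum_eq_sum_of_support_subset _ hsupp] at h1
  rw [← h1]
  rw [← m16psi_sum_shift K (fun k => m16lb_b p ψ (-(k : ℤ)) * qCoeff (⇑f) k)
    (by rw [den_qCoeff_zero_index, mul_zero])]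
  refine Finset.sum_congr rfl fun i _ => ?_
  rw [m16psi_b_eq hψ, m16psi_PP_apply]
  push_cast
  rfl

/-- **(PSI)**, given the residue theorem and the leaf CUSP0. -/
theorem m16psi_main_of (hR1 : m16lb_R1) (hC0 : m16psi_C0) : m16lb_PSI := by
  intro p _ π hπ
  haveI : NeZero p := ⟨(Fact.out : p.Prime).ne_zero⟩
  obtain ⟨hπ0, horth⟩ := hπ
  -- the length of the principal part
  set K : ℕ := max (descSturm p 2) (π.support.sup id) with hKdef
  have hK1 : descSturm p 2 ≤ K := le_max_left _ _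
  have hK2 : ∀ k : ℕ, K < k → π k = 0 := by
    intro k hk
    by_contra hne
    have h1 : k ∈ π.support := Finsupp.mem_support_iff.mpr hne
    have h2 : id k ≤ π.support.sup id := Finset.le_sup h1
    have h3 : π.support.sup id ≤ K := le_max_right _ _
    simp only [id] at h2
    omega
  have hsub : π.support ⊆ Finset.range (K + 1) := by
    intro k hk
    rw [Finset.mem_range]
    by_contra hcon
    exact (Finsupp.mem_support_iff.mp hk) (hK2 k (by omega))
  have horth' : ∀ f : CuspForm (Gamma0 p) 2,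
      ∑ i : Fin K, ((π ((i : ℕ) + 1) : ℤ) : ℂ) * qCoeff (⇑f) ((i : ℕ) + 1) = 0 := by
    intro f
    rw [m16psi_sum_shift K (fun k => ((π k : ℤ) : ℂ) * qCoeff (⇑f) k)
      (by rw [hπ0]; simp)]
    rw [← horth f]
    exact (Finsupp.sum_of_support_subset π hsub (fun k a => (a : ℂ) * qCoeff (⇑f) k)
      (fun k _ => by simp)).symm
  obtain ⟨x, hxPP, hx0, hxfix, hxrat⟩ := m16psi_exists_fixed p (m16psi_R1alg_of hR1 p) K hK1
    (fun i => π ((i : ℕ) + 1)) horth'
  obtain ⟨ψ, hψ⟩ := m16psi_exists_psi x.2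
  refine ⟨ψ, m16psi_isA (Fact.out : p.Prime).one_lt.ne' x.2 hψ, ?_, ?_, ?_, ?_⟩
  · -- principal part
    intro k hk
    rw [m16psi_b_eq hψ]
    by_cases hkK : k ≤ K
    · have h1 := hxPP ⟨k - 1, by omega⟩
      rw [m16psi_PP_apply] at h1
      have h2 : (-((((⟨k - 1, by omega⟩ : Fin K) : ℕ) : ℤ) + 1)) = -(k : ℤ) := by
        show -(((k - 1 : ℕ) : ℤ) + 1) = -(k : ℤ)
        omega
      have h3 : (((⟨k - 1, by omega⟩ : Fin K) : ℕ) + 1) = k := by
        show k - 1 + 1 = k
        omega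
      rw [h2, h3] at h1
      rw [h1]
      exact map_intCast ana_iota _
    · rw [m16psi_coeff_eq_zero x.2 (by omega), map_zero, hK2 k (by omega)]
      simp
  · -- constant term
    rw [m16psi_b_eq hψ, hx0, map_zero]
  · -- rationality at `∞`
    intro k
    obtain ⟨r, hr⟩ := hxrat k
    exact ⟨r, by rw [m16psi_b_eq hψ, hr, ana_iota_ratCast]⟩
  · -- rationality at `0`
    intro k
    obtain ⟨r, hr⟩ := hC0 p (x : s24F p) hxfix k
    refine ⟨r, ?_⟩
    rw [← hr, m16psi_psi_rho hψ, ana_qexpM_algebraMap]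
    rfl

end Fermat.Agent.M16

end
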