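import Fermat.Agent.S20
import Fermat.Agent.S24

/-!
# M16 / PSI, part (a): Riemann's inequality on `X₀(N)` over `ℚ̄` (prefix `m16psi_`)

* `m16psi_riemann` : for a function field `F / K(x)` (`K` algebraically closed of characteristic
  `0`) and the divisor `W` of `dx`: `ℓ(D) ≥ deg D + 1 - ℓ(W)` (from `rr_chi`, `rr_finrank_zero`
  and the duality `h¹(0) = ℓ(W)` of the S20 library).
* `m16psi_pkgG` : the generic analytic package of `(s24K, s24F N, s24j N)`.
* `m16psi_ellW` : `ℓ(W) = dim S₂(Γ₀(N))` for `F = s24F N` over `s24K = ℚ̄`.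
* `m16psi_riemann_X0` : `ℓ(D) ≥ deg D + 1 - dim S₂(Γ₀(N))`.
-/

set_option autoImplicit false
set_option linter.unusedSectionVars false
set_option linter.unusedVariables false
set_option linter.style.haveILetI false

noncomputable section

namespace Fermat.Agent.M16

open AlgebraicCurve IntermediateField Module ModularCurve
open Fermat.Agent.S20 Fermat.Agent.S24
open scoped MatrixGroups

section generic

variable {K F : Type*} [Field K] [Field F] [Algebra K F] [IsAlgClosed K] [CharZero K]

/-- `h¹(0) = ℓ(W)`. -/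
theorem m16psi_h1_zero (x : F) (hx : Transcendental K x) [FiniteDimensional K⟮x⟯ F]
    (W : Divisor K F) (hW : IsDivisorOfD x W) :
    finrank K (F ⧸ (rrLam x (0 : Divisor K F) ⊔ rrLamInf x (0 : Divisor K F)))
      = finrank K (riemannRochSpace W) := by
  obtain ⟨B, hB⟩ := rrb_exists (K := K) x hx
  obtain ⟨b, hb⟩ := rr_lam_isLattice x hx B hB 0
  obtain ⟨c, hc⟩ := rr_lamInf_isLattice x hx B hB 0
  haveI : CharZero K⟮x⟯ := charZero_of_injective_algebraMap (algebraMap K K⟮x⟯).injective
  have hβ : (Algebra.traceForm K⟮x⟯ F).Nondegenerate := traceForm_nondegenerate K⟮x⟯ F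
  obtain ⟨-, -, -, -, h1, -⟩ := B.nf_duality (Algebra.traceForm K⟮x⟯ F) hβ b c
  rw [← hb, ← hc, rr_dualA x hx B hB W hW, rr_dualInf x hx B hB W hW] at h1
  rw [← h1]
  exact rra_finrank_congr (rr_inf_eq x W)

/-- **Riemann's inequality**: `ℓ(D) ≥ deg D + 1 - ℓ(W)`. -/
theorem m16psi_riemann (x : F) (hx : Transcendental K x) [FiniteDimensional K⟮x⟯ F]
    (W : Divisor K F) (hW : IsDivisorOfD x W) (D : Divisor K F) :
    Divisor.degree D + 1 - (finrank K (riemannRochSpace W) : ℤ)
      ≤ (finrank K (riemannRochSpace D) : ℤ) := by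
  obtain ⟨-, -, h⟩ := rr_chi x hx D
  rw [rra_finrank_congr (rr_inf_eq x D), rra_finrank_congr (rr_inf_eq x (0 : Divisor K F)),
    rr_finrank_zero x hx, m16psi_h1_zero x hx W hW] at h
  have h0 : (0 : ℤ) ≤ (finrank K (F ⧸ (rrLam x D ⊔ rrLamInf x D)) : ℤ) := Int.natCast_nonneg _
  push_cast at h
  linarith

end generic

section X0

variable (N : ℕ) [NeZero N]

/-- The analytic package of S24. -/
def m16psi_pkg : AdPkg N :=
  haveI hfin : FiniteDimensional (IntermediateField.adjoin s24K {s24j N}) (s24F N) :=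
    deg_finiteDimensional N
  adf_pkg N (amer_toMer N) (fun f => amer_toMer_algebraMap N f)
    (ana_rho N) (ana_rho_smul N) (ana_rho_injective N) (ana_rho_algebraMap N)
    (fun q => ⟨ana_J N, rfl, ana_rho_j N q⟩)
    (sym_norm_mem (s24j N) (ana_rho N) (ana_rho_injective N) (ana_rho_x N) (ana_rho_K N)
      (deg_finrank_le N)) stab_val_S stab_val_ST

/-- The generic analytic package of `(s24K, s24F N, s24j N)`. -/
def m16psi_pkgG : AdPkgG s24K (s24F N) (s24j N) N :=
  let P := m16psi_pkg N
  { M := P.M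
    act := P.act
    ρ := P.ρ
    ρ_smul := P.ρ_smul
    ρ_injective := P.ρ_injective
    ρ_x := P.ρ_x
    ρ_K := P.ρ_K
    norm_mem := P.norm_mem
    ι := P.ι
    val := P.val
    val_K := P.val_K
    val_act_fix := P.val_act_fix
    val_j_sub := P.val_j_sub
    stab_S := P.stab_S
    stab_ST := P.stab_ST
    valInfty := P.valInfty
    valInfty_K := P.valInfty_K
    valInfty_j := P.valInfty_j
    valInfty_act := P.valInfty_act
    valInfty_div := P.valInfty_div }

/-- The divisor of `dj` exists. -/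
theorem m16psi_exists_W :
    ∃ W : Divisor s24K (s24F N), IsDivisorOfD (s24j N) W :=
  haveI hfin : FiniteDimensional (IntermediateField.adjoin s24K {s24j N}) (s24F N) :=
    deg_finiteDimensional N
  hurw_exists_W (m16psi_pkgG N) (ana_transcendental N)

/-- `ℓ(W) = dim S₂(Γ₀(N))`. -/
theorem m16psi_ellW (W : Divisor s24K (s24F N)) (hW : IsDivisorOfD (s24j N) W) :
    finrank s24K (riemannRochSpace W)
      = finrank ℂ (CuspForm (CongruenceSubgroup.Gamma0 N) 2) := by
  haveI hfin : FiniteDimensional (IntermediateField.adjoin s24K {s24j N}) (s24F N) :=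
    deg_finiteDimensional N
  have hx := ana_transcendental N
  obtain ⟨g, hgq, hgz⟩ := hurw_degree_W (m16psi_pkgG N) hx W hW
  have h1 := rr_canonical (s24j N) hx W hW
  have h2 : finrank s24K (riemannRochSpace W) = g := by omega
  have h3 := Fermat.Agent.S20.result N
  rw [← hgq] at h3
  have h4 : finrank ℂ (CuspForm (CongruenceSubgroup.Gamma0 N) 2) = g := by exact_mod_cast h3
  rw [h2, h4]

/-- **Riemann's inequality on `X₀(N)`**: `ℓ(D) ≥ deg D + 1 - dim S₂(Γ₀(N))`. -/
theorem m16psi_riemann_X0 (D : Divisor s24K (s24F N)) :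
    Divisor.degree D + 1 - (finrank ℂ (CuspForm (CongruenceSubgroup.Gamma0 N) 2) : ℤ)
      ≤ (finrank s24K (riemannRochSpace D) : ℤ) := by
  haveI hfin : FiniteDimensional (IntermediateField.adjoin s24K {s24j N}) (s24F N) :=
    deg_finiteDimensional N
  obtain ⟨W, hW⟩ := m16psi_exists_W N
  rw [← m16psi_ellW N W hW]
  exact m16psi_riemann (s24j N) (ana_transcendental N) W hW D

/-- Riemann–Roch spaces on `X₀(N)` are finite dimensional. -/
theorem m16psi_finite_X0 (D : Divisor s24K (s24F N)) :
    Module.Finite s24K (riemannRochSpace D) :=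
  haveI hfin : FiniteDimensional (IntermediateField.adjoin s24K {s24j N}) (s24F N) :=
    deg_finiteDimensional N
  rr_finite (s24j N) (ana_transcendental N) D

/-- `ℓ(0) = 1` on `X₀(N)`. -/
theorem m16psi_finrank_zero_X0 :
    finrank s24K (riemannRochSpace (0 : Divisor s24K (s24F N))) = 1 :=
  haveI hfin : FiniteDimensional (IntermediateField.adjoin s24K {s24j N}) (s24F N) :=
    deg_finiteDimensional N
  rr_finrank_zero (s24j N) (ana_transcendental N)

end X0

end Fermat.Agent.M16

end
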