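/-
M16 (S16 project), TOP, abstract algebra:

* `m16t_card` : for surjective ring homomorphisms `ρ : A → B` and `ε : A → ℤ`, the quotient
  `B ⧸ ρ(ker ε)` has exactly `n` elements as soon as `ε (ker ρ) = n ℤ`;
* `m16t_dual` : a pairing between two finite free `ℤ`-modules which is non-degenerate on both
  sides is perfect up to a non-zero integer factor.
-/
import Mathlib

set_option autoImplicit false
set_option linter.unusedSectionVars false
set_option linter.style.haveILetI false

namespace Fermat.Agent.M16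

section card

variable {A B : Type*} [CommRing A] [CommRing B]

/-- the cardinality of `B ⧸ ρ(ker ε)` -/
theorem m16t_card (ρ : A →+* B) (hρ : Function.Surjective ρ) (ε : A →+* ℤ)
    (hε : Function.Surjective ε) (n : ℕ)
    (h1 : ∀ P : A, ρ P = 0 → (n : ℤ) ∣ ε P)
    (h2 : ∃ P : A, ρ P = 0 ∧ ε P = n) :
    Nat.card (B ⧸ Ideal.map ρ (RingHom.ker ε)) = n := by
  classical
  -- the homomorphism `ψ : B → ZMod n`
  let g : A →+* ZMod n := (Int.castRingHom (ZMod n)).comp ε
  have hg : RingHom.ker ρ ≤ RingHom.ker g := by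
    intro P hP
    rw [RingHom.mem_ker] at hP ⊢
    show ((ε P : ℤ) : ZMod n) = 0
    exact (ZMod.intCast_zmod_eq_zero_iff_dvd _ _).mpr (h1 P hP)
  let ψ : B →+* ZMod n := RingHom.liftOfSurjective ρ hρ ⟨g, hg⟩
  have hψ : ∀ P : A, ψ (ρ P) = ((ε P : ℤ) : ZMod n) := by
    intro P
    exact RingHom.liftOfRightInverse_comp_apply ρ _ (Function.rightInverse_surjInv hρ) ⟨g, hg⟩ P
  have hψs : Function.Surjective ψ := by
    intro z
    obtain ⟨c, rfl⟩ := ZMod.intCast_surjective z
    obtain ⟨P, rfl⟩ := hε c
    exact ⟨ρ P, hψ P⟩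
  have hker : Ideal.map ρ (RingHom.ker ε) = RingHom.ker ψ := by
    apply le_antisymm
    · rw [Ideal.map_le_iff_le_comap]
      intro Q hQ
      rw [Ideal.mem_comap, RingHom.mem_ker, hψ, RingHom.mem_ker.mp hQ]
      simp
    · intro b hb
      obtain ⟨P, rfl⟩ := hρ b
      rw [RingHom.mem_ker, hψ, ZMod.intCast_zmod_eq_zero_iff_dvd] at hb
      obtain ⟨c, hc⟩ := hb
      obtain ⟨P₀, hP₀, hP₀'⟩ := h2
      obtain ⟨C, hC⟩ := hε c
      have hQ : P - P₀ * C ∈ RingHom.ker ε := by
        rw [RingHom.mem_ker, map_sub, map_mul, hP₀', hC, hc, sub_self]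
      have : ρ P = ρ (P - P₀ * C) := by
        rw [map_sub, map_mul, hP₀, zero_mul, sub_zero]
      rw [this]
      exact Ideal.mem_map_of_mem ρ hQ
  rw [Nat.card_congr (Ideal.quotEquivOfEq hker).toEquiv,
    Nat.card_congr (RingHom.quotientKerEquivOfSurjective hψs).toEquiv, Nat.card_zmod]

end card

section dual

variable {L T : Type*} [AddCommGroup L] [AddCommGroup T] [Module ℤ L] [Module ℤ T]
  [Module.Free ℤ L] [Module.Finite ℤ L] [Module.Free ℤ T] [Module.Finite ℤ T]

/-- a pairing of finite free `ℤ`-modules which is non-degenerate on both sides is perfect up to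
a non-zero integer: every functional on `T` has a non-zero multiple represented by an element
of `L`. -/
theorem m16t_dual (B : T →ₗ[ℤ] L →ₗ[ℤ] ℤ)
    (hN1 : ∀ f : L, (∀ t : T, B t f = 0) → f = 0)
    (hN2 : ∀ t : T, (∀ f : L, B t f = 0) → t = 0)
    (lam : T →ₗ[ℤ] ℤ) :
    ∃ (N : ℤ) (f : L), N ≠ 0 ∧ ∀ t : T, B t f = N * lam t := by
  classical
  -- ranks
  have hle1 : Module.finrank ℤ L ≤ Module.finrank ℤ T := by
    have hinj : Function.Injective B.flip := by
      intro f g hfg
      have : f - g = 0 := hN1 _ (fun t => by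
        have := congrArg (fun φ : T →ₗ[ℤ] ℤ => φ t) hfg
        simp only [LinearMap.flip_apply] at this
        rw [map_sub, this, sub_self])
      exact sub_eq_zero.mp this
    have := LinearMap.finrank_le_finrank_of_injective hinj
    rwa [Module.finrank_linearMap, Module.finrank_self, mul_one] at this
  have hle2 : Module.finrank ℤ T ≤ Module.finrank ℤ L := by
    have hinj : Function.Injective B := by
      intro s t hst
      have : s - t = 0 := hN2 _ (fun f => by
        have := congrArg (fun φ : L →ₗ[ℤ] ℤ => φ f) hst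
        rw [map_sub, LinearMap.sub_apply]
        exact sub_eq_zero.mpr this)
      exact sub_eq_zero.mp this
    have := LinearMap.finrank_le_finrank_of_injective hinj
    rwa [Module.finrank_linearMap, Module.finrank_self, mul_one] at this
  have hr : Module.finrank ℤ T = Module.finrank ℤ L := le_antisymm hle2 hle1
  set r := Module.finrank ℤ L with hrdef
  let bL : Module.Basis (Fin r) ℤ L := Module.finBasisOfFinrankEq ℤ L rfl
  let bT : Module.Basis (Fin r) ℤ T := Module.finBasisOfFinrankEq ℤ T hr
  -- the Gram matrix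
  let M : Matrix (Fin r) (Fin r) ℤ := Matrix.of fun i j => B (bT i) (bL j)
  have hMv : ∀ x : Fin r → ℤ, ∀ i, M.mulVec x i = B (bT i) (∑ j, x j • bL j) := by
    intro x i
    simp only [Matrix.mulVec, dotProduct, M, Matrix.of_apply, map_sum]
    refine Finset.sum_congr rfl (fun j _ => ?_)
    rw [map_zsmul, smul_eq_mul, mul_comm]
  have hB_of_basis : ∀ (f : L) (c : Fin r → ℤ), (∀ i, B (bT i) f = c i) →
      ∀ t : T, B t f = ∑ i, bT.repr t i * c i := by
    intro f c hc t
    conv_lhs => rw [← bT.sum_repr t]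
    simp only [map_sum, map_smul, LinearMap.sum_apply, LinearMap.smul_apply, smul_eq_mul, hc]
  have hdet : M.det ≠ 0 := by
    intro h0
    obtain ⟨v, hv0, hv⟩ := Matrix.exists_mulVec_eq_zero_iff.mpr h0
    apply hv0
    have hf : (∑ j, v j • bL j) = 0 := by
      apply hN1
      intro t
      rw [hB_of_basis _ (fun _ => 0) (fun i => by rw [← hMv, hv]; rfl) t]
      simp
    have := congrArg bL.repr hf
    rw [map_zero] at this
    funext j
    have h2 := congrArg (fun φ => φ j) this
    simp only [Finsupp.coe_zero, Pi.zero_apply] at h2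
    rw [Pi.zero_apply, ← h2, map_sum]
    simp [Finsupp.single_apply]
  -- solve `M x = det M • y`
  let y : Fin r → ℤ := fun i => lam (bT i)
  let x : Fin r → ℤ := M.adjugate.mulVec y
  have hx : M.mulVec x = M.det • y := by
    show M.mulVec (M.adjugate.mulVec y) = M.det • y
    rw [Matrix.mulVec_mulVec, Matrix.mul_adjugate, Matrix.smul_mulVec, Matrix.one_mulVec]
  refine ⟨M.det, ∑ j, x j • bL j, hdet, fun t => ?_⟩
  rw [hB_of_basis _ (fun i => M.det * lam (bT i)) (fun i => by
    rw [← hMv, hx]; rfl) t]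
  conv_rhs => rw [← bT.sum_repr t]
  simp only [map_sum, map_smul, smul_eq_mul, Finset.mul_sum]
  exact Finset.sum_congr rfl (fun i _ => by ring)

end dual

end Fermat.Agent.M16
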