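/-
M16 (S16 project), TOP: the Hecke identities of `σ'(k) = ∑_{d ∣ k, p ∤ d} d`.

* `m16t_sigma_one`     : `σ'(1) = 1`;
* `m16t_sigma_mul_p`   : `σ'(k p) = σ'(k)`;
* `m16t_sigma_mul_l`   : `σ'(k ℓ) + [ℓ ∣ k] ℓ σ'(k / ℓ) = (1 + ℓ) σ'(k)` for a prime `ℓ ≠ p`.
-/
import Mathlib
import Fermat.Agent.M16.TopDefs

set_option autoImplicit false

namespace Fermat.Agent.M16

theorem m16t_sigma_one (p : ℕ) (hp : p.Prime) : m16_sigma p 1 = 1 := by
  unfold m16_sigma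
  have h1 : ¬ p ∣ 1 := fun hd => (Nat.Prime.one_lt hp).ne' (Nat.dvd_one.mp hd)
  rw [Nat.divisors_one, Finset.filter_singleton, if_pos h1, Finset.sum_singleton]

theorem m16t_sigma_mul_p (p : ℕ) (hp : p.Prime) (k : ℕ) :
    m16_sigma p (k * p) = m16_sigma p k := by
  unfold m16_sigma
  rcases Nat.eq_zero_or_pos k with rfl | hk
  · simp
  apply Finset.sum_congr _ (fun _ _ => rfl)
  ext d
  simp only [Finset.mem_filter, Nat.mem_divisors]
  constructor
  · rintro ⟨⟨hd, _⟩, hpd⟩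
    have hcop : Nat.Coprime d p := (Nat.Coprime.symm ((Nat.Prime.coprime_iff_not_dvd hp).mpr hpd))
    exact ⟨⟨hcop.dvd_of_dvd_mul_right hd, hk.ne'⟩, hpd⟩
  · rintro ⟨⟨hd, _⟩, hpd⟩
    exact ⟨⟨Dvd.dvd.mul_right hd p, Nat.mul_ne_zero hk.ne' hp.ne_zero⟩, hpd⟩

/-- the weight function `g(d) = d` if `p ∤ d`, `0` otherwise -/
def m16t_g (p d : ℕ) : ℕ := if p ∣ d then 0 else d

theorem m16t_sigma_eq_sum_g (p k : ℕ) : m16_sigma p k = ∑ d ∈ k.divisors, m16t_g p d := by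
  unfold m16_sigma m16t_g
  rw [Finset.sum_filter]
  exact Finset.sum_congr rfl (fun d _ => by split_ifs <;> simp_all)

theorem m16t_g_mul (p : ℕ) (hp : p.Prime) (l : ℕ) (hl : l.Prime) (hlp : l ≠ p) (d : ℕ) :
    m16t_g p (d * l) = l * m16t_g p d := by
  unfold m16t_g
  have hpl : ¬ p ∣ l := fun h => hlp ((Nat.prime_dvd_prime_iff_eq hp hl).mp h).symm
  by_cases hd : p ∣ d
  · rw [if_pos (Dvd.dvd.mul_right hd l), if_pos hd, mul_zero]
  · rw [if_neg (fun h => (hp.dvd_mul.mp h).elim hd hpl), if_neg hd, mul_comm]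

theorem m16t_divisors_mul_prime (k l : ℕ) (hk : k ≠ 0) (hl : l.Prime) :
    (k * l).divisors = k.divisors ∪ k.divisors.image (· * l) := by
  ext d
  simp only [Nat.mem_divisors, Finset.mem_union, Finset.mem_image]
  constructor
  · rintro ⟨hd, _⟩
    by_cases hld : l ∣ d
    · obtain ⟨d', rfl⟩ := hld
      right
      refine ⟨d', ⟨?_, hk⟩, mul_comm _ _⟩
      rw [mul_comm l d'] at hd
      exact (Nat.mul_dvd_mul_iff_right hl.pos).mp hd
    · left
      have hcop : Nat.Coprime d l := (Nat.Coprime.symm ((Nat.Prime.coprime_iff_not_dvd hl).mpr hld))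
      exact ⟨hcop.dvd_of_dvd_mul_right hd, hk⟩
  · rintro (⟨hd, _⟩ | ⟨d', ⟨hd', _⟩, rfl⟩)
    · exact ⟨Dvd.dvd.mul_right hd l, Nat.mul_ne_zero hk hl.ne_zero⟩
    · exact ⟨Nat.mul_dvd_mul_right hd' l, Nat.mul_ne_zero hk hl.ne_zero⟩

theorem m16t_divisors_inter (k l : ℕ) (hk : k ≠ 0) (hl : l.Prime) :
    k.divisors ∩ k.divisors.image (· * l) =
      if l ∣ k then (k / l).divisors.image (· * l) else ∅ := by
  ext d
  split_ifs with hlk
  · simp only [Finset.mem_inter, Nat.mem_divisors, Finset.mem_image]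
    constructor
    · rintro ⟨⟨hd, _⟩, d', ⟨_, _⟩, rfl⟩
      refine ⟨d', ⟨?_, ?_⟩, rfl⟩
      · exact (Nat.dvd_div_iff_mul_dvd hlk).mpr (by rwa [mul_comm] at hd)
      · exact (Nat.div_pos (Nat.le_of_dvd (Nat.pos_of_ne_zero hk) hlk) hl.pos).ne'
    · rintro ⟨d', ⟨hd', _⟩, rfl⟩
      have h1 : d' * l ∣ k := by
        have := (Nat.dvd_div_iff_mul_dvd hlk).mp hd'
        rwa [mul_comm] at this
      exact ⟨⟨h1, hk⟩, d', ⟨(Dvd.intro _ rfl : d' ∣ d' * l).trans h1, hk⟩, rfl⟩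
  · simp only [Finset.mem_inter, Nat.mem_divisors, Finset.mem_image, Finset.notMem_empty,
      iff_false]
    rintro ⟨⟨hd, _⟩, d', _, rfl⟩
    exact hlk ((Dvd.intro_left _ rfl : l ∣ d' * l).trans hd)

theorem m16t_sum_image_mul (p : ℕ) (hp : p.Prime) (l : ℕ) (hl : l.Prime) (hlp : l ≠ p)
    (s : Finset ℕ) :
    ∑ d ∈ s.image (· * l), m16t_g p d = l * ∑ d ∈ s, m16t_g p d := by
  rw [Finset.sum_image (fun a _ b _ h => Nat.eq_of_mul_eq_mul_right hl.pos h), Finset.mul_sum]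
  exact Finset.sum_congr rfl (fun d _ => m16t_g_mul p hp l hl hlp d)

theorem m16t_sigma_mul_l (p : ℕ) (hp : p.Prime) (l : ℕ) (hl : l.Prime) (hlp : l ≠ p) (k : ℕ)
    (hk : k ≠ 0) :
    m16_sigma p (k * l) + (if l ∣ k then l * m16_sigma p (k / l) else 0) =
      (1 + l) * m16_sigma p k := by
  simp only [m16t_sigma_eq_sum_g]
  rw [m16t_divisors_mul_prime k l hk hl]
  have h := Finset.sum_union_inter (s₁ := k.divisors) (s₂ := k.divisors.image (· * l))
    (f := m16t_g p)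
  rw [m16t_divisors_inter k l hk hl, m16t_sum_image_mul p hp l hl hlp] at h
  split_ifs with hlk
  · rw [if_pos hlk, m16t_sum_image_mul p hp l hl hlp] at h
    rw [h]; ring
  · rw [if_neg hlk, Finset.sum_empty] at h
    rw [add_zero] at h ⊢
    rw [h]; ring

end Fermat.Agent.M16
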