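/-
M16 (S16 project), TOP: coefficient functionals on the integral lattice `L = intLattice p 2`
and the action of the Hecke generators on them.
-/
import Mathlib
import Fermat.Agent.M16.TopDefs
import Fermat.Agent.M16.TopSigma
import Fermat.Agent.S49.PartC
import Fermat.Prelude.Thm_UpperHalfPlane_eq_of_forall_qCoeff_eq

set_option autoImplicit false
set_option linter.unusedSectionVars false
set_option linter.style.haveILetI false

open CuspForm ModularCurve CongruenceSubgroup ModularFormClass

namespace Fermat.Agent.M16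

open Fermat.Agent.S49C

variable {p : ℕ} [Fact p.Prime]

/-- the `k`-th `q`-coefficient of an element of the integral lattice, as an integer -/
noncomputable def m16t_c (k : ℕ) (f : ↥(intLattice p 2)) : ℤ :=
  Classical.choose (isInt_of_mem_intLattice f.2 k)

theorem m16t_c_spec (k : ℕ) (f : ↥(intLattice p 2)) :
    qCoeff (⇑(f : CuspForm (Gamma0 p) 2)) k = ((m16t_c k f : ℤ) : ℂ) :=
  Classical.choose_spec (isInt_of_mem_intLattice f.2 k)

theorem m16t_c_eq {k : ℕ} {f : ↥(intLattice p 2)} {a : ℤ}
    (h : qCoeff (⇑(f : CuspForm (Gamma0 p) 2)) k = (a : ℂ)) : m16t_c k f = a := by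
  have := m16t_c_spec k f
  rw [h] at this
  exact_mod_cast this.symm

theorem m16t_c_add (k : ℕ) (f g : ↥(intLattice p 2)) :
    m16t_c k (f + g) = m16t_c k f + m16t_c k g := by
  apply m16t_c_eq
  rw [Submodule.coe_add, qCoeff_add, m16t_c_spec, m16t_c_spec]
  push_cast; ring

theorem m16t_c_zsmul (k : ℕ) (a : ℤ) (f : ↥(intLattice p 2)) :
    m16t_c k (a • f) = a * m16t_c k f := by
  apply m16t_c_eq
  rw [Submodule.coe_smul, ← Int.cast_smul_eq_zsmul ℂ a (f : CuspForm (Gamma0 p) 2), qCoeff_smul,
    m16t_c_spec]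
  push_cast; ring

theorem m16t_c_zero_index (f : ↥(intLattice p 2)) : m16t_c 0 f = 0 := by
  apply m16t_c_eq
  rw [qCoeff_zero_index]; simp

/-- the coefficient functional as a linear map -/
noncomputable def m16t_cLin (k : ℕ) : ↥(intLattice p 2) →ₗ[ℤ] ℤ where
  toFun := m16t_c k
  map_add' := m16t_c_add k
  map_smul' a f := by rw [m16t_c_zsmul]; rfl

theorem m16t_cLin_apply (k : ℕ) (f : ↥(intLattice p 2)) : m16t_cLin k f = m16t_c k f := rfl

/-- an element of the lattice all of whose coefficients vanish is zero -/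
theorem m16t_eq_zero_of_c (f : ↥(intLattice p 2)) (h : ∀ k, m16t_c k f = 0) : f = 0 := by
  apply Subtype.ext
  apply DFunLike.coe_injective
  have hper : ∀ g : CuspForm (Gamma0 p) 2,
      Function.Periodic ((⇑g : UpperHalfPlane → ℂ) ∘ UpperHalfPlane.ofComplex) 1 := fun g =>
    SlashInvariantFormClass.periodic_comp_ofComplex g
      (CongruenceSubgroup.one_mem_strictPeriods_Gamma0 p)
  refine UpperHalfPlane.eq_of_forall_qCoeff_eq (hper _) (CuspFormClass.holo _)
    (ModularFormClass.bdd_at_infty _) (hper 0) (CuspFormClass.holo _)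
    (ModularFormClass.bdd_at_infty _) (fun n => ?_)
  rw [m16t_c_spec, h]
  simp only [Int.cast_zero]
  exact (qCoeff_zero_form n).symm

/-- saturation: an element of the lattice all of whose coefficients are divisible by `N ≠ 0` is
`N` times an element of the lattice -/
theorem m16t_saturated (N : ℤ) (hN : N ≠ 0) (f : ↥(intLattice p 2))
    (h : ∀ k, N ∣ m16t_c k f) : ∃ g : ↥(intLattice p 2), f = N • g := by
  have hNC : (N : ℂ) ≠ 0 := by exact_mod_cast hN
  let g₀ : CuspForm (Gamma0 p) 2 := ((N : ℂ)⁻¹) • (f : CuspForm (Gamma0 p) 2)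
  have hg₀ : IsInt g₀ := by
    intro k
    obtain ⟨c, hc⟩ := h k
    refine ⟨c, ?_⟩
    rw [qCoeff_smul, m16t_c_spec, hc]
    push_cast
    field_simp
  refine ⟨⟨g₀, mem_intLattice_of_isInt hg₀⟩, Subtype.ext ?_⟩
  rw [Submodule.coe_smul]
  show (f : CuspForm (Gamma0 p) 2) = N • g₀
  rw [← Int.cast_smul_eq_zsmul ℂ N g₀, smul_smul, mul_inv_cancel₀ hNC, one_smul]

end Fermat.Agent.M16
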