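/-
M16 (S16 project), TOP: the two homomorphisms `ρ : ℤ[X_ℓ] → 𝕋` and `ε : ℤ[X_ℓ] → ℤ`, and the
action of the Hecke generators on the coefficient functionals.
-/
import Mathlib
import Fermat.Agent.M16.TopCoeff

set_option autoImplicit false
set_option linter.unusedSectionVars false
set_option linter.style.haveILetI false

open CuspForm ModularCurve CongruenceSubgroup ModularFormClass

namespace Fermat.Agent.M16

open Fermat.Agent.S49C

variable (p : ℕ) [Fact p.Prime]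

/-- `ρ : ℤ[X_ℓ] → 𝕋` -/
noncomputable def m16t_rho : HeckeAlg →+* ↥(heckeLatticeAlgebra p ∅) :=
  (latticeRestrictHom p ∅).toRingHom.comp (heckeEvalForms p 2)

/-- `ε : ℤ[X_ℓ] → ℤ`, the Eisenstein character -/
noncomputable def m16t_eps : HeckeAlg →+* ℤ :=
  (MvPolynomial.aeval (R := ℤ) (eisensteinSystem p)).toRingHom

theorem m16t_ker_eps : RingHom.ker (m16t_eps p) = eisensteinIdeal p := rfl

theorem m16t_eps_C (c : ℤ) : m16t_eps p (MvPolynomial.C c) = c := by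
  show MvPolynomial.aeval (R := ℤ) (eisensteinSystem p) (MvPolynomial.C c) = c
  rw [MvPolynomial.aeval_C]; rfl

theorem m16t_eps_X (l : Nat.Primes) : m16t_eps p (heckeGen l) = eisensteinSystem p l :=
  aeval_heckeGen _ l

theorem m16t_eps_surj : Function.Surjective (m16t_eps p) :=
  fun c => ⟨MvPolynomial.C c, m16t_eps_C p c⟩

theorem m16t_rho_surj : Function.Surjective (m16t_rho p) := by
  have h1 : Function.Surjective (heckeEvalForms p 2) := by
    rintro ⟨x, hx⟩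
    unfold heckeAlgebra at hx
    induction hx using Algebra.adjoin_induction with
    | mem x hx =>
      rcases hx with ⟨l, hl, hlN, -, rfl⟩ | ⟨q, hqN, hq, -, rfl⟩
      · refine ⟨heckeGen ⟨l, hl⟩, ?_⟩
        rw [heckeEvalForms_heckeGen_of_not_dvd (ℓ := (⟨l, hl⟩ : Nat.Primes)) hlN]
        rfl
      · refine ⟨heckeGen ⟨q, hq⟩, ?_⟩
        rw [heckeEvalForms_heckeGen_of_dvd (q := (⟨q, hq⟩ : Nat.Primes)) hqN]
        rfl
    | algebraMap r =>
      refine ⟨MvPolynomial.C r, ?_⟩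
      rw [heckeEvalForms_C]
      rfl
    | add x y hx hy hx' hy' =>
      obtain ⟨P, hP⟩ := hx'
      obtain ⟨Q, hQ⟩ := hy'
      refine ⟨P + Q, ?_⟩
      rw [map_add, hP, hQ]
      rfl
    | mul x y hx hy hx' hy' =>
      obtain ⟨P, hP⟩ := hx'
      obtain ⟨Q, hQ⟩ := hy'
      refine ⟨P * Q, ?_⟩
      rw [map_mul, hP, hQ]
      rfl
  exact (latticeRestrictHom_surjective p ∅).comp h1

variable {p}

theorem m16t_prime_dvd_iff (l : Nat.Primes) : (l : ℕ) ∣ p ↔ (l : ℕ) = p :=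
  Nat.prime_dvd_prime_iff_eq l.2 (Fact.out : p.Prime)

/-- the action of `ρ(X_ℓ)`, `ℓ ≠ p`, is the Hecke operator `T_ℓ` -/
theorem m16t_rho_X_coe_of_ne (l : Nat.Primes) (hl : ¬ (l : ℕ) ∣ p) (f : ↥(intLattice p 2)) :
    (((m16t_rho p (heckeGen l) : ↥(heckeLatticeAlgebra p ∅)) : Module.End ℤ ↥(intLattice p 2)) f :
      CuspForm (Gamma0 p) 2) = CuspForm.heckeTLin 2 l.2 hl (f : CuspForm (Gamma0 p) 2) := by
  unfold m16t_rho
  rw [RingHom.comp_apply, heckeEvalForms_heckeGen_of_not_dvd hl]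
  rfl

/-- the action of `ρ(X_p)` is the operator `U_p` -/
theorem m16t_rho_X_coe_self (l : Nat.Primes) (hl : (l : ℕ) ∣ p) (f : ↥(intLattice p 2)) :
    (((m16t_rho p (heckeGen l) : ↥(heckeLatticeAlgebra p ∅)) : Module.End ℤ ↥(intLattice p 2)) f :
      CuspForm (Gamma0 p) 2) = CuspForm.heckeULin 2 hl (f : CuspForm (Gamma0 p) 2) := by
  unfold m16t_rho
  rw [RingHom.comp_apply, heckeEvalForms_heckeGen_of_dvd hl]
  rfl

theorem m16t_c_rho_X_of_ne (l : Nat.Primes) (hl : ¬ (l : ℕ) ∣ p) (f : ↥(intLattice p 2))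
    (k : ℕ) :
    m16t_c k (((m16t_rho p (heckeGen l) : ↥(heckeLatticeAlgebra p ∅)) :
        Module.End ℤ ↥(intLattice p 2)) f) =
      m16t_c (k * l) f + if (l : ℕ) ∣ k then (l : ℤ) * m16t_c (k / l) f else 0 := by
  apply m16t_c_eq
  rw [m16t_rho_X_coe_of_ne l hl, qCoeff_heckeTLin, m16t_c_spec]
  split_ifs
  · rw [m16t_c_spec]; push_cast; ring
  · push_cast; ring

theorem m16t_c_rho_X_self (l : Nat.Primes) (hl : (l : ℕ) ∣ p) (f : ↥(intLattice p 2))
    (k : ℕ) :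
    m16t_c k (((m16t_rho p (heckeGen l) : ↥(heckeLatticeAlgebra p ∅)) :
        Module.End ℤ ↥(intLattice p 2)) f) = m16t_c (k * l) f := by
  apply m16t_c_eq
  rw [m16t_rho_X_coe_self l hl, qCoeff_heckeULin l.2 hl, m16t_c_spec]

end Fermat.Agent.M16
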