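/-
M16 (S16 project), TOP: the pairing `𝕋 × L → ℤ`, `(t, f) ↦ a₁(t f)`, its non-degeneracy, and the
propagation of congruences from `a₁(t f)` to all coefficients `a_k(t f)`.
-/
import Mathlib
import Fermat.Agent.M16.TopHecke

set_option autoImplicit false
set_option linter.unusedSectionVars false
set_option linter.style.haveILetI false

open CuspForm ModularCurve CongruenceSubgroup ModularFormClass

namespace Fermat.Agent.M16

variable {p : ℕ} [Fact p.Prime]

/-- the action of `𝕋` on `L` -/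
theorem m16t_mul_apply (s t : ↥(heckeLatticeAlgebra p ∅)) (f : ↥(intLattice p 2)) :
    ((s * t : ↥(heckeLatticeAlgebra p ∅)) : Module.End ℤ ↥(intLattice p 2)) f =
      (s : Module.End ℤ ↥(intLattice p 2)) ((t : Module.End ℤ ↥(intLattice p 2)) f) := rfl

theorem m16t_one_apply (f : ↥(intLattice p 2)) :
    ((1 : ↥(heckeLatticeAlgebra p ∅)) : Module.End ℤ ↥(intLattice p 2)) f = f := rfl

/-- **propagation of congruences**: if `a₁(t f) ≡ χ(t)` and `χ(T_ℓ t) ≡ eis(ℓ) χ(t)` modulo `m`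
for all `t`, then `a_k(t f) ≡ σ'(k) χ(t)` modulo `m` for all `k ≥ 1`. -/
theorem m16t_coeff_ind (f : ↥(intLattice p 2)) (m : ℤ) (χ : ↥(heckeLatticeAlgebra p ∅) → ℤ)
    (h1 : ∀ t : ↥(heckeLatticeAlgebra p ∅),
      m ∣ m16t_c 1 ((t : Module.End ℤ ↥(intLattice p 2)) f) - χ t)
    (h2 : ∀ (l : Nat.Primes) (t : ↥(heckeLatticeAlgebra p ∅)),
      m ∣ χ (m16t_rho p (heckeGen l) * t) - eisensteinSystem p l * χ t) :
    ∀ k : ℕ, 1 ≤ k → ∀ t : ↥(heckeLatticeAlgebra p ∅),
      m ∣ m16t_c k ((t : Module.End ℤ ↥(intLattice p 2)) f) - (m16_sigma p k : ℤ) * χ t := by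
  have hp : p.Prime := Fact.out
  intro k
  induction k using Nat.strong_induction_on with
  | _ k ih =>
    intro hk t
    rcases Nat.eq_or_lt_of_le hk with hk1 | hk1
    · rw [← hk1, m16t_sigma_one p hp]
      simpa using h1 t
    · -- `k ≥ 2`
      have hk2 : k ≠ 1 := by omega
      let l : Nat.Primes := ⟨k.minFac, Nat.minFac_prime hk2⟩
      obtain ⟨k', hk'⟩ : (l : ℕ) ∣ k := Nat.minFac_dvd k
      have hl2 : 2 ≤ (l : ℕ) := l.2.two_le
      have hk'pos : 1 ≤ k' := by
        rcases Nat.eq_zero_or_pos k' with h0 | h0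
        · rw [h0, mul_zero] at hk'; omega
        · exact h0
      have hk'lt : k' < k := by
        rw [hk']; nlinarith
      have hkk : k = k' * l := by rw [hk', mul_comm]
      have ih1 := ih k' hk'lt hk'pos (m16t_rho p (heckeGen l) * t)
      rw [m16t_mul_apply] at ih1
      have h2' := h2 l t
      obtain ⟨a1, ha1⟩ := ih1
      obtain ⟨a2, ha2⟩ := h2'
      by_cases hlp : (l : ℕ) ∣ p
      · -- `ℓ = p`
        have hlp' : (l : ℕ) = p := (m16t_prime_dvd_iff l).mp hlp
        rw [m16t_c_rho_X_self l hlp] at ha1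
        rw [eisensteinSystem_of_dvd hlp] at ha2
        have hs : m16_sigma p k = m16_sigma p k' := by
          rw [hkk, hlp', m16t_sigma_mul_p p hp]
        rw [hs, hkk]
        refine ⟨a1 + (m16_sigma p k' : ℤ) * a2, ?_⟩
        linear_combination ha1 + (m16_sigma p k' : ℤ) * ha2
      · -- `ℓ ≠ p`
        have hlp' : (l : ℕ) ≠ p := fun h => hlp (h ▸ dvd_refl _)
        rw [m16t_c_rho_X_of_ne l hlp] at ha1
        rw [eisensteinSystem_of_not_dvd hlp] at ha2
        have hS := m16t_sigma_mul_l p hp l l.2 hlp' k' (by omega)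
        rw [← hkk] at hS
        rw [← hkk] at ha1
        by_cases hlk : (l : ℕ) ∣ k'
        · rw [if_pos hlk] at ha1 hS
          have hq1 : 1 ≤ k' / l := Nat.div_pos (Nat.le_of_dvd hk'pos hlk) l.2.pos
          have hq2 : k' / l < k := lt_of_le_of_lt (Nat.div_le_self _ _) hk'lt
          obtain ⟨a3, ha3⟩ := ih (k' / l) hq2 hq1 t
          have hSZ : (m16_sigma p k : ℤ) + (l : ℤ) * (m16_sigma p (k' / l) : ℤ) =
              (1 + (l : ℤ)) * (m16_sigma p k' : ℤ) := by exact_mod_cast hS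
          refine ⟨a1 + (m16_sigma p k' : ℤ) * a2 - (l : ℤ) * a3, ?_⟩
          linear_combination ha1 + (m16_sigma p k' : ℤ) * ha2 - (l : ℤ) * ha3 - (χ t) * hSZ
        · rw [if_neg hlk] at ha1 hS
          have hSZ : (m16_sigma p k : ℤ) = (1 + (l : ℤ)) * (m16_sigma p k' : ℤ) := by
            exact_mod_cast hS
          refine ⟨a1 + (m16_sigma p k' : ℤ) * a2, ?_⟩
          linear_combination ha1 + (m16_sigma p k' : ℤ) * ha2 - (χ t) * hSZ

/-- the pairing `(t, f) ↦ a₁(t f)` -/
noncomputable def m16t_B : ↥(heckeLatticeAlgebra p ∅) →ₗ[ℤ] ↥(intLattice p 2) →ₗ[ℤ] ℤ :=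
  LinearMap.mk₂ ℤ (fun t f => m16t_c 1 ((t : Module.End ℤ ↥(intLattice p 2)) f))
    (fun s t f => by
      show m16t_c 1 (((s + t : ↥(heckeLatticeAlgebra p ∅)) : Module.End ℤ ↥(intLattice p 2)) f) = _
      rw [Subalgebra.coe_add, LinearMap.add_apply, m16t_c_add])
    (fun a t f => by
      show m16t_c 1 (((a • t : ↥(heckeLatticeAlgebra p ∅)) : Module.End ℤ ↥(intLattice p 2)) f) = _
      rw [Subalgebra.coe_smul, LinearMap.smul_apply, m16t_c_zsmul]; rfl)
    (fun t f g => by rw [map_add, m16t_c_add])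
    (fun a t f => by rw [map_zsmul, m16t_c_zsmul]; rfl)

theorem m16t_B_apply (t : ↥(heckeLatticeAlgebra p ∅)) (f : ↥(intLattice p 2)) :
    m16t_B t f = m16t_c 1 ((t : Module.End ℤ ↥(intLattice p 2)) f) := rfl

/-- non-degeneracy on the side of `L` -/
theorem m16t_N1 (f : ↥(intLattice p 2)) (h : ∀ t : ↥(heckeLatticeAlgebra p ∅), m16t_B t f = 0) :
    f = 0 := by
  apply m16t_eq_zero_of_c
  intro k
  rcases Nat.eq_zero_or_pos k with rfl | hk
  · exact m16t_c_zero_index f
  · have := m16t_coeff_ind f 0 (fun _ => 0) (fun t => by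
      rw [sub_zero, ← m16t_B_apply, h t]) (fun l t => by simp) k hk 1
    rw [m16t_one_apply, mul_zero, sub_zero] at this
    exact zero_dvd_iff.mp this

/-- non-degeneracy on the side of `𝕋` -/
theorem m16t_N2 (t : ↥(heckeLatticeAlgebra p ∅)) (h : ∀ f : ↥(intLattice p 2), m16t_B t f = 0) :
    t = 0 := by
  apply Subtype.ext
  apply LinearMap.ext
  intro f
  show (t : Module.End ℤ ↥(intLattice p 2)) f = 0
  apply m16t_N1
  intro s
  rw [m16t_B_apply, ← m16t_mul_apply, mul_comm, m16t_mul_apply, ← m16t_B_apply]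
  exact h _

/-- divisibility of all the values `a₁(t f)` by `N ≠ 0` forces `f ∈ N L` -/
theorem m16t_div (N : ℤ) (hN : N ≠ 0) (f : ↥(intLattice p 2))
    (h : ∀ t : ↥(heckeLatticeAlgebra p ∅), N ∣ m16t_B t f) :
    ∃ g : ↥(intLattice p 2), f = N • g := by
  apply m16t_saturated N hN
  intro k
  rcases Nat.eq_zero_or_pos k with rfl | hk
  · rw [m16t_c_zero_index]; exact dvd_zero _
  · have := m16t_coeff_ind f N (fun _ => 0) (fun t => by
      rw [sub_zero, ← m16t_B_apply]; exact h t) (fun l t => by simp) k hk 1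
    rwa [m16t_one_apply, mul_zero, sub_zero] at this

end Fermat.Agent.M16
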