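/-
M16 (S16 project), TOP, lower bound from (KEY): `ε (ker ρ) ⊆ n ℤ`.

The Hecke generators act on the finitely supported functionals `π : ℕ →₀ ℤ` (dual action on the
coefficient functionals): `T_ℓ^* δ_k = δ_{kℓ} + ℓ δ_{k/ℓ}`, `U_p^* δ_k = δ_{kp}`.  For every
`P ∈ ℤ[X_ℓ]` and every `π` there is `π'` with `⟨π', f⟩ = ⟨π, ρ(P) f⟩` for all `f ∈ L` and
`⟨π', σ'⟩ = ε(P) ⟨π, σ'⟩`.  If `ρ(P) = 0` then `π'` (for `π = δ_1`) is orthogonal to `L`, hence to
all cusp forms (S23), and (KEY) gives `n ∣ ⟨π', σ'⟩ = ε(P)`.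
-/
import Mathlib
import Fermat.Agent.M16.TopPair
import Fermat.Agent.M16.LbDefs
import Fermat.Agent.S23

set_option autoImplicit false
set_option linter.unusedSectionVars false
set_option linter.style.haveILetI false

open CuspForm ModularCurve CongruenceSubgroup ModularFormClass

namespace Fermat.Agent.M16

open Fermat.Agent.S49C

variable {p : ℕ} [Fact p.Prime]

/-- the pairing of a functional `π` with an integer sequence `h` -/
noncomputable def m16tk_ev (π : ℕ →₀ ℤ) (h : ℕ → ℤ) : ℤ := π.sum fun k a => a * h k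

/-- the dual Hecke operator `T_ℓ^*` on functionals -/
noncomputable def m16tk_T (l : ℕ) (π : ℕ →₀ ℤ) : ℕ →₀ ℤ :=
  π.sum fun k a => Finsupp.single (k * l) a +
    if l ∣ k then Finsupp.single (k / l) ((l : ℤ) * a) else 0

/-- the dual operator `U_p^*` on functionals -/
noncomputable def m16tk_U (l : ℕ) (π : ℕ →₀ ℤ) : ℕ →₀ ℤ :=
  π.sum fun k a => Finsupp.single (k * l) a

theorem m16tk_ev_T (l : ℕ) (π : ℕ →₀ ℤ) (h : ℕ → ℤ) :
    m16tk_ev (m16tk_T l π) h =
      m16tk_ev π (fun k => h (k * l) + if l ∣ k then (l : ℤ) * h (k / l) else 0) := by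
  unfold m16tk_ev m16tk_T
  rw [Finsupp.sum_sum_index (fun a => by simp) (fun a b₁ b₂ => by ring)]
  refine Finsupp.sum_congr (fun k _ => ?_)
  by_cases hlk : l ∣ k
  · simp only [if_pos hlk]
    rw [Finsupp.sum_add_index' (fun a => by simp) (fun a b₁ b₂ => by ring),
      Finsupp.sum_single_index (by simp), Finsupp.sum_single_index (by simp)]
    ring
  · simp only [if_neg hlk]
    rw [add_zero, add_zero, Finsupp.sum_single_index (by simp)]

theorem m16tk_ev_U (l : ℕ) (π : ℕ →₀ ℤ) (h : ℕ → ℤ) :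
    m16tk_ev (m16tk_U l π) h = m16tk_ev π (fun k => h (k * l)) := by
  unfold m16tk_ev m16tk_U
  rw [Finsupp.sum_sum_index (fun a => by simp) (fun a b₁ b₂ => by ring)]
  refine Finsupp.sum_congr (fun k _ => ?_)
  rw [Finsupp.sum_single_index (by simp)]

theorem m16tk_ev_add (π₁ π₂ : ℕ →₀ ℤ) (h : ℕ → ℤ) :
    m16tk_ev (π₁ + π₂) h = m16tk_ev π₁ h + m16tk_ev π₂ h := by
  unfold m16tk_ev
  rw [Finsupp.sum_add_index' (fun a => by simp) (fun a b₁ b₂ => by ring)]

theorem m16tk_ev_smul (c : ℤ) (π : ℕ →₀ ℤ) (h : ℕ → ℤ) :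
    m16tk_ev (c • π) h = c * m16tk_ev π h := by
  unfold m16tk_ev
  rw [Finsupp.sum_smul_index (fun a => by simp), Finsupp.mul_sum]
  refine Finsupp.sum_congr (fun k _ => ?_)
  ring

theorem m16tk_ev_congr (π : ℕ →₀ ℤ) (h₁ h₂ : ℕ → ℤ) (h : ∀ k, h₁ k = h₂ k) :
    m16tk_ev π h₁ = m16tk_ev π h₂ := by
  have : h₁ = h₂ := funext h
  rw [this]

theorem m16tk_ev_mul_right (c : ℤ) (π : ℕ →₀ ℤ) (h : ℕ → ℤ) :
    m16tk_ev π (fun k => c * h k) = c * m16tk_ev π h := by
  unfold m16tk_ev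
  rw [Finsupp.mul_sum]
  refine Finsupp.sum_congr (fun k _ => ?_)
  ring

theorem m16tk_ev_add_right (π : ℕ →₀ ℤ) (h₁ h₂ : ℕ → ℤ) :
    m16tk_ev π (fun k => h₁ k + h₂ k) = m16tk_ev π h₁ + m16tk_ev π h₂ := by
  unfold m16tk_ev Finsupp.sum
  rw [← Finset.sum_add_distrib]
  refine Finset.sum_congr rfl (fun k _ => ?_)
  ring

theorem m16tk_ev_single (k : ℕ) (a : ℤ) (h : ℕ → ℤ) :
    m16tk_ev (Finsupp.single k a) h = a * h k := by
  unfold m16tk_ev
  rw [Finsupp.sum_single_index (by simp)]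

theorem m16tk_ev_erase (π : ℕ →₀ ℤ) (h : ℕ → ℤ) (h0 : h 0 = 0) :
    m16tk_ev (Finsupp.erase 0 π) h = m16tk_ev π h := by
  unfold m16tk_ev
  have := Finsupp.add_sum_erase' π 0 (fun k a => a * h k) (fun i => by simp)
  rw [← this, h0, mul_zero, zero_add]

theorem m16tk_sigma_zero (p : ℕ) : m16_sigma p 0 = 0 := by
  unfold m16_sigma
  simp

theorem m16tk_pair_eq (π : ℕ →₀ ℤ) :
    m16lb_pair p π = m16tk_ev π (fun k => (m16_sigma p k : ℤ)) := rfl

/-- the statement of the dual action for a polynomial `P` -/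
def m16tk_Dual (p : ℕ) [Fact p.Prime] (P : HeckeAlg) : Prop :=
  ∀ π : ℕ →₀ ℤ, ∃ π' : ℕ →₀ ℤ,
    (∀ f : ↥(intLattice p 2), m16tk_ev π' (fun k => m16t_c k f) =
      m16tk_ev π (fun k => m16t_c k
        (((m16t_rho p P : ↥(heckeLatticeAlgebra p ∅)) : Module.End ℤ ↥(intLattice p 2)) f))) ∧
    m16tk_ev π' (fun k => (m16_sigma p k : ℤ)) =
      m16t_eps p P * m16tk_ev π (fun k => (m16_sigma p k : ℤ))

theorem m16tk_dual_C (c : ℤ) : m16tk_Dual p (MvPolynomial.C c) := by
  intro π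
  refine ⟨c • π, fun f => ?_, ?_⟩
  · have : m16t_rho p (MvPolynomial.C c) = c • (1 : ↥(heckeLatticeAlgebra p ∅)) := by
      rw [← MvPolynomial.algebraMap_eq, eq_intCast, map_intCast, zsmul_eq_mul, mul_one]
    rw [this, Subalgebra.coe_smul, LinearMap.smul_apply, m16tk_ev_smul]
    have h1 : ((1 : ↥(heckeLatticeAlgebra p ∅)) : Module.End ℤ ↥(intLattice p 2)) f = f := rfl
    rw [h1, ← m16tk_ev_mul_right]
    exact m16tk_ev_congr _ _ _ (fun k => (m16t_c_zsmul k c f).symm)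
  · rw [m16tk_ev_smul, m16t_eps_C]

theorem m16tk_dual_add (P Q : HeckeAlg) (hP : m16tk_Dual p P) (hQ : m16tk_Dual p Q) :
    m16tk_Dual p (P + Q) := by
  intro π
  obtain ⟨π₁, h1, h1'⟩ := hP π
  obtain ⟨π₂, h2, h2'⟩ := hQ π
  refine ⟨π₁ + π₂, fun f => ?_, ?_⟩
  · have h3 : m16t_rho p (P + Q) = m16t_rho p P + m16t_rho p Q := map_add _ _ _
    rw [m16tk_ev_add, h1 f, h2 f, h3, Subalgebra.coe_add, LinearMap.add_apply,
      ← m16tk_ev_add_right]
    exact m16tk_ev_congr _ _ _ (fun k => (m16t_c_add k _ _).symm)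
  · have h3 : m16t_eps p (P + Q) = m16t_eps p P + m16t_eps p Q := map_add _ _ _
    rw [m16tk_ev_add, h1', h2', h3]; ring

theorem m16tk_dual_mul_X (P : HeckeAlg) (l : Nat.Primes) (hP : m16tk_Dual p P) :
    m16tk_Dual p (P * MvPolynomial.X l) := by
  have hp : p.Prime := Fact.out
  intro π
  obtain ⟨π₁, h1, h1'⟩ := hP π
  have hmul : ∀ f : ↥(intLattice p 2),
      ((m16t_rho p (P * MvPolynomial.X l) : ↥(heckeLatticeAlgebra p ∅)) :
        Module.End ℤ ↥(intLattice p 2)) f =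
      ((m16t_rho p P : ↥(heckeLatticeAlgebra p ∅)) : Module.End ℤ ↥(intLattice p 2))
        (((m16t_rho p (heckeGen l) : ↥(heckeLatticeAlgebra p ∅)) :
          Module.End ℤ ↥(intLattice p 2)) f) := by
    intro f
    have : m16t_rho p (P * MvPolynomial.X l) = m16t_rho p P * m16t_rho p (heckeGen l) :=
      map_mul _ _ _
    rw [this, m16t_mul_apply]
  have heps : m16t_eps p (P * MvPolynomial.X l) = m16t_eps p P * eisensteinSystem p l := by
    have : m16t_eps p (P * MvPolynomial.X l) = m16t_eps p P * m16t_eps p (heckeGen l) :=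
      map_mul _ _ _
    rw [this, m16t_eps_X]
  by_cases hlp : (l : ℕ) ∣ p
  · -- `ℓ = p`
    have hlp' : (l : ℕ) = p := (m16t_prime_dvd_iff l).mp hlp
    refine ⟨m16tk_U l π₁, fun f => ?_, ?_⟩
    · rw [m16tk_ev_U, hmul f, ← h1]
      exact m16tk_ev_congr _ _ _ (fun k => (m16t_c_rho_X_self l hlp f k).symm)
    · rw [m16tk_ev_U, heps, eisensteinSystem_of_dvd hlp, mul_one, ← h1']
      exact m16tk_ev_congr _ _ _ (fun k => by rw [hlp', m16t_sigma_mul_p p hp])
  · -- `ℓ ≠ p`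
    have hlp' : (l : ℕ) ≠ p := fun h => hlp (h ▸ dvd_refl _)
    refine ⟨m16tk_T l π₁, fun f => ?_, ?_⟩
    · rw [m16tk_ev_T, hmul f, ← h1]
      exact m16tk_ev_congr _ _ _ (fun k => (m16t_c_rho_X_of_ne l hlp f k).symm)
    · rw [m16tk_ev_T, heps, eisensteinSystem_of_not_dvd hlp]
      have hre : m16t_eps p P * (1 + (l : ℤ)) * m16tk_ev π (fun k => (m16_sigma p k : ℤ)) =
          (1 + (l : ℤ)) * m16tk_ev π₁ (fun k => (m16_sigma p k : ℤ)) := by
        rw [h1']; ring
      rw [hre, ← m16tk_ev_mul_right]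
      refine m16tk_ev_congr _ _ _ (fun k => ?_)
      rcases Nat.eq_zero_or_pos k with rfl | hk
      · simp [m16tk_sigma_zero]
      · have hS := m16t_sigma_mul_l p hp l l.2 hlp' k (by omega)
        split_ifs with hlk
        · rw [if_pos hlk] at hS
          exact_mod_cast hS
        · rw [if_neg hlk] at hS
          rw [add_zero]
          exact_mod_cast hS

theorem m16tk_dual_all (P : HeckeAlg) : m16tk_Dual p P := by
  induction P using MvPolynomial.induction_on with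
  | C a => exact m16tk_dual_C a
  | add P Q hP hQ => exact m16tk_dual_add P Q hP hQ
  | mul_X P l hP => exact m16tk_dual_mul_X P l hP

/-- the coefficients of `0 ∈ L` -/
theorem m16tk_c_zero (k : ℕ) : m16t_c k (0 : ↥(intLattice p 2)) = 0 := by
  have := m16t_c_zsmul k 0 (0 : ↥(intLattice p 2))
  simpa using this

/-- a functional which kills the coefficient sequences of all elements of `L` kills the
coefficient sequences of all cusp forms. -/
theorem m16tk_orth_of_lattice (π : ℕ →₀ ℤ)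
    (h : ∀ f : ↥(intLattice p 2), m16tk_ev π (fun k => m16t_c k f) = 0)
    (f : CuspForm (Gamma0 p) 2) :
    (π.sum fun k a => (a : ℂ) * qCoeff (⇑f) k) = 0 := by
  have hint : HasIntegralStructure p 2 := Fermat.Agent.S23.result p
  have hf : f ∈ Submodule.span ℂ
      ((intLattice p 2 : Submodule ℤ (CuspForm (Gamma0 p) 2)) : Set (CuspForm (Gamma0 p) 2)) := by
    unfold HasIntegralStructure at hint
    rw [hint]; exact Submodule.mem_top
  induction hf using Submodule.span_induction with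
  | mem x hx =>
    have := h ⟨x, hx⟩
    unfold m16tk_ev Finsupp.sum at this
    unfold Finsupp.sum
    have h2 : ∀ k ∈ π.support, ((π k : ℤ) : ℂ) * qCoeff (⇑x) k =
        (((π k * m16t_c k (⟨x, hx⟩ : ↥(intLattice p 2)) : ℤ)) : ℂ) := by
      intro k _
      rw [Int.cast_mul, ← m16t_c_spec k (⟨x, hx⟩ : ↥(intLattice p 2))]
    rw [Finset.sum_congr rfl h2, ← Int.cast_sum, this, Int.cast_zero]
  | zero =>
    unfold Finsupp.sum
    exact Finset.sum_eq_zero (fun k _ => by beta_reduce; rw [qCoeff_zero_form, mul_zero])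
  | add x y _ _ hx hy =>
    have hxy : (π.sum fun k a => (a : ℂ) * qCoeff (⇑(x + y)) k) =
        (π.sum fun k a => (a : ℂ) * qCoeff (⇑x) k) +
          (π.sum fun k a => (a : ℂ) * qCoeff (⇑y) k) := by
      unfold Finsupp.sum
      rw [← Finset.sum_add_distrib]
      exact Finset.sum_congr rfl (fun k _ => by beta_reduce; rw [qCoeff_add]; ring)
    rw [hxy, hx, hy, add_zero]
  | smul c x _ hx =>
    have hcx : (π.sum fun k a => (a : ℂ) * qCoeff (⇑(c • x)) k) =
        c * (π.sum fun k a => (a : ℂ) * qCoeff (⇑x) k) := by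
      unfold Finsupp.sum
      rw [Finset.mul_sum]
      exact Finset.sum_congr rfl (fun k _ => by beta_reduce; rw [qCoeff_smul]; ring)
    rw [hcx, hx, mul_zero]

/-- **lower bound from (KEY)**: `ε (ker ρ) ⊆ n ℤ`. -/
theorem m16t_lower_key (hKEY : m16lb_KEY) (P : HeckeAlg) (hP : m16t_rho p P = 0) :
    (eisensteinNumerator p : ℤ) ∣ m16t_eps p P := by
  have hp : p.Prime := Fact.out
  obtain ⟨π', h1, h2⟩ := m16tk_dual_all (p := p) P (Finsupp.single 1 1)
  -- `π'` kills `L`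
  have h1' : ∀ f : ↥(intLattice p 2), m16tk_ev π' (fun k => m16t_c k f) = 0 := by
    intro f
    rw [h1 f, hP, m16tk_ev_single]
    have : ((0 : ↥(heckeLatticeAlgebra p ∅)) : Module.End ℤ ↥(intLattice p 2)) f = 0 := rfl
    rw [this, m16tk_c_zero, mul_zero]
  -- remove the value at `0`
  have h1'' : ∀ f : ↥(intLattice p 2),
      m16tk_ev (Finsupp.erase 0 π') (fun k => m16t_c k f) = 0 := by
    intro f
    rw [m16tk_ev_erase _ _ (m16t_c_zero_index f)]
    exact h1' f
  have horth : m16lb_Orth p (Finsupp.erase 0 π') :=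
    ⟨Finsupp.erase_same, fun f => m16tk_orth_of_lattice _ h1'' f⟩
  have hdvd := hKEY p (Finsupp.erase 0 π') horth
  rw [m16tk_pair_eq, m16tk_ev_erase _ _ (by exact_mod_cast m16tk_sigma_zero p), h2,
    m16tk_ev_single, m16t_sigma_one p hp] at hdvd
  simpa using hdvd

end Fermat.Agent.M16
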