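/-
M16 (S16 project), TOP, upper bound: `n ∈ ε (ker ρ)` from (UBF), by the perfect pairing
`𝕋 × L → ℤ`.
-/
import Mathlib
import Fermat.Agent.M16.TopAlg
import Fermat.Agent.M16.TopPair

set_option autoImplicit false
set_option linter.unusedSectionVars false
set_option linter.style.haveILetI false

open CuspForm ModularCurve CongruenceSubgroup ModularFormClass

namespace Fermat.Agent.M16

open Fermat.Agent.S49C

variable {p : ℕ} [Fact p.Prime]

/-- the Eisenstein character modulo `m`, where `ε (ker ρ) ⊆ m ℤ`, is represented by an element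
of the lattice: there is `f ∈ L` which is congruent to the Eisenstein series modulo `m`. -/
theorem m16t_exists_cong (m : ℕ)
    (hm : ∀ P : HeckeAlg, m16t_rho p P = 0 → (m : ℤ) ∣ m16t_eps p P) :
    ∃ f : CuspForm (Gamma0 p) 2, m16_IsEisCong f m := by
  classical
  have hp : p.Prime := Fact.out
  -- the character `φ : 𝕋 → ZMod m`
  let g : HeckeAlg →+* ZMod m := (Int.castRingHom (ZMod m)).comp (m16t_eps p)
  have hg : RingHom.ker (m16t_rho p) ≤ RingHom.ker g := by
    intro P hP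
    rw [RingHom.mem_ker] at hP ⊢
    show ((m16t_eps p P : ℤ) : ZMod m) = 0
    exact (ZMod.intCast_zmod_eq_zero_iff_dvd _ _).mpr (hm P hP)
  let φ : ↥(heckeLatticeAlgebra p ∅) →+* ZMod m :=
    RingHom.liftOfSurjective (m16t_rho p) (m16t_rho_surj p) ⟨g, hg⟩
  have hφ : ∀ P : HeckeAlg, φ (m16t_rho p P) = ((m16t_eps p P : ℤ) : ZMod m) := by
    intro P
    exact RingHom.liftOfRightInverse_comp_apply (m16t_rho p) _
      (Function.rightInverse_surjInv (m16t_rho_surj p)) ⟨g, hg⟩ P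
  -- a linear lift `φ̃ : 𝕋 → ℤ`
  obtain ⟨φt, hφt⟩ := Module.projective_lifting_property
    ((Int.castAddHom (ZMod m)).toIntLinearMap) (φ.toAddMonoidHom.toIntLinearMap)
    (fun z => ZMod.intCast_surjective z)
  have hφt' : ∀ t : ↥(heckeLatticeAlgebra p ∅), ((φt t : ℤ) : ZMod m) = φ t := by
    intro t
    exact congrArg (fun ψ : ↥(heckeLatticeAlgebra p ∅) →ₗ[ℤ] ZMod m => ψ t) hφt
  -- duality
  haveI := intLattice.moduleFree p
  haveI := intLattice.moduleFinite p
  obtain ⟨N, f₁, hN, hf₁⟩ := m16t_dual (m16t_B (p := p)) m16t_N1 m16t_N2 φt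
  obtain ⟨f₀, hf₀⟩ := m16t_div N hN f₁ (fun t => ⟨φt t, hf₁ t⟩)
  have hB : ∀ t : ↥(heckeLatticeAlgebra p ∅), m16t_B t f₀ = φt t := by
    intro t
    have h1 := hf₁ t
    rw [hf₀, map_zsmul, smul_eq_mul] at h1
    exact mul_left_cancel₀ hN h1
  -- propagate
  have key := m16t_coeff_ind f₀ (m : ℤ) (fun t => φt t)
    (fun t => by rw [← m16t_B_apply, hB t, sub_self]; exact dvd_zero _)
    (fun l t => by
      rw [← ZMod.intCast_zmod_eq_zero_iff_dvd]
      push_cast
      rw [hφt', hφt', map_mul, hφ, m16t_eps_X, sub_self])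
  refine ⟨(f₀ : CuspForm (Gamma0 p) 2), fun k hk => ?_⟩
  obtain ⟨c, hc⟩ := key k hk 1
  rw [m16t_one_apply] at hc
  -- `φt 1 ≡ 1`
  have h1 : (m : ℤ) ∣ φt 1 - 1 := by
    rw [← ZMod.intCast_zmod_eq_zero_iff_dvd]
    push_cast
    rw [hφt', map_one, sub_self]
  obtain ⟨d, hd⟩ := h1
  refine ⟨c + (m16_sigma p k : ℤ) * d, ?_⟩
  rw [m16t_c_spec]
  have : m16t_c k f₀ = (m16_sigma p k : ℤ) + (m : ℤ) * (c + (m16_sigma p k : ℤ) * d) := by
    linear_combination hc + (m16_sigma p k : ℤ) * hd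
  rw [this]
  push_cast
  ring

/-- **upper bound**: `n ∈ ε (ker ρ)` from (UBF) -/
theorem m16t_upper (hUB : m16_UBF) :
    ∃ P : HeckeAlg, m16t_rho p P = 0 ∧ m16t_eps p P = (eisensteinNumerator p : ℤ) := by
  classical
  let J : Ideal ℤ := Ideal.map (m16t_eps p) (RingHom.ker (m16t_rho p))
  have hJ : ∀ x : ℤ, x ∈ J ↔ ∃ P : HeckeAlg, m16t_rho p P = 0 ∧ m16t_eps p P = x := by
    intro x
    rw [Ideal.mem_map_iff_of_surjective _ (m16t_eps_surj p)]
    simp only [RingHom.mem_ker]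
  obtain ⟨⟨g, hg⟩⟩ := IsPrincipalIdealRing.principal J
  have hg' : J = Ideal.span {(g.natAbs : ℤ)} := by
    rw [hg, Int.span_natAbs]
  have hm : ∀ P : HeckeAlg, m16t_rho p P = 0 → (g.natAbs : ℤ) ∣ m16t_eps p P := by
    intro P hP
    have : m16t_eps p P ∈ J := (hJ _).mpr ⟨P, hP, rfl⟩
    rw [hg'] at this
    exact Ideal.mem_span_singleton.mp this
  obtain ⟨f, hf⟩ := m16t_exists_cong g.natAbs hm
  have hdvd : g.natAbs ∣ eisensteinNumerator p := hUB p f g.natAbs hf
  apply (hJ _).mp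
  rw [hg']
  exact Ideal.mem_span_singleton.mpr (by exact_mod_cast hdvd)

end Fermat.Agent.M16
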