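/-
M16 (S16 project), TOP: **S16 from (UBF) and (KEY)** (or from (UBF) and (LBF)).

`m16_main (hUB : m16_UBF) (hKEY : m16lb_KEY) p :
   Nat.card (𝕋 ⧸ ρ(I_eis)) = eisensteinNumerator p`

where `𝕋 = heckeLatticeAlgebra p ∅`, `ρ : ℤ[X_ℓ] → 𝕋` and `I_eis = eisensteinIdeal p = ker ε`.
By `m16t_card` it suffices to know `ε (ker ρ) = n ℤ`: the inclusion `⊆` is `m16t_lower_key`
(resp. `m16t_lower`), and `n ∈ ε (ker ρ)` is `m16t_upper`.
-/
import Mathlib
import Fermat.Agent.M16.TopAlg
import Fermat.Agent.M16.TopLower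
import Fermat.Agent.M16.TopUpper
import Fermat.Agent.M16.TopKey

set_option autoImplicit false
set_option linter.unusedSectionVars false
set_option linter.style.haveILetI false

open CuspForm ModularCurve CongruenceSubgroup ModularFormClass

namespace Fermat.Agent.M16

theorem m16t_numerator_ne_zero (p : ℕ) (hp : p.Prime) : eisensteinNumerator p ≠ 0 := by
  unfold eisensteinNumerator
  have hpos : 0 < p - 1 := Nat.sub_pos_of_lt hp.one_lt
  exact (Nat.div_pos (Nat.le_of_dvd hpos (Nat.gcd_dvd_left _ _))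
    (Nat.gcd_pos_of_pos_left _ hpos)).ne'

/-- the cardinality statement in terms of `ρ` and `ε` -/
theorem m16t_main_aux (p : ℕ) [Fact p.Prime]
    (h1 : ∀ P : HeckeAlg, m16t_rho p P = 0 → (eisensteinNumerator p : ℤ) ∣ m16t_eps p P)
    (h2 : ∃ P : HeckeAlg, m16t_rho p P = 0 ∧ m16t_eps p P = (eisensteinNumerator p : ℤ)) :
    Nat.card (↥(heckeLatticeAlgebra p ∅) ⧸
        Ideal.map ((latticeRestrictHom p ∅).toRingHom.comp (heckeEvalForms p 2))
          (eisensteinIdeal p)) = eisensteinNumerator p := by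
  have h := m16t_card (m16t_rho p) (m16t_rho_surj p) (m16t_eps p) (m16t_eps_surj p)
    (eisensteinNumerator p) h1 h2
  rw [m16t_ker_eps] at h
  exact h

/-- **S16 from (UBF) and (KEY)** -/
theorem m16_main (hUB : m16_UBF) (hKEY : m16lb_KEY) (p : ℕ) [Fact p.Prime] :
    Nat.card (↥(heckeLatticeAlgebra p ∅) ⧸
        Ideal.map ((latticeRestrictHom p ∅).toRingHom.comp (heckeEvalForms p 2))
          (eisensteinIdeal p)) = eisensteinNumerator p :=
  m16t_main_aux p (fun P hP => m16t_lower_key hKEY P hP) (m16t_upper hUB)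

/-- **S16 from (UBF) and (LBF)** -/
theorem m16_main_of_lbf (hUB : m16_UBF) (hLB : m16_LBF) (p : ℕ) [Fact p.Prime] :
    Nat.card (↥(heckeLatticeAlgebra p ∅) ⧸
        Ideal.map ((latticeRestrictHom p ∅).toRingHom.comp (heckeEvalForms p 2))
          (eisensteinIdeal p)) = eisensteinNumerator p := by
  obtain ⟨f, hf⟩ := hLB p
  exact m16t_main_aux p
    (fun P hP => m16t_lower (eisensteinNumerator p)
      (m16t_numerator_ne_zero p Fact.out) f hf P hP) (m16t_upper hUB)

end Fermat.Agent.M16
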