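/-
M16 (S16 project), upper bound (helper7): the purely arithmetic end of the upper bound.

If `24 m ∣ p ^ 11 (p ^ 2 - 1)`, `m ∣ p ^ 2 - 1` and no prime `ℓ ∣ m` satisfies
`ℓ ^ e ∣ p + 1` (`e = 3, 2, 1` for `ℓ = 2`, `ℓ = 3`, `ℓ ≥ 5`), then
`m ∣ (p - 1) / gcd (p - 1, 12)`.
-/
import Mathlib

set_option autoImplicit false

namespace Fermat.Agent.M16

theorem m16uba_not_dvd_twelve (ℓ : ℕ) (hℓ : ℓ.Prime) (h5 : 5 ≤ ℓ) : ¬ ℓ ∣ 12 := by
  intro h
  have hle := Nat.le_of_dvd (by norm_num) h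
  interval_cases ℓ <;> first | (exact absurd h (by decide)) | (exact absurd hℓ (by decide))

theorem m16uba_arith_small (p m : ℕ) (hp23 : p = 2 ∨ p = 3)
    (hA : 24 * m ∣ p ^ 11 * (p ^ 2 - 1)) (hB : m ∣ p ^ 2 - 1) :
    m ∣ (p - 1) / Nat.gcd (p - 1) 12 := by
  rcases hp23 with rfl | rfl
  · have h3 : m ∣ 3 := by simpa using hB
    have hm : m ≤ 3 := Nat.le_of_dvd (by norm_num) h3
    interval_cases m
    · simp at h3
    · simp
    · norm_num at h3
    · exfalso
      revert hA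
      decide
  · have h8 : m ∣ 8 := by simpa using hB
    have hm : m ≤ 8 := Nat.le_of_dvd (by norm_num) h8
    interval_cases m
    all_goals first
      | (exfalso; revert h8; decide)
      | (exfalso; revert hA; decide)
      | simp

theorem m16uba_arith (p m : ℕ) (hp : p.Prime) (hA : 24 * m ∣ p ^ 11 * (p ^ 2 - 1))
    (hB : m ∣ p ^ 2 - 1)
    (H2 : p % 8 = 7 → ¬ 2 ∣ m) (H3 : 9 ∣ p + 1 → ¬ 3 ∣ m)
    (Hl : ∀ ℓ : ℕ, ℓ.Prime → 5 ≤ ℓ → ℓ ∣ p + 1 → ¬ ℓ ∣ m) :
    m ∣ (p - 1) / Nat.gcd (p - 1) 12 := by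
  by_cases hp23 : p = 2 ∨ p = 3
  · exact m16uba_arith_small p m hp23 hA hB
  push Not at hp23
  have hp5 : 5 ≤ p := by
    have h2 := hp.two_le
    have h4 : p ≠ 4 := by
      rintro rfl
      exact absurd hp (by decide)
    omega
  have hpodd : p % 2 = 1 := by
    rcases hp.eq_two_or_odd with h | h
    · omega
    · exact h
  have hp3 : p % 3 ≠ 0 := by
    intro h
    have : 3 ∣ p := Nat.dvd_of_mod_eq_zero h
    have := (Nat.prime_dvd_prime_iff_eq Nat.prime_three hp).mp this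
    omega
  -- `p ^ 2 - 1 = (p - 1) (p + 1)`
  have hfac : p ^ 2 - 1 = (p - 1) * (p + 1) := by
    have : 1 ≤ p := hp.one_le
    zify [this, Nat.one_le_pow 2 p this]
    ring
  have hP0 : p ^ 2 - 1 ≠ 0 := by
    rw [hfac]
    have : 0 < p - 1 := by omega
    positivity
  have hm0 : m ≠ 0 := by
    rintro rfl
    exact hP0 (by simpa using hB)
  have hA0 : p - 1 ≠ 0 := by omega
  have hB0 : p + 1 ≠ 0 := by omega
  -- `24 m ∣ (p - 1) (p + 1)`
  have hcop : Nat.Coprime (24 * m) (p ^ 11) := by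
    apply Nat.Coprime.pow_right
    apply Nat.Coprime.symm
    rw [Nat.Prime.coprime_iff_not_dvd hp]
    intro hdvd
    rcases (Nat.Prime.dvd_mul hp).mp hdvd with h | h
    · have : p ≤ 24 := Nat.le_of_dvd (by norm_num) h
      interval_cases p <;> simp_all
    · have h1 : p ∣ p ^ 2 - 1 := dvd_trans h hB
      have h2 : p ∣ p ^ 2 := dvd_pow_self p (by norm_num)
      have h3 : p ∣ 1 := by
        have := (Nat.dvd_sub h2 h1)
        rwa [Nat.sub_sub_self (Nat.one_le_pow 2 p hp.one_le)] at this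
      exact hp.one_lt.ne' (Nat.dvd_one.mp h3)
  have hdvd : 24 * m ∣ (p - 1) * (p + 1) := by
    rw [← hfac]
    exact hcop.dvd_of_dvd_mul_left hA
  set g := Nat.gcd (p - 1) 12 with hg
  have hg0 : g ≠ 0 := by
    intro h
    have := Nat.gcd_eq_zero_iff.mp h
    omega
  have hgA : g ∣ p - 1 := Nat.gcd_dvd_left _ _
  have hg12 : g ∣ 12 := Nat.gcd_dvd_right _ _
  -- it suffices `m * g ∣ p - 1`
  suffices hs : m * g ∣ p - 1 by
    obtain ⟨c, hc⟩ := hs
    refine ⟨c, ?_⟩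
    apply Nat.div_eq_of_eq_mul_right (Nat.pos_of_ne_zero hg0)
    rw [hc]; ring
  rw [← Nat.factorization_le_iff_dvd (mul_ne_zero hm0 hg0) hA0, Finsupp.le_def]
  intro ℓ
  by_cases hℓ : ℓ.Prime
  swap
  · rw [Nat.factorization_eq_zero_of_not_prime _ hℓ]
    exact Nat.zero_le _
  rw [Nat.factorization_mul hm0 hg0, Finsupp.add_apply]
  have h24 := (Nat.factorization_le_iff_dvd (mul_ne_zero (by norm_num) hm0)
    (mul_ne_zero hA0 hB0)).mpr hdvd ℓ
  rw [Nat.factorization_mul (by norm_num) hm0, Nat.factorization_mul hA0 hB0,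
    Finsupp.add_apply, Finsupp.add_apply] at h24
  have hγa := (Nat.factorization_le_iff_dvd hg0 hA0).mpr hgA ℓ
  -- abbreviations
  set a := (p - 1).factorization ℓ with ha
  set b := (p + 1).factorization ℓ with hb
  set μ := m.factorization ℓ with hμ
  set γ := g.factorization ℓ with hγ
  set t := (24 : ℕ).factorization ℓ with ht
  have hpow : ∀ (k N : ℕ), N ≠ 0 → (ℓ ^ k ∣ N ↔ k ≤ N.factorization ℓ) := fun k N hN =>
    Nat.Prime.pow_dvd_iff_le_factorization hℓ hN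
  have hμ0 : ¬ ℓ ∣ m → μ = 0 := fun h => Nat.factorization_eq_zero_of_not_dvd h
  rcases Nat.lt_or_ge ℓ 5 with hlt | hge
  · -- ℓ = 2 or ℓ = 3
    have hℓ23 : ℓ = 2 ∨ ℓ = 3 := by
      have h2 := hℓ.two_le
      have h4 : ℓ ≠ 4 := by
        rintro rfl
        exact absurd hℓ (by decide)
      omega
    rcases hℓ23 with rfl | rfl
    · -- ℓ = 2
      have ht3 : 3 ≤ t := (hpow 3 24 (by norm_num)).mp (by norm_num)
      have hγ2 : γ ≤ 2 := by
        by_contra hcon
        have : 2 ^ 3 ∣ g := (hpow 3 g hg0).mpr (by omega)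
        have : 2 ^ 3 ∣ 12 := dvd_trans this hg12
        omega
      have ha1 : 1 ≤ a := (hpow 1 (p - 1) hA0).mp (by
        rw [pow_one]; exact Nat.dvd_of_mod_eq_zero (by omega))
      have hb1 : 1 ≤ b := (hpow 1 (p + 1) hB0).mp (by
        rw [pow_one]; exact Nat.dvd_of_mod_eq_zero (by omega))
      have hmin : a ≤ 1 ∨ b ≤ 1 := by
        by_contra hcon
        push Not at hcon
        have h1 : 2 ^ 2 ∣ p - 1 := (hpow 2 (p - 1) hA0).mpr (by omega)
        have h2 : 2 ^ 2 ∣ p + 1 := (hpow 2 (p + 1) hB0).mpr (by omega)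
        omega
      by_cases hb3 : 3 ≤ b
      · have h8 : 2 ^ 3 ∣ p + 1 := (hpow 3 (p + 1) hB0).mpr hb3
        have hμz : μ = 0 := hμ0 (H2 (by omega))
        omega
      · omega
    · -- ℓ = 3
      have ht1 : 1 ≤ t := (hpow 1 24 (by norm_num)).mp (by norm_num)
      have hγ1 : γ ≤ 1 := by
        by_contra hcon
        have : 3 ^ 2 ∣ g := (hpow 2 g hg0).mpr (by omega)
        have : 3 ^ 2 ∣ 12 := dvd_trans this hg12
        omega
      have hmin : a = 0 ∨ b = 0 := by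
        by_contra hcon
        push Not at hcon
        have h1 : 3 ^ 1 ∣ p - 1 := (hpow 1 (p - 1) hA0).mpr (by omega)
        have h2 : 3 ^ 1 ∣ p + 1 := (hpow 1 (p + 1) hB0).mpr (by omega)
        omega
      by_cases hb2 : 2 ≤ b
      · have h9 : 3 ^ 2 ∣ p + 1 := (hpow 2 (p + 1) hB0).mpr hb2
        have hμz : μ = 0 := hμ0 (H3 (by simpa using h9))
        omega
      · omega
  · -- ℓ ≥ 5
    have hγ0 : γ = 0 := by
      by_contra hcon
      have : ℓ ^ 1 ∣ g := (hpow 1 g hg0).mpr (by omega)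
      have h12 : ℓ ∣ 12 := by
        rw [pow_one] at this
        exact dvd_trans this hg12
      exact m16uba_not_dvd_twelve ℓ hℓ hge h12
    have hmin : a = 0 ∨ b = 0 := by
      by_contra hcon
      push Not at hcon
      have h1 : ℓ ^ 1 ∣ p - 1 := (hpow 1 (p - 1) hA0).mpr (by omega)
      have h2 : ℓ ^ 1 ∣ p + 1 := (hpow 1 (p + 1) hB0).mpr (by omega)
      rw [pow_one] at h1 h2
      have h3 : ℓ ∣ (p + 1) - (p - 1) := Nat.dvd_sub h2 h1
      have h4 : (p + 1) - (p - 1) = 2 := by omega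
      rw [h4] at h3
      have := Nat.le_of_dvd (by norm_num) h3
      omega
    by_cases hb1 : 1 ≤ b
    · have hd : ℓ ∣ p + 1 := by
        have := (hpow 1 (p + 1) hB0).mpr hb1
        rwa [pow_one] at this
      have hμz : μ = 0 := hμ0 (Hl ℓ hℓ hge hd)
      omega
    · omega

end Fermat.Agent.M16
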