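/-
M16 (S16 project), package UBA (helper7): the common input of all upper-bound leaves.

From a cusp form `f` with `f ≡ ∑ σ'(k) q^k mod m` we get the pair of the form `F = 24 (E - f)`:
`F = (p - 1) + 24 m h`, `F# = - p ((p - 1) + 24 m U_p h)` with `h ∈ ℤ⟦q⟧`, `h₀ = 0`.
-/
import Mathlib
import Fermat.Agent.M16.UbaPair
import Fermat.Agent.M16.UbaSeries

set_option autoImplicit false

noncomputable section

namespace Fermat.Agent.M16

open PowerSeries UpperHalfPlane ModularFormClass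
open scoped MatrixGroups

/-- the integral `q`-series `(p - 1) + 24 m h` -/
def m16uba_F (p m : ℕ) (h : PowerSeries ℤ) : PowerSeries ℤ :=
  C ((p : ℤ) - 1) + ((24 * m : ℕ) : ℤ) • h

theorem m16uba_F_coeff_zero (p m : ℕ) (h : PowerSeries ℤ) (h0 : coeff 0 h = 0) :
    coeff 0 (m16uba_F p m h) = (p : ℤ) - 1 := by
  rw [m16uba_F, map_add, coeff_C, map_zsmul, h0, if_pos rfl, smul_zero, add_zero]

theorem m16uba_F_coeff (p m : ℕ) (h : PowerSeries ℤ) {n : ℕ} (hn : 0 < n) :
    coeff n (m16uba_F p m h) = ((24 * m : ℕ) : ℤ) * coeff n h := by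
  rw [m16uba_F, map_add, coeff_C, map_zsmul, if_neg hn.ne', zero_add, smul_eq_mul]

/-- `(C c + d • h) * B` coefficientwise -/
theorem m16uba_F_mul_coeff (p m : ℕ) (h B : PowerSeries ℤ) (n : ℕ) :
    coeff n (m16uba_F p m h * B)
      = ((p : ℤ) - 1) * coeff n B + ((24 * m : ℕ) : ℤ) * coeff n (h * B) := by
  rw [m16uba_F, add_mul, map_add, coeff_C_mul, smul_mul_assoc, map_zsmul, smul_eq_mul]

theorem m16ub_input (p : ℕ) [Fact p.Prime] (hF : m16_FrkAPI p)
    (f : CuspForm (CongruenceSubgroup.Gamma0 p) 2) (m : ℕ) (hf : m16_IsEisCong f m) :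
    ∃ h : PowerSeries ℤ, coeff 0 h = 0 ∧
      m16_Pair p 2 (m16_toC (m16uba_F p m h))
        (m16_toC ((-(p : ℤ)) • m16uba_F p m (m16_U p h))) := by
  have hp : p.Prime := Fact.out
  classical
  choose! c hc using hf
  set φ : PowerSeries ℂ := qExpansion 1 (f : ℍ → ℂ) with hφ
  have hφ0 : coeff 0 φ = 0 := by
    simpa using CuspFormClass.qExpansion_coeff_zero f one_pos
      (CongruenceSubgroup.one_mem_strictPeriods_Gamma0 p)
  have hφn : ∀ k : ℕ, 1 ≤ k → coeff k φ = (m16_sigma p k : ℂ) + (m : ℂ) * (c k : ℂ) := by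
    intro k hk
    have := hc k hk
    simpa [ModularFormClass.qCoeff] using this
  refine ⟨PowerSeries.mk fun k => if k = 0 then 0 else - c k, by simp, ?_⟩
  set h : PowerSeries ℤ := PowerSeries.mk fun k => if k = 0 then 0 else - c k with hh
  have h1 := m16uba_pair_smul (24 : ℂ) (m16uba_pair_sub hF.eis (hF.cusp f))
  have e1 : (24 : ℂ) • (m16_eisC p - φ) = m16_toC (m16uba_F p m h) := by
    ext n
    rw [coeff_smul, map_sub, m16_toC_coeff]
    rcases Nat.eq_zero_or_pos n with rfl | hn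
    · rw [m16uba_F_coeff_zero p m h (by simp [hh]), hφ0]
      simp [m16_eisC]
      ring
    · rw [m16uba_F_coeff p m h hn, hφn n hn]
      simp [m16_eisC, hn.ne', hh]
      ring
  have e2 : (24 : ℂ) • ((-(p : ℂ)) • m16_eisC p - (-(p : ℂ)) • m16_U p φ)
      = m16_toC ((-(p : ℤ)) • m16uba_F p m (m16_U p h)) := by
    ext n
    rw [coeff_smul, map_sub, coeff_smul, coeff_smul, m16_toC_coeff, map_zsmul, m16_U_coeff]
    rcases Nat.eq_zero_or_pos n with rfl | hn
    · rw [m16uba_F_coeff_zero p m _ (by simp [hh]), mul_zero, hφ0]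
      simp [m16_eisC]
      ring
    · have hpn : 0 < p * n := Nat.mul_pos hp.pos hn
      rw [m16uba_F_coeff p m _ hn, hφn (p * n) hpn, m16_sigma_mul p hp]
      simp [m16_eisC, hn.ne', hh, hpn.ne']
      ring
  rw [e1, e2] at h1
  exact h1

end Fermat.Agent.M16

end
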