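/-
M16 (S16 project), upper bound (helper7): how the assembly feeds the NORM leaves
(UB2, UB3, UBL of helper4).

`m16ub_Leaf ℓ e p` is the shape of the three leaves: there is no pair of functions `G`, `Gs`
of weight 2 on `Γ₀(p)` with `Gs z = p⁻¹ z⁻² G(-1/(p z))`, `G ≡ 1` and `Gs ≡ -1` modulo `ℓ ^ e`.
`m16ub_leaf_apply` derives `False` from a leaf and a cusp form `f ≡ ∑ σ'(k) q ^ k mod ℓ`
as soon as `24 ℓ / (p - 1) ∈ ℓ ^ e ℤ_(ℓ)`.
-/
import Mathlib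
import Fermat.Agent.M16.UbaInput

set_option autoImplicit false

noncomputable section

namespace Fermat.Agent.M16

open PowerSeries UpperHalfPlane ModularFormClass
open Fermat.Agent.S23
open scoped MatrixGroups

/-- the shape of the leaves UB2 (`ℓ = 2, e = 3`), UB3 (`ℓ = 3, e = 2`), UBL (`ℓ ≥ 5, e = 1`) -/
def m16ub_Leaf (ℓ e p : ℕ) [NeZero p] : Prop :=
  ∀ G Gs : ℍ → ℂ, m16nrm_Good p 2 G → m16nrm_Good p 2 Gs →
    m16nrm_IsFricke p 2 ((p : ℂ)⁻¹) G Gs →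
    (∀ n : ℕ, m16nrm_IsLDiv ℓ e (coeff n (qExpansion 1 G) - if n = 0 then 1 else 0)) →
    (∀ n : ℕ, m16nrm_IsLDiv ℓ e (coeff n (qExpansion 1 Gs) + if n = 0 then 1 else 0)) →
    False

theorem m16ub_leaf_apply (p : ℕ) [Fact p.Prime] (hF : m16_FrkAPI p)
    (f : CuspForm (CongruenceSubgroup.Gamma0 p) 2) (ℓ e b : ℕ) (a₀ : ℤ) (hb : ¬ ℓ ∣ b)
    (hval : (24 * (ℓ : ℤ) * (b : ℤ)) = (ℓ : ℤ) ^ e * a₀ * ((p : ℤ) - 1))
    (hf : m16_IsEisCong f ℓ) (hleaf : m16ub_Leaf ℓ e p) : False := by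
  have hp : p.Prime := Fact.out
  have hp0 : (p : ℂ) ≠ 0 := by exact_mod_cast hp.ne_zero
  have hp1 : ((p : ℂ) - 1) ≠ 0 := by
    have : (p : ℂ) ≠ 1 := by exact_mod_cast hp.one_lt.ne'
    exact sub_ne_zero.mpr this
  obtain ⟨h, h0, G₀, G₀s, hG, hGs, hfr, hq, hqs⟩ := m16ub_input p hF f ℓ hf
  have hvalC : (24 * (ℓ : ℂ) * (b : ℂ)) = (ℓ : ℂ) ^ e * (a₀ : ℂ) * ((p : ℂ) - 1) := by
    exact_mod_cast hval
  refine hleaf (((p : ℂ) - 1)⁻¹ • G₀) (((p : ℂ)⁻¹ * ((p : ℂ) - 1)⁻¹) • G₀s)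
    (m16uba_good_smul _ hG) (m16uba_good_smul _ hGs) ?_ ?_ ?_
  · intro z
    simp only [Pi.smul_apply, smul_eq_mul, hfr z]
    ring
  · intro n
    rw [qr_qExpansion_smul _ (m16nrm_good_mem_qr hG), hq, coeff_smul, m16_toC_coeff]
    rcases Nat.eq_zero_or_pos n with rfl | hn
    · refine ⟨0, b, hb, ?_⟩
      rw [m16uba_F_coeff_zero p ℓ h h0, if_pos rfl]
      push_cast
      rw [smul_eq_mul, inv_mul_cancel₀ hp1]
      simp
    · refine ⟨a₀ * coeff n h, b, hb, ?_⟩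
      rw [m16uba_F_coeff p ℓ h hn, if_neg hn.ne', sub_zero, smul_eq_mul]
      push_cast
      field_simp
      linear_combination ((coeff n h : ℤ) : ℂ) * hvalC
  · intro n
    rw [qr_qExpansion_smul _ (m16nrm_good_mem_qr hGs), hqs, coeff_smul, m16_toC_coeff,
      map_zsmul]
    rcases Nat.eq_zero_or_pos n with rfl | hn
    · refine ⟨0, b, hb, ?_⟩
      rw [m16uba_F_coeff_zero p ℓ _ (by rw [m16_U_coeff, mul_zero, h0]), if_pos rfl]
      simp only [smul_eq_mul]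
      push_cast
      have : (p : ℂ)⁻¹ * ((p : ℂ) - 1)⁻¹ * (-(p : ℂ) * ((p : ℂ) - 1)) + 1 = 0 := by
        field_simp
        ring
      rw [this]
      simp
    · refine ⟨- (a₀ * coeff n (m16_U p h)), b, hb, ?_⟩
      rw [m16uba_F_coeff p ℓ _ hn, if_neg hn.ne', add_zero]
      simp only [smul_eq_mul]
      push_cast
      field_simp
      linear_combination (-((coeff n (m16_U p h) : ℤ) : ℂ)) * hvalC

end Fermat.Agent.M16

end
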