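/-
M16 (S16 project), package UBA (helper7): the trace identities of weights 4, 12, 14 as
identities between integral power series.

For a pair `(X, Y)` of integral `q`-series of weight `k = e + 1` the series
`p ^ e X + U_p Y` is `p ^ e` times the `q`-expansion of a level-one form of weight `k`.
-/
import Mathlib
import Fermat.Agent.M16.UbaInput
import Fermat.Agent.M16.UbaLevelOne

set_option autoImplicit false

noncomputable section

namespace Fermat.Agent.M16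

open PowerSeries UpperHalfPlane ModularFormClass ModularForm EisensteinSeries
open Fermat.Agent.S23
open scoped MatrixGroups

variable {p : ℕ} [Fact p.Prime]

theorem m16uba_trace_coeff (hF : m16_FrkAPI p) (k : ℤ) (e : ℕ) (hke : k = e + 1)
    (X Y : PowerSeries ℤ) (hP : m16_Pair p k (m16_toC X) (m16_toC Y)) :
    ∃ T : ModularForm 𝒮ℒ k, ∀ n : ℕ,
      (p : ℂ) ^ e * coeff n (qExpansion 1 (T : ℍ → ℂ))
        = (((p : ℤ) ^ e * coeff n X + coeff (p * n) Y : ℤ) : ℂ) := by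
  have hp : p.Prime := Fact.out
  have hp0 : (p : ℂ) ≠ 0 := by exact_mod_cast hp.ne_zero
  obtain ⟨T, hT⟩ := hF.trace k _ _ hP
  refine ⟨T, fun n => ?_⟩
  have hz : (p : ℂ) ^ (1 - k) = ((p : ℂ) ^ e)⁻¹ := by
    have : (1 : ℤ) - k = -(e : ℤ) := by rw [hke]; ring
    rw [this, zpow_neg, zpow_natCast]
  rw [hT, map_add, coeff_smul, m16_U_coeff, m16_toC_coeff, m16_toC_coeff, hz, smul_eq_mul]
  have hpe : (p : ℂ) ^ e ≠ 0 := pow_ne_zero _ hp0
  push_cast
  field_simp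

/-- weight 4 -/
theorem m16uba_tr4 (hF : m16_FrkAPI p) (X Y : PowerSeries ℤ)
    (hP : m16_Pair p 4 (m16_toC X) (m16_toC Y)) (n : ℕ) :
    (p : ℤ) ^ 3 * coeff n X + coeff (p * n) Y
      = ((p : ℤ) ^ 3 * coeff 0 X + coeff 0 Y) * coeff n (1 + 240 * pe_A : PowerSeries ℤ) := by
  have hp : p.Prime := Fact.out
  have hp0 : (p : ℂ) ≠ 0 := by exact_mod_cast hp.ne_zero
  obtain ⟨T, hT⟩ := m16uba_trace_coeff hF 4 3 (by norm_num) X Y hP
  have h4 := m16uba_L4 T
  have hn := hT n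
  have h0 := hT 0
  rw [mul_zero] at h0
  rw [h4, coeff_smul, pe_qExpansion_E4, coeff_map, eq_intCast, smul_eq_mul, ← mul_assoc, h0]
    at hn
  have : (((p : ℤ) ^ 3 * coeff n X + coeff (p * n) Y : ℤ) : ℂ)
      = ((((p : ℤ) ^ 3 * coeff 0 X + coeff 0 Y) * coeff n (1 + 240 * pe_A : PowerSeries ℤ) : ℤ)
        : ℂ) := by
    rw [← hn]; push_cast; ring
  exact_mod_cast this

/-- weight 14 -/
theorem m16uba_tr14 (hF : m16_FrkAPI p) (X Y : PowerSeries ℤ)
    (hP : m16_Pair p 14 (m16_toC X) (m16_toC Y))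
    (h0 : (p : ℤ) ^ 13 * coeff 0 X + coeff 0 Y = 0) (n : ℕ) :
    (p : ℤ) ^ 13 * coeff n X + coeff (p * n) Y = 0 := by
  have hp : p.Prime := Fact.out
  have hp0 : (p : ℂ) ≠ 0 := by exact_mod_cast hp.ne_zero
  obtain ⟨T, hT⟩ := m16uba_trace_coeff hF 14 13 (by norm_num) X Y hP
  have hT0 := hT 0
  rw [mul_zero, h0] at hT0
  have hc0 : coeff 0 (qExpansion 1 (T : ℍ → ℂ)) = 0 := by
    have : (p : ℂ) ^ 13 ≠ 0 := pow_ne_zero _ hp0
    simpa [this] using hT0
  have h14 := m16uba_L14 T hc0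
  have hn := hT n
  rw [h14] at hn
  have : (((p : ℤ) ^ 13 * coeff n X + coeff (p * n) Y : ℤ) : ℂ) = ((0 : ℤ) : ℂ) := by
    rw [← hn]; simp
  exact_mod_cast this

/-- weight 12 -/
theorem m16uba_tr12 (hF : m16_FrkAPI p) (X Y : PowerSeries ℤ)
    (hP : m16_Pair p 12 (m16_toC X) (m16_toC Y))
    (h0 : (p : ℤ) ^ 11 * coeff 0 X + coeff 0 Y = 0) (n : ℕ) :
    (p : ℤ) ^ 11 * coeff n X + coeff (p * n) Y
      = ((p : ℤ) ^ 11 * coeff 1 X + coeff p Y) * coeff n m16st_DeltaInt := by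
  have hp : p.Prime := Fact.out
  have hp0 : (p : ℂ) ≠ 0 := by exact_mod_cast hp.ne_zero
  obtain ⟨T, hT⟩ := m16uba_trace_coeff hF 12 11 (by norm_num) X Y hP
  have hT0 := hT 0
  rw [mul_zero, h0] at hT0
  have hc0 : coeff 0 (qExpansion 1 (T : ℍ → ℂ)) = 0 := by
    have : (p : ℂ) ^ 11 ≠ 0 := pow_ne_zero _ hp0
    simpa [this] using hT0
  have h12 := m16uba_L12 T hc0
  have hn := hT n
  have h1 := hT 1
  rw [mul_one] at h1
  rw [h12, coeff_smul, coeff_map, eq_intCast, smul_eq_mul, ← mul_assoc, h1] at hn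
  have : (((p : ℤ) ^ 11 * coeff n X + coeff (p * n) Y : ℤ) : ℂ)
      = ((((p : ℤ) ^ 11 * coeff 1 X + coeff p Y) * coeff n m16st_DeltaInt : ℤ) : ℂ) := by
    rw [← hn]; push_cast; ring
  exact_mod_cast this

end Fermat.Agent.M16

end
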