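/-
M16 (S16 project), package UBA (helper7), part (A):
`24 m ∣ p ^ 11 (p ^ 2 - 1)` from the trace of `24 (E - f) · Δ(p z)` (weight 14, `S₁₄(SL₂ℤ) = 0`)
and the Hecke relation `τ(p²) = τ(p)² - p ^ 11` (trace of `Δ(p z)`, weight 12).
-/
import Mathlib
import Fermat.Agent.M16.UbaTrace

set_option autoImplicit false

noncomputable section

namespace Fermat.Agent.M16

open PowerSeries UpperHalfPlane ModularFormClass ModularForm EisensteinSeries
open Fermat.Agent.S23
open scoped MatrixGroups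

variable {p : ℕ} [Fact p.Prime]

/-- the pair of `Δ(p z)`: `(V_p Δ, Δ)` -/
theorem m16uba_pair_DeltaV (hF : m16_FrkAPI p) :
    m16_Pair p 12 (m16_toC (m16_V p m16st_DeltaInt)) (m16_toC m16st_DeltaInt) := by
  have h := hF.lev1' 12 m16uba_Delta
  rw [m16uba_Delta_qExpansion] at h
  rw [m16_toC_V]
  exact h

theorem m16uba_V_Delta_coeff_zero : coeff 0 (m16_V p m16st_DeltaInt) = 0 := by
  rw [m16_V_coeff, if_pos (dvd_zero p), Nat.zero_div, m16st_DeltaInt_coeff_zero]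

theorem m16uba_V_Delta_coeff_one : coeff 1 (m16_V p m16st_DeltaInt) = 0 := by
  have hp : p.Prime := Fact.out
  rw [m16_V_coeff, if_neg]
  intro h
  have := Nat.le_of_dvd one_pos h
  have := hp.two_le
  omega

theorem m16uba_V_Delta_coeff_p : coeff p (m16_V p m16st_DeltaInt) = 1 := by
  have hp : p.Prime := Fact.out
  rw [m16_V_coeff, if_pos dvd_rfl, Nat.div_self hp.pos, m16st_DeltaInt_coeff_one]

/-- the Hecke relation `p ^ 11 + τ(p²) = τ(p)²` -/
theorem m16uba_tau_sq (hF : m16_FrkAPI p) :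
    (p : ℤ) ^ 11 + coeff (p * p) m16st_DeltaInt
      = coeff p m16st_DeltaInt * coeff p m16st_DeltaInt := by
  have h := m16uba_tr12 hF _ _ (m16uba_pair_DeltaV hF)
    (by rw [m16uba_V_Delta_coeff_zero, m16st_DeltaInt_coeff_zero]; ring) p
  rw [m16uba_V_Delta_coeff_p, m16uba_V_Delta_coeff_one] at h
  linarith

/-- **(A)** over `ℤ` -/
theorem m16uba_A_int (hF : m16_FrkAPI p) (m : ℕ) (h : PowerSeries ℤ)
    (hP : m16_Pair p 2 (m16_toC (m16uba_F p m h))
      (m16_toC ((-(p : ℤ)) • m16uba_F p m (m16_U p h)))) :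
    ((24 * m : ℕ) : ℤ) ∣ (p : ℤ) ^ 11 * ((p : ℤ) ^ 2 - 1) := by
  have hp : p.Prime := Fact.out
  have hp0 : (p : ℤ) ≠ 0 := by exact_mod_cast hp.ne_zero
  -- the pair of weight 14
  have hP14 : m16_Pair p 14
      (m16_toC (m16uba_F p m h * m16_V p m16st_DeltaInt))
      (m16_toC (((-(p : ℤ)) • m16uba_F p m (m16_U p h)) * m16st_DeltaInt)) := by
    have := m16uba_pair_mul hP (m16uba_pair_DeltaV hF)
    rw [← m16_toC_mul, ← m16_toC_mul] at this
    exact m16uba_pair_cast (by norm_num) this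
  have hX0 : coeff 0 (m16uba_F p m h * m16_V p m16st_DeltaInt) = 0 := by
    rw [m16uba_F_mul_coeff, m16uba_V_Delta_coeff_zero, coeff_zero_eq_constantCoeff_apply,
      map_mul, ← coeff_zero_eq_constantCoeff_apply (φ := m16_V p m16st_DeltaInt),
      m16uba_V_Delta_coeff_zero]
    ring
  have hY0 : coeff 0 (((-(p : ℤ)) • m16uba_F p m (m16_U p h)) * m16st_DeltaInt) = 0 := by
    rw [coeff_zero_eq_constantCoeff_apply, map_mul,
      ← coeff_zero_eq_constantCoeff_apply (φ := m16st_DeltaInt), m16st_DeltaInt_coeff_zero]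
    ring
  have key := m16uba_tr14 hF _ _ hP14 (by rw [hX0, hY0]; ring)
  -- coefficients
  have hk : ∀ n : ℕ, ∃ w : ℤ,
      ((p : ℤ) - 1) * ((p : ℤ) ^ 12 * coeff n (m16_V p m16st_DeltaInt)
        - coeff (p * n) m16st_DeltaInt) = ((24 * m : ℕ) : ℤ) * w := by
    intro n
    have h1 := key n
    rw [m16uba_F_mul_coeff, smul_mul_assoc, map_zsmul, smul_eq_mul, m16uba_F_mul_coeff] at h1
    refine ⟨coeff (p * n) (m16_U p h * m16st_DeltaInt)
      - (p : ℤ) ^ 12 * coeff n (h * m16_V p m16st_DeltaInt), ?_⟩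
    have h2 : (p : ℤ) * (((p : ℤ) - 1) * ((p : ℤ) ^ 12 * coeff n (m16_V p m16st_DeltaInt)
        - coeff (p * n) m16st_DeltaInt)) = (p : ℤ) * (((24 * m : ℕ) : ℤ) *
        (coeff (p * n) (m16_U p h * m16st_DeltaInt)
          - (p : ℤ) ^ 12 * coeff n (h * m16_V p m16st_DeltaInt))) := by
      linear_combination h1
    exact mul_left_cancel₀ hp0 h2
  obtain ⟨w1, hw1⟩ := hk 1
  obtain ⟨wp, hwp⟩ := hk p
  rw [m16uba_V_Delta_coeff_one, mul_one] at hw1
  rw [m16uba_V_Delta_coeff_p] at hwp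
  have hτ := m16uba_tau_sq hF
  refine ⟨wp - coeff p m16st_DeltaInt * w1, ?_⟩
  linear_combination hwp - coeff p m16st_DeltaInt * hw1 + ((p : ℤ) - 1) * hτ

end Fermat.Agent.M16

end
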