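/-
M16 (S16 project), package UBA (helper7), part (B):
`m ∣ p ^ 2 - 1` from the trace of `24 (E - f) · 24 E` (weight 4, `M₄(SL₂ℤ) = ℂ E₄`),
coefficients `n = 1, 2, p` (helper5's argument).
-/
import Mathlib
import Fermat.Agent.M16.UbaTrace

set_option autoImplicit false

noncomputable section

namespace Fermat.Agent.M16

open PowerSeries UpperHalfPlane ModularFormClass ModularForm EisensteinSeries
open Fermat.Agent.S23
open scoped MatrixGroups

theorem m16uba_E4_coeff_zero : coeff 0 (1 + 240 * pe_A : PowerSeries ℤ) = 1 := by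
  have h240 : (240 : PowerSeries ℤ) = C (240 : ℤ) := by simp
  rw [map_add, h240, coeff_C_mul, pe_A, coeff_mk, coeff_one, if_pos rfl]
  simp

theorem m16uba_E4_coeff {n : ℕ} (hn : 0 < n) :
    coeff n (1 + 240 * pe_A : PowerSeries ℤ) = 240 * (ArithmeticFunction.sigma 3 n : ℤ) := by
  have h240 : (240 : PowerSeries ℤ) = C (240 : ℤ) := by simp
  rw [map_add, h240, coeff_C_mul, pe_A, coeff_mk, coeff_one, if_neg hn.ne', zero_add]

theorem m16uba_sigma3_one : (ArithmeticFunction.sigma 3 1 : ℤ) = 1 := by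
  simp [ArithmeticFunction.sigma_apply]

theorem m16uba_sigma3_two : (ArithmeticFunction.sigma 3 2 : ℤ) = 9 := by
  have : ArithmeticFunction.sigma 3 2 = 9 := by decide
  rw [this]; rfl

theorem m16uba_sigma3_prime {p : ℕ} (hp : p.Prime) :
    (ArithmeticFunction.sigma 3 p : ℤ) = 1 + (p : ℤ) ^ 3 := by
  rw [ArithmeticFunction.sigma_apply, Nat.Prime.divisors hp,
    Finset.sum_pair hp.one_lt.ne]
  push_cast
  ring

variable {p : ℕ} [Fact p.Prime]

/-- the pair of `24 E`: `(Ê, - p Ê)` -/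
theorem m16uba_pair_eis24 (hF : m16_FrkAPI p) :
    m16_Pair p 2 (m16_toC (m16_eis24 p)) (m16_toC ((-(p : ℤ)) • m16_eis24 p)) := by
  have h := m16uba_pair_smul (24 : ℂ) hF.eis
  rw [smul_comm, m16_eisC_eq] at h
  rw [m16_toC_zsmul]
  push_cast
  exact h

/-- coefficient identity of part (B) -/
theorem m16uba_B_coeff (hF : m16_FrkAPI p) (m : ℕ) (h : PowerSeries ℤ)
    (hP : m16_Pair p 2 (m16_toC (m16uba_F p m h))
      (m16_toC ((-(p : ℤ)) • m16uba_F p m (m16_U p h)))) {n : ℕ} (hn : 0 < n) :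
    ∃ w : ℤ, ((p : ℤ) ^ 2 - 1) * (10 * ((p : ℤ) - 1) * (ArithmeticFunction.sigma 3 n : ℤ)
      - (m16_sigma p n : ℤ)) = (m : ℤ) * w := by
  have hp : p.Prime := Fact.out
  have hp0 : (p : ℤ) ≠ 0 := by exact_mod_cast hp.ne_zero
  have hP4 : m16_Pair p 4 (m16_toC (m16uba_F p m h * m16_eis24 p))
      (m16_toC (((-(p : ℤ)) • m16uba_F p m (m16_U p h)) * ((-(p : ℤ)) • m16_eis24 p))) := by
    have := m16uba_pair_mul hP (m16uba_pair_eis24 hF)
    rw [← m16_toC_mul, ← m16_toC_mul] at this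
    exact m16uba_pair_cast (by norm_num) this
  have key := m16uba_tr4 hF _ _ hP4 n
  have hpn : 0 < p * n := Nat.mul_pos hp.pos hn
  have hX0 : coeff 0 (m16uba_F p m h * m16_eis24 p) = ((p : ℤ) - 1) * ((p : ℤ) - 1)
      + ((24 * m : ℕ) : ℤ) * coeff 0 (h * m16_eis24 p) := by
    rw [m16uba_F_mul_coeff, m16_eis24_coeff_zero]
  have hY : ∀ j : ℕ, coeff j (((-(p : ℤ)) • m16uba_F p m (m16_U p h)) * ((-(p : ℤ)) • m16_eis24 p))
      = (p : ℤ) ^ 2 * (((p : ℤ) - 1) * coeff j (m16_eis24 p)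
        + ((24 * m : ℕ) : ℤ) * coeff j (m16_U p h * m16_eis24 p)) := by
    intro j
    rw [smul_mul_smul_comm, map_zsmul, smul_eq_mul, m16uba_F_mul_coeff]
    ring
  rw [hY, hY, hX0, m16uba_F_mul_coeff, m16_eis24_coeff_zero, m16_eis24_coeff_of_pos p hn,
    m16_eis24_coeff_of_pos p hpn, m16_sigma_mul p hp, m16uba_E4_coeff hn] at key
  refine ⟨(p : ℤ) * coeff n (h * m16_eis24 p) + coeff (p * n) (m16_U p h * m16_eis24 p)
    - 240 * ((p : ℤ) * coeff 0 (h * m16_eis24 p) + coeff 0 (m16_U p h * m16_eis24 p))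
      * (ArithmeticFunction.sigma 3 n : ℤ), ?_⟩
  have h24 : (24 : ℤ) * (p : ℤ) ^ 2 ≠ 0 := by positivity
  apply mul_left_cancel₀ h24
  push_cast at key ⊢
  linear_combination (-1 : ℤ) * key

end Fermat.Agent.M16

end
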