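/-
M16 (S16 project), package UBA (helper7): the end theorem of UBA

  `m16uba_main : m16_IsEisCong f m → 24 * m ∣ p ^ 11 * (p ^ 2 - 1) ∧ m ∣ p ^ 2 - 1`.
-/
import Mathlib
import Fermat.Agent.M16.UbaA
import Fermat.Agent.M16.UbaB

set_option autoImplicit false

noncomputable section

namespace Fermat.Agent.M16

open PowerSeries UpperHalfPlane ModularFormClass ModularForm EisensteinSeries
open Fermat.Agent.S23
open scoped MatrixGroups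

variable {p : ℕ} [Fact p.Prime]

/-- **(B)** over `ℤ`: `m ∣ p ^ 2 - 1` -/
theorem m16uba_B_int (hF : m16_FrkAPI p) (m : ℕ) (h : PowerSeries ℤ)
    (hP : m16_Pair p 2 (m16_toC (m16uba_F p m h))
      (m16_toC ((-(p : ℤ)) • m16uba_F p m (m16_U p h)))) :
    (m : ℤ) ∣ (p : ℤ) ^ 2 - 1 := by
  have hp : p.Prime := Fact.out
  -- n = 1
  obtain ⟨w1, hw1⟩ := m16uba_B_coeff hF m h hP (n := 1) one_pos
  rw [m16uba_sigma3_one, m16_sigma_one p hp.two_le] at hw1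
  have hd1 : (m : ℤ) ∣ ((p : ℤ) ^ 2 - 1) * (10 * (p : ℤ) - 11) :=
    ⟨w1, by rw [← hw1]; push_cast; ring⟩
  -- n = p
  obtain ⟨wp, hwp⟩ := m16uba_B_coeff hF m h hP (n := p) hp.pos
  rw [m16uba_sigma3_prime hp, m16_sigma_self p hp] at hwp
  have hdp : (m : ℤ) ∣ ((p : ℤ) ^ 2 - 1) * (10 * ((p : ℤ) - 1) * (1 + (p : ℤ) ^ 3) - 1) :=
    ⟨wp, by rw [← hwp]; push_cast; ring⟩
  by_cases h2 : p = 2
  · -- p = 2 : 10 * 9 - 89 = 1
    subst h2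
    have e : ((2 : ℕ) : ℤ) ^ 2 - 1
        = 10 * ((((2 : ℕ) : ℤ) ^ 2 - 1) * (10 * ((2 : ℕ) : ℤ) - 11))
          - (((2 : ℕ) : ℤ) ^ 2 - 1) * (10 * (((2 : ℕ) : ℤ) - 1) * (1 + ((2 : ℕ) : ℤ) ^ 3) - 1) := by
      norm_num
    rw [e]
    exact dvd_sub (Dvd.dvd.mul_left hd1 _) hdp
  · -- n = 2
    obtain ⟨w2, hw2⟩ := m16uba_B_coeff hF m h hP (n := 2) two_pos
    rw [m16uba_sigma3_two, m16_sigma_two p hp h2] at hw2
    have hd2 : (m : ℤ) ∣ ((p : ℤ) ^ 2 - 1) * (90 * (p : ℤ) - 93) :=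
      ⟨w2, by rw [← hw2]; push_cast; ring⟩
    -- m ∣ 6 P
    have hd6 : (m : ℤ) ∣ 6 * ((p : ℤ) ^ 2 - 1) := by
      have e : 6 * ((p : ℤ) ^ 2 - 1) = ((p : ℤ) ^ 2 - 1) * (90 * (p : ℤ) - 93)
          - 9 * (((p : ℤ) ^ 2 - 1) * (10 * (p : ℤ) - 11)) := by ring
      rw [e]
      exact dvd_sub hd2 (Dvd.dvd.mul_left hd1 _)
    -- m ∣ 3 P
    have hd3 : (m : ℤ) ∣ 3 * ((p : ℤ) ^ 2 - 1) := by
      have e : 3 * ((p : ℤ) ^ 2 - 1) = 3 * (((p : ℤ) ^ 2 - 1) * (10 * (p : ℤ) - 11))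
          - (5 * (p : ℤ) - 6) * (6 * ((p : ℤ) ^ 2 - 1)) := by ring
      rw [e]
      exact dvd_sub (Dvd.dvd.mul_left hd1 _) (Dvd.dvd.mul_left hd6 _)
    -- split according to p mod 3
    obtain ⟨t, ht⟩ : ∃ t : ℕ, p = 3 * t ∨ p = 3 * t + 1 ∨ p = 3 * t + 2 :=
      ⟨p / 3, by omega⟩
    rcases ht with ht | ht | ht
    · have e : (p : ℤ) ^ 2 - 1 = ((p : ℤ) ^ 2 - 1) * (10 * (p : ℤ) - 11)
          - (10 * (t : ℤ) - 4) * (3 * ((p : ℤ) ^ 2 - 1)) := by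
        have : (p : ℤ) = 3 * (t : ℤ) := by exact_mod_cast ht
        rw [this]; ring
      rw [e]
      exact dvd_sub hd1 (Dvd.dvd.mul_left hd3 _)
    · have e : (p : ℤ) ^ 2 - 1 = (10 * (t : ℤ)) * (3 * ((p : ℤ) ^ 2 - 1))
          - ((p : ℤ) ^ 2 - 1) * (10 * (p : ℤ) - 11) := by
        have : (p : ℤ) = 3 * (t : ℤ) + 1 := by exact_mod_cast ht
        rw [this]; ring
      rw [e]
      exact dvd_sub (Dvd.dvd.mul_left hd3 _) hd1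
    · have e : (p : ℤ) ^ 2 - 1
          = (10 * ((p : ℤ) - 1) * ((t : ℤ) + 1) * ((p : ℤ) ^ 2 - (p : ℤ) + 1))
              * (3 * ((p : ℤ) ^ 2 - 1))
            - ((p : ℤ) ^ 2 - 1) * (10 * ((p : ℤ) - 1) * (1 + (p : ℤ) ^ 3) - 1) := by
        have : (p : ℤ) = 3 * (t : ℤ) + 2 := by exact_mod_cast ht
        rw [this]; ring
      rw [e]
      exact dvd_sub (Dvd.dvd.mul_left hd3 _) hdp

/-- **UBA**: a cusp form `f ≡ ∑ σ'(k) q ^ k mod m` forces `24 m ∣ p ^ 11 (p ^ 2 - 1)` and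
`m ∣ p ^ 2 - 1`. -/
theorem m16uba_main (p : ℕ) [Fact p.Prime] (hF : m16_FrkAPI p)
    (f : CuspForm (CongruenceSubgroup.Gamma0 p) 2) (m : ℕ) (hf : m16_IsEisCong f m) :
    24 * m ∣ p ^ 11 * (p ^ 2 - 1) ∧ m ∣ p ^ 2 - 1 := by
  have hp : p.Prime := Fact.out
  obtain ⟨h, _, hP⟩ := m16ub_input p hF f m hf
  have hA := m16uba_A_int hF m h hP
  have hB := m16uba_B_int hF m h hP
  have h1 : 1 ≤ p ^ 2 := Nat.one_le_pow _ _ hp.pos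
  constructor
  · have e : ((p ^ 11 * (p ^ 2 - 1) : ℕ) : ℤ) = (p : ℤ) ^ 11 * ((p : ℤ) ^ 2 - 1) := by
      rw [Nat.cast_mul, Nat.cast_sub h1]
      push_cast
      ring
    have : ((24 * m : ℕ) : ℤ) ∣ ((p ^ 11 * (p ^ 2 - 1) : ℕ) : ℤ) := by
      rw [e]
      exact hA
    exact Int.natCast_dvd_natCast.mp this
  · have e : ((p ^ 2 - 1 : ℕ) : ℤ) = (p : ℤ) ^ 2 - 1 := by
      rw [Nat.cast_sub h1]
      push_cast
      ring
    have : ((m : ℕ) : ℤ) ∣ ((p ^ 2 - 1 : ℕ) : ℤ) := by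
      rw [e]
      exact hB
    exact Int.natCast_dvd_natCast.mp this

end Fermat.Agent.M16

end
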