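/-
M16 (S16 project), upper bound (architect: helper7): the assembly.

`m16ub_main_of` (file UbaAssembly.lean) : the upper bound `m16_UBF` from
* the interface `m16_FrkAPI p` of the packages EIS + FRK (through UBA: `m16uba_main`), and
* the three NORM leaves UB2, UB3, UBL in the shape `m16ub_Leaf ℓ e p`.
-/
import Mathlib
import Fermat.Agent.M16.UbaMain
import Fermat.Agent.M16.UbaLeaf
import Fermat.Agent.M16.UbaArith

set_option autoImplicit false

noncomputable section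

namespace Fermat.Agent.M16

open PowerSeries UpperHalfPlane ModularFormClass
open scoped MatrixGroups

/-- a congruence modulo `m` gives a congruence modulo every divisor of `m` -/
theorem m16ub_isEisCong_of_dvd {p : ℕ} {f : CuspForm (CongruenceSubgroup.Gamma0 p) 2} {m ℓ : ℕ}
    (hf : m16_IsEisCong f m) (h : ℓ ∣ m) : m16_IsEisCong f ℓ := by
  obtain ⟨d, rfl⟩ := h
  intro k hk
  obtain ⟨c, hc⟩ := hf k hk
  refine ⟨(d : ℤ) * c, ?_⟩
  rw [hc]
  push_cast
  ring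

/-- **The upper bound**, conditional on the analytic interface and on the three NORM leaves. -/
theorem m16ub_main_of
    (hF : ∀ (p : ℕ) [Fact p.Prime], m16_FrkAPI p)
    (h2 : ∀ (p : ℕ) [Fact p.Prime], p % 8 = 7 → m16ub_Leaf 2 3 p)
    (h3 : ∀ (p : ℕ) [Fact p.Prime], 9 ∣ p + 1 → m16ub_Leaf 3 2 p)
    (hl : ∀ (p : ℕ) [Fact p.Prime] (ℓ : ℕ), ℓ.Prime → 5 ≤ ℓ → ℓ ∣ p + 1 → m16ub_Leaf ℓ 1 p) :
    m16_UBF := by
  intro p _ f m hf
  have hp : p.Prime := Fact.out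
  obtain ⟨hA, hB⟩ := m16uba_main p (hF p) f m hf
  unfold ModularCurve.eisensteinNumerator
  refine m16uba_arith p m hp hA hB ?_ ?_ ?_
  · -- ℓ = 2, p ≡ 7 mod 8
    intro hp8 hdvd
    obtain ⟨b, hb1, hb2⟩ : ∃ b : ℕ, p = 2 * b + 1 ∧ ¬ 2 ∣ b := ⟨(p - 1) / 2, by omega, by omega⟩
    refine m16ub_leaf_apply p (hF p) f 2 3 b 3 hb2 ?_
      (m16ub_isEisCong_of_dvd hf hdvd) (h2 p hp8)
    have : (p : ℤ) = 2 * (b : ℤ) + 1 := by exact_mod_cast hb1
    rw [this]
    push_cast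
    ring
  · -- ℓ = 3, 9 ∣ p + 1
    intro hp9 hdvd
    refine m16ub_leaf_apply p (hF p) f 3 2 (p - 1) 8 ?_ ?_
      (m16ub_isEisCong_of_dvd hf hdvd) (h3 p hp9)
    · omega
    · rw [Nat.cast_sub hp.one_le]
      push_cast
      ring
  · -- ℓ ≥ 5, ℓ ∣ p + 1
    intro ℓ hℓ h5 hp1 hdvd
    refine m16ub_leaf_apply p (hF p) f ℓ 1 (p - 1) 24 ?_ ?_
      (m16ub_isEisCong_of_dvd hf hdvd) (hl p ℓ hℓ h5 hp1)
    · intro h
      have h3' : ℓ ∣ (p + 1) - (p - 1) := Nat.dvd_sub hp1 h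
      have h4 : (p + 1) - (p - 1) = 2 := by have := hp.one_le; omega
      rw [h4] at h3'
      have := Nat.le_of_dvd (by norm_num) h3'
      omega
    · rw [Nat.cast_sub hp.one_le]
      push_cast
      ring

end Fermat.Agent.M16

end
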