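/-
M16 (S16 project), TOP: the statement of S16, conditional on the leaves which are still open
(the three NORM leaves of the upper bound, the residue theorems (R1), (R2) and the integrality
theorem (INT) of the lower bound).  Everything else is wired here.
-/
import Mathlib
import Fermat.Agent.M16.Top
import Fermat.Agent.M16.UbaAssembly
import Fermat.Agent.M16.FrkApi
import Fermat.Agent.M16.LbKey
import Fermat.Agent.M16.LbKey2
import Fermat.Agent.M16.PsiFinal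
import Fermat.Agent.M16.H1Core
import Fermat.Agent.M16.H1xPow
import Fermat.Agent.M16.H1yGood
import Fermat.Agent.M16.H1zPts

set_option autoImplicit false

open ModularCurve CuspForm

namespace Fermat.Agent.M16

/-- **(H1)** from the leaves X1, X2, X3 -/
theorem m16t_H1 : m16lb_H1 := by
  intro p _ hp4
  have hp : p.Prime := Fact.out
  have hp2 : p ≠ 2 := by
    intro h
    rw [h] at hp4
    norm_num at hp4
  intro ψ hA hb hc
  refine m16h1_lb_of p (fun w z h => m16h1x_pow12 w z p hp hp2 h)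
    ⟨m16h1y_good_x p _, m16h1y_good_phi p _⟩
    ⟨fun φ hφ δ k h => m16h1z_val_eq p φ hφ δ k h, fun δ hδ => m16h1z_x_delta p δ hδ,
      fun δ hδ => m16h1z_phi_delta p δ hδ⟩ hp4 ψ hA hb hc

/-- **(UBF)** from the three NORM leaves -/
theorem m16t_UBF_of
    (h2 : ∀ (p : ℕ) [Fact p.Prime], p % 8 = 7 → m16ub_Leaf 2 3 p)
    (h3 : ∀ (p : ℕ) [Fact p.Prime], 9 ∣ p + 1 → m16ub_Leaf 3 2 p)
    (hl : ∀ (p : ℕ) [Fact p.Prime] (ℓ : ℕ), ℓ.Prime → 5 ≤ ℓ → ℓ ∣ p + 1 → m16ub_Leaf ℓ 1 p) :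
    m16_UBF :=
  m16ub_main_of (fun p _ => m16frk_api p) h2 h3 hl

/-- **(KEY)** from (R1), (R2), (INT) -/
theorem m16t_KEY_of (hR1 : m16lb_R1) (hR2 : m16lb_R2) (hINT : m16lb_INT) : m16lb_KEY :=
  m16lbk_main (m16psi_main_of_R1 hR1) (m16lbk_res_of_R2 hR2) hINT m16t_H1

/-- **S16**, conditional on the open leaves -/
theorem m16t_cond
    (h2 : ∀ (p : ℕ) [Fact p.Prime], p % 8 = 7 → m16ub_Leaf 2 3 p)
    (h3 : ∀ (p : ℕ) [Fact p.Prime], 9 ∣ p + 1 → m16ub_Leaf 3 2 p)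
    (hl : ∀ (p : ℕ) [Fact p.Prime] (ℓ : ℕ), ℓ.Prime → 5 ≤ ℓ → ℓ ∣ p + 1 → m16ub_Leaf ℓ 1 p)
    (hR1 : m16lb_R1) (hR2 : m16lb_R2) (hINT : m16lb_INT)
    (p : ℕ) [Fact p.Prime] :
    Nat.card (↥(heckeLatticeAlgebra p ∅) ⧸
        Ideal.map ((latticeRestrictHom p ∅).toRingHom.comp (heckeEvalForms p 2))
          (eisensteinIdeal p)) =
      eisensteinNumerator p :=
  m16_main (m16t_UBF_of h2 h3 hl) (m16t_KEY_of hR1 hR2 hINT) p

end Fermat.Agent.M16
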