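/-
M16 (S16 project), TOP, lower bound: `ε (ker ρ) ⊆ n ℤ` as soon as some cusp form is congruent to
the Eisenstein series modulo `n`.
-/
import Mathlib
import Fermat.Agent.M16.TopPair

set_option autoImplicit false
set_option linter.unusedSectionVars false
set_option linter.style.haveILetI false

open CuspForm ModularCurve CongruenceSubgroup ModularFormClass

namespace Fermat.Agent.M16

open Fermat.Agent.S49C

variable {p : ℕ} [Fact p.Prime]

/-- a form which is congruent to the Eisenstein series has integral coefficients -/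
theorem m16t_isInt_of_cong {f : CuspForm (Gamma0 p) 2} {m : ℕ} (h : m16_IsEisCong f m) :
    IsInt f := by
  intro k
  rcases Nat.eq_zero_or_pos k with rfl | hk
  · exact ⟨0, by rw [qCoeff_zero_index]; simp⟩
  · obtain ⟨c, hc⟩ := h k hk
    exact ⟨(m16_sigma p k : ℤ) + (m : ℤ) * c, by rw [hc]; push_cast; ring⟩

theorem m16t_c_sub (k : ℕ) (a b : ↥(intLattice p 2)) :
    m16t_c k (a - b) = m16t_c k a - m16t_c k b := by
  have := m16t_c_add k (a - b) b
  rw [sub_add_cancel] at this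
  rw [this]; ring

theorem m16t_c_zero (k : ℕ) : m16t_c k (0 : ↥(intLattice p 2)) = 0 := by
  have := m16t_c_zsmul k 0 (0 : ↥(intLattice p 2))
  simpa using this

/-- the property "`Q` acts on `f` through `ε` modulo `n L`" -/
def m16t_Acts (n : ℤ) (f : ↥(intLattice p 2)) (Q : HeckeAlg) : Prop :=
  ∃ g : ↥(intLattice p 2),
    ((m16t_rho p Q : ↥(heckeLatticeAlgebra p ∅)) : Module.End ℤ ↥(intLattice p 2)) f
      = m16t_eps p Q • f + n • g

theorem m16t_acts_C (n : ℤ) (f : ↥(intLattice p 2)) (c : ℤ) :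
    m16t_Acts n f (MvPolynomial.C c) := by
  refine ⟨0, ?_⟩
  rw [m16t_eps_C, smul_zero, add_zero]
  have : m16t_rho p (MvPolynomial.C c) = c • (1 : ↥(heckeLatticeAlgebra p ∅)) := by
    rw [← MvPolynomial.algebraMap_eq, eq_intCast, map_intCast, zsmul_eq_mul, mul_one]
  rw [this, Subalgebra.coe_smul, LinearMap.smul_apply]
  rfl

theorem m16t_acts_add (n : ℤ) (f : ↥(intLattice p 2)) (Q R : HeckeAlg)
    (hQ : m16t_Acts n f Q) (hR : m16t_Acts n f R) : m16t_Acts n f (Q + R) := by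
  obtain ⟨g1, hg1⟩ := hQ
  obtain ⟨g2, hg2⟩ := hR
  refine ⟨g1 + g2, ?_⟩
  have h1 : m16t_rho p (Q + R) = m16t_rho p Q + m16t_rho p R := map_add _ _ _
  have h2 : m16t_eps p (Q + R) = m16t_eps p Q + m16t_eps p R := map_add _ _ _
  rw [h1, h2, Subalgebra.coe_add, LinearMap.add_apply, hg1, hg2, add_smul, smul_add]
  abel

theorem m16t_acts_mul_X (n : ℤ) (f : ↥(intLattice p 2)) (Q : HeckeAlg) (l : Nat.Primes)
    (hX : m16t_Acts n f (heckeGen l)) (hQ : m16t_Acts n f Q) :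
    m16t_Acts n f (Q * MvPolynomial.X l) := by
  obtain ⟨g1, hg1⟩ := hQ
  obtain ⟨g2, hg2⟩ := hX
  have hX1 : m16t_eps p (Q * MvPolynomial.X l) = m16t_eps p Q * m16t_eps p (heckeGen l) :=
    map_mul _ _ _
  have hX2 : m16t_rho p (Q * MvPolynomial.X l) = m16t_rho p Q * m16t_rho p (heckeGen l) :=
    map_mul _ _ _
  generalize m16t_eps p (heckeGen l) = e at hg2 hX1
  generalize m16t_eps p Q = eQ at hg1 hX1
  refine ⟨e • g1 +
    ((m16t_rho p Q : ↥(heckeLatticeAlgebra p ∅)) : Module.End ℤ ↥(intLattice p 2)) g2, ?_⟩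
  rw [hX1, hX2, m16t_mul_apply, hg2]
  generalize ((m16t_rho p Q : ↥(heckeLatticeAlgebra p ∅)) :
    Module.End ℤ ↥(intLattice p 2)) = A at hg1 ⊢
  rw [map_add, map_zsmul, map_zsmul, hg1]
  simp only [smul_add, smul_smul]
  rw [mul_comm e eQ, mul_comm e n]
  abel

theorem m16t_acts_all (n : ℤ) (f : ↥(intLattice p 2))
    (hX : ∀ l : Nat.Primes, m16t_Acts n f (heckeGen l)) (Q : HeckeAlg) : m16t_Acts n f Q :=
  MvPolynomial.induction_on (motive := fun Q => m16t_Acts n f Q) Q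
    (fun c => m16t_acts_C n f c) (fun Q R hQ hR => m16t_acts_add n f Q R hQ hR)
    (fun Q l hQ => m16t_acts_mul_X n f Q l (hX l) hQ)

/-- (B1): an element of `L` which is Eisenstein modulo `n` coefficientwise is an eigenvector of
all `T_ℓ` modulo `n L`. -/
theorem m16t_acts_X (n : ℤ) (hn : n ≠ 0) (f : ↥(intLattice p 2))
    (hc : ∀ k, 1 ≤ k → n ∣ m16t_c k f - (m16_sigma p k : ℤ)) (l : Nat.Primes) :
    m16t_Acts n f (heckeGen l) := by
  have hp : p.Prime := Fact.out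
  obtain ⟨g, hg⟩ := m16t_saturated n hn
    (((m16t_rho p (heckeGen l) : ↥(heckeLatticeAlgebra p ∅)) :
      Module.End ℤ ↥(intLattice p 2)) f - m16t_eps p (heckeGen l) • f) (by
    intro k
    rw [m16t_c_sub, m16t_c_zsmul, m16t_eps_X]
    rcases Nat.eq_zero_or_pos k with rfl | hk
    · by_cases hlp : (l : ℕ) ∣ p
      · rw [m16t_c_rho_X_self l hlp, zero_mul, m16t_c_zero_index]; simp
      · rw [m16t_c_rho_X_of_ne l hlp, zero_mul, m16t_c_zero_index, if_pos (dvd_zero _),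
          Nat.zero_div, m16t_c_zero_index]; simp
    · by_cases hlp : (l : ℕ) ∣ p
      · have hlp' : (l : ℕ) = p := (m16t_prime_dvd_iff l).mp hlp
        rw [m16t_c_rho_X_self l hlp, eisensteinSystem_of_dvd hlp]
        obtain ⟨a1, ha1⟩ := hc (k * l) (Nat.mul_pos hk l.2.pos)
        obtain ⟨a2, ha2⟩ := hc k hk
        have hs : m16_sigma p (k * l) = m16_sigma p k := by
          rw [hlp', m16t_sigma_mul_p p hp]
        rw [hs] at ha1
        exact ⟨a1 - a2, by linear_combination ha1 - ha2⟩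
      · have hlp' : (l : ℕ) ≠ p := fun h => hlp (h ▸ dvd_refl _)
        rw [m16t_c_rho_X_of_ne l hlp, eisensteinSystem_of_not_dvd hlp]
        have hS := m16t_sigma_mul_l p hp l l.2 hlp' k (by omega)
        obtain ⟨a1, ha1⟩ := hc (k * l) (Nat.mul_pos hk l.2.pos)
        obtain ⟨a2, ha2⟩ := hc k hk
        by_cases hlk : (l : ℕ) ∣ k
        · rw [if_pos hlk] at hS ⊢
          obtain ⟨a3, ha3⟩ := hc (k / l) (Nat.div_pos (Nat.le_of_dvd hk hlk) l.2.pos)
          have hSZ : (m16_sigma p (k * l) : ℤ) + (l : ℤ) * (m16_sigma p (k / l) : ℤ) =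
              (1 + (l : ℤ)) * (m16_sigma p k : ℤ) := by exact_mod_cast hS
          exact ⟨a1 + (l : ℤ) * a3 - (1 + (l : ℤ)) * a2, by
            linear_combination ha1 + (l : ℤ) * ha3 - (1 + (l : ℤ)) * ha2 + hSZ⟩
        · rw [if_neg hlk] at hS ⊢
          have hSZ : (m16_sigma p (k * l) : ℤ) = (1 + (l : ℤ)) * (m16_sigma p k : ℤ) := by
            exact_mod_cast hS
          exact ⟨a1 - (1 + (l : ℤ)) * a2, by
            linear_combination ha1 - (1 + (l : ℤ)) * ha2 + hSZ⟩)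
  exact ⟨g, by rw [← hg]; abel⟩

/-- **lower bound**: `ε (ker ρ) ⊆ n ℤ` if some cusp form is Eisenstein modulo `n` -/
theorem m16t_lower (n : ℕ) (hn : n ≠ 0) (f : CuspForm (Gamma0 p) 2) (hf : m16_IsEisCong f n)
    (P : HeckeAlg) (hP : m16t_rho p P = 0) : (n : ℤ) ∣ m16t_eps p P := by
  have hp : p.Prime := Fact.out
  have hnZ : (n : ℤ) ≠ 0 := by exact_mod_cast hn
  let f' : ↥(intLattice p 2) := ⟨f, mem_intLattice_of_isInt (m16t_isInt_of_cong hf)⟩
  have hc : ∀ k, 1 ≤ k → (n : ℤ) ∣ m16t_c k f' - (m16_sigma p k : ℤ) := by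
    intro k hk
    obtain ⟨c, hc⟩ := hf k hk
    refine ⟨c, ?_⟩
    have : m16t_c k f' = (m16_sigma p k : ℤ) + (n : ℤ) * c :=
      m16t_c_eq (by rw [hc]; push_cast; ring)
    rw [this]; ring
  obtain ⟨g, hg⟩ := m16t_acts_all (n : ℤ) f' (m16t_acts_X (n : ℤ) hnZ f' hc) P
  rw [hP] at hg
  have h0 : ((0 : ↥(heckeLatticeAlgebra p ∅)) : Module.End ℤ ↥(intLattice p 2)) f' = 0 := rfl
  rw [h0] at hg
  have h1 := congrArg (m16t_c 1) hg
  rw [m16t_c_add, m16t_c_zsmul, m16t_c_zsmul, m16t_c_zero] at h1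
  obtain ⟨a, ha⟩ := hc 1 (le_refl _)
  rw [m16t_sigma_one p hp] at ha
  refine ⟨-(m16t_eps p P * a + m16t_c 1 g), ?_⟩
  push_cast at ha
  linear_combination -h1 - (m16t_eps p P) * ha

end Fermat.Agent.M16
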