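/-
M16 (S16 project), upper bound, leaf UB2 (helper7): algebra.

* `m16ub2_Z ℓ` : the subring `ℤ_(ℓ)` of `ℂ` (rational numbers with denominator prime to `ℓ`);
* `m16ub2_S ℓ` : the subring of `ℂ⟦q⟧` of power series with coefficients in `ℤ_(ℓ)`;
* `m16ub2_alg` : if `G = 1 + 8 h`, `E₄ = 1 + 16 u`, `E₆ = 1 + 8 v`, `1728 Δ = E₄³ - E₆²` with
  `h, u, v, Δ` in a subring `S` and `256 H = - G⁴ + 6 G² E₄ + 3 E₄² - 8 G E₆`, then
  `H = Δ + 2 x` with `x ∈ S`.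
-/
import Mathlib
import Fermat.Agent.M16.NrmDefs

set_option autoImplicit false

noncomputable section

namespace Fermat.Agent.M16

open PowerSeries

/-- the subring `ℤ_(ℓ)` of `ℂ` -/
def m16ub2_Z (ℓ : ℕ) [Fact ℓ.Prime] : Subring ℂ where
  carrier := {x | m16nrm_IsLInt ℓ x}
  mul_mem' := by
    rintro x y ⟨a, b, hb, hx⟩ ⟨a', b', hb', hy⟩
    refine ⟨a * a', b * b', fun h => ?_, ?_⟩
    · rcases (Nat.Prime.dvd_mul (Fact.out : ℓ.Prime)).mp h with h | h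
      exacts [hb h, hb' h]
    · push_cast
      rw [← hx, ← hy]
      ring
  one_mem' := ⟨1, 1, fun h => (Fact.out : ℓ.Prime).one_lt.ne' (Nat.dvd_one.mp h), by simp⟩
  add_mem' := by
    rintro x y ⟨a, b, hb, hx⟩ ⟨a', b', hb', hy⟩
    refine ⟨a * b' + a' * b, b * b', fun h => ?_, ?_⟩
    · rcases (Nat.Prime.dvd_mul (Fact.out : ℓ.Prime)).mp h with h | h
      exacts [hb h, hb' h]
    · push_cast
      rw [← hx, ← hy]
      ring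
  zero_mem' := ⟨0, 1, fun h => (Fact.out : ℓ.Prime).one_lt.ne' (Nat.dvd_one.mp h), by simp⟩
  neg_mem' := by
    rintro x ⟨a, b, hb, hx⟩
    exact ⟨-a, b, hb, by push_cast; rw [← hx]; ring⟩

theorem m16ub2_mem_Z {ℓ : ℕ} [Fact ℓ.Prime] {x : ℂ} :
    x ∈ m16ub2_Z ℓ ↔ m16nrm_IsLInt ℓ x := Iff.rfl

theorem m16ub2_ldiv_iff {ℓ : ℕ} [Fact ℓ.Prime] (e : ℕ) {x : ℂ} :
    m16nrm_IsLDiv ℓ e x ↔ ∃ y ∈ m16ub2_Z ℓ, x = (ℓ : ℂ) ^ e * y := by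
  constructor
  · rintro ⟨a, b, hb, h⟩
    have hb0 : (b : ℂ) ≠ 0 := by
      intro h0
      have : b = 0 := by exact_mod_cast h0
      exact hb (this ▸ dvd_zero ℓ)
    refine ⟨(a : ℂ) / (b : ℂ), ⟨a, b, hb, by field_simp⟩, ?_⟩
    field_simp
    exact h
  · rintro ⟨y, ⟨a, b, hb, hy⟩, rfl⟩
    exact ⟨a, b, hb, by rw [← hy]; ring⟩

/-- an integer prime to `ℓ` plus a multiple of `ℓ` is not divisible by `ℓ` -/
theorem m16ub2_not_ldiv {ℓ : ℕ} [Fact ℓ.Prime] (c : ℤ) (hc : ¬ (ℓ : ℤ) ∣ c) {x y : ℂ}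
    (hy : y ∈ m16ub2_Z ℓ) (hx : x = (c : ℂ) + (ℓ : ℂ) * y) : ¬ m16nrm_IsLDiv ℓ 1 x := by
  intro h
  obtain ⟨z, ⟨a', b', hb', hz⟩, hxz⟩ := (m16ub2_ldiv_iff 1).mp h
  obtain ⟨a, b, hb, hy'⟩ := hy
  have hℓ : ℓ.Prime := Fact.out
  -- c b b' = ℓ (a' b - a b')
  have key : (c : ℂ) * (b : ℂ) * (b' : ℂ) = (ℓ : ℂ) * ((a' : ℂ) * b - (a : ℂ) * b') := by
    have h1 : (c : ℂ) = (ℓ : ℂ) * z - (ℓ : ℂ) * y := by
      rw [pow_one] at hxz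
      rw [← hxz, hx]
      ring
    rw [h1, ← hz, ← hy']
    ring
  have key' : c * (b : ℤ) * (b' : ℤ) = (ℓ : ℤ) * (a' * b - a * b') := by exact_mod_cast key
  have hdvd : (ℓ : ℤ) ∣ c * (b : ℤ) * (b' : ℤ) := ⟨_, key'⟩
  have hℓ' : Prime (ℓ : ℤ) := Nat.prime_iff_prime_int.mp hℓ
  rcases hℓ'.dvd_mul.mp hdvd with h1 | h1
  · rcases hℓ'.dvd_mul.mp h1 with h2 | h2
    · exact hc h2
    · exact hb (by exact_mod_cast h2)
  · exact hb' (by exact_mod_cast h1)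

/-- power series with coefficients in `ℤ_(ℓ)` -/
def m16ub2_S (ℓ : ℕ) [Fact ℓ.Prime] : Subring (PowerSeries ℂ) where
  carrier := {f | ∀ n, coeff n f ∈ m16ub2_Z ℓ}
  mul_mem' := by
    intro f g hf hg n
    rw [coeff_mul]
    exact Subring.sum_mem _ fun x _ => (m16ub2_Z ℓ).mul_mem (hf _) (hg _)
  one_mem' := by
    intro n
    rw [coeff_one]
    split_ifs
    exacts [(m16ub2_Z ℓ).one_mem, (m16ub2_Z ℓ).zero_mem]
  add_mem' := by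
    intro f g hf hg n
    rw [map_add]
    exact (m16ub2_Z ℓ).add_mem (hf n) (hg n)
  zero_mem' := by
    intro n
    rw [map_zero]
    exact (m16ub2_Z ℓ).zero_mem
  neg_mem' := by
    intro f hf n
    rw [map_neg]
    exact (m16ub2_Z ℓ).neg_mem (hf n)

theorem m16ub2_mem_S {ℓ : ℕ} [Fact ℓ.Prime] {f : PowerSeries ℂ} :
    f ∈ m16ub2_S ℓ ↔ ∀ n, coeff n f ∈ m16ub2_Z ℓ := Iff.rfl

theorem m16ub2_map_mem_S {ℓ : ℕ} [Fact ℓ.Prime] (a : PowerSeries ℤ) :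
    PowerSeries.map (Int.castRingHom ℂ) a ∈ m16ub2_S ℓ := by
  intro n
  rw [coeff_map]
  exact intCast_mem (m16ub2_Z ℓ) _

theorem m16ub2_C_mem_S {ℓ : ℕ} [Fact ℓ.Prime] {c : ℂ} (hc : c ∈ m16ub2_Z ℓ) :
    PowerSeries.C c ∈ m16ub2_S ℓ := by
  intro n
  rw [coeff_C]
  split_ifs
  exacts [hc, (m16ub2_Z ℓ).zero_mem]

/-- **the algebra of UB2** -/
theorem m16ub2_alg {A : Type*} [CommRing A] [NoZeroDivisors A] [CharZero A] (S : Subring A)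
    (h u v δ H : A) (hh : h ∈ S) (hu : u ∈ S) (hv : v ∈ S) (hδ : δ ∈ S)
    (hΔ : 1728 * δ = (1 + 16 * u) ^ 3 - (1 + 8 * v) ^ 2)
    (hH : 256 * H = -(1 + 8 * h) ^ 4 + 6 * (1 + 8 * h) ^ 2 * (1 + 16 * u) + 3 * (1 + 16 * u) ^ 2
      - 8 * (1 + 8 * h) * (1 + 8 * v)) :
    ∃ x ∈ S, H = δ + 2 * x := by
  set L : A := u - h - 4 * h ^ 2 with hL
  set K2 : A := h + 27 * δ - u - 12 * u ^ 2 - 64 * u ^ 3 + v ^ 2 - 2 * h * u + 9 * h ^ 2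
    + 24 * h ^ 3 with hK2
  set K1 : A := (1 + 8 * h) * L + 2 * K2 with hK1
  set Hi : A := (1 + 8 * h) ^ 2 * L + (1 + 8 * h) * K2 + 3 * L ^ 2 with hHi
  set R : A := 4 * L ^ 3 - (1 + 8 * h) * L * K1 - K1 ^ 2 with hR
  have h2 : (2 : A) ∈ S := ofNat_mem S 2
  have h3 : (3 : A) ∈ S := ofNat_mem S 3
  have h4 : (4 : A) ∈ S := ofNat_mem S 4
  have h8 : (8 : A) ∈ S := ofNat_mem S 8
  have h9 : (9 : A) ∈ S := ofNat_mem S 9
  have h12 : (12 : A) ∈ S := ofNat_mem S 12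
  have h13 : (13 : A) ∈ S := ofNat_mem S 13
  have h24 : (24 : A) ∈ S := ofNat_mem S 24
  have h27 : (27 : A) ∈ S := ofNat_mem S 27
  have h64 : (64 : A) ∈ S := ofNat_mem S 64
  have hLS : L ∈ S := by
    rw [hL]
    exact S.sub_mem (S.sub_mem hu hh) (S.mul_mem h4 (S.pow_mem hh 2))
  have hgS : (1 + 8 * h : A) ∈ S := S.add_mem S.one_mem (S.mul_mem h8 hh)
  have hK2S : K2 ∈ S := by
    rw [hK2]
    refine S.add_mem (S.add_mem (S.sub_mem (S.add_mem (S.sub_mem (S.sub_mem (S.sub_mem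
      (S.add_mem hh (S.mul_mem h27 hδ)) hu) (S.mul_mem h12 (S.pow_mem hu 2)))
      (S.mul_mem h64 (S.pow_mem hu 3))) (S.pow_mem hv 2)) (S.mul_mem (S.mul_mem h2 hh) hu))
      (S.mul_mem h9 (S.pow_mem hh 2))) (S.mul_mem h24 (S.pow_mem hh 3))
  have hK1S : K1 ∈ S := S.add_mem (S.mul_mem hgS hLS) (S.mul_mem h2 hK2S)
  have hHiS : Hi ∈ S :=
    S.add_mem (S.add_mem (S.mul_mem (S.pow_mem hgS 2) hLS) (S.mul_mem hgS hK2S))
      (S.mul_mem h3 (S.pow_mem hLS 2))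
  have hRS : R ∈ S :=
    S.sub_mem (S.sub_mem (S.mul_mem h4 (S.pow_mem hLS 3)) (S.mul_mem (S.mul_mem hgS hLS) hK1S))
      (S.pow_mem hK1S 2)
  have e1 : 256 * Hi = 256 * H := by
    rw [hH, hHi, hK2, hL]
    linear_combination (4 * (1 + 8 * h)) * hΔ
  have e1' : Hi = H := mul_left_cancel₀ (by norm_num) e1
  have e2 : 256 * ((1 + 16 * u) * Hi + 4 * R - 27 * δ) = 256 * 0 := by
    rw [hR, hHi, hK1, hK2, hL, mul_zero]
    linear_combination (4 * ((1 + 8 * h) ^ 3 - 8 * (1 + 8 * h) * (u - h - 4 * h ^ 2)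
      - 32 * (h + 27 * δ - u - 12 * u ^ 2 - 64 * u ^ 3 + v ^ 2 - 2 * h * u + 9 * h ^ 2
        + 24 * h ^ 3)) - 4 + (1728 * δ - (1 + 16 * u) ^ 3 + (1 + 8 * v) ^ 2)) * hΔ
  have e2' : (1 + 16 * u) * Hi + 4 * R - 27 * δ = 0 := mul_left_cancel₀ (by norm_num) e2
  refine ⟨13 * δ - 2 * R - 8 * (u * Hi), ?_, ?_⟩
  · exact S.sub_mem (S.sub_mem (S.mul_mem h13 hδ) (S.mul_mem h2 hRS))
      (S.mul_mem h8 (S.mul_mem hu hHiS))
  · rw [← e1']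
    linear_combination e2'

end Fermat.Agent.M16

end
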