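/-
M16 (S16 project), upper bound, leaf UB2 (helper7): power series preparations.

* `m16ub2_V_eq` : `V_p` is Mathlib's `PowerSeries.expand`, hence a ring homomorphism;
* `m16ub2_exists_of_ldiv` : a power series which is `≡ c mod ℓ ^ e` coefficientwise is
  `C c + C (ℓ ^ e) * h` with `h` integral at `ℓ`;
* the integral data `e₄ = 1 + 16 u`, `e₆ = 1 + 8 v`, `1728 δ = e₄³ - e₆²` of level one.
-/
import Mathlib
import Fermat.Agent.S23.PrimEltInt
import Fermat.Agent.M16.StMiller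
import Fermat.Agent.M16.UbaSeries
import Fermat.Agent.M16.Ub2Alg

set_option autoImplicit false

noncomputable section

namespace Fermat.Agent.M16

open PowerSeries UpperHalfPlane ModularFormClass ModularForm EisensteinSeries
open Fermat.Agent.S23
open scoped MatrixGroups

/-! ### `V_p` is a ring homomorphism -/

theorem m16ub2_V_eq {R : Type*} [CommRing R] (p : ℕ) (hp : p ≠ 0) (a : PowerSeries R) :
    m16_V p a = PowerSeries.expand p hp a := by
  ext n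
  rw [m16_V_coeff, PowerSeries.coeff_expand]

theorem m16ub2_V_mul {R : Type*} [CommRing R] (p : ℕ) (hp : p ≠ 0) (a b : PowerSeries R) :
    m16_V p (a * b) = m16_V p a * m16_V p b := by
  simp only [m16ub2_V_eq p hp, map_mul]

theorem m16ub2_V_add {R : Type*} [CommRing R] (p : ℕ) (hp : p ≠ 0) (a b : PowerSeries R) :
    m16_V p (a + b) = m16_V p a + m16_V p b := by
  simp only [m16ub2_V_eq p hp, map_add]

theorem m16ub2_V_sub {R : Type*} [CommRing R] (p : ℕ) (hp : p ≠ 0) (a b : PowerSeries R) :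
    m16_V p (a - b) = m16_V p a - m16_V p b := by
  simp only [m16ub2_V_eq p hp, map_sub]

theorem m16ub2_V_pow {R : Type*} [CommRing R] (p : ℕ) (hp : p ≠ 0) (a : PowerSeries R) (n : ℕ) :
    m16_V p (a ^ n) = m16_V p a ^ n := by
  simp only [m16ub2_V_eq p hp, map_pow]

theorem m16ub2_V_one {R : Type*} [CommRing R] (p : ℕ) (hp : p ≠ 0) :
    m16_V p (1 : PowerSeries R) = 1 := by
  simp only [m16ub2_V_eq p hp, map_one]

theorem m16ub2_V_ofNat {R : Type*} [CommRing R] (p : ℕ) (hp : p ≠ 0) (n : ℕ) :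
    m16_V p ((n : PowerSeries R)) = (n : PowerSeries R) := by
  simp only [m16ub2_V_eq p hp, map_natCast]

theorem m16ub2_V_mem_S {ℓ : ℕ} [Fact ℓ.Prime] (p : ℕ) {a : PowerSeries ℂ}
    (ha : a ∈ m16ub2_S ℓ) : m16_V p a ∈ m16ub2_S ℓ := by
  intro n
  rw [m16_V_coeff]
  split_ifs
  exacts [ha _, (m16ub2_Z ℓ).zero_mem]

/-! ### congruent to a constant -/

theorem m16ub2_exists_of_ldiv {ℓ : ℕ} [Fact ℓ.Prime] (e : ℕ) (f : PowerSeries ℂ) (c : ℂ)
    (hf : ∀ n : ℕ, m16nrm_IsLDiv ℓ e (coeff n f - if n = 0 then c else 0)) :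
    ∃ h ∈ m16ub2_S ℓ, f = C c + C ((ℓ : ℂ) ^ e) * h := by
  have hf' := fun n => (m16ub2_ldiv_iff e).mp (hf n)
  choose y hy hfy using hf'
  refine ⟨PowerSeries.mk y, fun n => by rw [coeff_mk]; exact hy n, ?_⟩
  ext n
  rw [map_add, coeff_C_mul, coeff_mk, coeff_C, ← hfy n]
  ring

/-! ### the level-one data -/

/-- `u = 15 ∑ σ₃(n) qⁿ` -/
def m16ub2_u : PowerSeries ℂ := PowerSeries.map (Int.castRingHom ℂ) (15 * pe_A)

/-- `v = - 63 ∑ σ₅(n) qⁿ` -/
def m16ub2_v : PowerSeries ℂ := PowerSeries.map (Int.castRingHom ℂ) (-63 * pe_B)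

/-- `δ = ∑ τ(n) qⁿ` -/
def m16ub2_d : PowerSeries ℂ := PowerSeries.map (Int.castRingHom ℂ) m16st_DeltaInt

theorem m16ub2_u_mem (ℓ : ℕ) [Fact ℓ.Prime] : m16ub2_u ∈ m16ub2_S ℓ := m16ub2_map_mem_S _

theorem m16ub2_v_mem (ℓ : ℕ) [Fact ℓ.Prime] : m16ub2_v ∈ m16ub2_S ℓ := m16ub2_map_mem_S _

theorem m16ub2_d_mem (ℓ : ℕ) [Fact ℓ.Prime] : m16ub2_d ∈ m16ub2_S ℓ := m16ub2_map_mem_S _

theorem m16ub2_map_one_add (n : ℕ) [n.AtLeastTwo] (a : PowerSeries ℤ) :
    PowerSeries.map (Int.castRingHom ℂ) (1 + OfNat.ofNat n * a)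
      = 1 + OfNat.ofNat n * PowerSeries.map (Int.castRingHom ℂ) a := by
  simp only [map_add, map_mul, map_one, map_ofNat]

theorem m16ub2_e4 : qExpansion 1 (E₄ : ℍ → ℂ) = 1 + 16 * m16ub2_u := by
  rw [pe_qExpansion_E4, m16ub2_u]
  have : (1 + 240 * pe_A : PowerSeries ℤ) = 1 + 16 * (15 * pe_A) := by ring
  rw [this, m16ub2_map_one_add]

theorem m16ub2_e6 : qExpansion 1 (E₆ : ℍ → ℂ) = 1 + 8 * m16ub2_v := by
  rw [pe_qExpansion_E6, m16ub2_v]
  have : (1 - 504 * pe_B : PowerSeries ℤ) = 1 + 8 * (-63 * pe_B) := by ring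
  rw [this, m16ub2_map_one_add]

theorem m16ub2_rel :
    1728 * m16ub2_d = (1 + 16 * m16ub2_u) ^ 3 - (1 + 8 * m16ub2_v) ^ 2 := by
  have h1 : (1 + 240 * pe_A) ^ 3 - (1 - 504 * pe_B) ^ 2
      = 1728 * (pe_C + 100 * pe_A ^ 2 + 8000 * pe_A ^ 3 - 147 * pe_B ^ 2) := by
    linear_combination (-144 : PowerSeries ℤ) * pe_C_spec
  have h2 : (1728 : PowerSeries ℤ) * m16st_DeltaInt
      = (1 + 16 * (15 * pe_A)) ^ 3 - (1 + 8 * (-63 * pe_B)) ^ 2 := by
    have e : m16st_DeltaInt = pe_C + 100 * pe_A ^ 2 + 8000 * pe_A ^ 3 - 147 * pe_B ^ 2 := rfl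
    rw [e, ← h1]
    ring
  have key : ∀ a b d : PowerSeries ℤ, 1728 * d = (1 + 16 * a) ^ 3 - (1 + 8 * b) ^ 2 →
      1728 * PowerSeries.map (Int.castRingHom ℂ) d
        = (1 + 16 * PowerSeries.map (Int.castRingHom ℂ) a) ^ 3
          - (1 + 8 * PowerSeries.map (Int.castRingHom ℂ) b) ^ 2 := by
    intro a b d h
    have h3 := congrArg (PowerSeries.map (Int.castRingHom ℂ)) h
    simpa only [map_sub, map_pow, map_add, map_mul, map_one, map_ofNat] using h3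
  rw [m16ub2_d, m16ub2_u, m16ub2_v]
  exact key _ _ _ h2

theorem m16ub2_d_coeff_zero : coeff 0 m16ub2_d = 0 := by
  rw [m16ub2_d, coeff_map, m16st_DeltaInt_coeff_zero]
  simp

theorem m16ub2_d_coeff_one : coeff 1 m16ub2_d = 1 := by
  rw [m16ub2_d, coeff_map, m16st_DeltaInt_coeff_one]
  simp

end Fermat.Agent.M16

end
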