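/-
M16 (S16 project), upper bound, leaf UB2 (helper7): `ℓ = 2`, `p ≡ 7 mod 8`.

There is no pair `G`, `Gs` of weight 2 on `Γ₀(p)` with `Gs z = p⁻¹ z⁻² G(-1/(p z))`,
`G ≡ 1 mod 8` and `Gs ≡ -1 mod 8`:  the form `H = (-G⁴ + 6 G² E₄ + 3 E₄² - 8 G E₆)/256` of
weight 8 is 2-integral with `H ≡ Δ mod 2` at `∞`, and its Fricke transform is
`p⁴ H(-Gs, p² E₄(p z), -p³ E₆(p z)) ≡ p⁴ p⁶ Δ(p z) mod 2` (because `p² ≡ 1 mod 16` and
`-p³ ≡ 1 mod 8`); this contradicts NORM + MILLER (`m16nrm_pairO`).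
-/
import Mathlib
import Fermat.Agent.M16.Ub2Ser
import Fermat.Agent.M16.UbaLeaf
import Fermat.Agent.M16.NrmMainO

set_option autoImplicit false

noncomputable section

namespace Fermat.Agent.M16

open PowerSeries UpperHalfPlane ModularFormClass ModularForm EisensteinSeries
open Fermat.Agent.S23
open scoped MatrixGroups

/-- the isobaric polynomial `H = (-x⁴ + 6 x² y + 3 y² - 8 x z)/256` of weight 8 -/
def m16ub2_H (x y z : PowerSeries ℂ) : PowerSeries ℂ :=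
  (1 / 256 : ℂ) • ((-1 : ℂ) • (x * x * (x * x)) + (6 : ℂ) • (x * x * y) + (3 : ℂ) • (y * y)
    - (8 : ℂ) • (x * z))

theorem m16ub2_H_eq (x y z : PowerSeries ℂ) :
    m16ub2_H x y z = C (1 / 256 : ℂ) * (-x ^ 4 + 6 * x ^ 2 * y + 3 * y ^ 2 - 8 * x * z) := by
  rw [m16ub2_H]
  simp only [smul_eq_C_mul, map_neg, map_one, map_ofNat]
  ring

theorem m16ub2_H_spec (x y z : PowerSeries ℂ) :
    256 * m16ub2_H x y z = -x ^ 4 + 6 * x ^ 2 * y + 3 * y ^ 2 - 8 * x * z := by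
  rw [m16ub2_H_eq, ← mul_assoc]
  have : (256 : PowerSeries ℂ) * C (1 / 256 : ℂ) = 1 := by
    have h : (256 : PowerSeries ℂ) = C (256 : ℂ) := (map_ofNat (C (R := ℂ)) 256).symm
    rw [h, ← map_mul]
    norm_num
  rw [this, one_mul]

theorem m16ub2_H_homog (c : ℂ) (x y z : PowerSeries ℂ) :
    m16ub2_H (C c * x) (C (c ^ 2) * y) (C (c ^ 3) * z) = C (c ^ 4) * m16ub2_H x y z := by
  simp only [m16ub2_H_eq, map_pow]
  ring

theorem m16ub2_H_even (x y z : PowerSeries ℂ) : m16ub2_H (-x) y (-z) = m16ub2_H x y z := by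
  simp only [m16ub2_H_eq]
  ring

theorem m16ub2_pair_H {p : ℕ} [NeZero p] {x x' y y' z z' : PowerSeries ℂ}
    (hx : m16_Pair p 2 x x') (hy : m16_Pair p 4 y y') (hz : m16_Pair p 6 z z') :
    m16_Pair p 8 (m16ub2_H x y z) (m16ub2_H x' y' z') := by
  have t1 : m16_Pair p 8 (x * x * (x * x)) (x' * x' * (x' * x')) :=
    m16uba_pair_cast (by norm_num)
      (m16uba_pair_mul (m16uba_pair_mul hx hx) (m16uba_pair_mul hx hx))
  have t2 : m16_Pair p 8 (x * x * y) (x' * x' * y') :=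
    m16uba_pair_cast (by norm_num) (m16uba_pair_mul (m16uba_pair_mul hx hx) hy)
  have t3 : m16_Pair p 8 (y * y) (y' * y') :=
    m16uba_pair_cast (by norm_num) (m16uba_pair_mul hy hy)
  have t4 : m16_Pair p 8 (x * z) (x' * z') :=
    m16uba_pair_cast (by norm_num) (m16uba_pair_mul hx hz)
  exact m16uba_pair_smul _ (m16uba_pair_sub (m16uba_pair_add (m16uba_pair_add
    (m16uba_pair_smul _ t1) (m16uba_pair_smul _ t2)) (m16uba_pair_smul _ t3))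
    (m16uba_pair_smul _ t4))

/-- congruences of powers modulo `J = ℓ O` -/
theorem m16ub2_cong_pow {ℓ : ℕ} [Fact ℓ.Prime] {x c : ℂ} (hx : x - c ∈ m16nrm_J ℓ)
    (hc : c ∈ m16nrm_O ℓ) (hxO : x ∈ m16nrm_O ℓ) (n : ℕ) : x ^ n - c ^ n ∈ m16nrm_J ℓ := by
  induction n with
  | zero => simp only [pow_zero, sub_self]; exact (m16nrm_J ℓ).zero_mem
  | succ n ih =>
    rw [pow_succ, pow_succ]
    exact m16nrm_cong_mul ih hx ((m16nrm_O ℓ).pow_mem hc n) hxO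

theorem m16ub2_Z_le_O {ℓ : ℕ} [Fact ℓ.Prime] {x : ℂ} (hx : x ∈ m16ub2_Z ℓ) :
    x ∈ m16nrm_O ℓ := m16nrm_lint_mem_O hx

theorem m16ub2_two_mul_mem_J {x : ℂ} (hx : x ∈ m16ub2_Z 2) : 2 * x ∈ m16nrm_J 2 :=
  ⟨x, m16ub2_Z_le_O hx, by push_cast; ring⟩

/-- the level-one data at the cusp `0` -/
theorem m16ub2_cusp_data (p : ℕ) (hp0 : p ≠ 0) (hp8 : p % 8 = 7) :
    ∃ u' v' d' : PowerSeries ℂ, u' ∈ m16ub2_S 2 ∧ v' ∈ m16ub2_S 2 ∧ d' ∈ m16ub2_S 2 ∧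
      C ((p : ℂ) ^ 2) * m16_V p (1 + 16 * m16ub2_u) = 1 + 16 * u' ∧
      -(C ((p : ℂ) ^ 3) * m16_V p (1 + 8 * m16ub2_v)) = 1 + 8 * v' ∧
      1728 * d' = (1 + 16 * u') ^ 3 - (1 + 8 * v') ^ 2 ∧
      (∀ n, n < p → coeff n d' = 0) ∧ coeff p d' = (p : ℂ) ^ 6 := by
  obtain ⟨t, ht⟩ : ∃ t : ℤ, (p : ℤ) = 8 * t + 7 := ⟨(p : ℤ) / 8, by omega⟩
  have htC : (p : ℂ) = 8 * (t : ℂ) + 7 := by exact_mod_cast ht
  set m4 : ℤ := 4 * t ^ 2 + 7 * t + 3 with hm4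
  set m6 : ℤ := -(64 * t ^ 3 + 168 * t ^ 2 + 147 * t + 43) with hm6
  have h4 : (p : ℂ) ^ 2 = 1 + 16 * (m4 : ℂ) := by
    rw [htC, hm4]
    push_cast
    ring
  have h6 : -(p : ℂ) ^ 3 = 1 + 8 * (m6 : ℂ) := by
    rw [htC, hm6]
    push_cast
    ring
  have hC4 : C ((p : ℂ) ^ 2) = 1 + 16 * C (m4 : ℂ) := by
    rw [h4, map_add, map_mul, map_one, map_ofNat]
  have hC6 : -C ((p : ℂ) ^ 3) = 1 + 8 * C (m6 : ℂ) := by
    rw [← map_neg, h6, map_add, map_mul, map_one, map_ofNat]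
  have hV4 : m16_V p (1 + 16 * m16ub2_u) = 1 + 16 * m16_V p m16ub2_u := by
    simp only [m16ub2_V_eq p hp0, map_add, map_mul, map_one, map_ofNat]
  have hV6 : m16_V p (1 + 8 * m16ub2_v) = 1 + 8 * m16_V p m16ub2_v := by
    simp only [m16ub2_V_eq p hp0, map_add, map_mul, map_one, map_ofNat]
  have hVrel : 1728 * m16_V p m16ub2_d
      = (1 + 16 * m16_V p m16ub2_u) ^ 3 - (1 + 8 * m16_V p m16ub2_v) ^ 2 := by
    have h := congrArg (m16_V p) m16ub2_rel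
    simpa only [m16ub2_V_eq p hp0, map_sub, map_pow, map_add, map_mul, map_one, map_ofNat]
      using h
  have hpZ : ((p : ℂ)) ∈ m16ub2_Z 2 := natCast_mem _ p
  have hmZ : ∀ m : ℤ, (m : ℂ) ∈ m16ub2_Z 2 := fun m => intCast_mem _ m
  refine ⟨C (m4 : ℂ) + C ((p : ℂ) ^ 2) * m16_V p m16ub2_u,
    C (m6 : ℂ) - C ((p : ℂ) ^ 3) * m16_V p m16ub2_v, C ((p : ℂ) ^ 6) * m16_V p m16ub2_d,
    ?_, ?_, ?_, ?_, ?_, ?_, ?_, ?_⟩
  · exact (m16ub2_S 2).add_mem (m16ub2_C_mem_S (hmZ _))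
      ((m16ub2_S 2).mul_mem (m16ub2_C_mem_S ((m16ub2_Z 2).pow_mem hpZ 2))
        (m16ub2_V_mem_S p (m16ub2_u_mem 2)))
  · exact (m16ub2_S 2).sub_mem (m16ub2_C_mem_S (hmZ _))
      ((m16ub2_S 2).mul_mem (m16ub2_C_mem_S ((m16ub2_Z 2).pow_mem hpZ 3))
        (m16ub2_V_mem_S p (m16ub2_v_mem 2)))
  · exact (m16ub2_S 2).mul_mem (m16ub2_C_mem_S ((m16ub2_Z 2).pow_mem hpZ 6))
      (m16ub2_V_mem_S p (m16ub2_d_mem 2))
  · rw [hV4]
    linear_combination hC4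
  · rw [hV6]
    linear_combination hC6
  · have e1 : (1 : PowerSeries ℂ) + 16 * (C (m4 : ℂ) + C ((p : ℂ) ^ 2) * m16_V p m16ub2_u)
        = C ((p : ℂ) ^ 2) * (1 + 16 * m16_V p m16ub2_u) := by
      linear_combination (-1 : PowerSeries ℂ) * hC4
    have e2 : (1 : PowerSeries ℂ) + 8 * (C (m6 : ℂ) - C ((p : ℂ) ^ 3) * m16_V p m16ub2_v)
        = -(C ((p : ℂ) ^ 3) * (1 + 8 * m16_V p m16ub2_v)) := by
      linear_combination (-1 : PowerSeries ℂ) * hC6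
    rw [e1, e2]
    have e3 : C ((p : ℂ) ^ 6) = C ((p : ℂ) ^ 2) ^ 3 := by rw [← map_pow]; ring_nf
    have e4 : C ((p : ℂ) ^ 6) = C ((p : ℂ) ^ 3) ^ 2 := by rw [← map_pow]; ring_nf
    linear_combination (C ((p : ℂ) ^ 6)) * hVrel
      + ((1 + 16 * m16_V p m16ub2_u) ^ 3) * e3 - ((1 + 8 * m16_V p m16ub2_v) ^ 2) * e4
  · intro n hn
    rw [coeff_C_mul, m16_V_coeff]
    split_ifs with hdvd
    · have hn0 : n = 0 := Nat.eq_zero_of_dvd_of_lt hdvd hn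
      subst hn0
      rw [Nat.zero_div, m16ub2_d_coeff_zero, mul_zero]
    · rw [mul_zero]
  · rw [coeff_C_mul, m16_V_coeff, if_pos dvd_rfl, Nat.div_self (Nat.pos_of_ne_zero hp0),
      m16ub2_d_coeff_one, mul_one]

/-- **Leaf UB2**: `p ≡ 7 mod 8` -/
theorem m16ub2_main (p : ℕ) [Fact p.Prime] (hF : m16_FrkAPI p) (hp8 : p % 8 = 7) :
    m16ub_Leaf 2 3 p := by
  intro G Gs hG hGs hfr hg hgs
  have hp : p.Prime := Fact.out
  have hp0 : p ≠ 0 := hp.ne_zero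
  have hpC : (p : ℂ) ≠ 0 := by exact_mod_cast hp0
  have hp2 : ¬ (2 : ℤ) ∣ (p : ℤ) := by omega
  have hchar : CharZero (PowerSeries ℂ) :=
    charZero_of_injective_ringHom (C : ℂ →+* PowerSeries ℂ).injective
  -- the pairs
  have PG : m16_Pair p 2 (qExpansion 1 G) ((p : ℂ) • qExpansion 1 Gs) := by
    refine ⟨G, (p : ℂ) • Gs, hG, m16uba_good_smul _ hGs, ?_, rfl, ?_⟩
    · intro z
      simp only [Pi.smul_apply, smul_eq_mul, hfr z]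
      field_simp
    · exact qr_qExpansion_smul _ (m16nrm_good_mem_qr hGs)
  have P4 := hF.lev1 4 E₄
  have P6 := hF.lev1 6 E₆
  rw [m16ub2_e4] at P4
  rw [m16ub2_e6] at P6
  have PH := m16ub2_pair_H PG P4 P6
  -- congruence data at `∞`
  obtain ⟨h, hh, hgh⟩ := m16ub2_exists_of_ldiv (ℓ := 2) 3 (qExpansion 1 G) 1 hg
  have hgh' : qExpansion 1 G = 1 + 8 * h := by
    rw [hgh, map_one]
    have : C (((2 : ℕ) : ℂ) ^ 3) = (8 : PowerSeries ℂ) := by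
      rw [show (((2 : ℕ) : ℂ) ^ 3) = 8 by norm_num, map_ofNat]
    rw [this]
  obtain ⟨hs, hhs, hgshs⟩ := m16ub2_exists_of_ldiv (ℓ := 2) 3 (qExpansion 1 Gs) (-1)
    (fun n => by
      have := hgs n
      convert this using 1
      split_ifs <;> ring)
  have hgs' : -qExpansion 1 Gs = 1 + 8 * (-hs) := by
    rw [hgshs, map_neg, map_one]
    have : C (((2 : ℕ) : ℂ) ^ 3) = (8 : PowerSeries ℂ) := by
      rw [show (((2 : ℕ) : ℂ) ^ 3) = 8 by norm_num, map_ofNat]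
    rw [this]
    ring
  obtain ⟨x, hx, hax⟩ := m16ub2_alg (m16ub2_S 2) h m16ub2_u m16ub2_v m16ub2_d
    (m16ub2_H (qExpansion 1 G) (1 + 16 * m16ub2_u) (1 + 8 * m16ub2_v)) hh (m16ub2_u_mem 2)
    (m16ub2_v_mem 2) (m16ub2_d_mem 2) m16ub2_rel (by rw [m16ub2_H_spec, hgh'])
  -- congruence data at the cusp `0`
  obtain ⟨u', v', d', hu', hv', hd', he4, he6, hrel', hd0, hdp⟩ := m16ub2_cusp_data p hp0 hp8
  have hb : m16ub2_H ((p : ℂ) • qExpansion 1 Gs)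
      (((p : ℂ) ^ (4 : ℤ)) • m16_V p (1 + 16 * m16ub2_u))
      (((p : ℂ) ^ (6 : ℤ)) • m16_V p (1 + 8 * m16ub2_v))
      = C ((p : ℂ) ^ 4) * m16ub2_H (-qExpansion 1 Gs) (1 + 16 * u') (1 + 8 * v') := by
    rw [← he4, ← he6, m16ub2_H_even, ← m16ub2_H_homog]
    congr 1
    · rw [smul_eq_C_mul]
    · rw [smul_eq_C_mul, ← mul_assoc, ← map_mul]
      congr 2
      rw [zpow_ofNat]
      ring
    · rw [smul_eq_C_mul, ← mul_assoc, ← map_mul]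
      congr 2
      rw [zpow_ofNat]
      ring
  obtain ⟨x', hx', hbx⟩ := m16ub2_alg (m16ub2_S 2) (-hs) u' v' d'
    (m16ub2_H (-qExpansion 1 Gs) (1 + 16 * u') (1 + 8 * v')) ((m16ub2_S 2).neg_mem hhs) hu' hv'
    hd' hrel' (by rw [m16ub2_H_spec, hgs'])
  rw [hb, hbx] at PH
  rw [hax] at PH
  -- NORM + MILLER
  have hpZ : ((p : ℂ)) ∈ m16ub2_Z 2 := natCast_mem _ p
  have h2S : (2 : PowerSeries ℂ) ∈ m16ub2_S 2 := ofNat_mem _ 2
  have haS : m16ub2_d + 2 * x ∈ m16ub2_S 2 :=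
    (m16ub2_S 2).add_mem (m16ub2_d_mem 2) ((m16ub2_S 2).mul_mem h2S hx)
  have hbS : C ((p : ℂ) ^ 4) * (d' + 2 * x') ∈ m16ub2_S 2 :=
    (m16ub2_S 2).mul_mem (m16ub2_C_mem_S ((m16ub2_Z 2).pow_mem hpZ 4))
      ((m16ub2_S 2).add_mem hd' ((m16ub2_S 2).mul_mem h2S hx'))
  have c2 : ∀ (y : PowerSeries ℂ) (n : ℕ), coeff n (2 * y) = 2 * coeff n y := by
    intro y n
    have : (2 : PowerSeries ℂ) = C (2 : ℂ) := (map_ofNat (C (R := ℂ)) 2).symm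
    rw [this, coeff_C_mul]
  have key := m16nrm_pairO (p := p) (ℓ := 2) 8 ⟨4, rfl⟩ le_rfl _ _
    (m16uba_pair_cast (by norm_num) PH)
    (fun n => m16ub2_Z_le_O (haS n)) (fun n => m16ub2_Z_le_O (hbS n))
    (by
      rw [map_add, m16ub2_d_coeff_zero, zero_add, c2]
      exact m16ub2_two_mul_mem_J (hx 0))
    (fun n hn => by
      rw [coeff_C_mul, map_add, hd0 n hn, zero_add, c2]
      have : (p : ℂ) ^ 4 * (2 * coeff n x') = 2 * ((p : ℂ) ^ 4 * coeff n x') := by ring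
      rw [this]
      exact m16ub2_two_mul_mem_J ((m16ub2_Z 2).mul_mem ((m16ub2_Z 2).pow_mem hpZ 4) (hx' n)))
  -- the contradiction
  have ha1 : coeff 1 (m16ub2_d + 2 * x) - 1 ∈ m16nrm_J 2 := by
    rw [map_add, m16ub2_d_coeff_one, c2, add_sub_cancel_left]
    exact m16ub2_two_mul_mem_J (hx 1)
  have hbp : coeff p (C ((p : ℂ) ^ 4) * (d' + 2 * x')) - (p : ℂ) ^ 10 ∈ m16nrm_J 2 := by
    rw [coeff_C_mul, map_add, hdp, c2]
    have : (p : ℂ) ^ 4 * ((p : ℂ) ^ 6 + 2 * coeff p x') - (p : ℂ) ^ 10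
        = 2 * ((p : ℂ) ^ 4 * coeff p x') := by ring
    rw [this]
    exact m16ub2_two_mul_mem_J ((m16ub2_Z 2).mul_mem ((m16ub2_Z 2).pow_mem hpZ 4) (hx' p))
  have hpO : (p : ℂ) ^ 10 ∈ m16nrm_O 2 := (m16nrm_O 2).pow_mem (natCast_mem _ p) 10
  have hbpp := m16ub2_cong_pow hbp hpO (m16ub2_Z_le_O (hbS p)) p
  have hprod := m16nrm_cong_mul ha1 hbpp (m16nrm_O 2).one_mem
    ((m16nrm_O 2).pow_mem (m16ub2_Z_le_O (hbS p)) p)
  have hfin : (1 : ℂ) * ((p : ℂ) ^ 10) ^ p ∈ m16nrm_J 2 := by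
    have := (m16nrm_J 2).sub_mem key hprod
    rwa [sub_sub_cancel] at this
  have hint : (((p : ℤ) ^ (10 * p) : ℤ) : ℂ) ∈ m16nrm_J 2 := by
    convert hfin using 1
    push_cast
    rw [one_mul, pow_mul]
  refine m16nrm_int_not_mem_J ((p : ℤ) ^ (10 * p)) ?_ hint
  intro hdvd
  exact hp2 ((Int.prime_two).dvd_of_dvd_pow (by exact_mod_cast hdvd))

end Fermat.Agent.M16

end
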