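/-
M16 (S16 project), leaf UB3 (helper4): the case `ℓ = 3`, `9 ∣ p + 1` of the upper bound.

If `G ≡ 1`, `Gs ≡ -1 mod 9` is a Fricke pair of weight 2 (`Gs = p⁻¹ z⁻² G(-1/(pz))`), then
`D = (E₄ - G²)/3` has the Fricke transform `D# = (p⁴ E₄(pz) - p² Gs²)/3`; both have
3-integral coefficients, `D ≡ 80 q + …`, `D# ≡ 80 p⁴ q ^ p + …` modulo 3 (here `9 ∣ p + 1`
is used: the constant term `p² (p² - 1)/3` of `D#` is divisible by 3).  This contradicts
NORM + MILLER (`m16nrm_leaf_false`).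
-/
import Mathlib
import Fermat.Agent.M16.NrmLeafE
import Fermat.Agent.M16.UbaLeaf
import Fermat.Agent.M16.FrkApi

set_option autoImplicit false

noncomputable section

namespace Fermat.Agent.M16

open UpperHalfPlane CongruenceSubgroup ModularFormClass Fermat.Agent.S23 Function PowerSeries
open scoped MatrixGroups ModularForm Manifold Real
open EisensteinSeries ModularForm

/-- the algebra at `∞` -/
theorem m16ub3_alg_inf (A x : PowerSeries ℂ) :
    (1 + 240 * A) - (1 + ((3 : ℕ) : PowerSeries ℂ) ^ 2 * x) * (1 + ((3 : ℕ) : PowerSeries ℂ) ^ 2 * x)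
      = ((3 : ℕ) : PowerSeries ℂ) *
        (((80 : ℕ) : PowerSeries ℂ) * A + ((3 : ℕ) : PowerSeries ℂ) * (-2 * x - 9 * x * x)) := by
  push_cast
  ring

/-- the algebra at `0` -/
theorem m16ub3_alg_zero (P T VA y : PowerSeries ℂ) (h : P + 1 = 9 * T) :
    P ^ 4 * (1 + 240 * VA) - (P * (-1 + ((3 : ℕ) : PowerSeries ℂ) ^ 2 * y)) *
        (P * (-1 + ((3 : ℕ) : PowerSeries ℂ) ^ 2 * y))
      = ((3 : ℕ) : PowerSeries ℂ) * (80 * P ^ 4 * VA + ((3 : ℕ) : PowerSeries ℂ) *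
          (T * (P - 1) * P ^ 2 + 2 * P ^ 2 * y - 9 * P ^ 2 * y * y)) := by
  push_cast
  linear_combination P ^ 2 * (P - 1) * h

/-- **Leaf UB3**, conditional on the Fricke pair of `E₄`. -/
theorem m16ub3_core (p : ℕ) [Fact p.Prime] (hp9 : 9 ∣ p + 1)
    (hlev : m16_Pair p 4 (qExpansion 1 E₄) (((p : ℂ) ^ (4 : ℤ)) • m16_V p (qExpansion 1 E₄))) :
    m16ub_Leaf 3 2 p := by
  intro G Gs hG hGs hF h1 h2
  haveI : Fact (Nat.Prime 3) := ⟨Nat.prime_three⟩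
  have hpp : p.Prime := Fact.out
  obtain ⟨t, ht⟩ := hp9
  have htP : ((p : ℕ) : PowerSeries ℂ) + 1 = 9 * ((t : ℕ) : PowerSeries ℂ) := by
    exact_mod_cast congrArg (Nat.cast (R := PowerSeries ℂ)) ht
  obtain ⟨x, hx, hax⟩ := m16nrm_leaf_input_one (ℓ := 3) 2 _ h1
  obtain ⟨y, hy, hby⟩ := m16nrm_leaf_input_neg_one (ℓ := 3) 2 _ h2
  have hpair := m16nrm_leaf_pair p G Gs hG hGs hF
  rw [hax, hby] at hpair
  have hE := m16nrm_pair_E4 p hlev
  have hD := m16uba_pair_smul (((3 : ℕ) : ℂ)⁻¹)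
    (m16uba_pair_sub hE (m16uba_pair_cast (by norm_num) (m16uba_pair_mul hpair hpair)))
  rw [m16ub3_alg_inf, m16ub3_alg_zero _ _ _ _ htP, m16nrm_inv_smul 3 (by norm_num),
    m16nrm_inv_smul 3 (by norm_num)] at hD
  have hψ : (-2 * x - 9 * x * x) ∈ m16nrm_PO 3 := by
    apply_rules [hx, hy, ofNat_mem, natCast_mem, Subring.pow_mem, Subring.neg_mem,
      Subring.add_mem, Subring.sub_mem, Subring.mul_mem, Subring.one_mem]
  have hψs : (((t : ℕ) : PowerSeries ℂ) * (((p : ℕ) : PowerSeries ℂ) - 1)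
      * ((p : ℕ) : PowerSeries ℂ) ^ 2 + 2 * ((p : ℕ) : PowerSeries ℂ) ^ 2 * y
      - 9 * ((p : ℕ) : PowerSeries ℂ) ^ 2 * y * y) ∈ m16nrm_PO 3 := by
    apply_rules [hx, hy, ofNat_mem, natCast_mem, Subring.pow_mem, Subring.neg_mem,
      Subring.add_mem, Subring.sub_mem, Subring.mul_mem, Subring.one_mem]
  have hVA : m16_V p m16nrm_A ∈ m16nrm_PO 3 := m16nrm_V_mem_PO p (m16nrm_A_mem 3)
  have h80 : (80 * ((p : ℕ) : PowerSeries ℂ) ^ 4) = (((80 * p ^ 4 : ℕ) : ℕ) : PowerSeries ℂ) := by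
    push_cast
    ring
  rw [h80] at hD
  refine m16nrm_leaf_false (ℓ := 3) (p := p) 4 (by decide) (by norm_num) _ _
    (m16uba_pair_cast (by norm_num) hD) ?_ ?_ ?_ ?_ 80 (80 * (p : ℤ) ^ 4) ?_ ?_ ?_ ?_
  · exact Subring.add_mem _ (Subring.mul_mem _ (natCast_mem _ _) (m16nrm_A_mem 3))
      (Subring.mul_mem _ (natCast_mem _ _) hψ)
  · exact Subring.add_mem _ (Subring.mul_mem _ (natCast_mem _ _) hVA)
      (Subring.mul_mem _ (natCast_mem _ _) hψs)
  · refine m16nrm_coeff_main_mem_J hψ 0 ?_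
    rw [m16nrm_coeff_natCast_mul, m16nrm_A_coeff_zero, mul_zero]
  · intro n hn
    refine m16nrm_coeff_main_mem_J hψs n ?_
    rw [m16nrm_coeff_natCast_mul, m16nrm_V_coeff_lt _ m16nrm_A_coeff_zero hn, mul_zero]
  · norm_num
  · intro h
    have h3 : Prime (3 : ℤ) := Int.prime_three
    have hc : ((3 : ℕ) : ℤ) = 3 := by norm_num
    rw [hc] at h
    rcases h3.dvd_or_dvd h with h' | h'
    · norm_num at h'
    · have h4 := h3.dvd_of_dvd_pow h'
      have h5 : (3 : ℕ) ∣ p := by exact_mod_cast h4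
      omega
  · have := m16nrm_coeff_main_sub_mem_J (ℓ := 3) (M := ((80 : ℕ) : PowerSeries ℂ) * m16nrm_A) hψ 1
    rw [m16nrm_coeff_natCast_mul, m16nrm_A_coeff_one, mul_one] at this
    exact_mod_cast this
  · have := m16nrm_coeff_main_sub_mem_J (ℓ := 3)
      (M := (((80 * p ^ 4 : ℕ) : ℕ) : PowerSeries ℂ) * m16_V p m16nrm_A) hψs p
    rw [m16nrm_coeff_natCast_mul, m16nrm_V_coeff_self hpp.pos, m16nrm_A_coeff_one, mul_one] at this
    exact_mod_cast this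

/-- **Leaf UB3**: the case `ℓ = 3`, `9 ∣ p + 1` of the upper bound. -/
theorem m16ub3_main (p : ℕ) [Fact p.Prime] (hp : 9 ∣ p + 1) : m16ub_Leaf 3 2 p :=
  m16ub3_core p hp ((m16frk_api p).lev1 4 E₄)

end Fermat.Agent.M16

end
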