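/-
M16 (S16 project), leaf UBL (helper4): the case `ℓ ≥ 5`, `ℓ ∣ p + 1` of the upper bound.

If `G ≡ 1`, `Gs ≡ -1 mod ℓ` is a Fricke pair of weight 2 (`Gs = p⁻¹ z⁻² G(-1/(pz))`), then
* for `ℓ ≥ 7`: `D = G² - E₄ ≡ -240 q + …`, `D# = p² Gs² - p⁴ E₄(pz) ≡ -240 p⁴ q ^ p + …`,
* for `ℓ = 5`: `D = G³ - E₆ ≡ 504 q + …`, `D# = p³ Gs³ - p⁶ E₆(pz) ≡ 504 p⁶ q ^ p + …`
modulo `ℓ` (the constant term of `D#` is divisible by `p + 1`).  This contradicts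
NORM + MILLER (`m16nrm_leaf_false`).
-/
import Mathlib
import Fermat.Agent.M16.NrmLeafE
import Fermat.Agent.M16.UbaLeaf
import Fermat.Agent.M16.FrkApi

set_option autoImplicit false

noncomputable section

namespace Fermat.Agent.M16

open UpperHalfPlane CongruenceSubgroup ModularFormClass Fermat.Agent.S23 Function PowerSeries
open scoped MatrixGroups ModularForm Manifold Real
open EisensteinSeries ModularForm

/-- the algebra at `∞`, `ℓ ≥ 7` -/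
theorem m16ubl_alg7_inf (L A x : PowerSeries ℂ) :
    (1 + L ^ 1 * x) * (1 + L ^ 1 * x) - (1 + 240 * A)
      = ((-240 : ℤ) : PowerSeries ℂ) * A + L * (2 * x + L * x * x) := by
  push_cast
  ring

/-- the algebra at `0`, `ℓ ≥ 7` -/
theorem m16ubl_alg7_zero (L P T VA y : PowerSeries ℂ) (h : P + 1 = L * T) :
    (P * (-1 + L ^ 1 * y)) * (P * (-1 + L ^ 1 * y)) - P ^ 4 * (1 + 240 * VA)
      = (-240 * P ^ 4) * VA + L * (-(T * P ^ 2 * (P - 1)) - 2 * P ^ 2 * y + L * P ^ 2 * y * y) := by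
  linear_combination (-(P ^ 2 * (P - 1))) * h

/-- the algebra at `∞`, `ℓ = 5` -/
theorem m16ubl_alg5_inf (B x : PowerSeries ℂ) :
    (1 + ((5 : ℕ) : PowerSeries ℂ) ^ 1 * x) * ((1 + ((5 : ℕ) : PowerSeries ℂ) ^ 1 * x)
        * (1 + ((5 : ℕ) : PowerSeries ℂ) ^ 1 * x)) - (1 - 504 * B)
      = ((504 : ℕ) : PowerSeries ℂ) * B
        + ((5 : ℕ) : PowerSeries ℂ) * (3 * x + 15 * x * x + 25 * x * x * x) := by
  push_cast
  ring

/-- the algebra at `0`, `ℓ = 5` -/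
theorem m16ubl_alg5_zero (P T VB y : PowerSeries ℂ) (h : P + 1 = 5 * T) :
    (P * (-1 + ((5 : ℕ) : PowerSeries ℂ) ^ 1 * y)) * ((P * (-1 + ((5 : ℕ) : PowerSeries ℂ) ^ 1 * y))
        * (P * (-1 + ((5 : ℕ) : PowerSeries ℂ) ^ 1 * y))) - P ^ 6 * (1 - 504 * VB)
      = (504 * P ^ 6) * VB + ((5 : ℕ) : PowerSeries ℂ) *
          (-(T * P ^ 3 * (P ^ 2 - P + 1)) + P ^ 3 * (3 * y - 15 * y * y + 25 * y * y * y)) := by
  push_cast
  linear_combination (-(P ^ 3 * (P ^ 2 - P + 1))) * h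

theorem m16ubl_not_dvd_p {p ℓ : ℕ} (hℓ : ℓ.Prime) (hd : ℓ ∣ p + 1) : ¬ ℓ ∣ p := by
  intro h
  have h1 : ℓ ∣ (p + 1) - p := Nat.dvd_sub hd h
  rw [Nat.add_sub_cancel_left] at h1
  exact hℓ.one_lt.ne' (Nat.dvd_one.mp h1)

theorem m16ubl_not_dvd_mul_pow {p ℓ : ℕ} (hℓ : ℓ.Prime) (hd : ℓ ∣ p + 1) (c : ℤ)
    (hc : ¬ (ℓ : ℤ) ∣ c) (n : ℕ) : ¬ (ℓ : ℤ) ∣ c * (p : ℤ) ^ n := by
  intro h
  have hℓ' : Prime (ℓ : ℤ) := Nat.prime_iff_prime_int.mp hℓ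
  rcases hℓ'.dvd_or_dvd h with h' | h'
  · exact hc h'
  · have h4 := hℓ'.dvd_of_dvd_pow h'
    exact m16ubl_not_dvd_p hℓ hd (by exact_mod_cast h4)

theorem m16ubl_not_dvd_240 {ℓ : ℕ} (hℓ : ℓ.Prime) (h7 : 7 ≤ ℓ) : ¬ (ℓ : ℤ) ∣ (-240 : ℤ) := by
  intro h
  have h1 : (ℓ : ℤ) ∣ (240 : ℤ) := (dvd_neg).mp h
  have h2 : ℓ ∣ 240 := by exact_mod_cast h1
  have h3 : ℓ ∣ 2 ^ 4 * 3 * 5 := by norm_num; exact h2
  rcases hℓ.dvd_mul.mp h3 with h4 | h4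
  · rcases hℓ.dvd_mul.mp h4 with h5 | h5
    · have := Nat.le_of_dvd (by norm_num) (hℓ.dvd_of_dvd_pow h5)
      omega
    · have := Nat.le_of_dvd (by norm_num) h5
      omega
  · have := Nat.le_of_dvd (by norm_num) h4
    omega

/-- **Leaf UBL for `ℓ ≥ 7`**, conditional on the Fricke pair of `E₄`. -/
theorem m16ubl_core7 (p : ℕ) [Fact p.Prime] (ℓ : ℕ) (hℓ : ℓ.Prime) (h7 : 7 ≤ ℓ)
    (hd : ℓ ∣ p + 1)
    (hlev : m16_Pair p 4 (qExpansion 1 E₄) (((p : ℂ) ^ (4 : ℤ)) • m16_V p (qExpansion 1 E₄))) :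
    m16ub_Leaf ℓ 1 p := by
  intro G Gs hG hGs hF h1 h2
  haveI : Fact ℓ.Prime := ⟨hℓ⟩
  have hpp : p.Prime := Fact.out
  obtain ⟨t, ht⟩ := hd
  have htP : ((p : ℕ) : PowerSeries ℂ) + 1 = ((ℓ : ℕ) : PowerSeries ℂ) * ((t : ℕ) : PowerSeries ℂ) := by
    exact_mod_cast congrArg (Nat.cast (R := PowerSeries ℂ)) ht
  obtain ⟨x, hx, hax⟩ := m16nrm_leaf_input_one (ℓ := ℓ) 1 _ h1
  obtain ⟨y, hy, hby⟩ := m16nrm_leaf_input_neg_one (ℓ := ℓ) 1 _ h2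
  have hpair := m16nrm_leaf_pair p G Gs hG hGs hF
  rw [hax, hby] at hpair
  have hE := m16nrm_pair_E4 p hlev
  have hD := m16uba_pair_sub (m16uba_pair_cast (by norm_num) (m16uba_pair_mul hpair hpair)) hE
  rw [m16ubl_alg7_inf, m16ubl_alg7_zero _ _ _ _ _ htP] at hD
  have hψ : (2 * x + ((ℓ : ℕ) : PowerSeries ℂ) * x * x) ∈ m16nrm_PO ℓ := by
    apply_rules [hx, hy, ofNat_mem, natCast_mem, Subring.pow_mem, Subring.neg_mem,
      Subring.add_mem, Subring.sub_mem, Subring.mul_mem, Subring.one_mem]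
  have hψs : (-(((t : ℕ) : PowerSeries ℂ) * ((p : ℕ) : PowerSeries ℂ) ^ 2
        * (((p : ℕ) : PowerSeries ℂ) - 1)) - 2 * ((p : ℕ) : PowerSeries ℂ) ^ 2 * y
      + ((ℓ : ℕ) : PowerSeries ℂ) * ((p : ℕ) : PowerSeries ℂ) ^ 2 * y * y) ∈ m16nrm_PO ℓ := by
    apply_rules [hx, hy, ofNat_mem, natCast_mem, Subring.pow_mem, Subring.neg_mem,
      Subring.add_mem, Subring.sub_mem, Subring.mul_mem, Subring.one_mem]
  have hVA : m16_V p m16nrm_A ∈ m16nrm_PO ℓ := m16nrm_V_mem_PO p (m16nrm_A_mem ℓ)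
  have h240 : (-240 * ((p : ℕ) : PowerSeries ℂ) ^ 4)
      = (((-240 * (p : ℤ) ^ 4 : ℤ) : ℤ) : PowerSeries ℂ) := by
    push_cast
    ring
  rw [h240] at hD
  have hcoeff : ∀ (c : ℤ) (n : ℕ) (φ : PowerSeries ℂ),
      coeff n (((c : ℤ) : PowerSeries ℂ) * φ) = (c : ℂ) * coeff n φ := by
    intro c n φ
    rw [show ((c : ℤ) : PowerSeries ℂ) = C (c : ℂ) from (map_intCast (C (R := ℂ)) c).symm,
      coeff_C_mul]
  refine m16nrm_leaf_false (ℓ := ℓ) (p := p) 4 (by decide) (by norm_num) _ _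
    (m16uba_pair_cast (by norm_num) hD) ?_ ?_ ?_ ?_ (-240) (-240 * (p : ℤ) ^ 4) ?_ ?_ ?_ ?_
  · exact Subring.add_mem _ (Subring.mul_mem _ (intCast_mem _ _) (m16nrm_A_mem ℓ))
      (Subring.mul_mem _ (natCast_mem _ _) hψ)
  · exact Subring.add_mem _ (Subring.mul_mem _ (intCast_mem _ _) hVA)
      (Subring.mul_mem _ (natCast_mem _ _) hψs)
  · refine m16nrm_coeff_main_mem_J hψ 0 ?_
    rw [hcoeff, m16nrm_A_coeff_zero, mul_zero]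
  · intro n hn
    refine m16nrm_coeff_main_mem_J hψs n ?_
    rw [hcoeff, m16nrm_V_coeff_lt _ m16nrm_A_coeff_zero hn, mul_zero]
  · exact m16ubl_not_dvd_240 hℓ h7
  · exact m16ubl_not_dvd_mul_pow hℓ ⟨t, ht⟩ (-240) (m16ubl_not_dvd_240 hℓ h7) 4
  · have := m16nrm_coeff_main_sub_mem_J (ℓ := ℓ)
      (M := ((-240 : ℤ) : PowerSeries ℂ) * m16nrm_A) hψ 1
    rw [hcoeff, m16nrm_A_coeff_one, mul_one] at this
    exact this
  · have := m16nrm_coeff_main_sub_mem_J (ℓ := ℓ)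
      (M := (((-240 * (p : ℤ) ^ 4 : ℤ) : ℤ) : PowerSeries ℂ) * m16_V p m16nrm_A) hψs p
    rw [hcoeff, m16nrm_V_coeff_self hpp.pos, m16nrm_A_coeff_one, mul_one] at this
    exact this

/-- **Leaf UBL for `ℓ = 5`**, conditional on the Fricke pair of `E₆`. -/
theorem m16ubl_core5 (p : ℕ) [Fact p.Prime] (hd : 5 ∣ p + 1)
    (hlev : m16_Pair p 6 (qExpansion 1 E₆) (((p : ℂ) ^ (6 : ℤ)) • m16_V p (qExpansion 1 E₆))) :
    m16ub_Leaf 5 1 p := by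
  intro G Gs hG hGs hF h1 h2
  have h5p : Nat.Prime 5 := by norm_num
  haveI : Fact (Nat.Prime 5) := ⟨h5p⟩
  have hpp : p.Prime := Fact.out
  obtain ⟨t, ht⟩ := hd
  have htP : ((p : ℕ) : PowerSeries ℂ) + 1 = 5 * ((t : ℕ) : PowerSeries ℂ) := by
    exact_mod_cast congrArg (Nat.cast (R := PowerSeries ℂ)) ht
  obtain ⟨x, hx, hax⟩ := m16nrm_leaf_input_one (ℓ := 5) 1 _ h1
  obtain ⟨y, hy, hby⟩ := m16nrm_leaf_input_neg_one (ℓ := 5) 1 _ h2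
  have hpair := m16nrm_leaf_pair p G Gs hG hGs hF
  rw [hax, hby] at hpair
  have hE := m16nrm_pair_E6 p hlev
  have hD := m16uba_pair_sub (m16uba_pair_cast (by norm_num)
    (m16uba_pair_mul hpair (m16uba_pair_mul hpair hpair))) hE
  rw [m16ubl_alg5_inf, m16ubl_alg5_zero _ _ _ _ htP] at hD
  have hψ : (3 * x + 15 * x * x + 25 * x * x * x) ∈ m16nrm_PO 5 := by
    apply_rules [hx, hy, ofNat_mem, natCast_mem, Subring.pow_mem, Subring.neg_mem,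
      Subring.add_mem, Subring.sub_mem, Subring.mul_mem, Subring.one_mem]
  have hψs : (-(((t : ℕ) : PowerSeries ℂ) * ((p : ℕ) : PowerSeries ℂ) ^ 3
        * (((p : ℕ) : PowerSeries ℂ) ^ 2 - ((p : ℕ) : PowerSeries ℂ) + 1))
      + ((p : ℕ) : PowerSeries ℂ) ^ 3 * (3 * y - 15 * y * y + 25 * y * y * y))
      ∈ m16nrm_PO 5 := by
    apply_rules [hx, hy, ofNat_mem, natCast_mem, Subring.pow_mem, Subring.neg_mem,
      Subring.add_mem, Subring.sub_mem, Subring.mul_mem, Subring.one_mem]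
  have hVB : m16_V p m16nrm_B ∈ m16nrm_PO 5 := m16nrm_V_mem_PO p (m16nrm_B_mem 5)
  have h504 : (504 * ((p : ℕ) : PowerSeries ℂ) ^ 6)
      = (((504 * p ^ 6 : ℕ) : ℕ) : PowerSeries ℂ) := by
    push_cast
    ring
  rw [h504] at hD
  refine m16nrm_leaf_false (ℓ := 5) (p := p) 6 (by decide) (by norm_num) _ _
    (m16uba_pair_cast (by norm_num) hD) ?_ ?_ ?_ ?_ 504 (504 * (p : ℤ) ^ 6) ?_ ?_ ?_ ?_
  · exact Subring.add_mem _ (Subring.mul_mem _ (natCast_mem _ _) (m16nrm_B_mem 5))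
      (Subring.mul_mem _ (natCast_mem _ _) hψ)
  · exact Subring.add_mem _ (Subring.mul_mem _ (natCast_mem _ _) hVB)
      (Subring.mul_mem _ (natCast_mem _ _) hψs)
  · refine m16nrm_coeff_main_mem_J hψ 0 ?_
    rw [m16nrm_coeff_natCast_mul, m16nrm_B_coeff_zero, mul_zero]
  · intro n hn
    refine m16nrm_coeff_main_mem_J hψs n ?_
    rw [m16nrm_coeff_natCast_mul, m16nrm_V_coeff_lt _ m16nrm_B_coeff_zero hn, mul_zero]
  · norm_num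
  · exact m16ubl_not_dvd_mul_pow h5p ⟨t, ht⟩ 504 (by norm_num) 6
  · have := m16nrm_coeff_main_sub_mem_J (ℓ := 5)
      (M := ((504 : ℕ) : PowerSeries ℂ) * m16nrm_B) hψ 1
    rw [m16nrm_coeff_natCast_mul, m16nrm_B_coeff_one, mul_one] at this
    exact_mod_cast this
  · have := m16nrm_coeff_main_sub_mem_J (ℓ := 5)
      (M := (((504 * p ^ 6 : ℕ) : ℕ) : PowerSeries ℂ) * m16_V p m16nrm_B) hψs p
    rw [m16nrm_coeff_natCast_mul, m16nrm_V_coeff_self hpp.pos, m16nrm_B_coeff_one, mul_one]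
      at this
    exact_mod_cast this

/-- **Leaf UBL**, conditional on the Fricke pairs of `E₄` and `E₆`. -/
theorem m16ubl_core (p : ℕ) [Fact p.Prime] (ℓ : ℕ) (hℓ : ℓ.Prime) (h5 : 5 ≤ ℓ)
    (hd : ℓ ∣ p + 1)
    (hlev4 : m16_Pair p 4 (qExpansion 1 E₄) (((p : ℂ) ^ (4 : ℤ)) • m16_V p (qExpansion 1 E₄)))
    (hlev6 : m16_Pair p 6 (qExpansion 1 E₆) (((p : ℂ) ^ (6 : ℤ)) • m16_V p (qExpansion 1 E₆))) :
    m16ub_Leaf ℓ 1 p := by
  have h6 : ℓ ≠ 6 := by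
    rintro rfl
    exact absurd hℓ (by norm_num)
  rcases (show ℓ = 5 ∨ 7 ≤ ℓ by omega) with rfl | h7
  · exact m16ubl_core5 p hd hlev6
  · exact m16ubl_core7 p ℓ hℓ h7 hd hlev4

/-- **Leaf UBL**: the case `ℓ ≥ 5`, `ℓ ∣ p + 1` of the upper bound. -/
theorem m16ubl_main (p : ℕ) [Fact p.Prime] (ℓ : ℕ) (hℓ : ℓ.Prime) (h5 : 5 ≤ ℓ)
    (hd : ℓ ∣ p + 1) : m16ub_Leaf ℓ 1 p :=
  m16ubl_core p ℓ hℓ h5 hd ((m16frk_api p).lev1 4 E₄) ((m16frk_api p).lev1 6 E₆)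

end Fermat.Agent.M16

end
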