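/-
M16 (S16 project), UPPER BOUND side: the end theorem `m16ub_main : m16_UBF` (helper7).

Assembly of
* the interface `m16frk_api` of the packages EIS + FRK (helper6, helper8),
* the arithmetic leaf UBA and the assembly `m16ub_main_of` (helper7),
* the three NORM leaves: UB2 (`m16ub2_main`, helper7), UB3 (`m16ub3_main`, helper4),
  UBL (`m16ubl_main`, helper4), all resting on NORM + MILLER (helper4, helper1).
-/
import Fermat.Agent.M16.UbaAssembly
import Fermat.Agent.M16.FrkApi
import Fermat.Agent.M16.Ub2Main
import Fermat.Agent.M16.Ub3Main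
import Fermat.Agent.M16.UblMain

set_option autoImplicit false

namespace Fermat.Agent.M16

/-- **the upper bound**: every Eisenstein congruence modulo `m` has `m ∣ n`. -/
theorem m16ub_main : m16_UBF :=
  m16ub_main_of (fun p _ => m16frk_api p)
    (fun p _ hp => m16ub2_main p (m16frk_api p) hp)
    (fun p _ hp => m16ub3_main p hp)
    (fun p _ ℓ hℓ h5 hd => m16ubl_main p ℓ hℓ h5 hd)

end Fermat.Agent.M16
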