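import Mathlib
import Fermat.Agent.S24.PolyJ
import Fermat.Agent.S24.AnaQexp
import Fermat.Agent.S24.AnaMer

/-!
# S16, package ZC: weakly holomorphic forms of weight `2` and level one have constant term `0`

* `m16zc_coeff_zero_eq_integral` : the constant term of the Laurent expansion of a holomorphic
  `1`-periodic function, meromorphic at `i∞`, is `∫₀¹ K (u + t i) du`;
* `m16zc_integral_D` : `∫₀¹ (D H) (u + t i) du = 0` for holomorphic `1`-periodic `H`;
* `m16zc_eq_D` : a holomorphic function `T`, invariant of weight `2` under `SL(2,ℤ)` and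
  meromorphic at `i∞`, is `D (R ∘ J)` for a polynomial `R`;
* `m16zc_main` : the constant term of such a `T` vanishes.
-/

set_option autoImplicit false

noncomputable section

namespace Fermat.Agent.M16

open UpperHalfPlane hiding I
open Filter Function Topology ModularForm Complex Derivative
open Fermat.Agent.S23 Fermat.Agent.S24
open scoped Manifold MatrixGroups ModularForm Real

local notation "Δ" => ModularForm.discriminant
local notation "𝕢" => Function.Periodic.qParam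

/-- the point `u + t i` of the upper half plane -/
def m16zc_pt (t : ℝ) (ht : 0 < t) (u : ℝ) : ℍ := ⟨(u : ℂ) + t * I, by simpa using ht⟩

theorem m16zc_pt_coe (t : ℝ) (ht : 0 < t) (u : ℝ) :
    ((m16zc_pt t ht u : ℍ) : ℂ) = (u : ℂ) + t * I := rfl

theorem m16zc_continuous_pt (t : ℝ) (ht : 0 < t) : Continuous (m16zc_pt t ht) := by
  rw [UpperHalfPlane.isEmbedding_coe.continuous_iff]
  show Continuous fun u : ℝ => ((u : ℂ) + t * I)
  fun_prop

/-- The constant term of the Laurent expansion is the mean value on a horizontal line. -/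
theorem m16zc_coeff_zero_eq_integral {K : ℍ → ℂ} (hK : ana_IsMer 1 K) (t : ℝ) (ht : 0 < t) :
    (ana_laurent 1 K).coeff 0 = ∫ u in (0 : ℝ)..1, K (m16zc_pt t ht u) := by
  obtain ⟨m, hm⟩ := hK.2.2
  have hnice := hK.nice hm
  rw [ana_laurent_eq hK hm, ana_laurentAux]
  have h0 : (0 : ℤ) = (m : ℤ) + (-(m : ℤ)) := by ring
  rw [h0, HahnSeries.coeff_single_mul_add, one_mul, HahnSeries.ofPowerSeries_apply_coeff]
  have hper : Periodic ((fun τ : ℍ => ana_q 1 τ ^ m * K τ) ∘ ofComplex) (((1 : ℝ)) : ℂ) := by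
    have := ana_periodic_of_vadd (N := 1) (F := fun τ : ℍ => ana_q 1 τ ^ m * K τ) hnice.2.1
    simpa using this
  have hkey := qExpansion_coeff_eq_intervalIntegral (h := (1 : ℝ)) one_pos hper hnice.1
    hnice.2.2 m ht
  have hcast : qExpansion (((1 : ℕ) : ℝ)) (fun τ : ℍ => ana_q 1 τ ^ m * K τ)
      = qExpansion (1 : ℝ) (fun τ : ℍ => ana_q 1 τ ^ m * K τ) := by
    rw [Nat.cast_one]
  rw [hcast, hkey]
  have h11 : (1 : ℂ) / ((1 : ℝ) : ℂ) = 1 := by simp
  rw [h11, one_mul]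
  refine intervalIntegral.integral_congr fun u _ => ?_
  have hI : ((UpperHalfPlane.I : ℍ) : ℂ) = Complex.I := UpperHalfPlane.coe_I
  generalize_proofs hpf
  have hτ : (⟨(u : ℂ) + t * ((UpperHalfPlane.I : ℍ) : ℂ), hpf⟩ : ℍ) = m16zc_pt t ht u := by
    apply UpperHalfPlane.ext
    show (u : ℂ) + t * ((UpperHalfPlane.I : ℍ) : ℂ) = (u : ℂ) + t * Complex.I
    rw [hI]
  rw [hτ, hI]
  have hq : ana_q 1 (m16zc_pt t ht u) = 𝕢 (1 : ℝ) ((u : ℂ) + t * Complex.I) := by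
    simp [ana_q, m16zc_pt_coe]
  have hne : 𝕢 (1 : ℝ) ((u : ℂ) + t * Complex.I) ≠ 0 := Function.Periodic.qParam_ne_zero _
  rw [hq]
  field_simp

/-- `∫₀¹ (D H)(u + t i) du = 0` for a holomorphic `1`-periodic function `H`. -/
theorem m16zc_integral_D {H : ℍ → ℂ} (hH : MDiff H) (hper : ∀ τ : ℍ, H ((1 : ℝ) +ᵥ τ) = H τ)
    (t : ℝ) (ht : 0 < t) :
    ∫ u in (0 : ℝ)..1, D H (m16zc_pt t ht u) = 0 := by
  have hderiv : ∀ u ∈ Set.uIcc (0 : ℝ) 1,
      HasDerivAt (fun v : ℝ => (H ∘ ofComplex) ((v : ℂ) + t * I))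
        (deriv (H ∘ ofComplex) ((u : ℂ) + t * I)) u := by
    intro u _
    have han : AnalyticAt ℂ (H ∘ ofComplex) ((m16zc_pt t ht u : ℍ) : ℂ) :=
      ord_analyticAt hH (m16zc_pt t ht u)
    have h1 : HasDerivAt (H ∘ ofComplex) (deriv (H ∘ ofComplex) ((u : ℂ) + t * I))
        ((u : ℂ) + t * I) := han.differentiableAt.hasDerivAt
    have h2 : HasDerivAt (fun z : ℂ => (H ∘ ofComplex) (z + t * I))
        (deriv (H ∘ ofComplex) ((u : ℂ) + t * I)) (u : ℂ) :=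
      h1.comp_add_const (u : ℂ) (t * I)
    exact h2.comp_ofReal
  have hcont : Continuous (fun u : ℝ => deriv (H ∘ ofComplex) ((u : ℂ) + t * I)) := by
    have hD : Continuous (D H) := (normalizedDerivOfComplex_mdifferentiable hH).continuous
    have h2 : Continuous (fun u : ℝ => (2 * π * I) * D H (m16zc_pt t ht u)) :=
      continuous_const.mul (hD.comp (m16zc_continuous_pt t ht))
    refine h2.congr fun u => ?_
    have h2pi : (2 * π * I : ℂ) ≠ 0 := by simp [Real.pi_ne_zero]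
    rw [normalizedDerivOfComplex, m16zc_pt_coe]
    field_simp
  have hint := intervalIntegral.integral_eq_sub_of_hasDerivAt hderiv
    (hcont.intervalIntegrable 0 1)
  have hval : (H ∘ ofComplex) (((1 : ℝ) : ℂ) + t * I) = (H ∘ ofComplex) (((0 : ℝ) : ℂ) + t * I) := by
    have h1 := hper (m16zc_pt t ht 0)
    have e0 : (H ∘ ofComplex) (((0 : ℝ) : ℂ) + t * I) = H (m16zc_pt t ht 0) := by
      rw [← m16zc_pt_coe t ht 0]
      exact ord_comp_ofComplex_coe H _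
    have e1 : (H ∘ ofComplex) (((1 : ℝ) : ℂ) + t * I) = H ((1 : ℝ) +ᵥ m16zc_pt t ht 0) := by
      have : (((1 : ℝ) +ᵥ m16zc_pt t ht 0 : ℍ) : ℂ) = ((1 : ℝ) : ℂ) + t * I := by
        rw [UpperHalfPlane.coe_vadd, m16zc_pt_coe]
        push_cast
        ring
      rw [← this]
      exact ord_comp_ofComplex_coe H _
    rw [e0, e1, h1]
  rw [hval, sub_self] at hint
  have h2pi : (2 * π * I : ℂ) ≠ 0 := by simp [Real.pi_ne_zero]
  have hD : ∀ u : ℝ, D H (m16zc_pt t ht u)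
      = (2 * π * I)⁻¹ * deriv (H ∘ ofComplex) ((u : ℂ) + t * I) := fun u => rfl
  simp_rw [hD]
  rw [intervalIntegral.integral_const_mul, hint, mul_zero]

/-- chain rule for `D` and polynomials in `J` -/
theorem m16zc_D_poly (R : Polynomial ℂ) (τ : ℍ) :
    D (fun z : ℍ => R.eval (ord_J z)) τ = R.derivative.eval (ord_J τ) * D ord_J τ := by
  have han : AnalyticAt ℂ (ord_J ∘ ofComplex) (τ : ℂ) := ord_analyticAt ord_mdiff_J τ
  have h1 : HasDerivAt (ord_J ∘ ofComplex) (deriv (ord_J ∘ ofComplex) (τ : ℂ)) (τ : ℂ) :=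
    han.differentiableAt.hasDerivAt
  have h2 := (R.hasDerivAt ((ord_J ∘ ofComplex) (τ : ℂ))).comp (τ : ℂ) h1
  have h3 : deriv ((fun z : ℍ => R.eval (ord_J z)) ∘ ofComplex) (τ : ℂ)
      = R.derivative.eval ((ord_J ∘ ofComplex) (τ : ℂ)) * deriv (ord_J ∘ ofComplex) (τ : ℂ) :=
    h2.deriv
  rw [normalizedDerivOfComplex, h3, normalizedDerivOfComplex, ord_comp_ofComplex_coe]
  ring

theorem m16zc_mdiff_poly (R : Polynomial ℂ) : MDiff (fun z : ℍ => R.eval (ord_J z)) := by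
  induction R using Polynomial.induction_on' with
  | add p q hp hq =>
    have : (fun z : ℍ => (p + q).eval (ord_J z))
        = (fun z : ℍ => p.eval (ord_J z)) + (fun z : ℍ => q.eval (ord_J z)) := by
      funext z; simp
    rw [this]
    exact hp.add hq
  | monomial n a =>
    have : (fun z : ℍ => (Polynomial.monomial n a).eval (ord_J z))
        = (fun _ : ℍ => a) * (ord_J ^ n) := by
      funext z; simp [Polynomial.eval_monomial]
    rw [this]
    exact mdifferentiable_const.mul (cj_mdiff_pow ord_mdiff_J n)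

theorem m16zc_poly_periodic (R : Polynomial ℂ) (τ : ℍ) :
    R.eval (ord_J ((1 : ℝ) +ᵥ τ)) = R.eval (ord_J τ) := by
  have h := ord_J_smul ModularGroup.T τ
  rw [modular_T_smul] at h
  rw [h]

theorem m16zc_slash_T (F : ℍ → ℂ) (k : ℤ) (τ : ℍ) :
    (F ∣[k] (ModularGroup.T : SL(2, ℤ))) τ = F ((1 : ℝ) +ᵥ τ) := by
  rw [ModularForm.SL_slash_apply, modular_T_smul]
  have hd : denom (ModularGroup.T : SL(2, ℤ)) τ = 1 := by
    rw [ModularGroup.denom_apply]
    simp [ModularGroup.T]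
  rw [hd, one_zpow, mul_one]

/-- an antiderivative of a polynomial over `ℂ` -/
theorem m16zc_exists_antiderivative (Q : Polynomial ℂ) :
    ∃ R : Polynomial ℂ, R.derivative = Q := by
  induction Q using Polynomial.induction_on' with
  | add p q hp hq =>
    obtain ⟨Rp, hRp⟩ := hp
    obtain ⟨Rq, hRq⟩ := hq
    exact ⟨Rp + Rq, by rw [Polynomial.derivative_add, hRp, hRq]⟩
  | monomial n a =>
    refine ⟨Polynomial.monomial (n + 1) (a / ((n : ℂ) + 1)), ?_⟩
    rw [Polynomial.derivative_monomial]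
    have hn : ((n : ℂ) + 1) ≠ 0 := by exact_mod_cast Nat.succ_ne_zero n
    congr 1
    push_cast
    field_simp

/-- A holomorphic function of weight `2` for `SL(2,ℤ)`, meromorphic at `i∞`, is `D (R ∘ J)` for
a polynomial `R`. -/
theorem m16zc_eq_D (T : ℍ → ℂ) (hT : MDiff T) (hinv : ∀ γ : SL(2, ℤ), T ∣[(2 : ℤ)] γ = T)
    (m : ℕ) (hpole : ana_PoleLE 1 m T) :
    ∃ R : Polynomial ℂ, ∀ τ : ℍ, T τ = D (fun z : ℍ => R.eval (ord_J z)) τ := by
  -- the invariant function `G = T E₄ E₆ / Δ`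
  set G : ℍ → ℂ := fun τ => T τ * E₄ τ * E₆ τ / Δ τ with hG
  have hGmd : MDiff G := by
    have h1 : MDiff (fun τ : ℍ => T τ * E₄ τ * E₆ τ) := (hT.mul ord_mdiff_E4).mul ord_mdiff_E6
    have : G = (fun τ : ℍ => T τ * E₄ τ * E₆ τ) / (fun τ : ℍ => Δ τ) := by
      funext τ; rfl
    rw [this]
    exact h1.div ord_mdiff_disc ord_disc_ne_zero
  have hTsm : ∀ (γ : SL(2, ℤ)) (τ : ℍ), T (γ • τ) = cj_denom γ τ ^ (2 : ℤ) * T τ :=
    fun γ => (cj_slash_eq_iff T 2 γ).mp (hinv γ)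
  have hGinv : ∀ (γ : SL(2, ℤ)) (τ : ℍ), G (γ • τ) = G τ := by
    intro γ τ
    have hd : cj_denom γ τ ≠ 0 := cj_denom_ne_zero γ τ
    have h4 : E₄ (γ • τ) = cj_denom γ τ ^ (4 : ℤ) * E₄ τ := ord_E4_smul γ τ
    have h6 : E₆ (γ • τ) = cj_denom γ τ ^ (6 : ℤ) * E₆ τ := ord_E6_smul γ τ
    have h12 : Δ (γ • τ) = cj_denom γ τ ^ (12 : ℤ) * Δ τ := ord_disc_smul γ τ
    have hΔ := ord_disc_ne_zero τ
    have e2 : cj_denom γ τ ^ (2 : ℤ) = cj_denom γ τ ^ (2 : ℕ) := zpow_ofNat _ 2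
    have e4 : cj_denom γ τ ^ (4 : ℤ) = cj_denom γ τ ^ (4 : ℕ) := zpow_ofNat _ 4
    have e6 : cj_denom γ τ ^ (6 : ℤ) = cj_denom γ τ ^ (6 : ℕ) := zpow_ofNat _ 6
    have e12 : cj_denom γ τ ^ (12 : ℤ) = cj_denom γ τ ^ (12 : ℕ) := zpow_ofNat _ 12
    rw [e4] at h4
    rw [e6] at h6
    rw [e12] at h12
    have hT2 := hTsm γ τ
    rw [e2] at hT2
    show T (γ • τ) * E₄ (γ • τ) * E₆ (γ • τ) / Δ (γ • τ) = T τ * E₄ τ * E₆ τ / Δ τ
    rw [hT2, h4, h6, h12]
    generalize cj_denom γ τ = d at hd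
    generalize T τ = a
    generalize E₄ τ = b
    generalize E₆ τ = c
    generalize Δ τ = e at hΔ
    field_simp
  have hGbdd : IsBoundedAtImInfty (fun τ : ℍ => Δ τ ^ (m + 1) * G τ) := by
    have hq : ∀ τ : ℍ, ana_q 1 τ = 𝕢 1 (τ : ℂ) := fun τ => by simp [ana_q]
    have h1 : IsBoundedAtImInfty (fun τ : ℍ => (Δ τ / 𝕢 1 (τ : ℂ)) ^ m) :=
      amer_bounded_pow amer_disc_div_q_bounded m
    have h2 : IsBoundedAtImInfty (fun τ : ℍ => ana_q 1 τ ^ m * T τ) := hpole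
    have h4 : IsBoundedAtImInfty (fun τ : ℍ => E₄ τ) := ModularFormClass.bdd_at_infty E₄
    have h6 : IsBoundedAtImInfty (fun τ : ℍ => E₆ τ) := ModularFormClass.bdd_at_infty E₆
    have h := ((h1.mul h2).mul h4).mul h6
    have h' : IsBoundedAtImInfty (fun τ : ℍ =>
        (Δ τ / 𝕢 1 (τ : ℂ)) ^ m * (ana_q 1 τ ^ m * T τ) * E₄ τ * E₆ τ) := h
    have heq : (fun τ : ℍ => Δ τ ^ (m + 1) * G τ)
        = (fun τ : ℍ => (Δ τ / 𝕢 1 (τ : ℂ)) ^ m * (ana_q 1 τ ^ m * T τ) * E₄ τ * E₆ τ) := by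
      funext τ
      have hΔ := ord_disc_ne_zero τ
      have hqne : 𝕢 1 (τ : ℂ) ≠ 0 := Function.Periodic.qParam_ne_zero _
      show Δ τ ^ (m + 1) * (T τ * E₄ τ * E₆ τ / Δ τ) = _
      rw [hq τ, div_pow, pow_succ]
      generalize 𝕢 1 (τ : ℂ) = q at hqne
      generalize T τ = a
      generalize E₄ τ = b
      generalize E₆ τ = c
      generalize Δ τ = e at hΔ
      field_simp
    rw [heq]
    exact h'
  obtain ⟨P, -, hP⟩ := pj_exists_poly G hGmd hGinv (m + 1) hGbdd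
  -- `P` vanishes at `0` and `1728`
  have hP0 : P.eval 0 = 0 := by
    have := hP ord_rho
    rw [ord_J_rho] at this
    rw [← this]
    simp [hG, ord_E4_rho]
  have hP1 : P.eval 1728 = 0 := by
    have := hP UpperHalfPlane.I
    rw [ord_J_I] at this
    rw [← this]
    simp [hG, ord_E6_I]
  obtain ⟨P₁, hP₁⟩ : ∃ P₁ : Polynomial ℂ, P = Polynomial.X * P₁ := by
    have : (Polynomial.X - Polynomial.C (0 : ℂ)) ∣ P :=
      Polynomial.dvd_iff_isRoot.mpr hP0
    rw [Polynomial.C_0, sub_zero] at this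
    exact this
  have hP₁1 : P₁.eval 1728 = 0 := by
    rw [hP₁, Polynomial.eval_mul, Polynomial.eval_X] at hP1
    rcases mul_eq_zero.mp hP1 with h | h
    · norm_num at h
    · exact h
  obtain ⟨Q, hQ⟩ : ∃ Q : Polynomial ℂ, P₁ = (Polynomial.X - Polynomial.C 1728) * Q :=
    Polynomial.dvd_iff_isRoot.mpr hP₁1
  -- `T Δ = E₄² E₆ Q(J)`
  have hkey : ∀ τ : ℍ, (E₄ τ * E₆ τ) * (T τ * Δ τ - E₄ τ ^ 2 * E₆ τ * Q.eval (ord_J τ)) = 0 := by
    intro τ
    have hΔ := ord_disc_ne_zero τ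
    have h1 : T τ * E₄ τ * E₆ τ / Δ τ = P.eval (ord_J τ) := hP τ
    rw [hP₁, hQ, Polynomial.eval_mul, Polynomial.eval_mul, Polynomial.eval_X, Polynomial.eval_sub,
      Polynomial.eval_X, Polynomial.eval_C, ord_J_sub_1728] at h1
    have hJ : ord_J τ = E₄ τ ^ 3 / Δ τ := rfl
    generalize Polynomial.eval (ord_J τ) Q = x at h1 ⊢
    rw [hJ] at h1
    generalize T τ = a at h1 ⊢
    generalize E₄ τ = b at h1 ⊢
    generalize E₆ τ = c at h1 ⊢
    generalize Δ τ = e at h1 hΔ ⊢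
    field_simp at h1
    linear_combination h1
  have hE : (fun τ : ℍ => E₄ τ * E₆ τ) ≠ 0 := by
    have h4 : ∀ᶠ τ : ℍ in atImInfty, E₄ τ ≠ 0 := ord_E4_tendsto.eventually_ne one_ne_zero
    have h6 : ∀ᶠ τ : ℍ in atImInfty, E₆ τ ≠ 0 := ord_E6_tendsto.eventually_ne one_ne_zero
    obtain ⟨τ, h4, h6⟩ := (h4.and h6).exists
    intro h
    exact mul_ne_zero h4 h6 (congrFun h τ)
  have hmd2 : MDiff (fun τ : ℍ => T τ * Δ τ - E₄ τ ^ 2 * E₆ τ * Q.eval (ord_J τ)) := by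
    refine (hT.mul ord_mdiff_disc).sub ?_
    exact ((cj_mdiff_pow ord_mdiff_E4 2).mul ord_mdiff_E6).mul (m16zc_mdiff_poly Q)
  have hzero : (fun τ : ℍ => T τ * Δ τ - E₄ τ ^ 2 * E₆ τ * Q.eval (ord_J τ)) = 0 :=
    (ana_eq_zero_or_eq_zero (ord_mdiff_E4.mul ord_mdiff_E6) hmd2 hkey).resolve_left hE
  obtain ⟨R, hR⟩ := m16zc_exists_antiderivative (-Q)
  refine ⟨R, fun τ => ?_⟩
  rw [m16zc_D_poly, hR, ord_D_J, Polynomial.eval_neg]
  have hΔ := ord_disc_ne_zero τ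
  have h := congrFun hzero τ
  simp only [Pi.zero_apply] at h
  field_simp
  linear_combination h

/-- **(Z)** A holomorphic function of weight `2` for `SL(2,ℤ)`, meromorphic at `i∞`, has
constant term `0`. -/
theorem m16zc_main (T : ℍ → ℂ) (hT : MDiff T) (hinv : ∀ γ : SL(2, ℤ), T ∣[(2 : ℤ)] γ = T)
    (m : ℕ) (hpole : ana_PoleLE 1 m T) : (ana_laurent 1 T).coeff 0 = 0 := by
  obtain ⟨R, hR⟩ := m16zc_eq_D T hT hinv m hpole
  have hper : ∀ τ : ℍ, T (((1 : ℕ) : ℝ) +ᵥ τ) = T τ := by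
    intro τ
    have h := congrFun (hinv ModularGroup.T) τ
    have h1 := m16zc_slash_T T 2 τ
    rw [h] at h1
    simpa using h1.symm
  have hK : ana_IsMer 1 T := ⟨hT, hper, m, hpole⟩
  rw [m16zc_coeff_zero_eq_integral hK 1 one_pos]
  have hT' : T = D (fun z : ℍ => R.eval (ord_J z)) := funext hR
  rw [hT']
  exact m16zc_integral_D (m16zc_mdiff_poly R) (fun τ => m16zc_poly_periodic R τ) 1 one_pos

end Fermat.Agent.M16

end
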